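import Mathlib

/-!
# W10 (S34), stage (C) COMP: the abstract Goursat lemma in element form (helper4)

`B` a commutative ring (the chart), `π : B`, `p1 p2 : Ideal B` two primes (the two components of
the special fibre, `p1 ⊓ p2 ≤ (π)` by saturation), `n` a prime (closed point) of `B`.

* `H4Unif p n t` : element form of "the maximal ideal of `(B ⧸ p)_n` is generated by `t`"
  (`B ⧸ p` is Dedekind at `n`, or a field there);
* `h4_unif_of_contact` : a uniformiser of `(B ⧸ p1)_n` can be chosen IN `p2` as soon as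
  `n ⊆ p1 + p2 + n²` locally at `n` (contact order one);
* `h4_goursat` : at a crossing point `n` (both `p1 ≤ n` and `p2 ≤ n`) there are `x ∈ p2`,
  `y ∈ p1` with `m_n = (x, y, π)`, `p1 B_n = (y, π)`, `p2 B_n = (x, π)`, `x ∉ p1`, `y ∉ p2`,
  `π ∣ x y`;
* `h4_contact_loc`, `h4_contact_glob`, `h4_contact_of_unif` : the contact hypothesis from the
  Kronecker congruence;
* `h4_unif_of_hom`, `h4_unif_of_hSM` : `H4Unif` from (C1) and (SM) at level `M`;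
* `h4_both_node` : the (BOTH) datum in the spelling of `Node.H23.h23_node_lp`;
* `h4_one`, `h4_pi_prime_one` : at a point lying on one component only, `m_n = (π, t)` and `π` is
  a prime element of `B_n`;
* `h4_comp` : every prime `n ∋ π` is of type (ONE) or (BOTH).

No noetherian hypothesis, no domain hypothesis, no localisation type; Mathlib only.
-/

set_option autoImplicit false

namespace Fermat.Agent.S34x.Comp.H4

variable {B : Type*} [CommRing B]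

/-- Element form of "the maximal ideal of `(B ⧸ p)_n` is generated by the image of `t`". -/
def H4Unif (p n : Ideal B) (t : B) : Prop :=
  t ∈ n ∧ ∀ y ∈ n, ∃ s, s ∉ n ∧ ∃ w, s * y - t * w ∈ p

/-- (ONE) of the blueprint: `m_n = (π, t)` in element form. -/
def H4One (π : B) (n : Ideal B) (t : B) : Prop :=
  t ∈ n ∧ ∀ y ∈ n, ∃ s, s ∉ n ∧ ∃ u w, s * y = π * u + t * w

/-- (BOTH) of the blueprint: the node shape at `n` in element form. -/
def H4Both (π : B) (p1 p2 n : Ideal B) (x y : B) : Prop :=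
  x ∈ p2 ∧ y ∈ p1 ∧ x ∉ p1 ∧ y ∉ p2 ∧ (∃ c, x * y = c * π) ∧
    (∀ z ∈ n, ∃ s, s ∉ n ∧ ∃ a b c, s * z = a * x + b * y + c * π) ∧
    (∀ z ∈ p1, ∃ s, s ∉ n ∧ ∃ b c, s * z = b * y + c * π) ∧
    (∀ z ∈ p2, ∃ s, s ∉ n ∧ ∃ a c, s * z = a * x + c * π)

theorem h4_mul_not_mem {n : Ideal B} [n.IsPrime] {s s' : B} (hs : s ∉ n) (hs' : s' ∉ n) :
    s * s' ∉ n := fun h =>
  (Ideal.IsPrime.mem_or_mem ‹n.IsPrime› h).elim hs hs'

/-- A product of two elements of `n` is, up to a factor outside `n`, in `t² B + p`. -/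
theorem h4_unif_mul {p n : Ideal B} [n.IsPrime] {t : B} (ht : H4Unif p n t) {a b : B}
    (ha : a ∈ n) (hb : b ∈ n) : ∃ S, S ∉ n ∧ ∃ c, S * (a * b) - t ^ 2 * c ∈ p := by
  obtain ⟨sa, hsa, wa, hwa⟩ := ht.2 a ha
  obtain ⟨sb, hsb, wb, hwb⟩ := ht.2 b hb
  refine ⟨sa * sb, h4_mul_not_mem hsa hsb, wa * wb, ?_⟩
  have e : sa * sb * (a * b) - t ^ 2 * (wa * wb)
      = (sb * b) * (sa * a - t * wa) + (t * wa) * (sb * b - t * wb) := by ring
  rw [e]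
  exact p.add_mem (p.mul_mem_left _ hwa) (p.mul_mem_left _ hwb)

/-- Every element of `n²` is, up to a factor outside `n`, in `t² B + p`. -/
theorem h4_unif_sq {p n : Ideal B} [n.IsPrime] {t : B} (ht : H4Unif p n t) {w : B}
    (hw : w ∈ n ^ 2) : ∃ S, S ∉ n ∧ ∃ c, S * w - t ^ 2 * c ∈ p := by
  rw [pow_two] at hw
  refine Submodule.mul_induction_on hw (fun a ha b hb => h4_unif_mul ht ha hb) ?_
  rintro x y ⟨S1, hS1, c1, h1⟩ ⟨S2, hS2, c2, h2⟩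
  refine ⟨S1 * S2, h4_mul_not_mem hS1 hS2, S2 * c1 + S1 * c2, ?_⟩
  have e : S1 * S2 * (x + y) - t ^ 2 * (S2 * c1 + S1 * c2)
      = S2 * (S1 * x - t ^ 2 * c1) + S1 * (S2 * y - t ^ 2 * c2) := by ring
  rw [e]
  exact p.add_mem (p.mul_mem_left _ h1) (p.mul_mem_left _ h2)

/-- **Contact order one**: if the uniformiser `t` of `(B ⧸ p1)_n` lies in `p1 + p2 + n²` locally
at `n`, then a uniformiser of `(B ⧸ p1)_n` can be chosen in `p2`. -/
theorem h4_unif_of_contact {p1 p2 n : Ideal B} [n.IsPrime] (h2n : p2 ≤ n) {t : B}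
    (ht : H4Unif p1 n t) (hc : ∃ s, s ∉ n ∧ s * t ∈ p1 ⊔ p2 ⊔ n ^ 2) :
    ∃ x, x ∈ p2 ∧ H4Unif p1 n x := by
  obtain ⟨s, hs, hst⟩ := hc
  obtain ⟨uv, huv, w, hw, e1⟩ := Submodule.mem_sup.1 hst
  obtain ⟨u, hu, v, hv, e2⟩ := Submodule.mem_sup.1 huv
  obtain ⟨S, hS, c, hc⟩ := h4_unif_sq ht hw
  have hr : S * s - t * c ∉ n := by
    intro h
    have : S * s ∈ n := by
      have := n.add_mem h (n.mul_mem_right c ht.1)
      simpa using this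
    exact h4_mul_not_mem hS hs this
  have key : (S * s - t * c) * t - S * v ∈ p1 := by
    have e : (S * s - t * c) * t - S * v = S * u + (S * w - t ^ 2 * c) := by
      have e3 : s * t = u + v + w := by rw [e2, e1]
      linear_combination S * e3
    rw [e]
    exact p1.add_mem (p1.mul_mem_left _ hu) hc
  refine ⟨S * v, p2.mul_mem_left _ hv, h2n (p2.mul_mem_left _ hv), ?_⟩
  intro y hy
  obtain ⟨sy, hsy, wy, hwy⟩ := ht.2 y hy
  refine ⟨(S * s - t * c) * sy, h4_mul_not_mem hr hsy, wy, ?_⟩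
  have e : (S * s - t * c) * sy * y - S * v * wy
      = (S * s - t * c) * (sy * y - t * wy) + wy * ((S * s - t * c) * t - S * v) := by ring
  rw [e]
  exact p1.add_mem (p1.mul_mem_left _ hwy) (p1.mul_mem_left _ key)

/-- A uniformiser of `(B ⧸ p)_n` is not in `p` unless `n = p`. -/
theorem h4_unif_not_mem {p n : Ideal B} [p.IsPrime] (hpn : p ≤ n) (hnp : ¬ n ≤ p) {x : B}
    (hx : H4Unif p n x) : x ∉ p := by
  intro hxp
  apply hnp
  intro y hy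
  obtain ⟨s, hs, w, hw⟩ := hx.2 y hy
  have h1 : s * y ∈ p := by
    have := p.add_mem hw (p.mul_mem_right w hxp)
    simpa using this
  exact (Ideal.IsPrime.mem_or_mem ‹p.IsPrime› h1).resolve_left fun h => hs (hpn h)

/-- **Abstract Goursat lemma, element form.**  At a crossing point `n` of two components `p1`,
`p2` with `p1 ∩ p2 ⊆ (π)`, both regular at `n`, with contact order one: `m_n = (x, y, π)`,
`p1 B_n = (y, π)`, `p2 B_n = (x, π)`. -/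
theorem h4_goursat (π : B) (p1 p2 n : Ideal B) [p1.IsPrime] [p2.IsPrime] [n.IsPrime]
    (hπ : p1 ⊓ p2 ≤ Ideal.span {π})
    (h1n : p1 ≤ n) (h2n : p2 ≤ n) (h12 : ¬ p1 ≤ p2) (h21 : ¬ p2 ≤ p1)
    (hD1 : ∃ t, H4Unif p1 n t) (hD2 : ∃ t, H4Unif p2 n t)
    (hcontact : ∀ z ∈ n, ∃ s, s ∉ n ∧ s * z ∈ p1 ⊔ p2 ⊔ n ^ 2) :
    ∃ x y : B, H4Both π p1 p2 n x y := by
  obtain ⟨t1, ht1⟩ := hD1
  obtain ⟨t2, ht2⟩ := hD2
  obtain ⟨x, hx2, hx⟩ := h4_unif_of_contact h2n ht1 (hcontact t1 ht1.1)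
  have hc2 : ∃ s, s ∉ n ∧ s * t2 ∈ p2 ⊔ p1 ⊔ n ^ 2 := by
    obtain ⟨s, hs, h⟩ := hcontact t2 ht2.1
    exact ⟨s, hs, by rwa [sup_comm p2 p1]⟩
  obtain ⟨y, hy1, hy⟩ := h4_unif_of_contact h1n ht2 hc2
  have hmem : ∀ z, z ∈ p1 → z ∈ p2 → ∃ c, z = c * π := by
    intro z h1 h2
    obtain ⟨c, hc⟩ := Ideal.mem_span_singleton'.1 (hπ ⟨h1, h2⟩)
    exact ⟨c, hc.symm⟩
  refine ⟨x, y, hx2, hy1, h4_unif_not_mem h1n (fun h => h21 (h2n.trans h)) hx,
    h4_unif_not_mem h2n (fun h => h12 (h1n.trans h)) hy,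
    hmem _ (p1.mul_mem_left _ hy1) (p2.mul_mem_right _ hx2), ?_, ?_, ?_⟩
  · intro z hz
    obtain ⟨s, hs, a, ha⟩ := hx.2 z hz
    obtain ⟨s', hs', b, hb⟩ := hy.2 (s * z - x * a) (h1n ha)
    have h1 : s' * (s * z - x * a) - y * b ∈ p1 :=
      p1.sub_mem (p1.mul_mem_left _ ha) (p1.mul_mem_right _ hy1)
    obtain ⟨c, hc⟩ := hmem _ h1 hb
    refine ⟨s' * s, h4_mul_not_mem hs' hs, s' * a, b, c, ?_⟩
    linear_combination hc
  · intro z hz
    obtain ⟨s', hs', b, hb⟩ := hy.2 z (h1n hz)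
    have h1 : s' * z - y * b ∈ p1 :=
      p1.sub_mem (p1.mul_mem_left _ hz) (p1.mul_mem_right _ hy1)
    obtain ⟨c, hc⟩ := hmem _ h1 hb
    exact ⟨s', hs', b, c, by linear_combination hc⟩
  · intro z hz
    obtain ⟨s, hs, a, ha⟩ := hx.2 z (h2n hz)
    have h2 : s * z - x * a ∈ p2 :=
      p2.sub_mem (p2.mul_mem_left _ hz) (p2.mul_mem_right _ hx2)
    obtain ⟨c, hc⟩ := hmem _ ha h2
    exact ⟨s, hs, a, c, by linear_combination hc⟩

/-- The contact hypothesis from the Kronecker congruence, LOCAL form: the uniformiser `t` of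
`(B ⧸ p1)_n` is, up to a factor outside `n`, a `k`-th power (`k ≥ 2`) of an element of `n`
modulo `p2`. -/
theorem h4_contact_loc {p1 p2 n : Ideal B} [n.IsPrime] {t : B} (ht : H4Unif p1 n t)
    (hF : ∃ s, s ∉ n ∧ ∃ b ∈ n, ∃ k : ℕ, 2 ≤ k ∧ s * t - b ^ k ∈ p2) :
    ∀ z ∈ n, ∃ s, s ∉ n ∧ s * z ∈ p1 ⊔ p2 ⊔ n ^ 2 := by
  obtain ⟨s, hs, b, hb, k, hk, hF⟩ := hF
  intro z hz
  obtain ⟨sz, hsz, w, hw⟩ := ht.2 z hz
  refine ⟨s * sz, h4_mul_not_mem hs hsz, ?_⟩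
  have hbk : b ^ k ∈ n ^ 2 := Ideal.pow_le_pow_right hk (Ideal.pow_mem_pow hb k)
  have e : s * sz * z = (s * (sz * z - t * w) + w * (s * t - b ^ k)) + w * b ^ k := by ring
  rw [e]
  exact Submodule.add_mem_sup
    (Submodule.add_mem_sup (p1.mul_mem_left _ hw) (p2.mul_mem_left _ hF))
    ((n ^ 2).mul_mem_left _ hbk)

/-- The contact hypothesis from the Kronecker congruence, GLOBAL form: a subring `A` (the image
of the chart of level `M`) surjects onto `B ⧸ p1`, and every element of `A` is a `q`-th power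
modulo `p2`. -/
theorem h4_contact_glob {p1 p2 n : Ideal B} [n.IsPrime] (h1n : p1 ≤ n) (h2n : p2 ≤ n)
    (A : Subring B) (q : ℕ) (hq : 2 ≤ q)
    (hS : ∀ z : B, ∃ a ∈ A, z - a ∈ p1) (hF : ∀ a ∈ A, ∃ b : B, a - b ^ q ∈ p2) :
    ∀ z ∈ n, ∃ s, s ∉ n ∧ s * z ∈ p1 ⊔ p2 ⊔ n ^ 2 := by
  intro z hz
  obtain ⟨a, haA, ha⟩ := hS z
  obtain ⟨b, hb⟩ := hF a haA
  have han : a ∈ n := by
    have := n.sub_mem hz (h1n ha)
    simpa using this
  have hbn : b ∈ n := by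
    have h1 : b ^ q ∈ n := by
      have := n.sub_mem han (h2n hb)
      simpa using this
    exact Ideal.IsPrime.mem_of_pow_mem ‹n.IsPrime› q h1
  have hbq : b ^ q ∈ n ^ 2 := Ideal.pow_le_pow_right hq (Ideal.pow_mem_pow hbn q)
  refine ⟨1, fun h => Ideal.IsPrime.ne_top ‹n.IsPrime› ((Ideal.eq_top_iff_one n).2 h), ?_⟩
  have e : 1 * z = ((z - a) + (a - b ^ q)) + b ^ q := by ring
  rw [e]
  exact Submodule.add_mem_sup (Submodule.add_mem_sup ha hb) hbq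

/-- The contact hypothesis, chief's form: the uniformiser `t` of `(B ⧸ p1)_n` (coming from the
level-`M` chart) has image in `m²` of `(B ⧸ p2)_n`. -/
theorem h4_contact_of_unif {p1 p2 n : Ideal B} [n.IsPrime] {t : B} (ht : H4Unif p1 n t)
    (hc : ∃ s, s ∉ n ∧ s * t ∈ p2 ⊔ n ^ 2) :
    ∀ z ∈ n, ∃ s, s ∉ n ∧ s * z ∈ p1 ⊔ p2 ⊔ n ^ 2 := by
  obtain ⟨s, hs, hst⟩ := hc
  obtain ⟨v, hv, w', hw', e1⟩ := Submodule.mem_sup.1 hst
  intro z hz
  obtain ⟨sz, hsz, w, hw⟩ := ht.2 z hz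
  refine ⟨s * sz, h4_mul_not_mem hs hsz, ?_⟩
  have e : s * sz * z = (s * (sz * z - t * w) + w * v) + w * w' := by
    linear_combination (-w) * e1
  rw [e]
  exact Submodule.add_mem_sup
    (Submodule.add_mem_sup (p1.mul_mem_left _ hw) (p2.mul_mem_left _ hv))
    ((n ^ 2).mul_mem_left _ hw')

/-- **(C1) ⟹ `H4Unif`**: if `φ : A → B` is onto modulo `p` and `A` satisfies (SM) at the
contraction of `n`, then the image of the level-`M` uniformiser is a uniformiser of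
`(B ⧸ p)_n`. -/
theorem h4_unif_of_hom {A : Type*} [CommRing A] (φ : A →+* B) (πA : A) (p n : Ideal B)
    (hπp : φ πA ∈ p) (hpn : p ≤ n) (hS : ∀ z : B, ∃ a : A, z - φ a ∈ p)
    (hSM : ∃ t ∈ n.comap φ, ∀ y ∈ n.comap φ, ∃ s, s ∉ n.comap φ ∧
      ∃ u w, s * y = πA * u + t * w) :
    ∃ t : A, H4Unif p n (φ t) := by
  obtain ⟨t, ht, h⟩ := hSM
  refine ⟨t, Ideal.mem_comap.1 ht, fun y hy => ?_⟩
  obtain ⟨a, ha⟩ := hS y
  have han : a ∈ n.comap φ := by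
    rw [Ideal.mem_comap]
    have := n.sub_mem hy (hpn ha)
    simpa using this
  obtain ⟨s, hs, u, w, e⟩ := h a han
  refine ⟨φ s, fun h => hs (Ideal.mem_comap.2 h), φ w, ?_⟩
  have e' : φ s * φ a = φ πA * φ u + φ t * φ w := by
    rw [← map_mul, e, map_add, map_mul, map_mul]
  have e2 : φ s * y - φ t * φ w = φ s * (y - φ a) + φ u * φ πA := by
    linear_combination e'
  rw [e2]
  exact p.add_mem (p.mul_mem_left _ ha) (p.mul_mem_left _ hπp)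

/-- If `φ : A → B` is onto modulo `p ≤ n` and `n` is maximal, the contraction of `n` is
maximal. -/
theorem h4_comap_isMaximal {A : Type*} [CommRing A] (φ : A →+* B) (p n : Ideal B)
    [hn : n.IsMaximal] (hpn : p ≤ n) (hS : ∀ z : B, ∃ a : A, z - φ a ∈ p) :
    (n.comap φ).IsMaximal := by
  rw [Ideal.isMaximal_iff]
  refine ⟨fun h => ?_, fun J x hJ hx hxJ => ?_⟩
  · rw [Ideal.mem_comap, map_one] at h
    exact hn.ne_top ((Ideal.eq_top_iff_one n).2 h)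
  · have hx' : φ x ∉ n := fun h => hx (Ideal.mem_comap.2 h)
    obtain ⟨b, i, hi, hb⟩ := hn.exists_inv hx'
    obtain ⟨a, ha⟩ := hS b
    have h1 : a * x - 1 ∈ n.comap φ := by
      rw [Ideal.mem_comap, map_sub, map_mul, map_one]
      have e : φ a * φ x - 1 = -i - (b - φ a) * φ x := by linear_combination hb
      rw [e]
      exact n.sub_mem (n.neg_mem hi) (n.mul_mem_right _ (hpn ha))
    have h2 : a * x ∈ J := J.mul_mem_left a hxJ
    have := J.sub_mem h2 (hJ h1)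
    simpa using this

/-- **(C1) ⟹ `H4Unif`**, with (SM) in the `HSMChart` spelling (at every maximal ideal
containing `πA`). -/
theorem h4_unif_of_hSM {A : Type*} [CommRing A] (φ : A →+* B) (πA : A) (p n : Ideal B)
    [n.IsMaximal] (hπp : φ πA ∈ p) (hpn : p ≤ n) (hS : ∀ z : B, ∃ a : A, z - φ a ∈ p)
    (hSM : ∀ m : Ideal A, m.IsMaximal → πA ∈ m →
      ∃ t ∈ m, ∀ y ∈ m, ∃ s, s ∉ m ∧ ∃ u w, s * y = πA * u + t * w) :
    ∃ t : A, H4Unif p n (φ t) :=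
  h4_unif_of_hom φ πA p n hπp hpn hS
    (hSM _ (h4_comap_isMaximal φ p n hpn hS) (Ideal.mem_comap.2 (hpn hπp)))

/-- The (BOTH) datum in the spelling of `Node.H23.h23_node_lp` (`hxn`, `hyn`, `hgen`, `hxy`,
`hyq1`, `hxq1`, `hgen1`, `hxq2`, `hyq2`, `hgen2` with `q1 := p1`, `q2 := p2`). -/
theorem h4_both_node {π : B} {p1 p2 n : Ideal B} [n.IsPrime] (h1n : p1 ≤ n) (h2n : p2 ≤ n)
    {x y : B} (h : H4Both π p1 p2 n x y) :
    x ∈ n ∧ y ∈ n ∧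
      (∀ b ∈ n, ∃ s ∉ n, ∃ a1 a2 a3 : B, s * b = a1 * x + a2 * y + a3 * π) ∧
      (∃ s ∉ n, ∃ a : B, s * (x * y) = π * a) ∧
      y ∈ p1 ∧ x ∉ p1 ∧ (∀ b ∈ p1, ∃ s ∉ n, ∃ a1 a2 : B, s * b = a1 * y + a2 * π) ∧
      x ∈ p2 ∧ y ∉ p2 ∧ (∀ b ∈ p2, ∃ s ∉ n, ∃ a1 a2 : B, s * b = a1 * x + a2 * π) := by
  obtain ⟨hx2, hy1, hx1, hy2, ⟨c, hc⟩, hg, hg1, hg2⟩ := h
  refine ⟨h2n hx2, h1n hy1, hg, ⟨1, ?_, c, ?_⟩, hy1, hx1, hg1, hx2, hy2, hg2⟩
  · exact fun h => Ideal.IsPrime.ne_top ‹n.IsPrime› ((Ideal.eq_top_iff_one n).2 h)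
  · rw [one_mul, hc, mul_comm]

/-- At a point of `p1` off `p2`: `m_n = (π, t)`. -/
theorem h4_one (π : B) (p1 p2 n : Ideal B) [n.IsPrime]
    (hπ : p1 ⊓ p2 ≤ Ideal.span {π}) (h2n : ¬ p2 ≤ n) {t : B} (ht : H4Unif p1 n t) :
    H4One π n t := by
  obtain ⟨c, hc2, hcn⟩ := Set.not_subset.1 h2n
  refine ⟨ht.1, fun y hy => ?_⟩
  obtain ⟨s, hs, w, hw⟩ := ht.2 y hy
  obtain ⟨a, ha⟩ := Ideal.mem_span_singleton'.1
    (hπ ⟨p1.mul_mem_left c hw, p2.mul_mem_right _ hc2⟩)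
  exact ⟨c * s, h4_mul_not_mem hcn hs, a, c * w, by linear_combination -ha⟩

/-- At a point of `p1` off `p2`: `π` is a prime element of `B_n` (element form). -/
theorem h4_pi_prime_one (π : B) (p1 p2 n : Ideal B) [p1.IsPrime] [n.IsPrime]
    (hπ : p1 ⊓ p2 ≤ Ideal.span {π}) (hπ1 : π ∈ p1) (h1n : p1 ≤ n) (h2n : ¬ p2 ≤ n) (a b : B)
    (h : ∃ s, s ∉ n ∧ ∃ c, s * (a * b) = π * c) :
    (∃ s, s ∉ n ∧ ∃ c, s * a = π * c) ∨ (∃ s, s ∉ n ∧ ∃ c, s * b = π * c) := by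
  obtain ⟨c0, hc2, hcn⟩ := Set.not_subset.1 h2n
  obtain ⟨s, hs, c, hc⟩ := h
  have h1 : s * (a * b) ∈ p1 := by rw [hc]; exact p1.mul_mem_right _ hπ1
  have h2 : a * b ∈ p1 :=
    (Ideal.IsPrime.mem_or_mem ‹p1.IsPrime› h1).resolve_left fun h => hs (h1n h)
  have key : ∀ z ∈ p1, ∃ s, s ∉ n ∧ ∃ c, s * z = π * c := by
    intro z hz
    obtain ⟨d, hd⟩ := Ideal.mem_span_singleton'.1
      (hπ ⟨p1.mul_mem_left c0 hz, p2.mul_mem_right _ hc2⟩)
    exact ⟨c0, hcn, d, by linear_combination -hd⟩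
  rcases Ideal.IsPrime.mem_or_mem ‹p1.IsPrime› h2 with h | h
  · exact Or.inl (key a h)
  · exact Or.inr (key b h)

/-- **(COMP), abstract form**: every prime `n ∋ π` of the chart is of type (ONE) or (BOTH). -/
theorem h4_comp (π : B) (p1 p2 n : Ideal B) [p1.IsPrime] [p2.IsPrime] [n.IsPrime]
    (hπ : p1 ⊓ p2 ≤ Ideal.span {π}) (hπn : π ∈ n) (h12 : ¬ p1 ≤ p2) (h21 : ¬ p2 ≤ p1)
    (hD1 : p1 ≤ n → ∃ t, H4Unif p1 n t) (hD2 : p2 ≤ n → ∃ t, H4Unif p2 n t)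
    (hcontact : p1 ≤ n → p2 ≤ n → ∀ z ∈ n, ∃ s, s ∉ n ∧ s * z ∈ p1 ⊔ p2 ⊔ n ^ 2) :
    (∃ t, H4One π n t) ∨ ∃ x y : B, H4Both π p1 p2 n x y := by
  have h : p1 ≤ n ∨ p2 ≤ n :=
    (Ideal.IsPrime.inf_le ‹n.IsPrime›).1
      (hπ.trans ((Ideal.span_singleton_le_iff_mem n).2 hπn))
  by_cases h1 : p1 ≤ n
  · by_cases h2 : p2 ≤ n
    · exact Or.inr (h4_goursat π p1 p2 n hπ h1 h2 h12 h21 (hD1 h1) (hD2 h2) (hcontact h1 h2))
    · obtain ⟨t, ht⟩ := hD1 h1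
      exact Or.inl ⟨t, h4_one π p1 p2 n hπ h2 ht⟩
  · have h2 : p2 ≤ n := h.resolve_left h1
    obtain ⟨t, ht⟩ := hD2 h2
    exact Or.inl ⟨t, h4_one π p2 p1 n (by rwa [inf_comm]) h1 ht⟩

end Fermat.Agent.S34x.Comp.H4
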