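import Mathlib
import Fermat.Agent.S34x.Comp.H4_Goursat

/-!
# W10 (S34), stage (C) COMP: the EXPORT of the stage (helper7)

`B` a commutative ring (the chart `chart O x` of the normal model at level `M q`), `π : B` the
uniformiser of the base, `n` a closed point of the special fibre.

* `H7One π n` : the point lies on one component only: `m_n = (π, t)` and `π` is a prime element
  of `B_n` (element form) - exactly the inputs `ht𝔫`, `hSM`, `hπp` of `Loc.H17.h17_LP_one`;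
* `H7Both π n` : the point is a crossing point: two primes `q1`, `q2` through `n` and `x`, `y`
  with `m_n = (x, y, π)`, `q1 B_n = (y, π)`, `q2 B_n = (x, π)`, `x ∉ q1`, `y ∉ q2`, `π ∣ x y`
  locally - exactly the geometric inputs of `Node.H23.h23_node_lp`;
* `H7Comp π` : every maximal ideal containing `π` is of type (ONE) or (BOTH);
* `h7_comp_at`, `h7_comp` : `H7Comp` from the two components `p1`, `p2` (`p1 ⊓ p2 ≤ (π)`),
  the branch parameters (`H4Unif`) and the contact hypothesis (abstract glue on top of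
  helper4's `h4_comp`).
-/

set_option autoImplicit false

namespace Fermat.Agent.S34x.Comp.H7

open Fermat.Agent.S34x.Comp.H4

variable {B : Type*} [CommRing B]

/-- (ONE): `m_n = (π, t)` and `π` is a prime element of `B_n`, element form. -/
def H7One (π : B) (n : Ideal B) : Prop :=
  ∃ t : B, t ∈ n ∧
    (∀ y ∈ n, ∃ s : B, s ∉ n ∧ ∃ u v : B, s * y = π * u + t * v) ∧
    (∀ a b : B, (∃ s : B, s ∉ n ∧ ∃ c : B, s * (a * b) = π * c) →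
      (∃ s : B, s ∉ n ∧ ∃ c : B, s * a = π * c) ∨ (∃ s : B, s ∉ n ∧ ∃ c : B, s * b = π * c))

/-- (BOTH): the node shape at `n`, in the spelling of `Node.H23.h23_node_lp`. -/
def H7Both (π : B) (n : Ideal B) : Prop :=
  ∃ (q1 q2 : Ideal B) (x y : B), q1.IsPrime ∧ q2.IsPrime ∧ q1 ≤ n ∧ q2 ≤ n ∧
    π ∈ q1 ∧ π ∈ q2 ∧ x ∈ n ∧ y ∈ n ∧
    (∀ b ∈ n, ∃ s ∉ n, ∃ a1 a2 a3 : B, s * b = a1 * x + a2 * y + a3 * π) ∧
    (∃ s ∉ n, ∃ a : B, s * (x * y) = π * a) ∧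
    y ∈ q1 ∧ x ∉ q1 ∧ (∀ b ∈ q1, ∃ s ∉ n, ∃ a1 a2 : B, s * b = a1 * y + a2 * π) ∧
    x ∈ q2 ∧ y ∉ q2 ∧ (∀ b ∈ q2, ∃ s ∉ n, ∃ a1 a2 : B, s * b = a1 * x + a2 * π)

/-- **The export of stage (C)**: every closed point of the special fibre of the chart is of type
(ONE) or (BOTH). -/
def H7Comp (π : B) : Prop :=
  ∀ n : Ideal B, n.IsMaximal → π ∈ n → H7One π n ∨ H7Both π n

/-- (ONE) at a point of `p1` off `p2`. -/
theorem h7_one_of_unif (π : B) (p1 p2 n : Ideal B) [p1.IsPrime] [n.IsPrime]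
    (hπ : p1 ⊓ p2 ≤ Ideal.span {π}) (hπ1 : π ∈ p1) (h1n : p1 ≤ n) (h2n : ¬ p2 ≤ n)
    {t : B} (ht : H4Unif p1 n t) : H7One π n := by
  obtain ⟨h1, h2⟩ := h4_one π p1 p2 n hπ h2n ht
  exact ⟨t, h1, h2, fun a b h => h4_pi_prime_one π p1 p2 n hπ hπ1 h1n h2n a b h⟩

/-- (BOTH) from helper4's `H4Both`. -/
theorem h7_both_of_both (π : B) (p1 p2 n : Ideal B) [h1 : p1.IsPrime] [h2 : p2.IsPrime]
    [n.IsPrime] (hπ1 : π ∈ p1) (hπ2 : π ∈ p2) (h1n : p1 ≤ n) (h2n : p2 ≤ n) {x y : B}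
    (h : H4Both π p1 p2 n x y) : H7Both π n := by
  obtain ⟨a1, a2, a3, a4, a5, a6, a7, a8, a9, a10⟩ := h4_both_node h1n h2n h
  exact ⟨p1, p2, x, y, h1, h2, h1n, h2n, hπ1, hπ2, a1, a2, a3, a4, a5, a6, a7, a8, a9, a10⟩

/-- **Glue at one point**: (ONE) or (BOTH) at a prime `n ∋ π` from the branch parameters of the
two components and the contact hypothesis. -/
theorem h7_comp_at (π : B) (p1 p2 n : Ideal B) [p1.IsPrime] [p2.IsPrime] [n.IsPrime]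
    (hπ : p1 ⊓ p2 ≤ Ideal.span {π}) (hπ1 : π ∈ p1) (hπ2 : π ∈ p2) (hπn : π ∈ n)
    (h12 : ¬ p1 ≤ p2) (h21 : ¬ p2 ≤ p1)
    (hD1 : p1 ≤ n → ∃ t, H4Unif p1 n t) (hD2 : p2 ≤ n → ∃ t, H4Unif p2 n t)
    (hcontact : p1 ≤ n → p2 ≤ n → ∀ z ∈ n, ∃ s, s ∉ n ∧ s * z ∈ p1 ⊔ p2 ⊔ n ^ 2) :
    H7One π n ∨ H7Both π n := by
  have h : p1 ≤ n ∨ p2 ≤ n :=
    (Ideal.IsPrime.inf_le ‹n.IsPrime›).1
      (hπ.trans ((Ideal.span_singleton_le_iff_mem n).2 hπn))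
  by_cases h1 : p1 ≤ n
  · by_cases h2 : p2 ≤ n
    · obtain ⟨x, y, hxy⟩ :=
        h4_goursat π p1 p2 n hπ h1 h2 h12 h21 (hD1 h1) (hD2 h2) (hcontact h1 h2)
      exact Or.inr (h7_both_of_both π p1 p2 n hπ1 hπ2 h1 h2 hxy)
    · obtain ⟨t, ht⟩ := hD1 h1
      exact Or.inl (h7_one_of_unif π p1 p2 n hπ hπ1 h1 h2 ht)
  · have h2 : p2 ≤ n := h.resolve_left h1
    obtain ⟨t, ht⟩ := hD2 h2
    exact Or.inl (h7_one_of_unif π p2 p1 n (by rwa [inf_comm]) hπ2 h2 h1 ht)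

/-- **Glue, global form**: the export `H7Comp` of stage (C). -/
theorem h7_comp (π : B) (p1 p2 : Ideal B) [p1.IsPrime] [p2.IsPrime]
    (hπ : p1 ⊓ p2 ≤ Ideal.span {π}) (hπ1 : π ∈ p1) (hπ2 : π ∈ p2)
    (h12 : ¬ p1 ≤ p2) (h21 : ¬ p2 ≤ p1)
    (hD1 : ∀ n : Ideal B, n.IsMaximal → p1 ≤ n → ∃ t, H4Unif p1 n t)
    (hD2 : ∀ n : Ideal B, n.IsMaximal → p2 ≤ n → ∃ t, H4Unif p2 n t)
    (hcontact : ∀ n : Ideal B, n.IsMaximal → p1 ≤ n → p2 ≤ n →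
      ∀ z ∈ n, ∃ s, s ∉ n ∧ s * z ∈ p1 ⊔ p2 ⊔ n ^ 2) :
    H7Comp π := by
  intro n hn hπn
  haveI : n.IsPrime := hn.isPrime
  exact h7_comp_at π p1 p2 n hπ hπ1 hπ2 hπn h12 h21 (hD1 n hn) (hD2 n hn) (hcontact n hn)

end Fermat.Agent.S34x.Comp.H7
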