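import Fermat.Agent.S34x.Comp.H22_BetaIntInst

/-!
# S34 / W10 (C) COMP (helper22): (β-INT) from the cusp fact in unit form

The Kronecker order relation is consumed here in the weakest form (unit form, for a non-zero
root only):

* `H22CuspFact q hq F` : for every valuation subring `W` of `F` in which the integers prime to
  `q` are units, `Φ_q(b ; a) = 0`, `b ≠ 0`, `a ∉ W`: `b / a ^ q` is a unit of `W` or
  `b ^ q / a` is a unit of `W`;
* `h22_cuspFact_of_KO` : the valuation form `H22KO` implies it;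
* `h22_KO_of_cuspFact` : the valuation form of (KO) for a non-zero root;
* `h22_betaInt_two_of_cusp`, `h22_betaInt_three_of_cusp` : (β-INT) from `H22CuspFact`.
-/

set_option autoImplicit false
set_option linter.unusedSectionVars false
set_option linter.unusedVariables false
set_option linter.style.haveILetI false
set_option synthInstance.maxHeartbeats 400000
set_option maxHeartbeats 1000000

open ModularCurve Polynomial

noncomputable section

namespace Fermat.Agent.S34x.Comp.H22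

open Fermat.Agent.S18x.Spec.H26 Fermat.Agent.S18x.Qepo Fermat.Agent.S18x.IG.H29
  Fermat.Agent.S18x.IG.H28 Fermat.Agent.S37x.Kron.H2 Fermat.Agent.S28.Deg.H9

/-- **(KO), unit form.** -/
def H22CuspFact (q : ℕ) [NeZero q] (hq : q.Prime) (F : Type*) [Field F] : Prop :=
  ∀ W : ValuationSubring F, (∀ n : ℤ, ¬ (q : ℤ) ∣ n → ((n : F))⁻¹ ∈ W) →
    ∀ a b : F, b ≠ 0 → ev2 (h2kronPhi q hq) b a = 0 → a ∉ W →
      (b / a ^ q ∈ W ∧ a ^ q / b ∈ W) ∨ (b ^ q / a ∈ W ∧ a / b ^ q ∈ W)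

section Abs

variable {F : Type*} [Field F]

theorem h22_val_eq_of_div_mem (W : ValuationSubring F) {c d : F} (hc : c ≠ 0) (hd : d ≠ 0)
    (h1 : c / d ∈ W) (h2 : d / c ∈ W) : W.valuation c = W.valuation d := by
  have hvc : W.valuation c ≠ 0 := (W.valuation.ne_zero_iff).mpr hc
  have hvd : W.valuation d ≠ 0 := (W.valuation.ne_zero_iff).mpr hd
  have e1 : W.valuation c / W.valuation d ≤ 1 := by
    rw [← map_div₀]; exact (W.valuation_le_one_iff _).mpr h1
  have e2 : W.valuation d / W.valuation c ≤ 1 := by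
    rw [← map_div₀]; exact (W.valuation_le_one_iff _).mpr h2
  rw [div_le_one₀ (zero_lt_iff.mpr hvd)] at e1
  rw [div_le_one₀ (zero_lt_iff.mpr hvc)] at e2
  exact le_antisymm e1 e2

theorem h22_div_mem_of_val_eq (W : ValuationSubring F) {c d : F} (hd : d ≠ 0)
    (h : W.valuation c = W.valuation d) : c / d ∈ W := by
  rw [← W.valuation_le_one_iff, map_div₀, h,
    div_self ((W.valuation.ne_zero_iff).mpr hd)]

theorem h22_inv_mem_of_val_eq_one (W : ValuationSubring F) {c : F}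
    (h : W.valuation c = 1) : c⁻¹ ∈ W := by
  rw [← W.valuation_le_one_iff, map_inv₀, h, inv_one]

theorem h22_val_eq_one_of_inv_mem [CharZero F] (W : ValuationSubring F) (n : ℤ) (hn : n ≠ 0)
    (h : ((n : F))⁻¹ ∈ W) : W.valuation (n : F) = 1 := by
  have hn0 : (n : F) ≠ 0 := by exact_mod_cast hn
  have e1 : W.valuation (n : F) ≤ 1 := (W.valuation_le_one_iff _).mpr (intCast_mem W n)
  have e2 : W.valuation ((n : F))⁻¹ ≤ 1 := (W.valuation_le_one_iff _).mpr h
  rw [map_inv₀, inv_le_one₀ (zero_lt_iff.mpr ((W.valuation.ne_zero_iff).mpr hn0))] at e2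
  exact le_antisymm e1 e2

/-- the valuation form implies the unit form -/
theorem h22_cuspFact_of_KO [CharZero F] (q : ℕ) [NeZero q] (hq : q.Prime)
    (h : H22KO q hq F) : H22CuspFact q hq F := by
  intro W hW a b hb hΦ ha
  have hvq : ∀ n : ℤ, ¬ (q : ℤ) ∣ n → W.valuation (n : F) = 1 := by
    intro n hn
    refine h22_val_eq_one_of_inv_mem W n ?_ (hW n hn)
    rintro rfl
    exact hn (dvd_zero _)
  have ha0 : a ≠ 0 := by
    rintro rfl
    exact ha W.zero_mem
  have hva : 1 < W.valuation a := by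
    rw [← not_le, W.valuation_le_one_iff]
    exact ha
  rcases h W hvq b a hΦ hva with h1 | h1
  · left
    have h2 : W.valuation b = W.valuation (a ^ q) := by rw [map_pow]; exact h1
    exact ⟨h22_div_mem_of_val_eq W (pow_ne_zero q ha0) h2, h22_div_mem_of_val_eq W hb h2.symm⟩
  · right
    have h2 : W.valuation (b ^ q) = W.valuation a := by rw [map_pow]; exact h1.symm
    exact ⟨h22_div_mem_of_val_eq W ha0 h2, h22_div_mem_of_val_eq W (pow_ne_zero q hb) h2.symm⟩

/-- the valuation form of (KO) for a non-zero root, from the unit form -/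
theorem h22_KO_of_cuspFact (q : ℕ) [NeZero q] (hq : q.Prime) (h : H22CuspFact q hq F)
    (W : ValuationSubring F) (hvq : ∀ n : ℤ, ¬ (q : ℤ) ∣ n → W.valuation (n : F) = 1)
    (u w : F) (hu : u ≠ 0) (hΦ : ev2 (h2kronPhi q hq) u w = 0) (hw : 1 < W.valuation w) :
    W.valuation u = W.valuation w ^ q ∨ W.valuation w = W.valuation u ^ q := by
  have hw' : w ∉ W := by
    rw [← W.valuation_le_one_iff, not_le]
    exact hw
  have hw0 : w ≠ 0 := by
    rintro rfl
    exact hw' W.zero_mem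
  rcases h W (fun n hn => h22_inv_mem_of_val_eq_one W (hvq n hn)) w u hu hΦ hw' with
    ⟨h1, h2⟩ | ⟨h1, h2⟩
  · left
    rw [← map_pow]
    exact h22_val_eq_of_div_mem W hu (pow_ne_zero q hw0) h1 h2
  · right
    rw [← map_pow]
    exact (h22_val_eq_of_div_mem W (pow_ne_zero q hu) hw0 h1 h2).symm

/-- **(β-INT), abstract, level 2, from the unit form of (KO).** -/
theorem h22_betaInt_abs_two_of_cusp [CharZero F] (O : Type*) [CommRing O] {K : Type*} [Field K]
    [Algebra O K] [Algebra K F] [Algebra O F] [IsScalarTower O K F]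
    (q : ℕ) [NeZero q] (hq : q.Prime) (hq2 : q ≠ 2)
    (hOq : ∀ n : ℤ, ¬ (q : ℤ) ∣ n → ∃ c : O, algebraMap O K c = ((n : K))⁻¹)
    (hKO : H22CuspFact q hq F) (x y j j' jq j'q : F) (hx0 : x ≠ 0) (hy0 : y ≠ 0)
    (hjq0 : jq ≠ 0) (hj'q0 : j'q ≠ 0)
    (hj : j * x ^ 2 = (x + 256) ^ 3) (hj' : j' * x = (x + 16) ^ 3)
    (hjq : jq * y ^ 2 = (y + 256) ^ 3) (hj'q : j'q * y = (y + 16) ^ 3)
    (hΦ : ev2 (h2kronPhi q hq) jq j = 0) (hΦ' : ev2 (h2kronPhi q hq) j'q j' = 0) :
    IsIntegral (Algebra.adjoin O {x}) y ∧ IsIntegral (Algebra.adjoin O {x⁻¹}) y⁻¹ := by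
  refine h22_betaInt_of_val O x y hx0 hy0 (fun W hOW => ?_)
  have hvq := h22_val_int_eq_one (K := K) q O hOq W hOW
  have hv2 : W.valuation (2 : F) = 1 := by
    have := hvq ((2 : ℕ) : ℤ) (h22_not_dvd_of_prime_ne hq Nat.prime_two hq2)
    simpa using this
  exact h22_beta_val W.valuation 2 q le_rfl hq.pos hq2 x y j j' jq j'q
    (h22_cusp_two _ hv2 x j j' hj hj') (h22_cusp_two _ hv2 y jq j'q hjq hj'q)
    (fun h => (W.valuation_le_one_iff _).mpr
      (h22_kron_mem q hq W jq j hΦ ((W.valuation_le_one_iff _).mp h)))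
    (h22_KO_of_cuspFact q hq hKO W hvq jq j hjq0 hΦ)
    (h22_KO_of_cuspFact q hq hKO W hvq j'q j' hj'q0 hΦ')

/-- **(β-INT), abstract, level 3, from the unit form of (KO).** -/
theorem h22_betaInt_abs_three_of_cusp [CharZero F] (O : Type*) [CommRing O] {K : Type*}
    [Field K] [Algebra O K] [Algebra K F] [Algebra O F] [IsScalarTower O K F]
    (q : ℕ) [NeZero q] (hq : q.Prime) (hq3 : q ≠ 3)
    (hOq : ∀ n : ℤ, ¬ (q : ℤ) ∣ n → ∃ c : O, algebraMap O K c = ((n : K))⁻¹)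
    (hKO : H22CuspFact q hq F) (x y j j' jq j'q : F) (hx0 : x ≠ 0) (hy0 : y ≠ 0)
    (hjq0 : jq ≠ 0) (hj'q0 : j'q ≠ 0)
    (hj : j * x ^ 3 = (x + 243) ^ 3 * (x + 27)) (hj' : j' * x = (x + 27) * (x + 3) ^ 3)
    (hjq : jq * y ^ 3 = (y + 243) ^ 3 * (y + 27)) (hj'q : j'q * y = (y + 27) * (y + 3) ^ 3)
    (hΦ : ev2 (h2kronPhi q hq) jq j = 0) (hΦ' : ev2 (h2kronPhi q hq) j'q j' = 0) :
    IsIntegral (Algebra.adjoin O {x}) y ∧ IsIntegral (Algebra.adjoin O {x⁻¹}) y⁻¹ := by
  refine h22_betaInt_of_val O x y hx0 hy0 (fun W hOW => ?_)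
  have hvq := h22_val_int_eq_one (K := K) q O hOq W hOW
  have hv3 : W.valuation (3 : F) = 1 := by
    have := hvq ((3 : ℕ) : ℤ) (h22_not_dvd_of_prime_ne hq Nat.prime_three hq3)
    simpa using this
  exact h22_beta_val W.valuation 3 q (by norm_num) hq.pos hq3 x y j j' jq j'q
    (h22_cusp_three _ hv3 x j j' hj hj') (h22_cusp_three _ hv3 y jq j'q hjq hj'q)
    (fun h => (W.valuation_le_one_iff _).mpr
      (h22_kron_mem q hq W jq j hΦ ((W.valuation_le_one_iff _).mp h)))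
    (h22_KO_of_cuspFact q hq hKO W hvq jq j hjq0 hΦ)
    (h22_KO_of_cuspFact q hq hKO W hvq j'q j' hj'q0 hΦ')

end Abs

/-! ### The instance in `F_N` -/

section Inst

variable (K : Type) [Field K] [CharZero K] (O : ValuationSubring K) (N : ℕ) [NeZero N]

theorem h22_jd_ne_zero (d : ℕ) [NeZero d] (hd : d ∣ N) :
    (⟨qExpand K d (jqModC K), jqModCd_mem_full K N hd⟩ : FM K N) ≠ 0 := by
  intro h
  have h1 : qExpand K d (jqModC K) = 0 := congrArg Subtype.val h
  exact jqModC_ne_zero_of_nontrivial K ((map_eq_zero (qExpand K d)).mp h1)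

variable [Algebra O (FM K N)] [IsScalarTower O K (FM K N)]

/-- **(β-INT) at level 2** from the unit form of (KO). -/
theorem h22_betaInt_two_of_cusp (q : ℕ) [NeZero q] (hq : q.Prime) (hq2 : q ≠ 2)
    (h2qN : q * 2 ∣ N)
    (hOq : ∀ n : ℤ, ¬ (q : ℤ) ∣ n → ((n : K))⁻¹ ∈ O)
    (hKO : H22CuspFact q hq (FM K N))
    (hmem : coeffMap (Int.castRingHom K) h2 ∈ modularFunctionFieldFullC K N)
    (hmemq : qExpand K q (coeffMap (Int.castRingHom K) h2) ∈ modularFunctionFieldFullC K N) :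
    h22BetaCoord K N q h2 hmemq ∈ chart O (coordM K N h2 hmem) ∧
      (h22BetaCoord K N q h2 hmemq)⁻¹ ∈ chart O (coordM K N h2 hmem)⁻¹ := by
  haveI : NeZero (q * 2) := ⟨Nat.mul_ne_zero (NeZero.ne q) (by norm_num)⟩
  have h2N : 2 ∣ N := (Dvd.intro_left q rfl).trans h2qN
  have hqN : q ∣ N := (Dvd.intro 2 rfl).trans h2qN
  set x : FM K N := coordM K N h2 hmem with hx
  set y : FM K N := h22BetaCoord K N q h2 hmemq with hy
  set j : FM K N := ⟨jqModC K, jqModC_mem_full K N⟩ with hj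
  set j' : FM K N := ⟨qExpand K 2 (jqModC K), jqModCd_mem_full K N h2N⟩ with hj'
  set jq : FM K N := ⟨qExpand K q (jqModC K), jqModCd_mem_full K N hqN⟩ with hjq
  set j'q : FM K N := ⟨qExpand K (q * 2) (jqModC K), jqModCd_mem_full K N h2qN⟩ with hj'q
  have e1 : j * x ^ 2 = (x + 256) ^ 3 := Subtype.ext (j_h2R K)
  have e2 : j' * x = (x + 16) ^ 3 := Subtype.ext (j2_h2R K)
  have e3 : jq * y ^ 2 = (y + 256) ^ 3 := by
    apply Subtype.ext
    have h := congrArg (qExpand K q) (j_h2R K)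
    rw [map_mul, map_pow, map_pow, map_add, map_ofNat] at h
    exact h
  have e4 : j'q * y = (y + 16) ^ 3 := by
    apply Subtype.ext
    have h := congrArg (qExpand K q) (j2_h2R K)
    rw [map_mul, map_pow, map_add, map_ofNat, qExpand_qExpand] at h
    exact h
  have e5 : ev2 (h2kronPhi q hq) jq j = 0 :=
    h22_ev2_coe K N _ jq j (h2kronPhi_rel₁ q hq K)
  have e6 : ev2 (h2kronPhi q hq) j'q j' = 0 := by
    apply h22_ev2_coe K N _ j'q j'
    have h := congrArg (qExpand K 2) (h2kronPhi_rel₁ q hq K)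
    rw [ev2_hom, map_zero, qExpand_qExpand, qExpand_congr (Nat.mul_comm 2 q)] at h
    exact h
  exact h22_betaInt_abs_two_of_cusp (K := K) O q hq hq2
    (fun n hn => ⟨⟨((n : K))⁻¹, hOq n hn⟩, rfl⟩) hKO x y j j' jq j'q
    (coordM_ne_zero K N h2 coeff_h2_neg_one hmem)
    (h22BetaCoord_ne_zero K N q h2 coeff_h2_neg_one hmemq)
    (h22_jd_ne_zero K N q hqN) (h22_jd_ne_zero K N (q * 2) h2qN) e1 e2 e3 e4 e5 e6

/-- **(β-INT) at level 3** from the unit form of (KO). -/
theorem h22_betaInt_three_of_cusp (q : ℕ) [NeZero q] (hq : q.Prime) (hq3 : q ≠ 3)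
    (h3qN : q * 3 ∣ N)
    (hOq : ∀ n : ℤ, ¬ (q : ℤ) ∣ n → ((n : K))⁻¹ ∈ O)
    (hKO : H22CuspFact q hq (FM K N))
    (hmem : coeffMap (Int.castRingHom K) h3 ∈ modularFunctionFieldFullC K N)
    (hmemq : qExpand K q (coeffMap (Int.castRingHom K) h3) ∈ modularFunctionFieldFullC K N) :
    h22BetaCoord K N q h3 hmemq ∈ chart O (coordM K N h3 hmem) ∧
      (h22BetaCoord K N q h3 hmemq)⁻¹ ∈ chart O (coordM K N h3 hmem)⁻¹ := by
  haveI : NeZero (q * 3) := ⟨Nat.mul_ne_zero (NeZero.ne q) (by norm_num)⟩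
  have h3N : 3 ∣ N := (Dvd.intro_left q rfl).trans h3qN
  have hqN : q ∣ N := (Dvd.intro 3 rfl).trans h3qN
  set x : FM K N := coordM K N h3 hmem with hx
  set y : FM K N := h22BetaCoord K N q h3 hmemq with hy
  set j : FM K N := ⟨jqModC K, jqModC_mem_full K N⟩ with hj
  set j' : FM K N := ⟨qExpand K 3 (jqModC K), jqModCd_mem_full K N h3N⟩ with hj'
  set jq : FM K N := ⟨qExpand K q (jqModC K), jqModCd_mem_full K N hqN⟩ with hjq
  set j'q : FM K N := ⟨qExpand K (q * 3) (jqModC K), jqModCd_mem_full K N h3qN⟩ with hj'q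
  have e1 : j * x ^ 3 = (x + 243) ^ 3 * (x + 27) := Subtype.ext (j_h3R K)
  have e2 : j' * x = (x + 27) * (x + 3) ^ 3 := Subtype.ext (j3_h3R K)
  have e3 : jq * y ^ 3 = (y + 243) ^ 3 * (y + 27) := by
    apply Subtype.ext
    have h := congrArg (qExpand K q) (j_h3R K)
    rw [map_mul, map_pow, map_mul, map_pow, map_add, map_add, map_ofNat, map_ofNat] at h
    exact h
  have e4 : j'q * y = (y + 27) * (y + 3) ^ 3 := by
    apply Subtype.ext
    have h := congrArg (qExpand K q) (j3_h3R K)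
    rw [map_mul, map_mul, map_pow, map_add, map_add, map_ofNat, map_ofNat,
      qExpand_qExpand] at h
    exact h
  have e5 : ev2 (h2kronPhi q hq) jq j = 0 :=
    h22_ev2_coe K N _ jq j (h2kronPhi_rel₁ q hq K)
  have e6 : ev2 (h2kronPhi q hq) j'q j' = 0 := by
    apply h22_ev2_coe K N _ j'q j'
    have h := congrArg (qExpand K 3) (h2kronPhi_rel₁ q hq K)
    rw [ev2_hom, map_zero, qExpand_qExpand, qExpand_congr (Nat.mul_comm 3 q)] at h
    exact h
  exact h22_betaInt_abs_three_of_cusp (K := K) O q hq hq3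
    (fun n hn => ⟨⟨((n : K))⁻¹, hOq n hn⟩, rfl⟩) hKO x y j j' jq j'q
    (coordM_ne_zero K N h3 coeff_h3_neg_one hmem)
    (h22BetaCoord_ne_zero K N q h3 coeff_h3_neg_one hmemq)
    (h22_jd_ne_zero K N q hqN) (h22_jd_ne_zero K N (q * 3) h3qN) e1 e2 e3 e4 e5 e6

end Inst

end Fermat.Agent.S34x.Comp.H22
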