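import Fermat.Agent.S37x.Kron.H2_Kron

/-!
# W10 / S34, stage (C), (KO) steps (3a) + (3b) (helper2): the shape of Kronecker's polynomial

`Φ = h2kronPhi q hq ∈ ℤ[Y][X]` (monic in `X` of degree `q + 1`, `Φ(j_q ; j) = 0`,
`Φ(j ; j_q) = 0`).

* `h2ks_unique` : a polynomial `T ∈ ℤ[Y][X]` of `X`-degree `≤ q` with `T(j_q ; j) = 0` and
  `T(j ; j_q) = 0` is zero (descent modulo `q`, no field theory);
* `h2kron_swap` : `swap Φ = ± Φ`;
* `h2kron_shape` : `Φ = X^(q+1) ± Y^(q+1) + ∑_{i, k ≤ q} c_{ik} X^i Y^k`, `c_{qq} ≡ -1 mod q`.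
-/

set_option autoImplicit false
set_option linter.unusedSectionVars false

open Polynomial ModularCurve

noncomputable section

namespace Fermat.Agent.S34x.Comp.H2

open Fermat.Agent.S28.Deg.H9 (ev2)
open Fermat.Agent.S37x.Kron.H2

/-! ### `ev2` is a ring homomorphism in the polynomial -/

section ev2

variable {S : Type*} [CommRing S]

theorem h2ks_ev2_mul (T₁ T₂ : (ℤ[X])[X]) (a b : S) :
    ev2 (T₁ * T₂) a b = ev2 T₁ a b * ev2 T₂ a b := by
  unfold ev2
  exact Polynomial.eval₂_mul _ _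

theorem h2ks_ev2_add (T₁ T₂ : (ℤ[X])[X]) (a b : S) :
    ev2 (T₁ + T₂) a b = ev2 T₁ a b + ev2 T₂ a b := by
  unfold ev2
  exact Polynomial.eval₂_add _ _

theorem h2ks_ev2_CC (n : ℤ) (a b : S) : ev2 (C (C n) : (ℤ[X])[X]) a b = (n : S) := by
  unfold ev2
  rw [Polynomial.eval₂_C, Polynomial.coe_eval₂RingHom, Polynomial.eval₂_C, eq_intCast]

theorem h2ks_ev2_eq_aevalAeval (T : (ℤ[X])[X]) (a b : S) :
    ev2 T a b = Polynomial.aevalAeval b a T := by
  unfold ev2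
  induction T using Polynomial.induction_on' with
  | add p q hp hq => rw [Polynomial.eval₂_add, hp, hq, map_add]
  | monomial n f =>
    rw [Polynomial.eval₂_monomial, ← C_mul_X_pow_eq_monomial, map_mul, map_pow, aevalAeval_C,
      aevalAeval_Y]
    congr 1

theorem h2ks_ev2_swap (T : (ℤ[X])[X]) (a b : S) :
    ev2 (Polynomial.Bivariate.swap T) a b = ev2 T b a := by
  rw [h2ks_ev2_eq_aevalAeval, h2ks_ev2_eq_aevalAeval]
  exact Polynomial.Bivariate.aevalAeval_swap b a T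

end ev2

/-! ### Coefficients of the swapped polynomial -/

theorem h2ks_coeff_swap {R : Type*} [CommRing R] (p : (R[X])[X]) (i k : ℕ) :
    ((Polynomial.Bivariate.swap p).coeff i).coeff k = (p.coeff k).coeff i := by
  induction p using Polynomial.induction_on' with
  | add p₁ p₂ h₁ h₂ => simp only [map_add, coeff_add, h₁, h₂]
  | monomial n f =>
    induction f using Polynomial.induction_on' with
    | add f₁ f₂ h₁ h₂ => simp only [map_add, coeff_add, h₁, h₂]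
    | monomial m r =>
      rw [Polynomial.Bivariate.swap_monomial_monomial]
      by_cases h1 : m = i <;> by_cases h2 : n = k <;> simp [coeff_monomial, h1, h2]

/-! ### Uniqueness modulo `q` -/

section modq

variable (q : ℕ) [NeZero q] [hqf : Fact q.Prime]

/-- Over `𝔽_q`: a polynomial of `X`-degree `≤ q` vanishing at `(t^q, t)` and at `(t, t^q)`
(`t` transcendental) is zero. -/
theorem h2ks_unique_mod {S : Type*} [CommRing S] [Algebra (ZMod q) S] (t : S)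
    (ht : Transcendental (ZMod q) t) (T : ((ZMod q)[X])[X]) (hdeg : T.natDegree ≤ q)
    (h1 : h2kronEv T (t ^ q) t = 0) (h2 : h2kronEv T t (t ^ q) = 0) : T = 0 := by
  have hq : q.Prime := hqf.out
  by_contra hT
  obtain ⟨Q, hQ⟩ := h2kron_dvd_two T t ht q h2
  have h0 := h2kron_eval_eq_zero T t ht q h1
  rw [hQ, eval_mul, eval_sub, eval_pow, eval_X, eval_C] at h0
  have hne : ((X ^ q : (ZMod q)[X]) ^ q - X) ≠ 0 := by
    intro h
    have h' := congrArg (fun f => f.coeff 1) h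
    simp only [coeff_sub, coeff_X_one, coeff_zero, ← pow_mul, coeff_X_pow] at h'
    have : ¬ (1 = q * q) := by nlinarith [hq.two_le]
    rw [if_neg this] at h'
    simp at h'
  have hQ0 : Q.eval (X ^ q : (ZMod q)[X]) = 0 := by
    rcases mul_eq_zero.mp h0 with h | h
    · exact absurd h hne
    · exact h
  have hdvd : (X - C (X ^ q : (ZMod q)[X])) ∣ Q := by
    rw [Polynomial.dvd_iff_isRoot, Polynomial.IsRoot.def]
    exact hQ0
  obtain ⟨Q', hQ'⟩ := hdvd
  have hq0 : q ≠ 0 := hq.ne_zero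
  have hmon : ((X ^ q - C (X : (ZMod q)[X])) * (X - C (X ^ q : (ZMod q)[X]))).Monic :=
    (monic_X_pow_sub_C _ hq0).mul (monic_X_sub_C _)
  have hdegk : ((X ^ q - C (X : (ZMod q)[X])) * (X - C (X ^ q : (ZMod q)[X]))).natDegree
      = q + 1 := by
    rw [Polynomial.Monic.natDegree_mul (monic_X_pow_sub_C _ hq0) (monic_X_sub_C _),
      natDegree_X_sub_C, natDegree_X_pow_sub_C]
  have hT' : T = ((X ^ q - C (X : (ZMod q)[X])) * (X - C (X ^ q : (ZMod q)[X]))) * Q' := by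
    rw [hQ, hQ']; ring
  have hQ'0 : Q' ≠ 0 := by
    rintro rfl
    rw [mul_zero] at hT'
    exact hT hT'
  have := hmon.natDegree_mul' hQ'0
  rw [← hT', hdegk] at this
  omega

end modq

/-! ### Uniqueness over `ℤ` -/

section int

variable (q : ℕ) [NeZero q] (hq : q.Prime)

/-- The reduction of a polynomial over `ℤ[Y]` modulo `q`. -/
abbrev h2ksRed (T : (ℤ[X])[X]) : ((ZMod q)[X])[X] :=
  T.map (Polynomial.mapRingHom (Int.castRingHom (ZMod q)))

include hq in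
theorem h2ks_red_eq_zero (T : (ℤ[X])[X]) (hdeg : T.natDegree ≤ q)
    (h1 : ev2 T (qExpand ℤ q (jqModC ℤ)) (jqModC ℤ) = 0)
    (h2 : ev2 T (jqModC ℤ) (qExpand ℤ q (jqModC ℤ)) = 0) : h2ksRed q T = 0 := by
  have : Fact q.Prime := ⟨hq⟩
  have ht : Transcendental (ZMod q) (jqModC (ZMod q)) :=
    Fermat.Agent.S28.Deg.H21.transcendental_jqModC (ZMod q)
  have h1' := congrArg (coeffMap (Int.castRingHom (ZMod q))) h1
  have h2' := congrArg (coeffMap (Int.castRingHom (ZMod q))) h2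
  rw [Fermat.Agent.S28.Deg.H9.ev2_hom, coeffMap_qExpand, coeffMap_jqModC, map_zero,
    h2kron_qExpand_zmod, h2kron_ev2_eq (k := ZMod q)] at h1' h2'
  exact h2ks_unique_mod q (jqModC (ZMod q)) ht _
    ((Polynomial.natDegree_map_le).trans hdeg) h1' h2'

theorem h2ks_dvd_of_red (T : (ℤ[X])[X]) (h : h2ksRed q T = 0) :
    ∃ T₁ : (ℤ[X])[X], T = C (C (q : ℤ)) * T₁ := by
  have : C (C (q : ℤ)) ∣ T := by
    rw [Polynomial.C_dvd_iff_dvd_coeff]
    intro i
    rw [Polynomial.C_dvd_iff_dvd_coeff]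
    intro k
    have h3 := congrArg (fun P => (P.coeff i).coeff k) h
    simp only [h2ksRed, coeff_map, Polynomial.coe_mapRingHom, coeff_zero] at h3
    have h4 : ((((T.coeff i).coeff k : ℤ)) : ZMod q) = 0 := by simpa using h3
    exact (ZMod.intCast_zmod_eq_zero_iff_dvd _ q).mp h4
  exact this

theorem h2ks_natCast_ne_zero : (C (C (q : ℤ)) : (ℤ[X])[X]) ≠ 0 := by
  intro h
  have h1 := Polynomial.C_eq_zero.mp (Polynomial.C_eq_zero.mp h)
  have : (q : ℤ) ≠ 0 := by exact_mod_cast NeZero.ne q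
  exact this h1

theorem h2ks_cancel {f : LaurentSeries ℤ} (h : ((q : ℤ) : LaurentSeries ℤ) * f = 0) :
    f = 0 := by
  ext n
  have h1 := congrArg (fun g => g.coeff n) h
  have h2 : (((q : ℤ) : LaurentSeries ℤ) * f).coeff n = (q : ℤ) * f.coeff n := by
    have : ((q : ℤ) : LaurentSeries ℤ) = HahnSeries.C (q : ℤ) := by simp
    rw [this, HahnSeries.C_mul_eq_smul, HahnSeries.coeff_smul, smul_eq_mul]
  simp only [h2, HahnSeries.coeff_zero] at h1
  rcases mul_eq_zero.mp h1 with h3 | h3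
  · exact absurd h3 (by exact_mod_cast NeZero.ne q)
  · simpa using h3

include hq in
theorem h2ks_pow_dvd (n : ℕ) : ∀ T : (ℤ[X])[X], T.natDegree ≤ q →
    ev2 T (qExpand ℤ q (jqModC ℤ)) (jqModC ℤ) = 0 →
    ev2 T (jqModC ℤ) (qExpand ℤ q (jqModC ℤ)) = 0 →
    ∀ i k, (q : ℤ) ^ n ∣ (T.coeff i).coeff k := by
  induction n with
  | zero => intro T _ _ _ i k; simp
  | succ n ih =>
    intro T hdeg h1 h2 i k
    obtain ⟨T₁, hT₁⟩ := h2ks_dvd_of_red q T (h2ks_red_eq_zero q hq T hdeg h1 h2)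
    have hdeg₁ : T₁.natDegree ≤ q := by
      have hC : (C (C (q : ℤ)) : (ℤ[X])[X]) ≠ 0 := h2ks_natCast_ne_zero q
      by_cases hT0 : T₁ = 0
      · rw [hT0]; simp
      · have := Polynomial.natDegree_mul hC hT0
        rw [← hT₁, Polynomial.natDegree_C, zero_add] at this
        omega
    have h1₁ : ev2 T₁ (qExpand ℤ q (jqModC ℤ)) (jqModC ℤ) = 0 := by
      rw [hT₁, h2ks_ev2_mul, h2ks_ev2_CC] at h1
      exact h2ks_cancel q h1
    have h2₁ : ev2 T₁ (jqModC ℤ) (qExpand ℤ q (jqModC ℤ)) = 0 := by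
      rw [hT₁, h2ks_ev2_mul, h2ks_ev2_CC] at h2
      exact h2ks_cancel q h2
    have := ih T₁ hdeg₁ h1₁ h2₁ i k
    rw [hT₁, Polynomial.coeff_C_mul, Polynomial.coeff_C_mul, pow_succ, mul_comm ((q : ℤ) ^ n)]
    exact mul_dvd_mul_left _ this

include hq in
/-- **Uniqueness.** A polynomial `T ∈ ℤ[Y][X]` of `X`-degree `≤ q` with `T(j_q ; j) = 0` and
`T(j ; j_q) = 0` is zero. -/
theorem h2ks_unique (T : (ℤ[X])[X]) (hdeg : T.natDegree ≤ q)
    (h1 : ev2 T (qExpand ℤ q (jqModC ℤ)) (jqModC ℤ) = 0)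
    (h2 : ev2 T (jqModC ℤ) (qExpand ℤ q (jqModC ℤ)) = 0) : T = 0 := by
  ext i k
  rw [coeff_zero, coeff_zero]
  set z := (T.coeff i).coeff k with hz
  by_contra hz0
  have hdvd := h2ks_pow_dvd q hq z.natAbs T hdeg h1 h2 i k
  rw [← hz] at hdvd
  have hlt : z.natAbs < ((q : ℤ) ^ z.natAbs).natAbs := by
    rw [Int.natAbs_pow, Int.natAbs_natCast]
    calc z.natAbs < 2 ^ z.natAbs := Nat.lt_two_pow_self
      _ ≤ q ^ z.natAbs := Nat.pow_le_pow_left hq.two_le _
  exact hz0 (Int.eq_zero_of_dvd_of_natAbs_lt_natAbs hdvd hlt)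

end int

/-! ### The swap symmetry and the shape -/

section shape

variable (q : ℕ) [NeZero q] (hq : q.Prime)

/-- **(3a)** `swap Φ_q = ± Φ_q`. -/
theorem h2kron_swap : ∃ ε : ℤ, (ε = 1 ∨ ε = -1) ∧
    Polynomial.Bivariate.swap (h2kronPhi q hq) = C (C ε) * h2kronPhi q hq := by
  obtain ⟨Φ, hΦ⟩ : ∃ Φ, Φ = h2kronPhi q hq := ⟨_, rfl⟩
  rw [← hΦ]
  have hm : Φ.Monic := hΦ ▸ h2kronPhi_monic q hq
  have hd : Φ.natDegree = q + 1 := hΦ ▸ h2kronPhi_natDegree q hq
  obtain ⟨Ψ, hΨ⟩ : ∃ Ψ, Ψ = Polynomial.Bivariate.swap Φ := ⟨_, rfl⟩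
  rw [← hΨ]
  have hne1 : Φ ≠ 1 := by
    intro h
    rw [h, natDegree_one] at hd
    omega
  have hdiv : Ψ %ₘ Φ + Φ * (Ψ /ₘ Φ) = Ψ := Polynomial.modByMonic_add_div Ψ Φ
  have hSdeg : (Ψ %ₘ Φ).natDegree ≤ q := by
    have := Polynomial.natDegree_modByMonic_lt Ψ hm hne1
    omega
  have hr1 : ev2 Φ (qExpand ℤ q (jqModC ℤ)) (jqModC ℤ) = 0 := hΦ ▸ h2kronPhi_rel₁ q hq ℤ
  have hr2 : ev2 Φ (jqModC ℤ) (qExpand ℤ q (jqModC ℤ)) = 0 := hΦ ▸ h2kronPhi_rel₂ q hq ℤ
  have hS : Ψ %ₘ Φ = 0 := by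
    have hSeq : Ψ %ₘ Φ = Ψ + Φ * (-(Ψ /ₘ Φ)) := by
      have : Ψ + Φ * (-(Ψ /ₘ Φ)) = (Ψ %ₘ Φ + Φ * (Ψ /ₘ Φ)) + Φ * (-(Ψ /ₘ Φ)) := by rw [hdiv]
      rw [this]; ring
    apply h2ks_unique q hq _ hSdeg
    · rw [hSeq, h2ks_ev2_add, h2ks_ev2_mul, hr1, zero_mul, add_zero, hΨ, h2ks_ev2_swap]
      exact hr2
    · rw [hSeq, h2ks_ev2_add, h2ks_ev2_mul, hr2, zero_mul, add_zero, hΨ, h2ks_ev2_swap]
      exact hr1
  rw [hS, zero_add] at hdiv
  obtain ⟨R, hR⟩ : ∃ R, R = Ψ /ₘ Φ := ⟨_, rfl⟩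
  rw [← hR] at hdiv
  -- Φ = swap Ψ = Ψ * swap R = Φ * R * swap R
  have h3 : Φ * (R * Polynomial.Bivariate.swap R) = Φ * 1 := by
    have h4 : Polynomial.Bivariate.swap Ψ = Φ := by
      rw [hΨ]; exact Polynomial.Bivariate.swap_swap_apply Φ
    have h5 := congrArg Polynomial.Bivariate.swap hdiv
    rw [map_mul, h4, ← hΨ] at h5
    -- h5 : Ψ * swap R = Φ
    rw [mul_one]
    calc Φ * (R * Polynomial.Bivariate.swap R) = (Φ * R) * Polynomial.Bivariate.swap R := by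
          ring
      _ = Ψ * Polynomial.Bivariate.swap R := by rw [hdiv]
      _ = Φ := h5
  have h6 : R * Polynomial.Bivariate.swap R = 1 := mul_left_cancel₀ hm.ne_zero h3
  have hu : IsUnit R := IsUnit.of_mul_eq_one _ h6
  obtain ⟨r, hr, hrR⟩ := Polynomial.isUnit_iff.mp hu
  obtain ⟨ε, hε, hεr⟩ := Polynomial.isUnit_iff.mp hr
  refine ⟨ε, Int.isUnit_iff.mp hε, ?_⟩
  rw [← hdiv, ← hrR, ← hεr]
  ring

/-- The symmetry of the coefficients. -/
theorem h2kron_coeff_symm : ∃ ε : ℤ, (ε = 1 ∨ ε = -1) ∧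
    ∀ i k, ((h2kronPhi q hq).coeff k).coeff i = ε * ((h2kronPhi q hq).coeff i).coeff k := by
  obtain ⟨ε, hε, hsw⟩ := h2kron_swap q hq
  refine ⟨ε, hε, fun i k => ?_⟩
  rw [← h2ks_coeff_swap, hsw, Polynomial.coeff_C_mul, Polynomial.coeff_C_mul]

include hq in
/-- **(3b)** the coefficient of `X^q Y^q` is `≡ -1 mod q`. -/
theorem h2kron_coeff_qq : ∃ m : ℤ, ((h2kronPhi q hq).coeff q).coeff q = -1 + q * m := by
  have hmap := h2kronPhi_map q hq
  have h2 : 2 ≤ q := hq.two_le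
  have h3 := congrArg (fun P => (P.coeff q).coeff q) hmap
  have hexp : ((X - C (X ^ q : (ZMod q)[X])) * (X ^ q - C (X : (ZMod q)[X]))) =
      X ^ (q + 1) - C X * X - C (X ^ q) * X ^ q + C (X ^ (q + 1)) := by
    have : (C (X ^ (q + 1) : (ZMod q)[X]) : ((ZMod q)[X])[X]) = C (X ^ q) * C X := by
      rw [← C_mul, ← pow_succ]
    rw [this]; ring
  simp only [hexp, coeff_map, Polynomial.coe_mapRingHom] at h3
  have h4 : ((X ^ (q + 1) - C X * X - C (X ^ q) * X ^ q + C (X ^ (q + 1)) :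
      ((ZMod q)[X])[X]).coeff q).coeff q = -1 := by
    have e1 : ((X : ((ZMod q)[X])[X]) ^ (q + 1)).coeff q = 0 := by
      rw [coeff_X_pow, if_neg (by omega)]
    have e2 : (C (X : (ZMod q)[X]) * (X : ((ZMod q)[X])[X])).coeff q = 0 := by
      rw [coeff_C_mul, coeff_X, if_neg (by omega), mul_zero]
    have e3 : (C (X ^ q : (ZMod q)[X]) * (X : ((ZMod q)[X])[X]) ^ q).coeff q = X ^ q := by
      rw [coeff_C_mul, coeff_X_pow, if_pos rfl, mul_one]
    have e4 : (C (X ^ (q + 1) : (ZMod q)[X]) : ((ZMod q)[X])[X]).coeff q = 0 := by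
      rw [coeff_C, if_neg (by omega)]
    rw [coeff_add, coeff_sub, coeff_sub, e1, e2, e3, e4]
    simp [coeff_X_pow]
  rw [h4, eq_intCast] at h3
  have h5 : ((((h2kronPhi q hq).coeff q).coeff q + 1 : ℤ) : ZMod q) = 0 := by
    push_cast
    rw [h3]; ring
  obtain ⟨m, hm⟩ := (ZMod.intCast_zmod_eq_zero_iff_dvd _ q).mp h5
  exact ⟨m, by linarith⟩

include hq in
/-- **The shape of Kronecker's polynomial**:
`Φ_q = X^(q+1) + ε Y^(q+1) + ∑_{i, k ≤ q} c_{ik} X^i Y^k`, `ε = ±1`, `c_{qq} ≡ -1 mod q`. -/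
theorem h2kron_shape : ∃ ε : ℤ, (ε = 1 ∨ ε = -1) ∧
    ((h2kronPhi q hq).coeff 0).coeff (q + 1) = ε ∧
    (∀ i k, ((h2kronPhi q hq).coeff i).coeff k ≠ 0 →
      (i = q + 1 ∧ k = 0) ∨ (i = 0 ∧ k = q + 1) ∨ (i ≤ q ∧ k ≤ q)) ∧
    (h2kronPhi q hq).coeff (q + 1) = 1 ∧
    ∃ m : ℤ, ((h2kronPhi q hq).coeff q).coeff q = -1 + q * m := by
  obtain ⟨ε, hε, hsym⟩ := h2kron_coeff_symm q hq
  have hm : (h2kronPhi q hq).Monic := h2kronPhi_monic q hq
  have hd : (h2kronPhi q hq).natDegree = q + 1 := h2kronPhi_natDegree q hq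
  have hlead : (h2kronPhi q hq).coeff (q + 1) = 1 := by
    have := hm.coeff_natDegree
    rwa [hd] at this
  have hbig : ∀ i, q + 1 < i → (h2kronPhi q hq).coeff i = 0 := fun i hi =>
    Polynomial.coeff_eq_zero_of_natDegree_lt (by rw [hd]; exact hi)
  have hε0 : ε ≠ 0 := by rcases hε with h | h <;> rw [h] <;> norm_num
  refine ⟨ε, hε, ?_, ?_, hlead, h2kron_coeff_qq q hq⟩
  · -- coefficient (0, q+1) = ε * coefficient (q+1, 0) = ε
    have := hsym (q + 1) 0
    rw [this, hlead, coeff_one_zero, mul_one]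
  · intro i k hne
    -- i ≤ q + 1
    have hi : i ≤ q + 1 := by
      by_contra hcon
      apply hne
      rw [hbig i (by omega), coeff_zero]
    -- k ≤ q + 1 by symmetry
    have hk : k ≤ q + 1 := by
      by_contra hcon
      apply hne
      have h1 := hsym k i
      rw [hbig k (by omega), coeff_zero, mul_zero] at h1
      exact h1
    rcases Nat.lt_or_ge i (q + 1) with hi' | hi'
    · rcases Nat.lt_or_ge k (q + 1) with hk' | hk'
      · right; right; exact ⟨by omega, by omega⟩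
      · -- k = q + 1: coefficient = ε * (coeff (q+1)).coeff i = ε * (1).coeff i
        have hk1 : k = q + 1 := by omega
        subst hk1
        have h1 := hsym (q + 1) i
        rw [hlead] at h1
        right; left
        refine ⟨?_, rfl⟩
        by_contra hi0
        apply hne
        have h2 : (1 : ℤ[X]).coeff i = 0 := by
          rw [Polynomial.coeff_one, if_neg hi0]
        rw [h2, mul_zero] at h1
        exact h1
    · have hi1 : i = q + 1 := by omega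
      subst hi1
      left
      refine ⟨rfl, ?_⟩
      by_contra hk0
      apply hne
      rw [hlead, Polynomial.coeff_one, if_neg hk0]

end shape

end Fermat.Agent.S34x.Comp.H2
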