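import Fermat.Agent.S34x.Comp.H10_Newton
import Fermat.Agent.S34x.Comp.H2_KronShape
import Fermat.Agent.S34x.Comp.H22_BetaIntKO

/-!
# W10 / (C) / (KO), leaf (3c) (helper10): the cusp fact for Kronecker's polynomial `Φ_q`

Instance of the abstract Newton polygon `h10_newton` at `Φ = h2kronPhi q hq`, with the shape
`h2kron_shape` (helper2):

* `h10_cusp_val` : for every valuation `v` on a field `F` with `v n = 1` for the integers `n`
  prime to `q`, and every zero `(u, w)` of `Φ_q` with `1 < v w`:
  `v u = v w ^ q ∨ v w = v u ^ q`;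
* `h10_KO` : `H22KO q hq F` (the valuation form of (KO), every field `F`);
* `h10_cusp_fact` : `H22CuspFact q hq F` (the unit form of (KO), `F` of characteristic `0`).
-/

set_option autoImplicit false

open Polynomial

namespace Fermat.Agent.S34x.Comp.H10

open Fermat.Agent.S28.Deg.H9 (ev2)
open Fermat.Agent.S37x.Kron.H2 (h2kronPhi)

/-- The shape of `Φ_q` (helper2's `h2kron_shape`) in the packaged form `H10Shape`. -/
theorem h10_shape_kron (q : ℕ) [NeZero q] (hq : q.Prime) : H10Shape q (h2kronPhi q hq) :=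
  Fermat.Agent.S34x.Comp.H2.h2kron_shape q hq

/-- **The cusp fact (KO)** for an arbitrary valuation. -/
theorem h10_cusp_val {F Γ₀ : Type*} [Field F] [LinearOrderedCommGroupWithZero Γ₀]
    (v : Valuation F Γ₀) (q : ℕ) [NeZero q] (hq : q.Prime)
    (hvq : ∀ n : ℤ, ¬ (q : ℤ) ∣ n → v (n : F) = 1) (u w : F)
    (h : ev2 (h2kronPhi q hq) u w = 0) (hw : 1 < v w) :
    v u = v w ^ q ∨ v w = v u ^ q :=
  h10_newton v q hq _ (h10_shape_kron q hq) hvq u w h hw

/-- **(KO), valuation form** (every field). -/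
theorem h10_KO (q : ℕ) [NeZero q] (hq : q.Prime) (F : Type*) [Field F] :
    Fermat.Agent.S34x.Comp.H22.H22KO q hq F :=
  fun W hvq u w h hw => h10_cusp_val W.valuation q hq hvq u w h hw

/-- **(KO), unit form** (characteristic `0`). -/
theorem h10_cusp_fact (q : ℕ) [NeZero q] (hq : q.Prime) (F : Type*) [Field F] [CharZero F] :
    Fermat.Agent.S34x.Comp.H22.H22CuspFact q hq F :=
  Fermat.Agent.S34x.Comp.H22.h22_cuspFact_of_KO q hq (h10_KO q hq F)

end Fermat.Agent.S34x.Comp.H10
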