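import Mathlib

/-!
# W10 / (C) / (KO), leaf (3c) (helper10): the Newton polygon of `Φ_q` at the cusp

Abstract form (Mathlib only).  `Φ ∈ ℤ[Y][X]` (outer variable `X`, inner variable `Y`) has the
*cusp shape* `H10Shape q Φ` if

* the coefficient of `Y^(q+1)` (at `X^0`) is `ε = ± 1`,
* every monomial `X^i Y^k` of `Φ` is `X^(q+1)`, `Y^(q+1)` or has `i ≤ q` and `k ≤ q`,
* the coefficient of `X^(q+1)` is `1`,
* the coefficient of `X^q Y^q` is `≡ -1 mod q`.

For such a `Φ`, a valuation `v` on a field `F` which is trivial on the integers prime to `q`, and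
a zero `(u, w)` of `Φ` with `1 < v w`:  `v u = v w ^ q` or `v w = v u ^ q`
(`h10_newton`).  Also the integrality statement `v w ≤ 1 → v u ≤ 1` (`h10_newton_int`), and the
`ValuationSubring` spellings `h10_newton_vs`, `h10_newton_int_vs`.
-/

set_option autoImplicit false

open Polynomial

namespace Fermat.Agent.S34x.Comp.H10

/-- The cusp shape of a modular polynomial of level `q` (conclusion of the shape theorem). -/
def H10Shape (q : ℕ) (Φ : (ℤ[X])[X]) : Prop :=
  ∃ ε : ℤ, (ε = 1 ∨ ε = -1) ∧ (Φ.coeff 0).coeff (q + 1) = ε ∧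
    (∀ i k, (Φ.coeff i).coeff k ≠ 0 →
      (i = q + 1 ∧ k = 0) ∨ (i = 0 ∧ k = q + 1) ∨ (i ≤ q ∧ k ≤ q)) ∧
    Φ.coeff (q + 1) = 1 ∧ ∃ m : ℤ, (Φ.coeff q).coeff q = -1 + q * m

section

variable {F Γ₀ : Type*} [Field F] [LinearOrderedCommGroupWithZero Γ₀] (v : Valuation F Γ₀)

lemma h10_v_int_le_one (n : ℤ) : v (n : F) ≤ 1 := by
  have : ((n : ℤ) : F) ∈ v.integer := intCast_mem _ n
  exact (Valuation.mem_integer_iff v _).mp this

/-- The bivariate expansion of `Φ(u, w)` over the grid `[0, q+1] × [0, q+1]`. -/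
lemma h10_ev2_expand (q : ℕ) (Φ : (ℤ[X])[X])
    (hsupp : ∀ i k, (Φ.coeff i).coeff k ≠ 0 → i ≤ q + 1 ∧ k ≤ q + 1) (u w : F) :
    Φ.eval₂ (Polynomial.eval₂RingHom (Int.castRingHom F) w) u =
      ∑ p ∈ Finset.range (q + 2) ×ˢ Finset.range (q + 2),
        (((Φ.coeff p.1).coeff p.2 : ℤ) : F) * w ^ p.2 * u ^ p.1 := by
  have hdeg : Φ.natDegree < q + 2 := by
    refine Nat.lt_succ_of_le ((Polynomial.natDegree_le_iff_coeff_eq_zero).mpr ?_)
    intro N hN
    ext k
    by_contra hne
    have := (hsupp N k (by simpa using hne)).1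
    omega
  have hdeg' : ∀ i, (Φ.coeff i).natDegree < q + 2 := by
    intro i
    refine Nat.lt_succ_of_le ((Polynomial.natDegree_le_iff_coeff_eq_zero).mpr ?_)
    intro N hN
    by_contra hne
    have := (hsupp i N hne).2
    omega
  rw [Polynomial.eval₂_eq_sum_range' _ hdeg, Finset.sum_product]
  refine Finset.sum_congr rfl fun i _ => ?_
  rw [Polynomial.coe_eval₂RingHom, Polynomial.eval₂_eq_sum_range' _ (hdeg' i), Finset.sum_mul]
  refine Finset.sum_congr rfl fun k _ => ?_
  simp

/-- A sum with a strictly dominant term does not vanish. -/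
lemma h10_dom (T : ℕ × ℕ → F) (s : Finset (ℕ × ℕ)) (j : ℕ × ℕ) (hj : j ∈ s)
    (h0 : v (T j) ≠ 0) (hlt : ∀ p ∈ s, p ≠ j → v (T p) < v (T j))
    (hsum : ∑ p ∈ s, T p = 0) : False := by
  classical
  have := Valuation.map_sum_eq_of_lt v hj (f := T)
    (fun i hi => hlt i (Finset.mem_sdiff.mp hi).1 (by simpa using (Finset.mem_sdiff.mp hi).2))
  rw [hsum, map_zero] at this
  exact h0 this.symm

/-- **The Newton polygon of `Φ_q` at the cusp** (abstract form). -/
theorem h10_newton (q : ℕ) (hq : q.Prime) (Φ : (ℤ[X])[X]) (hΦ : H10Shape q Φ)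
    (hvq : ∀ n : ℤ, ¬ (q : ℤ) ∣ n → v (n : F) = 1) (u w : F)
    (h : Φ.eval₂ (Polynomial.eval₂RingHom (Int.castRingHom F) w) u = 0) (hw : 1 < v w) :
    v u = v w ^ q ∨ v w = v u ^ q := by
  classical
  obtain ⟨ε, hε, h0, hsupp, htop, m, hqq⟩ := hΦ
  have hsupp' : ∀ i k, (Φ.coeff i).coeff k ≠ 0 → i ≤ q + 1 ∧ k ≤ q + 1 := by
    intro i k hne
    rcases hsupp i k hne with ⟨h1, h2⟩ | ⟨h1, h2⟩ | ⟨h1, h2⟩ <;> omega
  rw [h10_ev2_expand q Φ hsupp' u w] at h
  have hq2 : 2 ≤ q := hq.two_le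
  have hq0 : q ≠ 0 := by omega
  have hA0 : v w ≠ 0 := (zero_lt_one.trans hw).ne'
  have hA1 : 1 ≤ v w := hw.le
  -- the three special terms
  have hT1 : v ((((Φ.coeff (q + 1)).coeff 0 : ℤ) : F) * w ^ 0 * u ^ (q + 1)) = v u ^ (q + 1) := by
    simp [htop]
  have hT2 : v ((((Φ.coeff 0).coeff (q + 1) : ℤ) : F) * w ^ (q + 1) * u ^ 0) = v w ^ (q + 1) := by
    rw [h0]
    rcases hε with rfl | rfl <;> simp
  have hcqq : v (((Φ.coeff q).coeff q : ℤ) : F) = 1 := by
    apply hvq
    rw [hqq]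
    intro hdvd
    have h1 : (q : ℤ) ∣ -1 := (Int.dvd_add_left (Dvd.intro m rfl)).mp hdvd
    have h2 : (q : ℤ) ∣ 1 := by simpa using h1
    have h3 := Int.natAbs_dvd_natAbs.mpr h2
    simp at h3
    omega
  have hT3 : v ((((Φ.coeff q).coeff q : ℤ) : F) * w ^ q * u ^ q) = v w ^ q * v u ^ q := by
    simp [hcqq]
  -- the bound for the box terms
  have hbox : ∀ i k, v ((((Φ.coeff i).coeff k : ℤ) : F) * w ^ k * u ^ i) ≤ v w ^ k * v u ^ i := by
    intro i k
    simp only [map_mul, map_pow]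
    calc v _ * v w ^ k * v u ^ i ≤ 1 * v w ^ k * v u ^ i := by
          gcongr
          exact h10_v_int_le_one v _
      _ = _ := by rw [one_mul]
  -- classification of the terms
  have hclass : ∀ p : ℕ × ℕ, v ((((Φ.coeff p.1).coeff p.2 : ℤ) : F) * w ^ p.2 * u ^ p.1) = 0 ∨
      p = (q + 1, 0) ∨ p = (0, q + 1) ∨ (p.1 ≤ q ∧ p.2 ≤ q) := by
    rintro ⟨i, k⟩
    by_cases hc : (Φ.coeff i).coeff k = 0
    · left
      simp [hc]
    · right
      rcases hsupp i k hc with ⟨h1, h2⟩ | ⟨h1, h2⟩ | ⟨h1, h2⟩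
      · left; simp [h1, h2]
      · right; left; simp [h1, h2]
      · right; right; exact ⟨h1, h2⟩
  have hmem1 : ((q + 1, 0) : ℕ × ℕ) ∈ Finset.range (q + 2) ×ˢ Finset.range (q + 2) := by
    simp
  have hmem2 : ((0, q + 1) : ℕ × ℕ) ∈ Finset.range (q + 2) ×ˢ Finset.range (q + 2) := by
    simp
  have hmem3 : ((q, q) : ℕ × ℕ) ∈ Finset.range (q + 2) ×ˢ Finset.range (q + 2) := by
    simp
  have hApos : ∀ n : ℕ, 0 < v w ^ n := fun n => pow_pos (zero_lt_one.trans hw) n
  rcases le_or_gt (v u) 1 with hB | hB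
  · -- `v u ≤ 1`: the term `Y^(q+1)` is dominant
    exfalso
    refine h10_dom v _ _ (0, q + 1) hmem2 ?_ ?_ h
    · dsimp only
      rw [hT2]; exact pow_ne_zero _ hA0
    · intro p _ hp
      dsimp only
      rw [hT2]
      rcases hclass p with h0' | rfl | rfl | ⟨h1, h2⟩
      · rw [h0']; exact hApos _
      · dsimp only
        rw [hT1]
        calc v u ^ (q + 1) ≤ 1 := pow_le_one₀ zero_le hB
          _ < v w ^ (q + 1) := one_lt_pow₀ hw (by omega)
      · exact absurd rfl hp
      · calc _ ≤ v w ^ p.2 * v u ^ p.1 := hbox _ _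
          _ ≤ v w ^ p.2 * 1 := by
              gcongr
              exact pow_le_one₀ zero_le hB
          _ = v w ^ p.2 := mul_one _
          _ ≤ v w ^ q := pow_le_pow_right₀ hA1 h2
          _ < v w ^ (q + 1) := pow_lt_pow_right₀ hw (by omega)
  · by_contra hcon
    push Not at hcon
    obtain ⟨hc1, hc2⟩ := hcon
    have hB0 : v u ≠ 0 := (zero_lt_one.trans hB).ne'
    have hB1 : 1 ≤ v u := hB.le
    have hBpos : ∀ n : ℕ, 0 < v u ^ n := fun n => pow_pos (zero_lt_one.trans hB) n
    have hAq : v w ≤ v w ^ q := le_self_pow₀ hA1 hq0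
    have hBq : v u ≤ v u ^ q := le_self_pow₀ hB1 hq0
    have hboxq : ∀ p : ℕ × ℕ, p.1 ≤ q → p.2 ≤ q →
        v ((((Φ.coeff p.1).coeff p.2 : ℤ) : F) * w ^ p.2 * u ^ p.1) ≤ v w ^ q * v u ^ q := by
      intro p h1 h2
      calc _ ≤ v w ^ p.2 * v u ^ p.1 := hbox _ _
        _ ≤ v w ^ q * v u ^ q :=
            mul_le_mul' (pow_le_pow_right₀ hA1 h2) (pow_le_pow_right₀ hB1 h1)
    rcases lt_or_ge (v w ^ q) (v u) with h1 | h1
    · -- `v w ^ q < v u`: the term `X^(q+1)` is dominant
      refine h10_dom v _ _ (q + 1, 0) hmem1 ?_ ?_ h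
      · dsimp only
        rw [hT1]; exact pow_ne_zero _ hB0
      · intro p _ hp
        dsimp only
        rw [hT1]
        rcases hclass p with h0' | rfl | rfl | ⟨h1', h2'⟩
        · rw [h0']; exact hBpos _
        · exact absurd rfl hp
        · dsimp only
          rw [hT2]
          exact pow_lt_pow_left₀ (hAq.trans_lt h1) zero_le (by omega)
        · calc _ ≤ v w ^ q * v u ^ q := hboxq p h1' h2'
            _ < v u * v u ^ q := mul_lt_mul_of_pos_right h1 (hBpos q)
            _ = v u ^ (q + 1) := (pow_succ' _ _).symm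
    · rcases lt_or_ge (v u ^ q) (v w) with h2 | h2
      · -- `v u ^ q < v w`: the term `Y^(q+1)` is dominant
        refine h10_dom v _ _ (0, q + 1) hmem2 ?_ ?_ h
        · dsimp only
          rw [hT2]; exact pow_ne_zero _ hA0
        · intro p _ hp
          dsimp only
          rw [hT2]
          rcases hclass p with h0' | rfl | rfl | ⟨h1', h2'⟩
          · rw [h0']; exact hApos _
          · dsimp only
            rw [hT1]
            exact pow_lt_pow_left₀ (hBq.trans_lt h2) zero_le (by omega)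
          · exact absurd rfl hp
          · calc _ ≤ v w ^ q * v u ^ q := hboxq p h1' h2'
              _ < v w ^ q * v w := mul_lt_mul_of_pos_left h2 (hApos q)
              _ = v w ^ (q + 1) := (pow_succ _ _).symm
      · -- `v u < v w ^ q` and `v w < v u ^ q`: the term `X^q Y^q` is dominant
        have h1' : v u < v w ^ q := lt_of_le_of_ne h1 hc1
        have h2' : v w < v u ^ q := lt_of_le_of_ne h2 hc2
        refine h10_dom v _ _ (q, q) hmem3 ?_ ?_ h
        · dsimp only
          rw [hT3]; exact mul_ne_zero (pow_ne_zero _ hA0) (pow_ne_zero _ hB0)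
        · intro p _ hp
          dsimp only
          rw [hT3]
          rcases hclass p with h0' | rfl | rfl | ⟨h1'', h2''⟩
          · rw [h0']; exact mul_pos (hApos q) (hBpos q)
          · dsimp only
            rw [hT1, pow_succ']
            exact mul_lt_mul_of_pos_right h1' (hBpos q)
          · dsimp only
            rw [hT2, pow_succ]
            exact mul_lt_mul_of_pos_left h2' (hApos q)
          · rcases Nat.lt_or_ge p.2 q with hk | hk
            · calc _ ≤ v w ^ p.2 * v u ^ p.1 := hbox _ _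
                _ ≤ v w ^ p.2 * v u ^ q :=
                    mul_le_mul' le_rfl (pow_le_pow_right₀ hB1 h1'')
                _ < v w ^ q * v u ^ q :=
                    mul_lt_mul_of_pos_right (pow_lt_pow_right₀ hw hk) (hBpos q)
            · have hk' : p.2 = q := le_antisymm h2'' hk
              have hi : p.1 < q := by
                rcases Nat.lt_or_ge p.1 q with hi | hi
                · exact hi
                · exact absurd (Prod.ext (le_antisymm h1'' hi) hk') hp
              calc _ ≤ v w ^ p.2 * v u ^ p.1 := hbox _ _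
                _ ≤ v w ^ q * v u ^ p.1 :=
                    mul_le_mul' (pow_le_pow_right₀ hA1 h2'') le_rfl
                _ < v w ^ q * v u ^ q :=
                    mul_lt_mul_of_pos_left (pow_lt_pow_right₀ hB hi) (hApos q)

end

end Fermat.Agent.S34x.Comp.H10
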