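import Fermat.Agent.S34x.Comp.H22_BetaIntAbs
import Fermat.Agent.S18x.IG.H28_HmInst
import Fermat.Agent.S18x.Qepo.H1_Sat
import Fermat.Agent.S37x.Kron.H2_Kron

/-!
# S34 / W10 (C) COMP (helper22): (β-INT), the instance

`F = F_N = ↥(modularFunctionFieldFullC K N)`, `p0 ∈ {2, 3}`, `q ≠ p0` prime, `p0 * q ∣ N`,
`x` the Hauptmodul of level `p0` (`coordM K N h2 _`, `coordM K N h3 _`), `y = β x = x (Q ^ q)`.

* `H22KO q hq F` : the Kronecker order relation (KO) for the modular polynomial `h2kronPhi q`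
  at every valuation subring of `F` of residue characteristic `0` or `q` (the Newton polygon
  of `Φ_q`; delivered by the (KO) leaf);
* `h22_betaInt_two`, `h22_betaInt_three` : (β-INT) `y ∈ chart O x` and `y⁻¹ ∈ chart O x⁻¹`
  from (KO).
-/

set_option autoImplicit false
set_option linter.unusedSectionVars false
set_option linter.unusedVariables false
set_option linter.style.haveILetI false
set_option synthInstance.maxHeartbeats 400000
set_option maxHeartbeats 1000000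

open ModularCurve Polynomial

noncomputable section

namespace Fermat.Agent.S34x.Comp.H22

open Fermat.Agent.S18x.Spec.H26 Fermat.Agent.S18x.Qepo Fermat.Agent.S18x.IG.H29
  Fermat.Agent.S18x.IG.H28 Fermat.Agent.S37x.Kron.H2 Fermat.Agent.S28.Deg.H9

/-- **(KO)**: the Kronecker order relation for `Φ_q` at every valuation subring of `F` of
residue characteristic `0` or `q`. -/
def H22KO (q : ℕ) [NeZero q] (hq : q.Prime) (F : Type*) [Field F] : Prop :=
  ∀ W : ValuationSubring F, (∀ n : ℤ, ¬ (q : ℤ) ∣ n → W.valuation (n : F) = 1) →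
    ∀ u w : F, ev2 (h2kronPhi q hq) u w = 0 → 1 < W.valuation w →
      W.valuation u = W.valuation w ^ q ∨ W.valuation w = W.valuation u ^ q

section Abs

variable {F : Type*} [Field F]

/-- a root of `Φ_q(X; w)` is integral over every valuation subring containing `w` -/
theorem h22_kron_mem (q : ℕ) [NeZero q] (hq : q.Prime) (W : ValuationSubring F) (u w : F)
    (h : ev2 (h2kronPhi q hq) u w = 0) (hw : w ∈ W) : u ∈ W := by
  set evW : ℤ[X] →+* W := Polynomial.eval₂RingHom (Int.castRingHom W) ⟨w, hw⟩ with hevW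
  have hint : IsIntegral W u := by
    refine ⟨(h2kronPhi q hq).map evW, (h2kronPhi_monic q hq).map evW, ?_⟩
    rw [Polynomial.eval₂_map]
    have hcomp : (algebraMap W F).comp evW
        = Polynomial.eval₂RingHom (Int.castRingHom F) w := by
      apply Polynomial.ringHom_ext
      · intro n
        simp [hevW]
      · simp [hevW]
    rw [hcomp]
    exact h
  obtain ⟨y, hy⟩ := (IsIntegrallyClosed.isIntegral_iff (R := W) (K := F)).mp hint
  rw [← hy]
  exact y.2

theorem h22_val_int_eq_one [CharZero F] (q : ℕ) (O : Type*) [CommRing O] {K : Type*} [Field K]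
    [Algebra O K] [Algebra K F] [Algebra O F] [IsScalarTower O K F]
    (hOq : ∀ n : ℤ, ¬ (q : ℤ) ∣ n → ∃ c : O, algebraMap O K c = ((n : K))⁻¹)
    (W : ValuationSubring F) (hOW : ∀ c : O, algebraMap O F c ∈ W)
    (n : ℤ) (hn : ¬ (q : ℤ) ∣ n) : W.valuation (n : F) = 1 := by
  obtain ⟨c, hc⟩ := hOq n hn
  have h1 : algebraMap O F c = ((n : F))⁻¹ := by
    rw [IsScalarTower.algebraMap_apply O K F, hc, map_inv₀, map_intCast]
  have h2 : ((n : F))⁻¹ ∈ W := h1 ▸ hOW c
  have h3 : (n : F) ∈ W := intCast_mem W n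
  have hn0 : (n : F) ≠ 0 := by
    intro h0
    have hn' : n = 0 := by exact_mod_cast h0
    exact hn (hn' ▸ dvd_zero _)
  have e1 : W.valuation (n : F) ≤ 1 := (W.valuation_le_one_iff _).mpr h3
  have e2 : W.valuation ((n : F))⁻¹ ≤ 1 := (W.valuation_le_one_iff _).mpr h2
  rw [map_inv₀] at e2
  have hv0 : W.valuation (n : F) ≠ 0 := (W.valuation.ne_zero_iff).mpr hn0
  have e3 : 1 ≤ W.valuation (n : F) := by
    rwa [inv_le_one₀ (zero_lt_iff.mpr hv0)] at e2
  exact le_antisymm e1 e3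

theorem h22_not_dvd_of_prime_ne {q p0 : ℕ} (hq : q.Prime) (hp0 : p0.Prime) (hqp : q ≠ p0) :
    ¬ (q : ℤ) ∣ ((p0 : ℕ) : ℤ) := by
  intro h
  have h1 : q ∣ p0 := Int.natCast_dvd_natCast.mp h
  rcases (Nat.dvd_prime hp0).mp h1 with h2 | h2
  · exact hq.one_lt.ne' h2
  · exact hqp h2

theorem h22_inv_mem_iff (W : ValuationSubring F) {x : F} (hx : x ≠ 0) :
    x⁻¹ ∈ W ↔ 1 ≤ W.valuation x := by
  rw [← W.valuation_le_one_iff, map_inv₀,
    inv_le_one₀ (zero_lt_iff.mpr ((W.valuation.ne_zero_iff).mpr hx))]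

/-- the two halves of (β-INT) from the book-keeping at every valuation subring -/
theorem h22_betaInt_of_val (O : Type*) [CommRing O] [Algebra O F] (x y : F) (hx0 : x ≠ 0)
    (hy0 : y ≠ 0)
    (key : ∀ W : ValuationSubring F, (∀ c : O, algebraMap O F c ∈ W) →
      (W.valuation x ≤ 1 → W.valuation y ≤ 1) ∧ (1 ≤ W.valuation x → 1 ≤ W.valuation y)) :
    IsIntegral (Algebra.adjoin O {x}) y ∧ IsIntegral (Algebra.adjoin O {x⁻¹}) y⁻¹ := by
  constructor
  · refine h22_isIntegral_of_forall_valuationSubring O x y (fun W hOW hxW => ?_)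
    exact (W.valuation_le_one_iff _).mp ((key W hOW).1 ((W.valuation_le_one_iff _).mpr hxW))
  · refine h22_isIntegral_of_forall_valuationSubring O x⁻¹ y⁻¹ (fun W hOW hxW => ?_)
    exact (h22_inv_mem_iff W hy0).mpr ((key W hOW).2 ((h22_inv_mem_iff W hx0).mp hxW))

/-- **(β-INT), abstract, level 2.** -/
theorem h22_betaInt_abs_two [CharZero F] (O : Type*) [CommRing O] {K : Type*} [Field K]
    [Algebra O K] [Algebra K F] [Algebra O F] [IsScalarTower O K F]
    (q : ℕ) [NeZero q] (hq : q.Prime) (hq2 : q ≠ 2)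
    (hOq : ∀ n : ℤ, ¬ (q : ℤ) ∣ n → ∃ c : O, algebraMap O K c = ((n : K))⁻¹)
    (hKO : H22KO q hq F) (x y j j' jq j'q : F) (hx0 : x ≠ 0) (hy0 : y ≠ 0)
    (hj : j * x ^ 2 = (x + 256) ^ 3) (hj' : j' * x = (x + 16) ^ 3)
    (hjq : jq * y ^ 2 = (y + 256) ^ 3) (hj'q : j'q * y = (y + 16) ^ 3)
    (hΦ : ev2 (h2kronPhi q hq) jq j = 0) (hΦ' : ev2 (h2kronPhi q hq) j'q j' = 0) :
    IsIntegral (Algebra.adjoin O {x}) y ∧ IsIntegral (Algebra.adjoin O {x⁻¹}) y⁻¹ := by
  refine h22_betaInt_of_val O x y hx0 hy0 (fun W hOW => ?_)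
  have hvq := h22_val_int_eq_one (K := K) q O hOq W hOW
  have hv2 : W.valuation (2 : F) = 1 := by
    have := hvq ((2 : ℕ) : ℤ) (h22_not_dvd_of_prime_ne hq Nat.prime_two hq2)
    simpa using this
  exact h22_beta_val W.valuation 2 q le_rfl hq.pos hq2 x y j j' jq j'q
    (h22_cusp_two _ hv2 x j j' hj hj') (h22_cusp_two _ hv2 y jq j'q hjq hj'q)
    (fun h => (W.valuation_le_one_iff _).mpr
      (h22_kron_mem q hq W jq j hΦ ((W.valuation_le_one_iff _).mp h)))
    (hKO W hvq jq j hΦ) (hKO W hvq j'q j' hΦ')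

/-- **(β-INT), abstract, level 3.** -/
theorem h22_betaInt_abs_three [CharZero F] (O : Type*) [CommRing O] {K : Type*} [Field K]
    [Algebra O K] [Algebra K F] [Algebra O F] [IsScalarTower O K F]
    (q : ℕ) [NeZero q] (hq : q.Prime) (hq3 : q ≠ 3)
    (hOq : ∀ n : ℤ, ¬ (q : ℤ) ∣ n → ∃ c : O, algebraMap O K c = ((n : K))⁻¹)
    (hKO : H22KO q hq F) (x y j j' jq j'q : F) (hx0 : x ≠ 0) (hy0 : y ≠ 0)
    (hj : j * x ^ 3 = (x + 243) ^ 3 * (x + 27)) (hj' : j' * x = (x + 27) * (x + 3) ^ 3)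
    (hjq : jq * y ^ 3 = (y + 243) ^ 3 * (y + 27)) (hj'q : j'q * y = (y + 27) * (y + 3) ^ 3)
    (hΦ : ev2 (h2kronPhi q hq) jq j = 0) (hΦ' : ev2 (h2kronPhi q hq) j'q j' = 0) :
    IsIntegral (Algebra.adjoin O {x}) y ∧ IsIntegral (Algebra.adjoin O {x⁻¹}) y⁻¹ := by
  refine h22_betaInt_of_val O x y hx0 hy0 (fun W hOW => ?_)
  have hvq := h22_val_int_eq_one (K := K) q O hOq W hOW
  have hv3 : W.valuation (3 : F) = 1 := by
    have := hvq ((3 : ℕ) : ℤ) (h22_not_dvd_of_prime_ne hq Nat.prime_three hq3)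
    simpa using this
  exact h22_beta_val W.valuation 3 q (by norm_num) hq.pos hq3 x y j j' jq j'q
    (h22_cusp_three _ hv3 x j j' hj hj') (h22_cusp_three _ hv3 y jq j'q hjq hj'q)
    (fun h => (W.valuation_le_one_iff _).mpr
      (h22_kron_mem q hq W jq j hΦ ((W.valuation_le_one_iff _).mp h)))
    (hKO W hvq jq j hΦ) (hKO W hvq j'q j' hΦ')

end Abs

/-! ### The instance in `F_N` -/

section Inst

variable (K : Type) [Field K] [CharZero K] (O : ValuationSubring K) (N : ℕ) [NeZero N]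

/-- `β` maps `F_M` into `F_N` when `M * q ∣ N`. -/
theorem h22_beta_mem (M : ℕ) [NeZero M] (q : ℕ) [NeZero q] (hMqN : M * q ∣ N)
    (z : LaurentSeries K) (hz : z ∈ modularFunctionFieldFullC K M) :
    qExpand K q z ∈ modularFunctionFieldFullC K N := by
  haveI : NeZero (M * q) := ⟨Nat.mul_ne_zero (NeZero.ne M) (NeZero.ne q)⟩
  apply full_degeneracyC_le K hMqN
  apply full_degeneracyC_map_le K M q
  exact ⟨z, hz, rfl⟩

/-- `β x = x (Q ^ q)` as an element of `F_N`. -/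
def h22BetaCoord (q : ℕ) [NeZero q] (x₀ : LaurentSeries ℤ)
    (hmemq : qExpand K q (coeffMap (Int.castRingHom K) x₀) ∈ modularFunctionFieldFullC K N) :
    FM K N :=
  ⟨qExpand K q (coeffMap (Int.castRingHom K) x₀), hmemq⟩

theorem coe_h22BetaCoord (q : ℕ) [NeZero q] (x₀ : LaurentSeries ℤ)
    (hmemq : qExpand K q (coeffMap (Int.castRingHom K) x₀) ∈ modularFunctionFieldFullC K N) :
    ((h22BetaCoord K N q x₀ hmemq : FM K N) : LaurentSeries K)
      = qExpand K q (coeffMap (Int.castRingHom K) x₀) := rfl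

theorem h22BetaCoord_ne_zero (q : ℕ) [NeZero q] (x₀ : LaurentSeries ℤ)
    (hlead : x₀.coeff (-1) = 1)
    (hmemq : qExpand K q (coeffMap (Int.castRingHom K) x₀) ∈ modularFunctionFieldFullC K N) :
    h22BetaCoord K N q x₀ hmemq ≠ 0 := by
  intro h
  have h1 : qExpand K q (coeffMap (Int.castRingHom K) x₀) = 0 := congrArg Subtype.val h
  exact coeffMap_ne_zero (Int.castRingHom K) x₀ hlead
    ((map_eq_zero (qExpand K q)).mp h1)

variable [Algebra O (FM K N)] [IsScalarTower O K (FM K N)]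

/-- transport of an identity of Laurent series to `F_N` -/
theorem h22_ev2_coe (Φ : (ℤ[X])[X]) (u w : FM K N)
    (h : ev2 Φ (u : LaurentSeries K) (w : LaurentSeries K) = 0) : ev2 Φ u w = 0 := by
  have hinj : Function.Injective (algebraMap (FM K N) (LaurentSeries K)) :=
    (algebraMap (FM K N) (LaurentSeries K)).injective
  apply hinj
  rw [ev2_hom, map_zero]
  exact h

/-- **(β-INT) at level 2**: `y = x (Q ^ q)` is integral over `O[x]` and `y⁻¹` over `O[x⁻¹]`,
for the Hauptmodul `x` of level `2`, `q ≠ 2`, from (KO). -/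
theorem h22_betaInt_two (q : ℕ) [NeZero q] (hq : q.Prime) (hq2 : q ≠ 2) (h2qN : q * 2 ∣ N)
    (hOq : ∀ n : ℤ, ¬ (q : ℤ) ∣ n → ((n : K))⁻¹ ∈ O)
    (hKO : H22KO q hq (FM K N))
    (hmem : coeffMap (Int.castRingHom K) h2 ∈ modularFunctionFieldFullC K N)
    (hmemq : qExpand K q (coeffMap (Int.castRingHom K) h2) ∈ modularFunctionFieldFullC K N) :
    h22BetaCoord K N q h2 hmemq ∈ chart O (coordM K N h2 hmem) ∧
      (h22BetaCoord K N q h2 hmemq)⁻¹ ∈ chart O (coordM K N h2 hmem)⁻¹ := by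
  haveI : NeZero (q * 2) := ⟨Nat.mul_ne_zero (NeZero.ne q) (by norm_num)⟩
  have h2N : 2 ∣ N := (Dvd.intro_left q rfl).trans h2qN
  have hqN : q ∣ N := (Dvd.intro 2 rfl).trans h2qN
  set x : FM K N := coordM K N h2 hmem with hx
  set y : FM K N := h22BetaCoord K N q h2 hmemq with hy
  set j : FM K N := ⟨jqModC K, jqModC_mem_full K N⟩ with hj
  set j' : FM K N := ⟨qExpand K 2 (jqModC K), jqModCd_mem_full K N h2N⟩ with hj'
  set jq : FM K N := ⟨qExpand K q (jqModC K), jqModCd_mem_full K N hqN⟩ with hjq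
  set j'q : FM K N := ⟨qExpand K (q * 2) (jqModC K), jqModCd_mem_full K N h2qN⟩ with hj'q
  have e1 : j * x ^ 2 = (x + 256) ^ 3 := Subtype.ext (j_h2R K)
  have e2 : j' * x = (x + 16) ^ 3 := Subtype.ext (j2_h2R K)
  have e3 : jq * y ^ 2 = (y + 256) ^ 3 := by
    apply Subtype.ext
    have h := congrArg (qExpand K q) (j_h2R K)
    rw [map_mul, map_pow, map_pow, map_add, map_ofNat] at h
    exact h
  have e4 : j'q * y = (y + 16) ^ 3 := by
    apply Subtype.ext
    have h := congrArg (qExpand K q) (j2_h2R K)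
    rw [map_mul, map_pow, map_add, map_ofNat, qExpand_qExpand] at h
    exact h
  have e5 : ev2 (h2kronPhi q hq) jq j = 0 :=
    h22_ev2_coe K N _ jq j (h2kronPhi_rel₁ q hq K)
  have e6 : ev2 (h2kronPhi q hq) j'q j' = 0 := by
    apply h22_ev2_coe K N _ j'q j'
    have h := congrArg (qExpand K 2) (h2kronPhi_rel₁ q hq K)
    rw [ev2_hom, map_zero, qExpand_qExpand, qExpand_congr (Nat.mul_comm 2 q)] at h
    exact h
  exact h22_betaInt_abs_two (K := K) O q hq hq2
    (fun n hn => ⟨⟨((n : K))⁻¹, hOq n hn⟩, rfl⟩) hKO x y j j' jq j'q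
    (coordM_ne_zero K N h2 coeff_h2_neg_one hmem)
    (h22BetaCoord_ne_zero K N q h2 coeff_h2_neg_one hmemq) e1 e2 e3 e4 e5 e6

/-- **(β-INT) at level 3**: the same for the Hauptmodul of level `3`, `q ≠ 3`. -/
theorem h22_betaInt_three (q : ℕ) [NeZero q] (hq : q.Prime) (hq3 : q ≠ 3) (h3qN : q * 3 ∣ N)
    (hOq : ∀ n : ℤ, ¬ (q : ℤ) ∣ n → ((n : K))⁻¹ ∈ O)
    (hKO : H22KO q hq (FM K N))
    (hmem : coeffMap (Int.castRingHom K) h3 ∈ modularFunctionFieldFullC K N)
    (hmemq : qExpand K q (coeffMap (Int.castRingHom K) h3) ∈ modularFunctionFieldFullC K N) :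
    h22BetaCoord K N q h3 hmemq ∈ chart O (coordM K N h3 hmem) ∧
      (h22BetaCoord K N q h3 hmemq)⁻¹ ∈ chart O (coordM K N h3 hmem)⁻¹ := by
  haveI : NeZero (q * 3) := ⟨Nat.mul_ne_zero (NeZero.ne q) (by norm_num)⟩
  have h3N : 3 ∣ N := (Dvd.intro_left q rfl).trans h3qN
  have hqN : q ∣ N := (Dvd.intro 3 rfl).trans h3qN
  set x : FM K N := coordM K N h3 hmem with hx
  set y : FM K N := h22BetaCoord K N q h3 hmemq with hy
  set j : FM K N := ⟨jqModC K, jqModC_mem_full K N⟩ with hj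
  set j' : FM K N := ⟨qExpand K 3 (jqModC K), jqModCd_mem_full K N h3N⟩ with hj'
  set jq : FM K N := ⟨qExpand K q (jqModC K), jqModCd_mem_full K N hqN⟩ with hjq
  set j'q : FM K N := ⟨qExpand K (q * 3) (jqModC K), jqModCd_mem_full K N h3qN⟩ with hj'q
  have e1 : j * x ^ 3 = (x + 243) ^ 3 * (x + 27) := Subtype.ext (j_h3R K)
  have e2 : j' * x = (x + 27) * (x + 3) ^ 3 := Subtype.ext (j3_h3R K)
  have e3 : jq * y ^ 3 = (y + 243) ^ 3 * (y + 27) := by
    apply Subtype.ext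
    have h := congrArg (qExpand K q) (j_h3R K)
    rw [map_mul, map_pow, map_mul, map_pow, map_add, map_add, map_ofNat, map_ofNat] at h
    exact h
  have e4 : j'q * y = (y + 27) * (y + 3) ^ 3 := by
    apply Subtype.ext
    have h := congrArg (qExpand K q) (j3_h3R K)
    rw [map_mul, map_mul, map_pow, map_add, map_add, map_ofNat, map_ofNat,
      qExpand_qExpand] at h
    exact h
  have e5 : ev2 (h2kronPhi q hq) jq j = 0 :=
    h22_ev2_coe K N _ jq j (h2kronPhi_rel₁ q hq K)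
  have e6 : ev2 (h2kronPhi q hq) j'q j' = 0 := by
    apply h22_ev2_coe K N _ j'q j'
    have h := congrArg (qExpand K 3) (h2kronPhi_rel₁ q hq K)
    rw [ev2_hom, map_zero, qExpand_qExpand, qExpand_congr (Nat.mul_comm 3 q)] at h
    exact h
  exact h22_betaInt_abs_three (K := K) O q hq hq3
    (fun n hn => ⟨⟨((n : K))⁻¹, hOq n hn⟩, rfl⟩) hKO x y j j' jq j'q
    (coordM_ne_zero K N h3 coeff_h3_neg_one hmem)
    (h22BetaCoord_ne_zero K N q h3 coeff_h3_neg_one hmemq) e1 e2 e3 e4 e5 e6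

end Inst

end Fermat.Agent.S34x.Comp.H22
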