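import Mathlib
import Fermat.Agent.S34x.Comp.H22_BetaIntInst
import Fermat.Agent.S34x.Val.H6_Inst

/-!
# W10 (S34), stage (C) COMP: the concrete second degeneracy map `β` (helper11)

`K` a field, `M * q ∣ N`, `F_M = ↥(modularFunctionFieldFullC K M) ⊆ K((Q))`. The second
degeneracy map is `β : F_M →+* F_N`, `z(Q) ↦ z(Q ^ q)` (`qExpand K q` restricted); the first one
is the inclusion `α = h6incl M N hMN` of helper6's `H6_Inst`.

* `h11Beta K M N q hMqN : FM K M →+* FM K N`, `h11BetaAlg` (the same as a `K`-algebra map);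
* `h11Beta_coe` : the Laurent series of `β z` is `qExpand K q z` (= the hypothesis `hτ` of
  helper22's `h22_beta_chart` VERBATIM);
* `h11Beta_algebraMapK`, `h11Beta_algebraMap` : `β` fixes the constants of `K`, of `O`;
* `h11Beta_unifM`, `h11Beta_unif` : `β (unifM O M π) = unifM O N π = algebraMap O F_N π`;
* `h11Beta_j` : `β (jbFull K M) = jbdFull K N q hqN`; `h11Beta_jd` : `β j_d = j_(q d)`;
* `h11Beta_coord` : `β (coordM K M x₀ hmem) = h22BetaCoord K N q x₀ hmemq`;
* `h11Beta_incl` : `β` commutes with the inclusions of levels;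
* `h11Beta_injective`, `h11Beta_eq_zero_iff`.
-/

set_option autoImplicit false
set_option linter.unusedSectionVars false
set_option linter.unusedVariables false
set_option linter.style.haveILetI false

open ModularCurve

noncomputable section

namespace Fermat.Agent.S34x.Comp.H11B

open Fermat.Agent.S18x.Qepo Fermat.Agent.S18x.Dict.H20 Fermat.Agent.S18x.IG.H29
  Fermat.Agent.S28.Asm Fermat.Agent.S34x.Comp.H22 Fermat.Agent.S34x.Val.H6

section Def

variable (K : Type) [Field K] (M N : ℕ) [NeZero M] [NeZero N] (q : ℕ) [NeZero q]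
  (hMqN : M * q ∣ N)

include hMqN in
/-- `z (Q ^ q) ∈ F_N` for `z ∈ F_M`, `M * q ∣ N` (no hypothesis on the characteristic). -/
theorem h11_beta_mem (z : LaurentSeries K) (hz : z ∈ modularFunctionFieldFullC K M) :
    qExpand K q z ∈ modularFunctionFieldFullC K N := by
  haveI : NeZero (M * q) := ⟨Nat.mul_ne_zero (NeZero.ne M) (NeZero.ne q)⟩
  apply full_degeneracyC_le K hMqN
  apply full_degeneracyC_map_le K M q
  exact ⟨z, hz, rfl⟩

/-- **The second degeneracy map** `β : F_M →+* F_N`, `z (Q) ↦ z (Q ^ q)`. -/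
def h11Beta : FM K M →+* FM K N where
  toFun z := ⟨qExpand K q (z : LaurentSeries K), h11_beta_mem K M N q hMqN _ z.2⟩
  map_one' := Subtype.ext (map_one (qExpand K q))
  map_mul' a b := Subtype.ext (map_mul (qExpand K q) _ _)
  map_zero' := Subtype.ext (map_zero (qExpand K q))
  map_add' a b := Subtype.ext (map_add (qExpand K q) _ _)

/-- The Laurent series of `β z` (the hypothesis `hτ` of `h22_beta_chart`). -/
theorem h11Beta_coe (z : FM K M) :
    ((h11Beta K M N q hMqN z : FM K N) : LaurentSeries K)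
      = qExpand K q (z : LaurentSeries K) :=
  Subtype.coe_mk (qExpand K q (z : LaurentSeries K)) (h11_beta_mem K M N q hMqN _ z.2)

theorem h11Beta_mk (z : LaurentSeries K) (hz : z ∈ modularFunctionFieldFullC K M)
    (hzq : qExpand K q z ∈ modularFunctionFieldFullC K N) :
    h11Beta K M N q hMqN (⟨z, hz⟩ : FM K M) = (⟨qExpand K q z, hzq⟩ : FM K N) :=
  Subtype.ext (h11Beta_coe K M N q hMqN ⟨z, hz⟩)

theorem h11Beta_injective : Function.Injective (h11Beta K M N q hMqN) :=
  (h11Beta K M N q hMqN).injective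

theorem h11Beta_eq_zero_iff (z : FM K M) : h11Beta K M N q hMqN z = 0 ↔ z = 0 :=
  map_eq_zero (h11Beta K M N q hMqN)

/-- `β` fixes the constants of `K`. -/
theorem h11Beta_algebraMapK (c : K) :
    h11Beta K M N q hMqN (algebraMap K (FM K M) c) = algebraMap K (FM K N) c := by
  apply Subtype.ext
  rw [h11Beta_coe]
  show qExpand K q (algebraMap K (LaurentSeries K) c) = algebraMap K (LaurentSeries K) c
  rw [algebraMap_laurentSeries_eq_single, qExpand_single, mul_zero]

/-- `β` as a map of `K`-algebras. -/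
def h11BetaAlg : FM K M →ₐ[K] FM K N where
  __ := h11Beta K M N q hMqN
  commutes' c := h11Beta_algebraMapK K M N q hMqN c

theorem h11BetaAlg_apply (z : FM K M) :
    h11BetaAlg K M N q hMqN z = h11Beta K M N q hMqN z := rfl

/-- `β j = j_q`. -/
theorem h11Beta_j (hqN : q ∣ N) :
    h11Beta K M N q hMqN (jbFull K M) = jbdFull K N q hqN :=
  Subtype.ext (h11Beta_coe K M N q hMqN (jbFull K M))

/-- `β j_d = j_(q d)`. -/
theorem h11Beta_jd (d : ℕ) [NeZero d] (hdM : d ∣ M) [NeZero (q * d)] (hqdN : q * d ∣ N) :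
    h11Beta K M N q hMqN (jbdFull K M d hdM) = jbdFull K N (q * d) hqdN := by
  apply Subtype.ext
  rw [h11Beta_coe]
  show qExpand K q (qExpand K d (jqModC K)) = qExpand K (q * d) (jqModC K)
  exact qExpand_qExpand d q (jqModC K)

/-- `β x = x (Q ^ q)` for a coordinate with integral `q`-expansion. -/
theorem h11Beta_coord (x₀ : LaurentSeries ℤ)
    (hmem : coeffMap (Int.castRingHom K) x₀ ∈ modularFunctionFieldFullC K M)
    (hmemq : qExpand K q (coeffMap (Int.castRingHom K) x₀) ∈ modularFunctionFieldFullC K N) :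
    h11Beta K M N q hMqN (coordM K M x₀ hmem) = h22BetaCoord K N q x₀ hmemq :=
  Subtype.ext (h11Beta_coe K M N q hMqN (coordM K M x₀ hmem))

include hMqN in
/-- the membership `hmemq` of `h22BetaCoord` from the one of the coordinate at level `M` -/
theorem h11_coord_memq (x₀ : LaurentSeries ℤ)
    (hmem : coeffMap (Int.castRingHom K) x₀ ∈ modularFunctionFieldFullC K M) :
    qExpand K q (coeffMap (Int.castRingHom K) x₀) ∈ modularFunctionFieldFullC K N :=
  h11_beta_mem K M N q hMqN _ hmem

theorem h11Beta_coord' (x₀ : LaurentSeries ℤ)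
    (hmem : coeffMap (Int.castRingHom K) x₀ ∈ modularFunctionFieldFullC K M) :
    h11Beta K M N q hMqN (coordM K M x₀ hmem)
      = h22BetaCoord K N q x₀ (h11_coord_memq K M N q hMqN x₀ hmem) :=
  h11Beta_coord K M N q hMqN x₀ hmem _

/-- `β` commutes with the inclusions of levels. -/
theorem h11Beta_incl (M' N' : ℕ) [NeZero M'] [NeZero N'] (hM : M ∣ M') (hN : N ∣ N')
    (hMqN' : M' * q ∣ N') (z : FM K M) :
    h11Beta K M' N' q hMqN' (h6incl M M' hM z) = h6incl N N' hN (h11Beta K M N q hMqN z) := by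
  apply Subtype.ext
  rw [h11Beta_coe, h6incl_coe, h6incl_coe, h11Beta_coe]

end Def

section Base

variable (K : Type) [Field K] (O : ValuationSubring K) (M N : ℕ) [NeZero M] [NeZero N]
  (q : ℕ) [NeZero q] (hMqN : M * q ∣ N)

/-- `β (unifM O M π) = unifM O N π`. -/
theorem h11Beta_unifM (π : O) :
    h11Beta K M N q hMqN (unifM O M π) = unifM O N π :=
  h11Beta_algebraMapK K M N q hMqN (π : K)

variable [Algebra O (FM K M)] [IsScalarTower O K (FM K M)]
  [Algebra O (FM K N)] [IsScalarTower O K (FM K N)]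

/-- `β` fixes the constants of `O` (`hβO`). -/
theorem h11Beta_algebraMap (c : O) :
    h11Beta K M N q hMqN (algebraMap O (FM K M) c) = algebraMap O (FM K N) c := by
  rw [IsScalarTower.algebraMap_apply O K (FM K M), IsScalarTower.algebraMap_apply O K (FM K N)]
  exact h11Beta_algebraMapK K M N q hMqN _

/-- `β (unifM O M π) = algebraMap O F_N π` (the spelling of `h6incl_unifM`). -/
theorem h11Beta_unif (π : O) :
    h11Beta K M N q hMqN (unifM O M π) = algebraMap O (FM K N) π := by
  rw [h11Beta_unifM, IsScalarTower.algebraMap_apply O K (FM K N)]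
  rfl

/-- `β` as a map of `O`-algebras. -/
def h11BetaAlgO : FM K M →ₐ[O] FM K N where
  __ := h11Beta K M N q hMqN
  commutes' c := h11Beta_algebraMap K O M N q hMqN c

theorem h11BetaAlgO_apply (z : FM K M) :
    h11BetaAlgO K O M N q hMqN z = h11Beta K M N q hMqN z := rfl

end Base

end Fermat.Agent.S34x.Comp.H11B
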