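import Mathlib

/-!
# W10 / S34, stage (C), leaf (beta-VAL), field-theoretic core (helper13)

Mathlib only, no characteristic hypothesis.

* `h13_not_pow_of_transcendental` : a transcendental `t` is not a `q`-th power in `k(t)`.
* `h13_relfinrank_pow` : `[k(θ) : k(θ^q)] = q` for `θ` transcendental, `q` prime.
* `h13_surjective_of_degree` : **(FT)** `a b : κ →ₐ[k] L`, `J ∈ κ` transcendental over `k`,
  `κ` finite over `k(J)`, `(b J)^q = a J`, `L = a(κ)[b J]`  ⟹  `b` is surjective.
-/

set_option autoImplicit false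

open IntermediateField Polynomial

namespace Fermat.Agent.S34x.Comp.H13

section

variable {k L : Type*} [Field k] [Field L] [Algebra k L]

theorem h13_not_pow_of_transcendental (t : L) (ht : Transcendental k t) (q : ℕ) (hq : 2 ≤ q)
    (b : L) (hb : b ∈ k⟮t⟯) : b ^ q ≠ t := by
  intro h
  obtain ⟨r, s, hrs⟩ := (mem_adjoin_simple_iff k b).mp hb
  have ht0 : t ≠ 0 := fun h0 => ht (h0 ▸ isAlgebraic_zero)
  have hq0 : q ≠ 0 := by omega
  by_cases hs : aeval t s = 0
  · rw [hrs, hs, div_zero, zero_pow hq0] at h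
    exact ht0 h.symm
  · have hs0 : s ≠ 0 := fun h0 => hs (by rw [h0, map_zero])
    have e : aeval t (r ^ q) = aeval t (X * s ^ q) := by
      rw [map_pow, map_mul, aeval_X, map_pow]
      rw [hrs, div_pow] at h
      have hsq : aeval t s ^ q ≠ 0 := pow_ne_zero _ hs
      rw [div_eq_iff hsq] at h
      exact h
    have inj : Function.Injective (aeval t : k[X] → L) := transcendental_iff_injective.mp ht
    have e2 : r ^ q = X * s ^ q := inj e
    have hr0 : r ≠ 0 := by
      intro h0
      rw [h0, zero_pow hq0] at e2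
      exact (mul_ne_zero X_ne_zero (pow_ne_zero _ hs0)) e2.symm
    have d := congrArg natDegree e2
    rw [natDegree_pow, natDegree_mul X_ne_zero (pow_ne_zero _ hs0), natDegree_X,
      natDegree_pow] at d
    have h1 : q ∣ 1 + q * s.natDegree := by
      rw [← d]; exact dvd_mul_right _ _
    have h2 : q ∣ 1 := (Nat.dvd_add_left (dvd_mul_right q s.natDegree)).mp h1
    have := Nat.le_of_dvd one_pos h2
    omega

theorem h13_relfinrank_pow (θ : L) (hθ : Transcendental k θ) (q : ℕ) (hq : q.Prime) :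
    relfinrank k⟮θ ^ q⟯ k⟮θ⟯ = q := by
  have hle : k⟮θ ^ q⟯ ≤ k⟮θ⟯ :=
    adjoin_simple_le_iff.mpr (pow_mem (mem_adjoin_simple_self k θ) q)
  rw [relfinrank_eq_finrank_of_le hle]
  have hext : extendScalars hle = (k⟮θ ^ q⟯)⟮θ⟯ := extendScalars_adjoin hle
  rw [hext]
  have htq : Transcendental k (θ ^ q) := hθ.pow hq.pos
  let t : k⟮θ ^ q⟯ := ⟨θ ^ q, mem_adjoin_simple_self k _⟩
  have hirr : Irreducible (X ^ q - C t : (k⟮θ ^ q⟯)[X]) := by
    rw [X_pow_sub_C_irreducible_iff_of_prime hq]
    intro b hb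
    apply h13_not_pow_of_transcendental (θ ^ q) htq q hq.two_le (b : L) b.2
    have := congrArg Subtype.val hb
    simpa using this
  have hroot : aeval θ (X ^ q - C t : (k⟮θ ^ q⟯)[X]) = 0 := by
    rw [map_sub, map_pow, aeval_X, aeval_C]
    show θ ^ q - θ ^ q = 0
    exact sub_self _
  have hmonic : (X ^ q - C t : (k⟮θ ^ q⟯)[X]).Monic := monic_X_pow_sub_C t hq.ne_zero
  have hmin : minpoly (k⟮θ ^ q⟯) θ = X ^ q - C t :=
    (minpoly.eq_of_irreducible_of_monic hirr hroot hmonic).symm
  have hint : IsIntegral (k⟮θ ^ q⟯) θ := ⟨_, hmonic, hroot⟩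
  rw [adjoin.finrank hint, hmin, natDegree_X_pow_sub_C]


/-- **(FT)** -/
theorem h13_surjective_of_degree {κ : Type*} [Field κ] [Algebra k κ]
    (a b : κ →ₐ[k] L) (J : κ) (hJ : Transcendental k J)
    [hfin : FiniteDimensional k⟮J⟯ κ] (q : ℕ) (hq : q.Prime)
    (hθ : (b J) ^ q = a J)
    (hgen : ∀ z : L, ∃ p : κ[X], z = p.eval₂ (a : κ →+* L) (b J)) :
    Function.Surjective b := by
  classical
  set θ : L := b J with hθdef
  -- θ transcendental
  have hθt : Transcendental k θ := by
    rw [transcendental_iff_injective] at hJ ⊢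
    have : (aeval θ : k[X] → L) = b ∘ (aeval J : k[X] → κ) := by
      funext p
      simp only [Function.comp_apply, hθdef]
      exact (aeval_algHom_apply b J p)
    rw [this]
    exact b.injective.comp hJ
  set P : IntermediateField k L := k⟮θ ^ q⟯ with hP
  set Q : IntermediateField k L := k⟮θ⟯ with hQ
  set A' : IntermediateField k L := a.fieldRange with hA'
  set E : IntermediateField k L := b.fieldRange with hE
  have hPQ : P ≤ Q := adjoin_simple_le_iff.mpr (pow_mem (mem_adjoin_simple_self k θ) q)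
  have hQE : Q ≤ E := adjoin_simple_le_iff.mpr ⟨J, rfl⟩
  have hPA : P ≤ A' := adjoin_simple_le_iff.mpr ⟨J, hθ.symm⟩
  -- maps
  have hQmap : Q = (k⟮J⟯).map b := by
    rw [hQ, adjoin_map, Set.image_singleton]
  have hEmap : E = (⊤ : IntermediateField k κ).map b := AlgHom.fieldRange_eq_map b
  have hPmap : P = (k⟮J⟯).map a := by
    rw [hP, adjoin_map, Set.image_singleton, hθ]
  have hAmap : A' = (⊤ : IntermediateField k κ).map a := AlgHom.fieldRange_eq_map a
  set d : ℕ := Module.finrank k⟮J⟯ κ with hd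
  have hd0 : 0 < d := Module.finrank_pos
  have f1 : relfinrank P Q = q := h13_relfinrank_pow θ hθt q hq
  have f2 : relfinrank Q E = d := by
    rw [hQmap, hEmap, relfinrank_map_map, relfinrank_top_right]
  have f3 : relfinrank P A' = d := by
    rw [hPmap, hAmap, relfinrank_map_map, relfinrank_top_right]
  -- L = A'(θ)
  have hroot : aeval θ (X ^ q - C (⟨a J, ⟨J, rfl⟩⟩ : A') : (A')[X]) = 0 := by
    rw [map_sub, map_pow, aeval_X, aeval_C]
    show θ ^ q - a J = 0
    rw [hθ]; exact sub_self _
  have hmonic : (X ^ q - C (⟨a J, ⟨J, rfl⟩⟩ : A') : (A')[X]).Monic :=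
    monic_X_pow_sub_C _ hq.ne_zero
  have hint : IsIntegral A' θ := ⟨_, hmonic, hroot⟩
  have htop : (A')⟮θ⟯ = ⊤ := by
    rw [eq_top_iff]
    have key : ∀ p : κ[X], p.eval₂ (a : κ →+* L) θ ∈ (A')⟮θ⟯ := by
      intro p
      induction p using Polynomial.induction_on' with
      | add p₁ p₂ h₁ h₂ =>
        rw [eval₂_add]
        exact add_mem h₁ h₂
      | monomial n c =>
        rw [eval₂_monomial]
        refine mul_mem ?_ (pow_mem (mem_adjoin_simple_self A' θ) n)
        have : ((a : κ →+* L) c) = algebraMap A' L ⟨a c, ⟨c, rfl⟩⟩ := rfl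
        rw [this]
        exact IntermediateField.algebraMap_mem _ _
    intro z _
    obtain ⟨p, rfl⟩ := hgen z
    exact key p
  have f4 : Module.finrank A' L ≤ q := by
    have h1 : Module.finrank A' (A')⟮θ⟯ = (minpoly A' θ).natDegree := adjoin.finrank hint
    have h2 : (minpoly A' θ).natDegree ≤ q := by
      have hdvd : minpoly A' θ ∣ (X ^ q - C (⟨a J, ⟨J, rfl⟩⟩ : A') : (A')[X]) :=
        minpoly.dvd A' θ hroot
      have := natDegree_le_of_dvd hdvd hmonic.ne_zero
      rwa [natDegree_X_pow_sub_C] at this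
    rw [htop, finrank_top'] at h1
    omega
  have hfinAL : FiniteDimensional A' L := by
    have : FiniteDimensional A' (A')⟮θ⟯ := adjoin.finiteDimensional hint
    rw [htop] at this
    exact (topEquiv (F := A') (E := L)).toLinearEquiv.finiteDimensional
  have f4' : 0 < Module.finrank A' L := Module.finrank_pos
  have f5 : relfinrank A' ⊤ = Module.finrank A' L := relfinrank_top_right A'
  -- chains
  have c1 : relfinrank P A' * relfinrank A' ⊤ = relfinrank P ⊤ :=
    relfinrank_mul_relfinrank hPA le_top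
  have c2 : relfinrank P Q * relfinrank Q E = relfinrank P E :=
    relfinrank_mul_relfinrank hPQ hQE
  have c3 : relfinrank P E * relfinrank E ⊤ = relfinrank P ⊤ :=
    relfinrank_mul_relfinrank (hPQ.trans hQE) le_top
  rw [f3, f5] at c1
  rw [f1, f2] at c2
  rw [← c2, ← c1] at c3
  -- q * d * x = d * finrank ≤ d * q
  have hx : relfinrank E ⊤ = 1 := by
    have h1 : q * d * relfinrank E ⊤ ≤ q * d * 1 := by
      rw [c3, mul_one, mul_comm q d]
      exact Nat.mul_le_mul_left d f4
    have h2 : 0 < q * d := Nat.mul_pos hq.pos hd0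
    have h3 : relfinrank E ⊤ ≤ 1 := Nat.le_of_mul_le_mul_left h1 h2
    have h4 : relfinrank E ⊤ ≠ 0 := by
      intro h0
      rw [h0, mul_zero] at c3
      have : 0 < d * Module.finrank A' L := Nat.mul_pos hd0 f4'
      omega
    omega
  have hEtop : E = ⊤ := top_le_iff.mp (relfinrank_eq_one_iff.mp hx)
  intro z
  have hz : z ∈ E := hEtop ▸ mem_top
  exact hz

end

end Fermat.Agent.S34x.Comp.H13
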