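import Mathlib
import Fermat.Agent.S34x.Comp.H13_FieldDeg

/-!
# W10 / S34, stage (C), leaf (beta-VAL): the residue-field form (helper13)

Mathlib only.  Local rings `O`, `R₁`, `R₀` (in the application: the DVR `O` of the number
field, the Gauss valuation ring `V_M` of `F_M` and the second valuation ring `V₀` of
`V_M[j_q] ⊆ F_(Mq)`), local homomorphisms `ι : O → R₁`, `a, b : R₁ → R₀`
(`a` = inclusion, `b` = `Q ↦ Q^q`).

* `h13_residue_eval₂`     : residue of a polynomial value;
* `h13_transc_of_unit`    : `P(j)` unit for all `P ∈ O[X] ∖ π O[X]` ⟹ `j̄` transcendental;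
* `h13_unit_of_transc`    : the converse;
* `h13_res_surj`          : **(V2), local-ring form**: if `b(j)^q ≡ a(j)`, `R₀` is generated
  over `a(R₁)` by `b(j)` modulo the maximal ideal, and `R₁` is spanned by finitely many
  elements over the localisation of `O[j]` at `(π)`, then every element of `R₀` is congruent
  to an element of `b(R₁)` modulo the maximal ideal.
-/

set_option autoImplicit false
set_option linter.style.haveILetI false

open Polynomial IsLocalRing

namespace Fermat.Agent.S34x.Comp.H13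

section Res

variable {O R : Type*} [CommRing O] [IsLocalRing O] [CommRing R] [IsLocalRing R]

/-- residue of a polynomial value. -/
theorem h13_residue_eval₂ (ι : O →+* R) [IsLocalHom ι] (x : R) (P : O[X]) :
    residue R (P.eval₂ ι x)
      = (P.map (residue O)).eval₂ (ResidueField.map ι) (residue R x) := by
  rw [Polynomial.eval₂_map, Polynomial.hom_eval₂]
  rfl

/-- a polynomial over `O` which vanishes modulo the maximal ideal `(π)` is divisible by `π`. -/
theorem h13_C_dvd_of_map_eq_zero (π : O) (hOloc : ∀ c : O, IsUnit c ∨ π ∣ c) (P : O[X])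
    (h : P.map (residue O) = 0) : C π ∣ P := by
  rw [Polynomial.C_dvd_iff_dvd_coeff]
  intro i
  have h0 : residue O (P.coeff i) = 0 := by rw [← Polynomial.coeff_map, h, coeff_zero]
  rcases hOloc (P.coeff i) with hu | hd
  · exact absurd h0 ((residue_ne_zero_iff_isUnit _).mpr hu)
  · exact hd

/-- `P(j)` is a unit for all `P ∈ O[X] ∖ π O[X]` ⟹ the residue of `j` is transcendental. -/
theorem h13_transc_of_unit (ι : O →+* R) [IsLocalHom ι] (π : O) (hπ : ¬ IsUnit π) (j : R)
    (hunit : ∀ P : O[X], ¬ C π ∣ P → IsUnit (P.eval₂ ι j)) :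
    ∀ Q : (ResidueField O)[X], Q ≠ 0 → Q.eval₂ (ResidueField.map ι) (residue R j) ≠ 0 := by
  intro Q hQ h0
  obtain ⟨P, rfl⟩ := Polynomial.map_surjective (residue O) (residue_surjective) Q
  have hP : ¬ C π ∣ P := by
    rintro ⟨P', rfl⟩
    apply hQ
    have hπ0 : residue O π = 0 := (residue_eq_zero_iff π).mpr ((mem_maximalIdeal π).mpr hπ)
    rw [Polynomial.map_mul, Polynomial.map_C, hπ0, C_0, zero_mul]
  have hu := hunit P hP
  rw [← h13_residue_eval₂] at h0
  exact (residue_ne_zero_iff_isUnit _).mpr hu h0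

/-- the residue of `x` is transcendental ⟹ `P(x)` is a unit for all `P ∈ O[X] ∖ π O[X]`. -/
theorem h13_unit_of_transc (ι : O →+* R) [IsLocalHom ι] (π : O)
    (hOloc : ∀ c : O, IsUnit c ∨ π ∣ c) (x : R)
    (htr : ∀ Q : (ResidueField O)[X], Q ≠ 0 →
      Q.eval₂ (ResidueField.map ι) (residue R x) ≠ 0) :
    ∀ P : O[X], ¬ C π ∣ P → IsUnit (P.eval₂ ι x) := by
  intro P hP
  rw [← residue_ne_zero_iff_isUnit, h13_residue_eval₂]
  exact htr _ (fun h => hP (h13_C_dvd_of_map_eq_zero π hOloc P h))

end Res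

section Surj

open IntermediateField

variable {O R₁ R₀ : Type*} [CommRing O] [IsLocalRing O] [CommRing R₁] [IsLocalRing R₁]
  [CommRing R₀] [IsLocalRing R₀]

/-- **(V2), local-ring form.** -/
theorem h13_res_surj (ι : O →+* R₁) [IsLocalHom ι] (a b : R₁ →+* R₀) [IsLocalHom a]
    [IsLocalHom b] (hab : ∀ c : O, a (ι c) = b (ι c))
    (π : O) (hπ : ¬ IsUnit π) (j : R₁)
    (hunit : ∀ P : O[X], ¬ C π ∣ P → IsUnit (P.eval₂ ι j))
    (q : ℕ) (hq : q.Prime)
    (hkron : b j ^ q - a j ∈ maximalIdeal R₀)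
    (hgen : ∀ z : R₀, ∃ p : R₁[X], z - p.eval₂ a (b j) ∈ maximalIdeal R₀)
    (hspan : ∃ (n : ℕ) (y : Fin n → R₁), ∀ w : R₁, ∃ c : Fin n → R₁,
        (∀ i, ∃ A B : O[X], ¬ C π ∣ B ∧ c i * B.eval₂ ι j = A.eval₂ ι j) ∧
        w = ∑ i, c i * y i) :
    ∀ v : R₀, ∃ y : R₁, v - b y ∈ maximalIdeal R₀ := by
  classical
  letI algκ : Algebra (ResidueField O) (ResidueField R₁) := (ResidueField.map ι).toAlgebra
  letI algL : Algebra (ResidueField O) (ResidueField R₀) :=
    ((ResidueField.map a).comp (ResidueField.map ι)).toAlgebra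
  let a' : ResidueField R₁ →ₐ[ResidueField O] ResidueField R₀ :=
    { ResidueField.map a with commutes' := fun c => rfl }
  have hb_comm : ∀ c : ResidueField O,
      ResidueField.map b (algebraMap _ (ResidueField R₁) c)
        = algebraMap _ (ResidueField R₀) c := by
    intro c
    obtain ⟨c₀, rfl⟩ := residue_surjective c
    show residue R₀ (b (ι c₀)) = residue R₀ (a (ι c₀))
    rw [hab]
  let b' : ResidueField R₁ →ₐ[ResidueField O] ResidueField R₀ :=
    { ResidueField.map b with commutes' := hb_comm }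
  set J : ResidueField R₁ := residue R₁ j with hJdef
  have hJ : Transcendental (ResidueField O) J := by
    rw [transcendental_iff]
    intro Q hQ0
    by_contra hQ
    exact h13_transc_of_unit ι π hπ j hunit Q hQ hQ0
  obtain ⟨n, y, hy⟩ := hspan
  -- the residues of the coefficients lie in `k(J)`
  have hc : ∀ c : R₁, (∃ A B : O[X], ¬ C π ∣ B ∧ c * B.eval₂ ι j = A.eval₂ ι j) →
      residue R₁ c ∈ (ResidueField O)⟮J⟯ := by
    rintro c ⟨A, B, hB, hAB⟩
    have h1 := congrArg (residue R₁) hAB
    rw [map_mul, h13_residue_eval₂, h13_residue_eval₂] at h1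
    have hBu := hunit B hB
    have hB0 : (B.map (residue O)).eval₂ (ResidueField.map ι) J ≠ 0 := by
      rw [← h13_residue_eval₂]
      exact (residue_ne_zero_iff_isUnit _).mpr hBu
    rw [mem_adjoin_simple_iff]
    refine ⟨A.map (residue O), B.map (residue O), ?_⟩
    have hB0' : aeval J (B.map (residue O)) ≠ 0 := hB0
    rw [eq_div_iff hB0']
    exact h1
  haveI hfin : FiniteDimensional (ResidueField O)⟮J⟯ (ResidueField R₁) := by
    refine Module.Finite.of_surjective
      (Fintype.linearCombination (ResidueField O)⟮J⟯ (fun i => residue R₁ (y i))) ?_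
    intro w
    obtain ⟨w₀, rfl⟩ := residue_surjective w
    obtain ⟨c, hc', hw⟩ := hy w₀
    refine ⟨fun i => ⟨residue R₁ (c i), hc _ (hc' i)⟩, ?_⟩
    rw [Fintype.linearCombination_apply, hw, map_sum]
    refine Finset.sum_congr rfl (fun i _ => ?_)
    rw [map_mul]
    rfl
  have hgen' : ∀ z : ResidueField R₀, ∃ p : (ResidueField R₁)[X],
      z = p.eval₂ (a' : ResidueField R₁ →+* ResidueField R₀) (b' J) := by
    intro z
    obtain ⟨z₀, rfl⟩ := residue_surjective z
    obtain ⟨p, hp⟩ := hgen z₀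
    refine ⟨p.map (residue R₁), ?_⟩
    have h1 : residue R₀ (z₀ - p.eval₂ a (b j)) = 0 := (residue_eq_zero_iff _).mpr hp
    rw [map_sub, sub_eq_zero, h13_residue_eval₂] at h1
    exact h1
  have hθ : (b' J) ^ q = a' J := by
    have h1 : residue R₀ (b j ^ q - a j) = 0 := (residue_eq_zero_iff _).mpr hkron
    rw [map_sub, map_pow, sub_eq_zero] at h1
    exact h1
  have hsurj := h13_surjective_of_degree a' b' J hJ q hq hθ hgen'
  intro v
  obtain ⟨y', hy'⟩ := hsurj (residue R₀ v)
  obtain ⟨y, rfl⟩ := residue_surjective y'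
  refine ⟨y, ?_⟩
  rw [← residue_eq_zero_iff, map_sub, sub_eq_zero]
  exact hy'.symm

end Surj

section Root

variable {O R₁ R₀ : Type*} [CommRing O] [IsLocalRing O] [CommRing R₁] [IsLocalRing R₁]
  [CommRing R₀] [IsLocalRing R₀]

/-- if `x^q ≡ a(j)` modulo the maximal ideal and the residue of `j` is transcendental, then the
residue of `x` is transcendental. -/
theorem h13_transc_root (ι : O →+* R₁) [IsLocalHom ι] (a : R₁ →+* R₀) [IsLocalHom a]
    (ι₀ : O →+* R₀) [IsLocalHom ι₀] (hι : ∀ c : O, a (ι c) = ι₀ c)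
    (j : R₁) (x : R₀) (q : ℕ) (hkron : x ^ q - a j ∈ maximalIdeal R₀)
    (htr : ∀ Q : (ResidueField O)[X], Q ≠ 0 →
      Q.eval₂ (ResidueField.map ι) (residue R₁ j) ≠ 0) :
    ∀ Q : (ResidueField O)[X], Q ≠ 0 →
      Q.eval₂ (ResidueField.map ι₀) (residue R₀ x) ≠ 0 := by
  letI algκ : Algebra (ResidueField O) (ResidueField R₁) := (ResidueField.map ι).toAlgebra
  letI algL : Algebra (ResidueField O) (ResidueField R₀) := (ResidueField.map ι₀).toAlgebra
  have hJ : Transcendental (ResidueField O) (residue R₁ j) := by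
    rw [transcendental_iff]
    intro Q hQ0
    by_contra hQ
    exact htr Q hQ hQ0
  have ha_comm : ∀ c : ResidueField O,
      ResidueField.map a (algebraMap _ (ResidueField R₁) c)
        = algebraMap _ (ResidueField R₀) c := by
    intro c
    obtain ⟨c₀, rfl⟩ := residue_surjective c
    show residue R₀ (a (ι c₀)) = residue R₀ (ι₀ c₀)
    rw [hι]
  let a' : ResidueField R₁ →ₐ[ResidueField O] ResidueField R₀ :=
    { ResidueField.map a with commutes' := ha_comm }
  have haJ : Transcendental (ResidueField O) (a' (residue R₁ j)) := fun h =>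
    hJ ((isAlgebraic_algHom_iff a' a'.injective).mp h)
  have hθ : (residue R₀ x) ^ q = a' (residue R₁ j) := by
    have h1 : residue R₀ (x ^ q - a j) = 0 := (residue_eq_zero_iff _).mpr hkron
    rw [map_sub, map_pow, sub_eq_zero] at h1
    exact h1
  have hx : Transcendental (ResidueField O) (residue R₀ x) := by
    intro halg
    apply haJ
    rw [← hθ]
    exact halg.pow q
  intro Q hQ h0
  exact hQ (transcendental_iff.mp hx Q h0)

end Root

end Fermat.Agent.S34x.Comp.H13
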