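import Mathlib
import Fermat.Agent.S34x.Comp.H13_ResSurj

/-!
# W10 / S34, stage (C), leaf (beta-VAL), abstract form (helper13)

Mathlib only.  `F₁ = F_M`, `F = F_(Mq)`, `α` = inclusion, `β` = `qExpand q`,
`V₁ = gaussValM O M`, `V₀` = the second valuation ring of `V_M[j_q]` (helper2's `c₂.val`).

* `h13_beta_mem`        : **(V1 ⟹)** `β(V₁) ⊆ V₀` (integrality over the Gauss ring of `K(j)`);
* `h13_mem_of_beta_mem` : **(V1 ⟸)** `β y ∈ V₀ → y ∈ V₁` (normal form `y = π^e u`);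
* `h13_restr`, `h13_restr_local`, `h13_iota`, `h13_iota_local` : the restrictions to the
  valuation rings are local homomorphisms;
* `h13_beta_val_abs`    : **(V1)** `β y ∈ V₀ ↔ y ∈ V₁` and **(V2)** every `v ∈ V₀` is `≡ β y`
  modulo the maximal ideal, `y ∈ V₁`.
-/

set_option autoImplicit false
set_option linter.style.haveILetI false

open Polynomial

namespace Fermat.Agent.S34x.Comp.H13

section V1

variable {O F₁ F : Type*} [CommRing O] [Field F₁] [Field F] [Algebra O F₁] [Algebra O F]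

/-- `β` commutes with `aeval` of polynomials over `O`. -/
theorem h13_map_aeval (β : F₁ →+* F)
    (hβO : ∀ c : O, β (algebraMap O F₁ c) = algebraMap O F c) (j : F₁) (p : O[X]) :
    β (aeval j p) = aeval (β j) p := by
  induction p using Polynomial.induction_on' with
  | add p₁ p₂ h₁ h₂ => rw [map_add, map_add, map_add, h₁, h₂]
  | monomial n c =>
    rw [aeval_monomial, aeval_monomial, map_mul, map_pow, hβO]

/-- polynomials over `O` in an element of a subring containing `O` stay in the subring. -/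
theorem h13_aeval_mem (V : Subring F) (hOV : ∀ c : O, algebraMap O F c ∈ V) {x : F}
    (hx : x ∈ V) (p : O[X]) : aeval x p ∈ V := by
  induction p using Polynomial.induction_on' with
  | add p₁ p₂ h₁ h₂ => rw [map_add]; exact V.add_mem h₁ h₂
  | monomial n c =>
    rw [aeval_monomial]
    exact V.mul_mem (hOV c) (V.pow_mem hx n)

/-- **(V1 ⟹)**. -/
theorem h13_beta_mem (π : O) (V₁ : Subring F₁) (V₀ : ValuationSubring F) (β : F₁ →+* F)
    (hβO : ∀ c : O, β (algebraMap O F₁ c) = algebraMap O F c)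
    (hOV₀ : ∀ c : O, algebraMap O F c ∈ V₀)
    (j : F₁) (hjq : β j ∈ V₀)
    (hunit₀ : ∀ b : O[X], ¬ (C π ∣ b) → aeval (β j) b ≠ 0 ∧ (aeval (β j) b)⁻¹ ∈ V₀)
    (hint : ∀ v ∈ V₁, ∃ P : F₁[X], P.Monic ∧ P.eval v = 0 ∧
      ∀ i, ∃ a b : O[X], ¬ (C π ∣ b) ∧ P.coeff i * aeval j b = aeval j a) :
    ∀ v ∈ V₁, β v ∈ V₀ := by
  intro v hv
  obtain ⟨P, hP, hroot, hc⟩ := hint v hv
  -- coefficients of P.map β lie in V₀
  have hcoef : ∀ i, (P.map β).coeff i ∈ V₀ := by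
    intro i
    rw [coeff_map]
    obtain ⟨a, b, hb, hab⟩ := hc i
    obtain ⟨hb0, hbinv⟩ := hunit₀ b hb
    have h1 : β (P.coeff i) * aeval (β j) b = aeval (β j) a := by
      rw [← h13_map_aeval β hβO, ← h13_map_aeval β hβO, ← map_mul, hab]
    have h2 : β (P.coeff i) = aeval (β j) a * (aeval (β j) b)⁻¹ := by
      rw [← h1, mul_assoc, mul_inv_cancel₀ hb0, mul_one]
    rw [h2]
    exact mul_mem (h13_aeval_mem V₀.toSubring hOV₀ hjq a) hbinv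
  have hsub : (↑(P.map β).coeffs : Set F) ⊆ V₀.toSubring := by
    intro c hc'
    obtain ⟨n, -, rfl⟩ := (Polynomial.mem_coeffs_iff).mp hc'
    exact hcoef n
  have hmonic : (P.map β).Monic := hP.map β
  have hintg : IsIntegral V₀ (β v) := by
    refine ⟨(P.map β).toSubring V₀.toSubring hsub, ?_, ?_⟩
    · exact (Polynomial.monic_toSubring _ _ _).mpr hmonic
    · have h3 : ((P.map β).toSubring V₀.toSubring hsub).map (Subring.subtype V₀.toSubring)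
          = P.map β := Polynomial.map_toSubring _ _ _
      have h4 : eval₂ (algebraMap V₀ F) (β v) ((P.map β).toSubring V₀.toSubring hsub)
          = ((P.map β).toSubring V₀.toSubring hsub |>.map (Subring.subtype V₀.toSubring)).eval
              (β v) := by
        rw [eval_map]; rfl
      rw [h4, h3, eval_map, Polynomial.eval₂_at_apply, hroot, map_zero]
  obtain ⟨y, hy⟩ := IsIntegrallyClosed.isIntegral_iff.mp hintg
  rw [← hy]
  exact y.2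


/-- **(V1 ⟸)**. -/
theorem h13_mem_of_beta_mem (π : O) (V₁ : ValuationSubring F₁) (V₀ : ValuationSubring F)
    (β : F₁ →+* F) (hβO : ∀ c : O, β (algebraMap O F₁ c) = algebraMap O F c)
    (hOV₁ : ∀ c : O, algebraMap O F₁ c ∈ V₁)
    (hV₁ : ∀ y : F₁, y ≠ 0 → ∃ (e : ℤ) (u : F₁), u ∈ V₁ ∧ u⁻¹ ∈ V₁ ∧
      y = algebraMap O F₁ π ^ e * u)
    (hπne : algebraMap O F π ≠ 0) (hπ₀ : algebraMap O F π ∈ V₀.nonunits)
    (hβV : ∀ v ∈ V₁, β v ∈ V₀) :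
    ∀ y : F₁, β y ∈ V₀ → y ∈ V₁ := by
  intro y hy
  by_cases hy0 : y = 0
  · rw [hy0]; exact zero_mem _
  obtain ⟨e, u, hu, hu', rfl⟩ := hV₁ y hy0
  have hπV₁ : algebraMap O F₁ π ∈ V₁ := hOV₁ π
  rcases le_or_gt 0 e with he | he
  · obtain ⟨n, rfl⟩ := Int.eq_ofNat_of_zero_le he
    rw [zpow_natCast]
    exact mul_mem (pow_mem hπV₁ n) hu
  · exfalso
    obtain ⟨n, hn⟩ : ∃ n : ℕ, e = -((n : ℤ) + 1) := ⟨(-e - 1).toNat, by omega⟩
    have hu0 : u ≠ 0 := by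
      intro h0; apply hy0; rw [h0, mul_zero]
    -- π^e ∈ V₀
    have h1 : β (algebraMap O F₁ π ^ e * u) * β u⁻¹ = algebraMap O F π ^ e := by
      rw [← map_mul, mul_assoc, mul_inv_cancel₀ hu0, mul_one, map_zpow₀, hβO]
    have h2 : algebraMap O F π ^ e ∈ V₀ := by
      rw [← h1]; exact mul_mem hy (hβV _ hu')
    have h3 : (algebraMap O F π)⁻¹ ∈ V₀ := by
      have : (algebraMap O F π)⁻¹ = algebraMap O F π ^ e * algebraMap O F π ^ n := by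
        rw [hn, zpow_neg, zpow_add₀ hπne, zpow_one, zpow_natCast]
        field_simp
      rw [this]
      exact mul_mem h2 (pow_mem (V₀.nonunits_subset hπ₀) n)
    rcases (ValuationSubring.mem_nonunits_iff_or V₀).mp hπ₀ with h | h
    · exact hπne h
    · exact h h3

end V1

section Restr

variable {E₁ E₀ : Type*} [Field E₁] [Field E₀]

/-- units of a valuation subring. -/
theorem h13_isUnit_iff (V : ValuationSubring E₀) (y : V) :
    IsUnit y ↔ (y : E₀) ≠ 0 ∧ (y : E₀)⁻¹ ∈ V := by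
  constructor
  · rintro ⟨u, rfl⟩
    have h1 : ((u : V) : E₀) * (((u⁻¹ : Vˣ) : V) : E₀) = 1 := by
      have h : ((u : V) * ((u⁻¹ : Vˣ) : V)) = 1 := u.mul_inv
      have h' := congrArg (V.subtype) h
      rw [map_mul, map_one] at h'
      exact h'
    have h0 : ((u : V) : E₀) ≠ 0 := left_ne_zero_of_mul_eq_one h1
    refine ⟨h0, ?_⟩
    rw [← eq_inv_of_mul_eq_one_right h1]
    exact Subtype.mem _
  · rintro ⟨h0, h1⟩
    exact IsUnit.of_mul_eq_one (⟨(y : E₀)⁻¹, h1⟩ : V) (Subtype.ext (mul_inv_cancel₀ h0))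

/-- restriction of a homomorphism of fields to valuation subrings. -/
def h13_restr (V₁ : ValuationSubring E₁) (V₀ : ValuationSubring E₀) (φ : E₁ →+* E₀)
    (hφ : ∀ v ∈ V₁, φ v ∈ V₀) : V₁ →+* V₀ :=
  (φ.comp V₁.subtype).codRestrict V₀ (fun v => hφ v v.2)

theorem h13_restr_coe (V₁ : ValuationSubring E₁) (V₀ : ValuationSubring E₀) (φ : E₁ →+* E₀)
    (hφ : ∀ v ∈ V₁, φ v ∈ V₀) (y : V₁) : ((h13_restr V₁ V₀ φ hφ y : V₀) : E₀) = φ y := rfl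

theorem h13_restr_local (V₁ : ValuationSubring E₁) (V₀ : ValuationSubring E₀) (φ : E₁ →+* E₀)
    (hφ : ∀ v ∈ V₁, φ v ∈ V₀) (hφ' : ∀ y, φ y ∈ V₀ → y ∈ V₁) :
    IsLocalHom (h13_restr V₁ V₀ φ hφ) := by
  constructor
  intro y hy
  rw [h13_isUnit_iff] at hy ⊢
  obtain ⟨h0, h1⟩ := hy
  have hy0 : (y : E₁) ≠ 0 := fun h => h0 (by rw [h13_restr_coe, h, map_zero])
  refine ⟨hy0, hφ' _ ?_⟩
  rw [map_inv₀]
  exact h1

theorem h13_restr_eval₂ (V₁ : ValuationSubring E₁) (V₀ : ValuationSubring E₀) (φ : E₁ →+* E₀)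
    (hφ : ∀ v ∈ V₁, φ v ∈ V₀) (P : (↥V₁)[X]) (x : V₀) :
    ((P.eval₂ (h13_restr V₁ V₀ φ hφ) x : V₀) : E₀) = P.eval₂ (φ.comp V₁.subtype) (x : E₀) :=
  Polynomial.hom_eval₂ P (h13_restr V₁ V₀ φ hφ) V₀.subtype x

variable {O : Type*} [CommRing O] [Algebra O E₀]

/-- the structure map `O → V`. -/
def h13_iota (V : ValuationSubring E₀) (hOV : ∀ c : O, algebraMap O E₀ c ∈ V) : O →+* V :=
  (algebraMap O E₀).codRestrict V hOV

theorem h13_iota_local (π : O) (hOloc : ∀ c : O, IsUnit c ∨ π ∣ c) (V : ValuationSubring E₀)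
    (hOV : ∀ c : O, algebraMap O E₀ c ∈ V) (hπV : (algebraMap O E₀ π)⁻¹ ∉ V) :
    IsLocalHom (h13_iota V hOV) := by
  constructor
  intro c hc
  rcases hOloc c with hu | ⟨c', rfl⟩
  · exact hu
  · exfalso
    rw [map_mul] at hc
    have h1 : IsUnit (h13_iota V hOV π) := isUnit_of_mul_isUnit_left hc
    rw [h13_isUnit_iff] at h1
    exact hπV h1.2

theorem h13_iota_eval₂ (V : ValuationSubring E₀) (hOV : ∀ c : O, algebraMap O E₀ c ∈ V)
    (x : V) (P : O[X]) :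
    ((P.eval₂ (h13_iota V hOV) x : V) : E₀) = aeval (x : E₀) P := by
  rw [aeval_def]
  exact Polynomial.hom_eval₂ P (h13_iota V hOV) V.subtype x

end Restr

section Main

open IsLocalRing

variable {O F₁ F : Type*} [CommRing O] [IsLocalRing O] [Field F₁] [Field F]
  [Algebra O F₁] [Algebra O F]

/-- **(beta-VAL), abstract form: (V1) and (V2).** -/
theorem h13_beta_val_abs (π : O) (hOloc : ∀ c : O, IsUnit c ∨ π ∣ c)
    (V₁ : ValuationSubring F₁) (V₀ : ValuationSubring F) (α β : F₁ →+* F)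
    (hαO : ∀ c : O, α (algebraMap O F₁ c) = algebraMap O F c)
    (hβO : ∀ c : O, β (algebraMap O F₁ c) = algebraMap O F c)
    (hOV₁ : ∀ c : O, algebraMap O F₁ c ∈ V₁)
    (hπ₁ : (algebraMap O F₁ π)⁻¹ ∉ V₁)
    (hV₁ : ∀ y : F₁, y ≠ 0 → ∃ (e : ℤ) (u : F₁), u ∈ V₁ ∧ u⁻¹ ∈ V₁ ∧
      y = algebraMap O F₁ π ^ e * u)
    (hπ₀ : (algebraMap O F π)⁻¹ ∉ V₀)
    (hαV : ∀ v ∈ V₁, α v ∈ V₀)
    (j : F₁) (hj : j ∈ V₁) (hjq : β j ∈ V₀)
    (q : ℕ) (hq : q.Prime)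
    (hkron : β j ^ q - α j ∈ V₀.nonunits)
    (hgen : ∀ z ∈ V₀, ∃ P : (↥V₁)[X],
      z - P.eval₂ (α.comp V₁.subtype) (β j) ∈ V₀.nonunits)
    (hunit : ∀ b : O[X], ¬ (C π ∣ b) → aeval j b ≠ 0 ∧ (aeval j b)⁻¹ ∈ V₁)
    (hint : ∀ v ∈ V₁, ∃ P : F₁[X], P.Monic ∧ P.eval v = 0 ∧
      ∀ i, ∃ a b : O[X], ¬ (C π ∣ b) ∧ P.coeff i * aeval j b = aeval j a)
    (hspan : ∃ (n : ℕ) (y : Fin n → F₁), (∀ i, y i ∈ V₁) ∧ ∀ w ∈ V₁, ∃ c : Fin n → F₁,
      (∀ i, ∃ a b : O[X], ¬ (C π ∣ b) ∧ c i * aeval j b = aeval j a) ∧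
      w = ∑ i, c i * y i) :
    (∀ y : F₁, β y ∈ V₀ ↔ y ∈ V₁) ∧ (∀ v ∈ V₀, ∃ y ∈ V₁, v - β y ∈ V₀.nonunits) := by
  classical
  have hπ₁ne : algebraMap O F₁ π ≠ 0 := fun h => hπ₁ (by rw [h, inv_zero]; exact zero_mem _)
  have hπne : algebraMap O F π ≠ 0 := by
    rw [← hαO]
    exact (map_ne_zero α).mpr hπ₁ne
  have hπ₀' : algebraMap O F π ∈ V₀.nonunits :=
    (ValuationSubring.mem_nonunits_iff_or V₀).mpr (Or.inr hπ₀)
  have hOV₀ : ∀ c : O, algebraMap O F c ∈ V₀ := fun c => by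
    rw [← hαO]
    exact hαV _ (hOV₁ c)
  have hπ : ¬ IsUnit π := by
    intro h
    obtain ⟨c, hc⟩ := h.exists_right_inv
    apply hπ₁
    have h1 : algebraMap O F₁ π * algebraMap O F₁ c = 1 := by
      rw [← map_mul, hc, map_one]
    rw [← eq_inv_of_mul_eq_one_right h1]
    exact hOV₁ c
  have hαV' : ∀ y, α y ∈ V₀ → y ∈ V₁ :=
    h13_mem_of_beta_mem π V₁ V₀ α hαO hOV₁ hV₁ hπne hπ₀' hαV
  -- local homomorphisms
  haveI hι₁ : IsLocalHom (h13_iota V₁ hOV₁) := h13_iota_local π hOloc V₁ hOV₁ hπ₁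
  haveI hι₀ : IsLocalHom (h13_iota V₀ hOV₀) := h13_iota_local π hOloc V₀ hOV₀ hπ₀
  haveI ha : IsLocalHom (h13_restr V₁ V₀ α hαV) := h13_restr_local V₁ V₀ α hαV hαV'
  -- units
  have hunit₁ : ∀ P : O[X], ¬ C π ∣ P → IsUnit (P.eval₂ (h13_iota V₁ hOV₁) ⟨j, hj⟩) := by
    intro P hP
    rw [h13_isUnit_iff, h13_iota_eval₂]
    exact hunit P hP
  have htrJ := h13_transc_of_unit (h13_iota V₁ hOV₁) π hπ ⟨j, hj⟩ hunit₁
  have hkron' : (⟨β j, hjq⟩ : V₀) ^ q - h13_restr V₁ V₀ α hαV ⟨j, hj⟩ ∈ maximalIdeal V₀ := by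
    rw [← ValuationSubring.coe_mem_nonunits_iff]
    exact hkron
  have htrθ := h13_transc_root (h13_iota V₁ hOV₁) (h13_restr V₁ V₀ α hαV) (h13_iota V₀ hOV₀)
    (fun c => Subtype.ext (hαO c)) ⟨j, hj⟩ ⟨β j, hjq⟩ q hkron' htrJ
  have hunit₀' := h13_unit_of_transc (h13_iota V₀ hOV₀) π hOloc ⟨β j, hjq⟩ htrθ
  have hunit₀ : ∀ b : O[X], ¬ (C π ∣ b) → aeval (β j) b ≠ 0 ∧ (aeval (β j) b)⁻¹ ∈ V₀ := by
    intro P hP
    have h := hunit₀' P hP
    rw [h13_isUnit_iff, h13_iota_eval₂] at h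
    exact h
  -- (V1)
  have hβV : ∀ v ∈ V₁, β v ∈ V₀ :=
    h13_beta_mem π V₁.toSubring V₀ β hβO hOV₀ j hjq hunit₀ hint
  have hβV' : ∀ y, β y ∈ V₀ → y ∈ V₁ :=
    h13_mem_of_beta_mem π V₁ V₀ β hβO hOV₁ hV₁ hπne hπ₀' hβV
  refine ⟨fun y => ⟨hβV' y, hβV y⟩, ?_⟩
  -- (V2)
  haveI hb : IsLocalHom (h13_restr V₁ V₀ β hβV) := h13_restr_local V₁ V₀ β hβV hβV'
  have hkron'' : h13_restr V₁ V₀ β hβV ⟨j, hj⟩ ^ q - h13_restr V₁ V₀ α hαV ⟨j, hj⟩
      ∈ maximalIdeal V₀ := hkron'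
  have hgen' : ∀ z : V₀, ∃ p : (↥V₁)[X],
      z - p.eval₂ (h13_restr V₁ V₀ α hαV) (h13_restr V₁ V₀ β hβV ⟨j, hj⟩)
        ∈ maximalIdeal V₀ := by
    intro z
    obtain ⟨P, hP⟩ := hgen z z.2
    refine ⟨P, ?_⟩
    rw [← ValuationSubring.coe_mem_nonunits_iff]
    have h1 : ((z - P.eval₂ (h13_restr V₁ V₀ α hαV) (h13_restr V₁ V₀ β hβV ⟨j, hj⟩) : V₀) : F)
        = z - P.eval₂ (α.comp V₁.subtype) (β j) := by
      have h2 := h13_restr_eval₂ V₁ V₀ α hαV P (h13_restr V₁ V₀ β hβV ⟨j, hj⟩)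
      rw [h13_restr_coe] at h2
      rw [← h2]
      rfl
    rw [h1]
    exact hP
  have hspan' : ∃ (n : ℕ) (y : Fin n → V₁), ∀ w : V₁, ∃ c : Fin n → V₁,
      (∀ i, ∃ A B : O[X], ¬ C π ∣ B ∧
        c i * B.eval₂ (h13_iota V₁ hOV₁) ⟨j, hj⟩ = A.eval₂ (h13_iota V₁ hOV₁) ⟨j, hj⟩) ∧
      w = ∑ i, c i * y i := by
    obtain ⟨n, y, hyV, H⟩ := hspan
    refine ⟨n, fun i => ⟨y i, hyV i⟩, fun w => ?_⟩
    obtain ⟨c, hc, hw⟩ := H w w.2
    have hcV : ∀ i, c i ∈ V₁ := by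
      intro i
      obtain ⟨A, B, hB, hAB⟩ := hc i
      obtain ⟨hB0, hBinv⟩ := hunit B hB
      have h2 : c i = aeval j A * (aeval j B)⁻¹ := by
        rw [← hAB, mul_assoc, mul_inv_cancel₀ hB0, mul_one]
      rw [h2]
      exact mul_mem (h13_aeval_mem V₁.toSubring hOV₁ hj A) hBinv
    refine ⟨fun i => ⟨c i, hcV i⟩, fun i => ?_, ?_⟩
    · obtain ⟨A, B, hB, hAB⟩ := hc i
      refine ⟨A, B, hB, Subtype.ext ?_⟩
      have h3 : (((⟨c i, hcV i⟩ : V₁) * B.eval₂ (h13_iota V₁ hOV₁) ⟨j, hj⟩ : V₁) : F₁)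
          = c i * ((B.eval₂ (h13_iota V₁ hOV₁) ⟨j, hj⟩ : V₁) : F₁) := rfl
      rw [h3, h13_iota_eval₂, h13_iota_eval₂]
      exact hAB
    · apply Subtype.ext
      have h4 : ((∑ i, (⟨c i, hcV i⟩ : V₁) * ⟨y i, hyV i⟩ : V₁) : F₁)
          = ∑ i, c i * y i := by
        rw [← ValuationSubring.subtype_apply, map_sum]
        rfl
      rw [h4]
      exact hw
  have key := h13_res_surj (h13_iota V₁ hOV₁) (h13_restr V₁ V₀ α hαV) (h13_restr V₁ V₀ β hβV)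
    (fun c => Subtype.ext ((hαO c).trans (hβO c).symm)) π hπ ⟨j, hj⟩ hunit₁ q hq hkron''
    hgen' hspan'
  intro v hv
  obtain ⟨y, hy⟩ := key ⟨v, hv⟩
  refine ⟨y, y.2, ?_⟩
  rw [← ValuationSubring.coe_mem_nonunits_iff] at hy
  exact hy

end Main

end Fermat.Agent.S34x.Comp.H13
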