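import Mathlib
import Fermat.Agent.S34x.Val.H28_Val2Abs
import Fermat.Agent.S34x.Comp.H13_BetaVal

/-!
# W10 / S34, stage (C), leaf (beta-VAL): the adapter to stage (A) (helper13)

Abstract over helper2's `H2Two V π e₁ e₂` (`V = W[j_q]`, `e₁` the component of `α`
(`j_q ≡ j^q`), `e₂` the component of `β` (`j_q^q ≡ j`)).

* `h13_transc_root'`     : `x^m ≡ a(j)^n`, `n > 0`, residue of `j` transcendental ⟹ residue of
  `x` transcendental;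
* `h13_beta_mem_of_kron` : `β(V₁) ⊆ V₀` for ANY valuation subring `V₀ ⊇ α(V₁)` of `F` with
  `π⁻¹ ∉ V₀` in which `β(j)^m ≡ α(j)^n`;
* `h13_beta_inst_abs`    : **the two hypotheses `hβV`, `hresβ` of helper7's `h7_comp_abs`**
  (verbatim), together with (V1) for both components.
-/

set_option autoImplicit false
set_option linter.style.haveILetI false

open Polynomial IsLocalRing

namespace Fermat.Agent.S34x.Comp.H13

open Fermat.Agent.S34x.Val.H2 Fermat.Agent.S34x.Val.H28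

section Root

variable {O R₁ R₀ : Type*} [CommRing O] [IsLocalRing O] [CommRing R₁] [IsLocalRing R₁]
  [CommRing R₀] [IsLocalRing R₀]

/-- if `x^m ≡ a(j)^n` modulo the maximal ideal (`n > 0`) and the residue of `j` is
transcendental, then the residue of `x` is transcendental. -/
theorem h13_transc_root' (ι : O →+* R₁) [IsLocalHom ι] (a : R₁ →+* R₀) [IsLocalHom a]
    (ι₀ : O →+* R₀) [IsLocalHom ι₀] (hι : ∀ c : O, a (ι c) = ι₀ c)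
    (j : R₁) (x : R₀) (m n : ℕ) (hn : 0 < n) (hkron : x ^ m - a j ^ n ∈ maximalIdeal R₀)
    (htr : ∀ Q : (ResidueField O)[X], Q ≠ 0 →
      Q.eval₂ (ResidueField.map ι) (residue R₁ j) ≠ 0) :
    ∀ Q : (ResidueField O)[X], Q ≠ 0 →
      Q.eval₂ (ResidueField.map ι₀) (residue R₀ x) ≠ 0 := by
  letI algκ : Algebra (ResidueField O) (ResidueField R₁) := (ResidueField.map ι).toAlgebra
  letI algL : Algebra (ResidueField O) (ResidueField R₀) := (ResidueField.map ι₀).toAlgebra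
  have hJ : Transcendental (ResidueField O) (residue R₁ j) := by
    rw [transcendental_iff]
    intro Q hQ0
    by_contra hQ
    exact htr Q hQ hQ0
  have ha_comm : ∀ c : ResidueField O,
      ResidueField.map a (algebraMap _ (ResidueField R₁) c)
        = algebraMap _ (ResidueField R₀) c := by
    intro c
    obtain ⟨c₀, rfl⟩ := residue_surjective c
    show residue R₀ (a (ι c₀)) = residue R₀ (ι₀ c₀)
    rw [hι]
  let a' : ResidueField R₁ →ₐ[ResidueField O] ResidueField R₀ :=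
    { ResidueField.map a with commutes' := ha_comm }
  have haJ : Transcendental (ResidueField O) (a' (residue R₁ j ^ n)) := fun h =>
    (hJ.pow hn) ((isAlgebraic_algHom_iff a' a'.injective).mp h)
  have hθ : (residue R₀ x) ^ m = a' (residue R₁ j ^ n) := by
    have h1 : residue R₀ (x ^ m - a j ^ n) = 0 := (residue_eq_zero_iff _).mpr hkron
    rw [map_sub, map_pow, map_pow, sub_eq_zero] at h1
    rw [map_pow]
    exact h1
  have hx : Transcendental (ResidueField O) (residue R₀ x) := by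
    intro halg
    apply haJ
    rw [← hθ]
    exact halg.pow m
  intro Q hQ h0
  exact hQ (transcendental_iff.mp hx Q h0)

end Root

section Kron

variable {O F₁ F : Type*} [CommRing O] [IsLocalRing O] [Field F₁] [Field F]
  [Algebra O F₁] [Algebra O F]

/-- **(V1 ⟹) for any component**: `β(V₁) ⊆ V₀` as soon as `β(j)^m ≡ α(j)^n` in `V₀`. -/
theorem h13_beta_mem_of_kron (π : O) (hOloc : ∀ c : O, IsUnit c ∨ π ∣ c)
    (V₁ : ValuationSubring F₁) (V₀ : ValuationSubring F) (α β : F₁ →+* F)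
    (hαO : ∀ c : O, α (algebraMap O F₁ c) = algebraMap O F c)
    (hβO : ∀ c : O, β (algebraMap O F₁ c) = algebraMap O F c)
    (hOV₁ : ∀ c : O, algebraMap O F₁ c ∈ V₁)
    (hπ₁ : (algebraMap O F₁ π)⁻¹ ∉ V₁)
    (hV₁ : ∀ y : F₁, y ≠ 0 → ∃ (e : ℤ) (u : F₁), u ∈ V₁ ∧ u⁻¹ ∈ V₁ ∧
      y = algebraMap O F₁ π ^ e * u)
    (hπ₀ : (algebraMap O F π)⁻¹ ∉ V₀)
    (hαV : ∀ v ∈ V₁, α v ∈ V₀)
    (j : F₁) (hj : j ∈ V₁) (hjq : β j ∈ V₀)
    (m n : ℕ) (hn : 0 < n)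
    (hkron : β j ^ m - α j ^ n ∈ V₀.nonunits)
    (hunit : ∀ b : O[X], ¬ (C π ∣ b) → aeval j b ≠ 0 ∧ (aeval j b)⁻¹ ∈ V₁)
    (hint : ∀ v ∈ V₁, ∃ P : F₁[X], P.Monic ∧ P.eval v = 0 ∧
      ∀ i, ∃ a b : O[X], ¬ (C π ∣ b) ∧ P.coeff i * aeval j b = aeval j a) :
    (∀ y : F₁, β y ∈ V₀ ↔ y ∈ V₁) := by
  classical
  have hπ₁ne : algebraMap O F₁ π ≠ 0 := fun h => hπ₁ (by rw [h, inv_zero]; exact zero_mem _)
  have hπne : algebraMap O F π ≠ 0 := by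
    rw [← hαO]
    exact (map_ne_zero α).mpr hπ₁ne
  have hπ₀' : algebraMap O F π ∈ V₀.nonunits :=
    (ValuationSubring.mem_nonunits_iff_or V₀).mpr (Or.inr hπ₀)
  have hOV₀ : ∀ c : O, algebraMap O F c ∈ V₀ := fun c => by
    rw [← hαO]
    exact hαV _ (hOV₁ c)
  have hπ : ¬ IsUnit π := by
    intro h
    obtain ⟨c, hc⟩ := h.exists_right_inv
    apply hπ₁
    have h1 : algebraMap O F₁ π * algebraMap O F₁ c = 1 := by
      rw [← map_mul, hc, map_one]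
    rw [← eq_inv_of_mul_eq_one_right h1]
    exact hOV₁ c
  have hαV' : ∀ y, α y ∈ V₀ → y ∈ V₁ :=
    h13_mem_of_beta_mem π V₁ V₀ α hαO hOV₁ hV₁ hπne hπ₀' hαV
  haveI hι₁ : IsLocalHom (h13_iota V₁ hOV₁) := h13_iota_local π hOloc V₁ hOV₁ hπ₁
  haveI hι₀ : IsLocalHom (h13_iota V₀ hOV₀) := h13_iota_local π hOloc V₀ hOV₀ hπ₀
  haveI ha : IsLocalHom (h13_restr V₁ V₀ α hαV) := h13_restr_local V₁ V₀ α hαV hαV'
  have hunit₁ : ∀ P : O[X], ¬ C π ∣ P → IsUnit (P.eval₂ (h13_iota V₁ hOV₁) ⟨j, hj⟩) := by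
    intro P hP
    rw [h13_isUnit_iff, h13_iota_eval₂]
    exact hunit P hP
  have htrJ := h13_transc_of_unit (h13_iota V₁ hOV₁) π hπ ⟨j, hj⟩ hunit₁
  have hkron' : (⟨β j, hjq⟩ : V₀) ^ m - h13_restr V₁ V₀ α hαV ⟨j, hj⟩ ^ n
      ∈ maximalIdeal V₀ := by
    rw [← ValuationSubring.coe_mem_nonunits_iff]
    exact hkron
  have htrθ := h13_transc_root' (h13_iota V₁ hOV₁) (h13_restr V₁ V₀ α hαV) (h13_iota V₀ hOV₀)
    (fun c => Subtype.ext (hαO c)) ⟨j, hj⟩ ⟨β j, hjq⟩ m n hn hkron' htrJ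
  have hunit₀' := h13_unit_of_transc (h13_iota V₀ hOV₀) π hOloc ⟨β j, hjq⟩ htrθ
  have hunit₀ : ∀ b : O[X], ¬ (C π ∣ b) → aeval (β j) b ≠ 0 ∧ (aeval (β j) b)⁻¹ ∈ V₀ := by
    intro P hP
    have h := hunit₀' P hP
    rw [h13_isUnit_iff, h13_iota_eval₂] at h
    exact h
  have hβV : ∀ v ∈ V₁, β v ∈ V₀ :=
    h13_beta_mem π V₁.toSubring V₀ β hβO hOV₀ j hjq hunit₀ hint
  have hβV' : ∀ y, β y ∈ V₀ → y ∈ V₁ :=
    h13_mem_of_beta_mem π V₁ V₀ β hβO hOV₁ hV₁ hπne hπ₀' hβV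
  exact fun y => ⟨hβV' y, hβV y⟩

end Kron

section Inst

variable {O F₀ F : Type*} [CommRing O] [IsLocalRing O] [Field F₀] [Field F]
  [Algebra O F₀] [Algebra O F]

/-- **(beta-VAL), adapter to stage (A)**: the hypotheses `hβV`, `hresβ` of `h7_comp_abs`. -/
theorem h13_beta_inst_abs (π₀ : O) (hOloc : ∀ c : O, IsUnit c ∨ π₀ ∣ c)
    (α β : F₀ →+* F) (W : ValuationSubring F₀) (V : Subring F) {π e₁ e₂ : F}
    (h2 : H2Two V π e₁ e₂) (hπ : algebraMap O F π₀ = π)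
    (hαO : ∀ c : O, α (algebraMap O F₀ c) = algebraMap O F c)
    (hβO : ∀ c : O, β (algebraMap O F₀ c) = algebraMap O F c)
    (hOW : ∀ c : O, algebraMap O F₀ c ∈ W)
    (hπW : (algebraMap O F₀ π₀)⁻¹ ∉ W)
    (hW : ∀ y : F₀, y ≠ 0 → ∃ (e : ℤ) (u : F₀), u ∈ W ∧ u⁻¹ ∈ W ∧
      y = algebraMap O F₀ π₀ ^ e * u)
    (hαV : ∀ w ∈ W, α w ∈ V)
    (j : F₀) (hj : j ∈ W) (hjq : β j ∈ V)
    (q : ℕ) (hq : q.Prime)
    (hkron₁ : H2In V π e₁ (β j - α j ^ q))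
    (hkron₂ : H2In V π e₂ (β j ^ q - α j))
    (hVgen : ∀ v ∈ V, ∃ P : (↥W)[X], v = P.eval₂ (α.comp W.subtype) (β j))
    (hunit : ∀ b : O[X], ¬ (C π₀ ∣ b) → aeval j b ≠ 0 ∧ (aeval j b)⁻¹ ∈ W)
    (hint : ∀ v ∈ W, ∃ P : F₀[X], P.Monic ∧ P.eval v = 0 ∧
      ∀ i, ∃ a b : O[X], ¬ (C π₀ ∣ b) ∧ P.coeff i * aeval j b = aeval j a)
    (hspan : ∃ (n : ℕ) (y : Fin n → F₀), (∀ i, y i ∈ W) ∧ ∀ w ∈ W, ∃ c : Fin n → F₀,
      (∀ i, ∃ a b : O[X], ¬ (C π₀ ∣ b) ∧ c i * aeval j b = aeval j a) ∧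
      w = ∑ i, c i * y i) :
    (∀ w ∈ W, β w ∈ V) ∧ (∀ v ∈ V, ∃ w ∈ W, H2In V π e₂ (v - β w)) ∧
      (∀ y : F₀, β y ∈ h2.c₁.val ↔ y ∈ W) ∧ (∀ y : F₀, β y ∈ h2.c₂.val ↔ y ∈ W) ∧
      (∀ v ∈ h2.c₂.val, ∃ y ∈ W, v - β y ∈ h2.c₂.val.nonunits) := by
  subst hπ
  have hjqV : β j ∈ V := hjq
  have hαjV : α j ∈ V := hαV j hj
  -- component 1
  have hk₁ : β j ^ 1 - α j ^ q ∈ h2.c₁.val.nonunits := by
    rw [pow_one]
    exact (h28c_in_iff h2.c₁ (V.sub_mem hjqV (V.pow_mem hαjV q))).mp hkron₁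
  have hV1₁ := h13_beta_mem_of_kron π₀ hOloc W h2.c₁.val α β hαO hβO hOW hπW hW
    h2.c₁.pi_inv_not_mem (fun v hv => h2.c₁.le_val (hαV v hv)) j hj (h2.c₁.le_val hjq)
    1 q hq.pos hk₁ hunit hint
  -- component 2
  have hk₂ : β j ^ q - α j ∈ h2.c₂.val.nonunits :=
    (h28c_in_iff h2.c₂ (V.sub_mem (V.pow_mem hjqV q) hαjV)).mp hkron₂
  have hgen : ∀ z ∈ h2.c₂.val, ∃ P : (↥W)[X],
      z - P.eval₂ (α.comp W.subtype) (β j) ∈ h2.c₂.val.nonunits := by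
    intro z hz
    obtain ⟨a, ha, hza⟩ := h28c_residue h2.c₂ hz
    obtain ⟨P, rfl⟩ := hVgen a ha
    exact ⟨P, hza⟩
  obtain ⟨hV1₂, hV2₂⟩ := h13_beta_val_abs π₀ hOloc W h2.c₂.val α β hαO hβO hOW hπW hW
    h2.c₂.pi_inv_not_mem (fun v hv => h2.c₂.le_val (hαV v hv)) j hj (h2.c₂.le_val hjq)
    q hq hk₂ hgen hunit hint hspan
  have hβV : ∀ w ∈ W, β w ∈ V := fun w hw =>
    h2.mem_iff.mpr ⟨(hV1₁ w).mpr hw, (hV1₂ w).mpr hw⟩
  refine ⟨hβV, ?_, hV1₁, hV1₂, hV2₂⟩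
  intro v hv
  obtain ⟨y, hy, hvy⟩ := hV2₂ v (h2.c₂.le_val hv)
  exact ⟨y, hy, (h28c_in_iff h2.c₂ (V.sub_mem hv (hβV y hy))).mpr hvy⟩

end Inst

end Fermat.Agent.S34x.Comp.H13
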