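import Mathlib
import Fermat.Agent.S18x.Qepo.H1_Sat
import Fermat.Agent.S18x.Dict.H20_GaussInputs

/-!
# W10 (S34), stage (C) COMP, leaf (beta-VAL): the LEVEL-`M` ADAPTER (helper8)

The seven level-`M` hypotheses of helper13's `h13_beta_val_abs`, as standalone lemmas at
`F₁ := FM K M`, `V₁ := gaussValM O M`, `j := jbFull K M`, `O : ValuationSubring K` a discrete
valuation ring with uniformiser `π`, any `[Algebra O (FM K M)] [IsScalarTower O K (FM K M)]`:

* `h8M_hOloc` : `∀ c : O, IsUnit c ∨ π ∣ c`;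
* `h8M_hOV`   : `∀ c : O, algebraMap O F₁ c ∈ V₁`;
* `h8M_hπ`    : `(algebraMap O F₁ π)⁻¹ ∉ V₁`;
* `h8M_hV`    : the normal form `y = π ^ e * u`, `u, u⁻¹ ∈ V₁`;
* `h8M_hj`    : `j ∈ V₁`;
* `h8M_hunit` : `∀ b : O[X], ¬ C π ∣ b → aeval j b ≠ 0 ∧ (aeval j b)⁻¹ ∈ V₁`;
* `h8M_hint`  : every `v ∈ V₁` is a root of a monic polynomial with coefficients in `O[j]_(π)`
  (residue characteristic `ℓ ∤ M`);
* `h8M_hspan` : `V₁` is spanned over `O[j]_(π)` by finitely many elements of `V₁`.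
-/

set_option autoImplicit false
set_option linter.unusedSectionVars false
set_option linter.style.haveILetI false

open ModularCurve Polynomial

noncomputable section

namespace Fermat.Agent.S34x.Comp.H8

open Fermat.Agent.S18x.Dict.H20 Fermat.Agent.S18x.Qepo Fermat.Agent.S28.Mod.PolyJ
  Fermat.Agent.S28.Alg Fermat.Agent.S28.Asm

variable {K : Type} [Field K] [CharZero K] (O : ValuationSubring K)
  [IsDiscreteValuationRing O] (π : O) (hπ : Irreducible π) (M : ℕ) [NeZero M]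
  [Algebra O (FM K M)] [IsScalarTower O K (FM K M)]

include hπ in
omit [CharZero K] [NeZero M] [Algebra O (FM K M)] [IsScalarTower O K (FM K M)] in
/-- `hOloc`. -/
theorem h8M_hOloc (c : O) : IsUnit c ∨ π ∣ c := by
  by_cases hc : IsUnit c
  · exact Or.inl hc
  · right
    have h1 : c ∈ IsLocalRing.maximalIdeal O := (IsLocalRing.mem_maximalIdeal c).mpr hc
    rw [hπ.maximalIdeal_eq] at h1
    exact Ideal.mem_span_singleton.mp h1

omit [CharZero K] [NeZero M] in
/-- `hOV₁`. -/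
theorem h8M_hOV (c : O) : algebraMap O (FM K M) c ∈ gaussValM O M :=
  hOV_gaussValM O M c

include hπ in
omit [CharZero K] [NeZero M] in
/-- `hπ₁`. -/
theorem h8M_hπ : (algebraMap O (FM K M) π)⁻¹ ∉ gaussValM O M := by
  intro h
  refine hπV_gaussValM O M π hπ _ h ?_
  have h0 : algebraMap O (FM K M) π ≠ 0 := by
    rw [algebraMap_O_eq_unifM]
    intro h1
    have h2 : (π : K) = 0 :=
      (algebraMap K ↥(modularFunctionFieldFullC K M)).injective
        (a₁ := (π : K)) (a₂ := 0) (by rw [map_zero]; exact h1)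
    exact hπ.ne_zero (Subtype.ext h2)
  exact mul_inv_cancel₀ h0

include hπ in
omit [CharZero K] [NeZero M] in
/-- `hV₁`: the normal form. -/
theorem h8M_hV (y : FM K M) (hy : y ≠ 0) :
    ∃ (e : ℤ) (u : FM K M), u ∈ gaussValM O M ∧ u⁻¹ ∈ gaussValM O M ∧
      y = algebraMap O (FM K M) π ^ e * u := by
  obtain ⟨e, u, hyu, hu⟩ := gaussValM_exists_zpow_mul O M π hπ hy
  refine ⟨e, (u : FM K M), u.2, ?_, by rw [algebraMap_O_eq_unifM]; exact hyu⟩
  have hunit : IsUnit u := (isUnit_iff_gaussRedM_ne_zero O M).mpr hu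
  obtain ⟨v, hv⟩ := hunit
  have h1 : (u : FM K M) * ((v⁻¹ : (gaussValM O M)ˣ) : gaussValM O M) = 1 := by
    have := congrArg (Subtype.val) (v.mul_inv)
    rw [hv] at this
    exact this
  have h2 : (u : FM K M)⁻¹ = ((v⁻¹ : (gaussValM O M)ˣ) : gaussValM O M) :=
    inv_eq_of_mul_eq_one_right h1
  rw [h2]
  exact Subtype.property _

omit [CharZero K] [Algebra O (FM K M)] [IsScalarTower O K (FM K M)] in
/-- `hj`. -/
theorem h8M_hj : jbFull K M ∈ gaussValM O M := (jM O M).2

/-- The structure map `O → V₁`. -/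
def h8Miota : O →+* gaussValM O M where
  toFun c := ⟨algebraMap O (FM K M) c, hOV_gaussValM O M c⟩
  map_one' := Subtype.ext (map_one _)
  map_mul' a b := Subtype.ext (map_mul _ a b)
  map_zero' := Subtype.ext (map_zero _)
  map_add' a b := Subtype.ext (map_add _ a b)

omit [CharZero K] [NeZero M] in
theorem h8Miota_coe (c : O) : ((h8Miota O M c : gaussValM O M) : FM K M) =
    algebraMap O (FM K M) c := rfl

omit [CharZero K] in
/-- The value of a polynomial at `j`, inside `V₁`. -/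
theorem h8M_eval_coe (b : O[X]) :
    ((b.eval₂ (h8Miota O M) (jM O M) : gaussValM O M) : FM K M) = aeval (jbFull K M) b := by
  have h1 : ((b.eval₂ (h8Miota O M) (jM O M) : gaussValM O M) : FM K M) =
      (gaussValM O M).subtype (b.eval₂ (h8Miota O M) (jM O M)) := rfl
  rw [h1, Polynomial.hom_eval₂, aeval_def]
  rfl

omit [CharZero K] in
/-- The reduction of `b(j)`. -/
theorem h8M_red_eval (b : O[X]) :
    gaussRedM O M (b.eval₂ (h8Miota O M) (jM O M)) =
      aeval (jqModC (IsLocalRing.ResidueField O)) (b.map (IsLocalRing.residue O)) := by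
  rw [Polynomial.hom_eval₂, gaussRedM_jM, aeval_def, Polynomial.eval₂_map]
  congr 1
  refine RingHom.ext fun c => ?_
  show gaussRedM O M ⟨algebraMap O (FM K M) c, hOV_gaussValM O M c⟩ = _
  rw [gaussRedM_algebraMap_O]
  show _ = algebraMap (IsLocalRing.ResidueField O) (LaurentSeries (IsLocalRing.ResidueField O))
    (IsLocalRing.residue O c)
  rw [algebraMap_laurentSeries_eq_single, HahnSeries.C_apply]

include hπ in
omit [CharZero K] [NeZero M] [Algebra O (FM K M)] [IsScalarTower O K (FM K M)] in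
/-- `π ∤ b` means that the reduction of `b` is not zero. -/
theorem h8M_map_ne_zero (b : O[X]) (hb : ¬ (C π ∣ b)) :
    b.map (IsLocalRing.residue O) ≠ 0 := by
  intro h0
  apply hb
  rw [Polynomial.C_dvd_iff_dvd_coeff]
  intro i
  have h1 : IsLocalRing.residue O (b.coeff i) = 0 := by
    rw [← Polynomial.coeff_map, h0, Polynomial.coeff_zero]
  have h2 : b.coeff i ∈ IsLocalRing.maximalIdeal O :=
    (IsLocalRing.residue_eq_zero_iff _).mp h1
  rw [hπ.maximalIdeal_eq] at h2
  exact Ideal.mem_span_singleton.mp h2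

include hπ in
omit [CharZero K] in
/-- `hunit`. -/
theorem h8M_hunit (b : O[X]) (hb : ¬ (C π ∣ b)) :
    aeval (jbFull K M) b ≠ 0 ∧ (aeval (jbFull K M) b)⁻¹ ∈ gaussValM O M := by
  have hred : gaussRedM O M (b.eval₂ (h8Miota O M) (jM O M)) ≠ 0 := by
    rw [h8M_red_eval]
    intro h0
    exact h8M_map_ne_zero O π hπ b hb (eq_zero_of_aeval_jqModC_eq_zero _ h0)
  have hunit : IsUnit (b.eval₂ (h8Miota O M) (jM O M)) :=
    (isUnit_iff_gaussRedM_ne_zero O M).mpr hred
  obtain ⟨v, hv⟩ := hunit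
  have h1 : aeval (jbFull K M) b * ((v⁻¹ : (gaussValM O M)ˣ) : gaussValM O M) = 1 := by
    have := congrArg (Subtype.val) (v.mul_inv)
    rw [hv] at this
    rw [← h8M_eval_coe]
    exact this
  refine ⟨left_ne_zero_of_mul_eq_one h1, ?_⟩
  have h2 : (aeval (jbFull K M) b)⁻¹ = ((v⁻¹ : (gaussValM O M)ˣ) : gaussValM O M) :=
    inv_eq_of_mul_eq_one_right h1
  rw [h2]
  exact Subtype.property _

section Int

variable (ℓ : ℕ) [Fact ℓ.Prime] [CharP (IsLocalRing.ResidueField O) ℓ] (hℓM : ¬ ℓ ∣ M)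

include hπ hℓM in
/-- `hint`. -/
theorem h8M_hint (v : FM K M) (hv : v ∈ gaussValM O M) :
    ∃ P : (FM K M)[X], P.Monic ∧ P.eval v = 0 ∧
      ∀ i, ∃ a b : O[X], ¬ (C π ∣ b) ∧
        P.coeff i * aeval (jbFull K M) b = aeval (jbFull K M) a :=
  exists_monic_isLocFrac O π hπ M ℓ hℓM (x := v) hv

include hπ hℓM in
/-- `hspan`. -/
theorem h8M_hspan :
    ∃ (n : ℕ) (y : Fin n → FM K M), (∀ i, y i ∈ gaussValM O M) ∧
      ∀ w ∈ gaussValM O M, ∃ c : Fin n → FM K M,
        (∀ i, ∃ a b : O[X], ¬ (C π ∣ b) ∧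
          c i * aeval (jbFull K M) b = aeval (jbFull K M) a) ∧
        w = ∑ i, c i * y i := by
  classical
  obtain ⟨n, y, -, hy, -, -, -, -, hcV⟩ := exists_basis O π hπ M ℓ hℓM
  refine ⟨n, fun i => ⟨gIota O (y i), hy i⟩,
    fun i => coeffMap_subtype_mem_gaussRing O (y i), ?_⟩
  intro w hw
  obtain ⟨c, hcmem, hc⟩ := hcV (w : LaurentSeries K) w.2 hw
  refine ⟨fun i => ⟨(c i : LaurentSeries K), kappa_le_full K M (c i).2⟩, fun i => ?_, ?_⟩
  · exact isLocFrac_of_mem O π hπ M (c := ⟨(c i : LaurentSeries K), kappa_le_full K M (c i).2⟩)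
      (hcmem i) (c i).2
  · apply Subtype.ext
    rw [hc]
    push_cast
    rfl

end Int

end Fermat.Agent.S34x.Comp.H8
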