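import Mathlib
import Fermat.Agent.S34x.Val.H6_Inst
import Fermat.Agent.S34x.Comp.H8_BetaM
import Fermat.Agent.S34x.Comp.H13_BetaInst

/-!
# W10 / S34, stage (C), leaf (beta-VAL): the instance (helper13)

`K` a field of characteristic `0`, `O : ValuationSubring K` a DVR with uniformiser `π`,
`M ∣ N`, `q ∣ N`, `W = gaussValM O M`, `V = h6V = W[j_q] ⊆ F_N` (helper6), `α = h6incl`,
`β = τ` ANY ring homomorphism `F_M → F_N` which is `Q ↦ Q^q` on Laurent series (the spelling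
`hτ` of helper22's `h22_beta_chart`).

* `h13_tau_const`, `h13_tau_j`  : `τ` is `O`-linear, `τ j = j_q`;
* `h13_kron₁`, `h13_kron₂`      : `j_q - j^q ∈ 𝔪_∞`, `j_q^q - j ∈ 𝔪_0` from the two
  equivalences of helper6's `h6_two`;
* `h13_beta_inst_of_levelM`     : **`hβV` and `hresβ` of helper7's `h7_comp_abs`** at the
  instance, from the level-`M` inputs in the spelling of `h13_beta_val_abs`;
* `h13_beta_inst`               : the same with the level-`M` inputs discharged by helper8's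
  `H8_BetaM` (no hypothesis left besides `Irreducible π`, the residue characteristic `q ∤ M`,
  `hτ` and the output of helper6's `h6_two`);
* `h13_hβV`, `h13_hresβ`        : the two hypotheses of `h7_comp_abs`, separately.
-/

set_option autoImplicit false
set_option linter.unusedSectionVars false
set_option linter.style.haveILetI false

open ModularCurve Polynomial

noncomputable section

namespace Fermat.Agent.S34x.Comp.H13

open Fermat.Agent.S18x.Dict.H20 Fermat.Agent.S28.Asm Fermat.Agent.S18x.Qepo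
  Fermat.Agent.S34x.Val.H2 Fermat.Agent.S34x.Val.H6

variable {K : Type} [Field K] [CharZero K] (O : ValuationSubring K) [IsDiscreteValuationRing O]
  (M N : ℕ) [NeZero M] [NeZero N] (hMN : M ∣ N) (q : ℕ) [NeZero q] (hq : q.Prime) (hqN : q ∣ N)
  [Algebra O (FM K M)] [IsScalarTower O K (FM K M)]
  [Algebra O (FM K N)] [IsScalarTower O K (FM K N)]

omit [CharZero K] [IsDiscreteValuationRing O] in
/-- `τ` is compatible with the constants. -/
theorem h13_tau_const (τ : FM K M →+* FM K N)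
    (hτ : ∀ a : FM K M, ((τ a : FM K N) : LaurentSeries K) = qExpand K q (a : LaurentSeries K))
    (c : O) : τ (algebraMap O (FM K M) c) = algebraMap O (FM K N) c := by
  apply Subtype.ext
  rw [hτ, IsScalarTower.algebraMap_apply O K (FM K M),
    IsScalarTower.algebraMap_apply O K (FM K N)]
  exact (qExpandAlgHomC K q).commutes (algebraMap O K c)

omit [CharZero K] [IsDiscreteValuationRing O] in
/-- the inclusion is compatible with the constants. -/
theorem h13_incl_const (c : O) :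
    h6incl M N hMN (algebraMap O (FM K M) c) = algebraMap O (FM K N) c := by
  apply Subtype.ext
  rw [h6incl_coe, IsScalarTower.algebraMap_apply O K (FM K M),
    IsScalarTower.algebraMap_apply O K (FM K N)]
  rfl

omit [CharZero K] in
/-- `τ j = j_q`. -/
theorem h13_tau_j (τ : FM K M →+* FM K N)
    (hτ : ∀ a : FM K M, ((τ a : FM K N) : LaurentSeries K) = qExpand K q (a : LaurentSeries K)) :
    τ (jbFull K M) = jbdFull K N q hqN :=
  Subtype.ext (hτ _)

omit [CharZero K] [Algebra O (FM K M)] [IsScalarTower O K (FM K M)]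
  [Algebra O (FM K N)] [IsScalarTower O K (FM K N)] in
/-- `V = W[j_q]`, in the spelling of `h13_beta_inst_abs`. -/
theorem h13_V_gen (v : FM K N) (hv : v ∈ h6V O M N hMN q hqN) :
    ∃ P : (↥(gaussValM O M))[X],
      v = P.eval₂ ((h6incl M N hMN).comp (gaussValM O M).subtype) (jbdFull K N q hqN) := by
  obtain ⟨P, rfl⟩ := hv
  exact ⟨P, rfl⟩

omit [CharZero K] [Algebra O (FM K M)] [IsScalarTower O K (FM K M)]
  [IsScalarTower O K (FM K N)] in
/-- `j_q - j^q ∈ 𝔪_∞`. -/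
theorem h13_kron₁ (π : O) {e₁ : FM K N}
    (hin₁ : ∀ P : (gaussValM O M)[X],
      H2In (h6V O M N hMN q hqN) (algebraMap O (FM K N) π) e₁ (h6ev O M N hMN q hqN P) ↔
        (X - C (h6jbar O M ^ q)) ∣ P.map (IsLocalRing.residue (gaussValM O M))) :
    H2In (h6V O M N hMN q hqN) (algebraMap O (FM K N) π) e₁
      (jbdFull K N q hqN - h6incl M N hMN (jbFull K M) ^ q) := by
  have hP : (X - C (jM O M ^ q) : (gaussValM O M)[X]).map
      (IsLocalRing.residue (gaussValM O M)) = X - C (h6jbar O M ^ q) := by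
    rw [Polynomial.map_sub, Polynomial.map_X, Polynomial.map_C, RingHom.map_pow]
    rfl
  have h1 := (hin₁ (X - C (jM O M ^ q))).mpr (by rw [hP])
  rw [map_sub, h6ev_X, h6ev_C] at h1
  have h2 : h6incl M N hMN ((jM O M ^ q : gaussValM O M) : FM K M)
      = h6incl M N hMN (jbFull K M) ^ q := by
    rw [← map_pow]
    rfl
  rw [h2] at h1
  exact h1

omit [CharZero K] [Algebra O (FM K M)] [IsScalarTower O K (FM K M)]
  [IsScalarTower O K (FM K N)] in
/-- `j_q^q - j ∈ 𝔪_0`. -/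
theorem h13_kron₂ (π : O) {e₂ : FM K N}
    (hin₂ : ∀ P : (gaussValM O M)[X],
      H2In (h6V O M N hMN q hqN) (algebraMap O (FM K N) π) e₂ (h6ev O M N hMN q hqN P) ↔
        (X ^ q - C (h6jbar O M)) ∣ P.map (IsLocalRing.residue (gaussValM O M))) :
    H2In (h6V O M N hMN q hqN) (algebraMap O (FM K N) π) e₂
      (jbdFull K N q hqN ^ q - h6incl M N hMN (jbFull K M)) := by
  have hP : (X ^ q - C (jM O M) : (gaussValM O M)[X]).map
      (IsLocalRing.residue (gaussValM O M)) = X ^ q - C (h6jbar O M) := by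
    rw [Polynomial.map_sub, Polynomial.map_pow, Polynomial.map_X, Polynomial.map_C]
    rfl
  have h1 := (hin₂ (X ^ q - C (jM O M))).mpr (by rw [hP])
  rw [map_sub, map_pow, h6ev_X, h6ev_C] at h1
  exact h1

include hq in
/-- **(beta-VAL) at the instance**, from the level-`M` inputs in the spelling of
`h13_beta_val_abs`: the hypotheses `hβV`, `hresβ` of helper7's `h7_comp_abs`, and (V1), (V2)
for the two valuation rings of `V`. -/
theorem h13_beta_inst_of_levelM (π : O) (τ : FM K M →+* FM K N)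
    (hτ : ∀ a : FM K M, ((τ a : FM K N) : LaurentSeries K) = qExpand K q (a : LaurentSeries K))
    {e₁ e₂ : FM K N}
    (h2 : H2Two (h6V O M N hMN q hqN) (algebraMap O (FM K N) π) e₁ e₂)
    (hin₁ : ∀ P : (gaussValM O M)[X],
      H2In (h6V O M N hMN q hqN) (algebraMap O (FM K N) π) e₁ (h6ev O M N hMN q hqN P) ↔
        (X - C (h6jbar O M ^ q)) ∣ P.map (IsLocalRing.residue (gaussValM O M)))
    (hin₂ : ∀ P : (gaussValM O M)[X],
      H2In (h6V O M N hMN q hqN) (algebraMap O (FM K N) π) e₂ (h6ev O M N hMN q hqN P) ↔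
        (X ^ q - C (h6jbar O M)) ∣ P.map (IsLocalRing.residue (gaussValM O M)))
    (hOloc : ∀ c : O, IsUnit c ∨ π ∣ c)
    (hOW : ∀ c : O, algebraMap O (FM K M) c ∈ gaussValM O M)
    (hπW : (algebraMap O (FM K M) π)⁻¹ ∉ gaussValM O M)
    (hW : ∀ y : FM K M, y ≠ 0 → ∃ (e : ℤ) (u : FM K M), u ∈ gaussValM O M ∧
      u⁻¹ ∈ gaussValM O M ∧ y = algebraMap O (FM K M) π ^ e * u)
    (hunit : ∀ b : O[X], ¬ (C π ∣ b) →
      aeval (jbFull K M) b ≠ 0 ∧ (aeval (jbFull K M) b)⁻¹ ∈ gaussValM O M)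
    (hint : ∀ v ∈ gaussValM O M, ∃ P : (FM K M)[X], P.Monic ∧ P.eval v = 0 ∧
      ∀ i, ∃ a b : O[X], ¬ (C π ∣ b) ∧
        P.coeff i * aeval (jbFull K M) b = aeval (jbFull K M) a)
    (hspan : ∃ (n : ℕ) (y : Fin n → FM K M), (∀ i, y i ∈ gaussValM O M) ∧
      ∀ w ∈ gaussValM O M, ∃ c : Fin n → FM K M,
        (∀ i, ∃ a b : O[X], ¬ (C π ∣ b) ∧
          c i * aeval (jbFull K M) b = aeval (jbFull K M) a) ∧
        w = ∑ i, c i * y i) :
    (∀ w ∈ gaussValM O M, τ w ∈ h6V O M N hMN q hqN) ∧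
    (∀ v ∈ h6V O M N hMN q hqN, ∃ w ∈ gaussValM O M,
      H2In (h6V O M N hMN q hqN) (algebraMap O (FM K N) π) e₂ (v - τ w)) ∧
    (∀ y : FM K M, τ y ∈ h2.c₁.val ↔ y ∈ gaussValM O M) ∧
    (∀ y : FM K M, τ y ∈ h2.c₂.val ↔ y ∈ gaussValM O M) ∧
    (∀ v ∈ h2.c₂.val, ∃ y ∈ gaussValM O M, v - τ y ∈ h2.c₂.val.nonunits) := by
  have hτj : τ (jbFull K M) = jbdFull K N q hqN := h13_tau_j M N q hqN τ hτ
  refine h13_beta_inst_abs π hOloc (h6incl M N hMN) τ (gaussValM O M) (h6V O M N hMN q hqN)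
    h2 rfl (h13_incl_const O M N hMN) (h13_tau_const O M N q τ hτ) hOW hπW hW
    (fun w hw => h6V_incl O M N hMN q hqN w hw) (jbFull K M) (j_mem_gaussRing O) ?_ q hq
    ?_ ?_ ?_ hunit hint hspan
  · rw [hτj]
    exact h6V_jq O M N hMN q hqN
  · rw [hτj]
    exact h13_kron₁ O M N hMN q hqN π hin₁
  · rw [hτj]
    exact h13_kron₂ O M N hMN q hqN π hin₂
  · intro v hv
    rw [hτj]
    exact h13_V_gen O M N hMN q hqN v hv

section Closed

open Fermat.Agent.S34x.Comp.H8

variable (π : O) (hπ : Irreducible π) [Fact q.Prime] [CharP (IsLocalRing.ResidueField O) q]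
  (hqM : ¬ q ∣ M)

include hπ hqM in
/-- **(beta-VAL) at the instance, closed form.** -/
theorem h13_beta_inst (τ : FM K M →+* FM K N)
    (hτ : ∀ a : FM K M, ((τ a : FM K N) : LaurentSeries K) = qExpand K q (a : LaurentSeries K))
    {e₁ e₂ : FM K N}
    (h2 : H2Two (h6V O M N hMN q hqN) (algebraMap O (FM K N) π) e₁ e₂)
    (hin₁ : ∀ P : (gaussValM O M)[X],
      H2In (h6V O M N hMN q hqN) (algebraMap O (FM K N) π) e₁ (h6ev O M N hMN q hqN P) ↔
        (X - C (h6jbar O M ^ q)) ∣ P.map (IsLocalRing.residue (gaussValM O M)))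
    (hin₂ : ∀ P : (gaussValM O M)[X],
      H2In (h6V O M N hMN q hqN) (algebraMap O (FM K N) π) e₂ (h6ev O M N hMN q hqN P) ↔
        (X ^ q - C (h6jbar O M)) ∣ P.map (IsLocalRing.residue (gaussValM O M))) :
    (∀ w ∈ gaussValM O M, τ w ∈ h6V O M N hMN q hqN) ∧
    (∀ v ∈ h6V O M N hMN q hqN, ∃ w ∈ gaussValM O M,
      H2In (h6V O M N hMN q hqN) (algebraMap O (FM K N) π) e₂ (v - τ w)) ∧
    (∀ y : FM K M, τ y ∈ h2.c₁.val ↔ y ∈ gaussValM O M) ∧
    (∀ y : FM K M, τ y ∈ h2.c₂.val ↔ y ∈ gaussValM O M) ∧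
    (∀ v ∈ h2.c₂.val, ∃ y ∈ gaussValM O M, v - τ y ∈ h2.c₂.val.nonunits) :=
  h13_beta_inst_of_levelM O M N hMN q (Fact.out : q.Prime) hqN π τ hτ h2 hin₁ hin₂
    (h8M_hOloc O π hπ) (h8M_hOV O M) (h8M_hπ O π hπ M) (h8M_hV O π hπ M)
    (h8M_hunit O π hπ M) (h8M_hint O π hπ M q hqM) (h8M_hspan O π hπ M q hqM)

include hπ hqM in
/-- **`hβV` of `h7_comp_abs`** at the instance (`W` as a subring). -/
theorem h13_hβV (τ : FM K M →+* FM K N)
    (hτ : ∀ a : FM K M, ((τ a : FM K N) : LaurentSeries K) = qExpand K q (a : LaurentSeries K))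
    {e₁ e₂ : FM K N}
    (h2 : H2Two (h6V O M N hMN q hqN) (algebraMap O (FM K N) π) e₁ e₂)
    (hin₁ : ∀ P : (gaussValM O M)[X],
      H2In (h6V O M N hMN q hqN) (algebraMap O (FM K N) π) e₁ (h6ev O M N hMN q hqN P) ↔
        (X - C (h6jbar O M ^ q)) ∣ P.map (IsLocalRing.residue (gaussValM O M)))
    (hin₂ : ∀ P : (gaussValM O M)[X],
      H2In (h6V O M N hMN q hqN) (algebraMap O (FM K N) π) e₂ (h6ev O M N hMN q hqN P) ↔
        (X ^ q - C (h6jbar O M)) ∣ P.map (IsLocalRing.residue (gaussValM O M))) :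
    ∀ w ∈ (gaussValM O M).toSubring, τ w ∈ h6V O M N hMN q hqN :=
  (h13_beta_inst O M N hMN q hqN π hπ hqM τ hτ h2 hin₁ hin₂).1

include hπ hqM in
/-- **`hresβ` of `h7_comp_abs`** at the instance (`W` as a subring). -/
theorem h13_hresβ (τ : FM K M →+* FM K N)
    (hτ : ∀ a : FM K M, ((τ a : FM K N) : LaurentSeries K) = qExpand K q (a : LaurentSeries K))
    {e₁ e₂ : FM K N}
    (h2 : H2Two (h6V O M N hMN q hqN) (algebraMap O (FM K N) π) e₁ e₂)
    (hin₁ : ∀ P : (gaussValM O M)[X],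
      H2In (h6V O M N hMN q hqN) (algebraMap O (FM K N) π) e₁ (h6ev O M N hMN q hqN P) ↔
        (X - C (h6jbar O M ^ q)) ∣ P.map (IsLocalRing.residue (gaussValM O M)))
    (hin₂ : ∀ P : (gaussValM O M)[X],
      H2In (h6V O M N hMN q hqN) (algebraMap O (FM K N) π) e₂ (h6ev O M N hMN q hqN P) ↔
        (X ^ q - C (h6jbar O M)) ∣ P.map (IsLocalRing.residue (gaussValM O M))) :
    ∀ v ∈ h6V O M N hMN q hqN, ∃ w ∈ (gaussValM O M).toSubring,
      H2In (h6V O M N hMN q hqN) (algebraMap O (FM K N) π) e₂ (v - τ w) :=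
  (h13_beta_inst O M N hMN q hqN π hπ hqM τ hτ h2 hin₁ hin₂).2.1

end Closed

end Fermat.Agent.S34x.Comp.H13
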