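import Mathlib
import Fermat.Agent.S34x.Comp.H13_BetaInstM

/-!
# W10 / S34, stage (C), leaf (beta-VAL): the plug for helper7's `h7_comp_inst_gen` (helper13)

The binder `hresβ` of `h7_comp_inst_gen` is quantified over ANY `e₂` satisfying the
`e₂`-equivalence of helper6's `h6_two` (no `H2Two` in scope).  This file gives `hβV` and `hresβ`
in exactly that spelling: the pair `(e₁, e₂)` is produced inside by `h6_two`, and the statement
is transferred to the given `e₂` (the two predicates `H2In V π e₂ ·` agree on `V`).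

* `h13_hβV_plug`   : `hβV` of `h7_comp_inst_gen` (from `hq0`, `H6Gen`);
* `h13_hresβ_plug` : `hresβ` of `h7_comp_inst_gen` VERBATIM.
-/

set_option autoImplicit false
set_option linter.unusedSectionVars false
set_option linter.style.haveILetI false

open ModularCurve Polynomial

noncomputable section

namespace Fermat.Agent.S34x.Comp.H13

open Fermat.Agent.S18x.Dict.H20 Fermat.Agent.S28.Asm Fermat.Agent.S18x.Qepo
  Fermat.Agent.S34x.Val.H2 Fermat.Agent.S34x.Val.H6

variable {K : Type} [Field K] [CharZero K] (O : ValuationSubring K) [IsDiscreteValuationRing O]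
  (M N : ℕ) [NeZero M] [NeZero N] (hMN : M ∣ N) (q : ℕ) [NeZero q] (hq : q.Prime) (hqN : q ∣ N)
  [Algebra O (FM K M)] [IsScalarTower O K (FM K M)]
  [Algebra O (FM K N)] [IsScalarTower O K (FM K N)]
  (π : O) (hπ : Irreducible π) [CharP (IsLocalRing.ResidueField O) q] (hqM : ¬ q ∣ M)

include hπ hq hqM in
/-- **`hβV` of `h7_comp_inst_gen`.** -/
theorem h13_hβV_plug (hq0 : (q : IsLocalRing.ResidueField O) = 0)
    (hgen : H6Gen (K := K) M N q) (τ : FM K M →+* FM K N)
    (hτ : ∀ a : FM K M, ((τ a : FM K N) : LaurentSeries K) = qExpand K q (a : LaurentSeries K)) :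
    ∀ w ∈ (gaussValM O M).toSubring, τ w ∈ h6V O M N hMN q hqN := by
  haveI : Fact q.Prime := ⟨hq⟩
  obtain ⟨e₁, e₂, h2, hm₁, hm₂⟩ := h6_two O M N hMN q hq hqN π hπ hq0 hgen
  exact h13_hβV O M N hMN q hqN π hπ hqM τ hτ h2 hm₁ hm₂

include hπ hq hqM in
/-- **`hresβ` of `h7_comp_inst_gen`**, verbatim. -/
theorem h13_hresβ_plug (hq0 : (q : IsLocalRing.ResidueField O) = 0)
    (hgen : H6Gen (K := K) M N q) (τ : FM K M →+* FM K N)
    (hτ : ∀ a : FM K M, ((τ a : FM K N) : LaurentSeries K) = qExpand K q (a : LaurentSeries K)) :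
    ∀ e₂ : FM K N,
      (∀ P : (gaussValM O M)[X],
        H2In (h6V O M N hMN q hqN) (algebraMap O (FM K N) π) e₂ (h6ev O M N hMN q hqN P) ↔
          (X ^ q - C (h6jbar O M)) ∣ P.map (IsLocalRing.residue (gaussValM O M))) →
      ∀ v ∈ h6V O M N hMN q hqN, ∃ w ∈ (gaussValM O M).toSubring,
        H2In (h6V O M N hMN q hqN) (algebraMap O (FM K N) π) e₂ (v - τ w) := by
  haveI : Fact q.Prime := ⟨hq⟩
  intro e₂ hm₂ v hv
  obtain ⟨e₁', e₂', h2, hm₁', hm₂'⟩ := h6_two O M N hMN q hq hqN π hπ hq0 hgen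
  have hβV := h13_hβV O M N hMN q hqN π hπ hqM τ hτ h2 hm₁' hm₂'
  obtain ⟨w, hw, hin⟩ := h13_hresβ O M N hMN q hqN π hπ hqM τ hτ h2 hm₁' hm₂' v hv
  refine ⟨w, hw, ?_⟩
  have hmem : v - τ w ∈ h6V O M N hMN q hqN :=
    (h6V O M N hMN q hqN).sub_mem hv (hβV w hw)
  obtain ⟨P, hP⟩ := (h6V_mem_iff' O M N hMN q hqN).mp hmem
  rw [← hP] at hin ⊢
  exact (hm₂ P).mpr ((hm₂' P).mp hin)

end Fermat.Agent.S34x.Comp.H13
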