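import Fermat.Agent.S34x.Comp.H14_BetaIntPlug
import Fermat.Agent.S34x.Comp.H10_CuspFact
import Fermat.Agent.S34x.Comp.H11_Beta

/-!
# S34 / W10 (C) COMP (helper14, owner of (β-INT)): (β-INT) closed, hypothesis-free

`hβB` of helper7's `h7_comp_abs` at the instance, with (KO) discharged by helper10's
`h10_KO` (Newton polygon of Kronecker's polynomial `Φ_q`):

* `h14_betaB_two`, `h14_betaB_three` : every ring homomorphism `τ : F_M → F_N` which is
  `Q ↦ Q ^ q` on Laurent series maps `chart O x_M` into `chart O x_N` and `chart O x_M⁻¹` into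
  `chart O x_N⁻¹` (`x` the Hauptmodul of level `2` resp. `3`, `q ≠ 2` resp. `3` the residue
  characteristic of `O`, `q * 2 ∣ N` resp. `q * 3 ∣ N`);
* `h14_betaB_two_h11`, `h14_betaB_three_h11` : the same for helper11's concrete `h11Beta`.
-/

set_option autoImplicit false
set_option linter.unusedSectionVars false
set_option linter.unusedVariables false
set_option linter.style.haveILetI false
set_option synthInstance.maxHeartbeats 400000
set_option maxHeartbeats 1000000

open ModularCurve Polynomial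

noncomputable section

namespace Fermat.Agent.S34x.Comp.H14

open Fermat.Agent.S18x.Spec.H26 Fermat.Agent.S18x.Qepo Fermat.Agent.S18x.IG.H29
  Fermat.Agent.S18x.IG.H28 Fermat.Agent.S34x.Comp.H22 Fermat.Agent.S34x.Comp.H10
  Fermat.Agent.S34x.Comp.H11B

variable (K : Type) [Field K] [CharZero K] (O : ValuationSubring K) (M N : ℕ) [NeZero M]
  [NeZero N] [Algebra O (FM K M)] [IsScalarTower O K (FM K M)]
  [Algebra O (FM K N)] [IsScalarTower O K (FM K N)]

/-- **(β-INT), level 2, closed**: `hβB` for both charts. -/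
theorem h14_betaB_two (q : ℕ) [NeZero q] (hq : q.Prime) (hq2 : q ≠ 2)
    (h2qN : q * 2 ∣ N) (hq0 : (q : IsLocalRing.ResidueField O) = 0)
    (τ : FM K M →+* FM K N)
    (hτ : ∀ a : FM K M, ((τ a : FM K N) : LaurentSeries K) = qExpand K q (a : LaurentSeries K))
    (hmemM : coeffMap (Int.castRingHom K) h2 ∈ modularFunctionFieldFullC K M)
    (hmem : coeffMap (Int.castRingHom K) h2 ∈ modularFunctionFieldFullC K N) :
    (∀ a ∈ (chart O (coordM K M h2 hmemM)).toSubring,
        τ a ∈ (chart O (coordM K N h2 hmem)).toSubring) ∧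
      (∀ a ∈ (chart O (coordM K M h2 hmemM)⁻¹).toSubring,
        τ a ∈ (chart O (coordM K N h2 hmem)⁻¹).toSubring) :=
  h14_betaB_two_of_KO K O M N q hq hq2 h2qN hq0 (h10_KO q hq (FM K N)) τ hτ hmemM hmem

/-- **(β-INT), level 3, closed**: `hβB` for both charts. -/
theorem h14_betaB_three (q : ℕ) [NeZero q] (hq : q.Prime) (hq3 : q ≠ 3)
    (h3qN : q * 3 ∣ N) (hq0 : (q : IsLocalRing.ResidueField O) = 0)
    (τ : FM K M →+* FM K N)
    (hτ : ∀ a : FM K M, ((τ a : FM K N) : LaurentSeries K) = qExpand K q (a : LaurentSeries K))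
    (hmemM : coeffMap (Int.castRingHom K) h3 ∈ modularFunctionFieldFullC K M)
    (hmem : coeffMap (Int.castRingHom K) h3 ∈ modularFunctionFieldFullC K N) :
    (∀ a ∈ (chart O (coordM K M h3 hmemM)).toSubring,
        τ a ∈ (chart O (coordM K N h3 hmem)).toSubring) ∧
      (∀ a ∈ (chart O (coordM K M h3 hmemM)⁻¹).toSubring,
        τ a ∈ (chart O (coordM K N h3 hmem)⁻¹).toSubring) :=
  h14_betaB_three_of_KO K O M N q hq hq3 h3qN hq0 (h10_KO q hq (FM K N)) τ hτ hmemM hmem

/-- **(β-INT), level 2, closed, for helper11's `h11Beta`.** -/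
theorem h14_betaB_two_h11 (q : ℕ) [NeZero q] (hq : q.Prime) (hq2 : q ≠ 2)
    (hMqN : M * q ∣ N) (h2M : 2 ∣ M) (hq0 : (q : IsLocalRing.ResidueField O) = 0)
    (hmemM : coeffMap (Int.castRingHom K) h2 ∈ modularFunctionFieldFullC K M)
    (hmem : coeffMap (Int.castRingHom K) h2 ∈ modularFunctionFieldFullC K N) :
    (∀ a ∈ (chart O (coordM K M h2 hmemM)).toSubring,
        h11Beta K M N q hMqN a ∈ (chart O (coordM K N h2 hmem)).toSubring) ∧
      (∀ a ∈ (chart O (coordM K M h2 hmemM)⁻¹).toSubring,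
        h11Beta K M N q hMqN a ∈ (chart O (coordM K N h2 hmem)⁻¹).toSubring) := by
  have h2qN : q * 2 ∣ N := by
    obtain ⟨c, hc⟩ := h2M
    refine Dvd.dvd.trans ?_ hMqN
    exact ⟨c, by rw [hc]; ring⟩
  exact h14_betaB_two K O M N q hq hq2 h2qN hq0 (h11Beta K M N q hMqN)
    (fun a => h11Beta_coe K M N q hMqN a) hmemM hmem

/-- **(β-INT), level 3, closed, for helper11's `h11Beta`.** -/
theorem h14_betaB_three_h11 (q : ℕ) [NeZero q] (hq : q.Prime) (hq3 : q ≠ 3)
    (hMqN : M * q ∣ N) (h3M : 3 ∣ M) (hq0 : (q : IsLocalRing.ResidueField O) = 0)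
    (hmemM : coeffMap (Int.castRingHom K) h3 ∈ modularFunctionFieldFullC K M)
    (hmem : coeffMap (Int.castRingHom K) h3 ∈ modularFunctionFieldFullC K N) :
    (∀ a ∈ (chart O (coordM K M h3 hmemM)).toSubring,
        h11Beta K M N q hMqN a ∈ (chart O (coordM K N h3 hmem)).toSubring) ∧
      (∀ a ∈ (chart O (coordM K M h3 hmemM)⁻¹).toSubring,
        h11Beta K M N q hMqN a ∈ (chart O (coordM K N h3 hmem)⁻¹).toSubring) := by
  have h3qN : q * 3 ∣ N := by
    obtain ⟨c, hc⟩ := h3M
    refine Dvd.dvd.trans ?_ hMqN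
    exact ⟨c, by rw [hc]; ring⟩
  exact h14_betaB_three K O M N q hq hq3 h3qN hq0 (h11Beta K M N q hMqN)
    (fun a => h11Beta_coe K M N q hMqN a) hmemM hmem

end Fermat.Agent.S34x.Comp.H14
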