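import Fermat.Agent.S34x.Comp.H22_BetaChart

/-!
# S34 / W10 (C) COMP (helper14, owner of (β-INT)): the plug `hβB` of `h7_comp_abs`

* `h14_hOq` : in a valuation subring `O` of `K` of residue characteristic `q`, the integers
  prime to `q` are units (the hypothesis `hOq` of helper22's `h22_betaInt_*`);
* `h14_betaB_two`, `h14_betaB_three` : every ring homomorphism `τ : F_M → F_N` which is
  `Q ↦ Q ^ q` on Laurent series maps the chart `chart O x_M` into `chart O x_N` and the chart
  `chart O x_M⁻¹` into `chart O x_N⁻¹` (in `Subring` spelling, `= hβB` of `h7_comp_abs`),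
  for the Hauptmodul `x` of level `2` resp. `3`, from (KO) in unit form.
-/

set_option autoImplicit false
set_option linter.unusedSectionVars false
set_option linter.unusedVariables false
set_option linter.style.haveILetI false
set_option synthInstance.maxHeartbeats 400000
set_option maxHeartbeats 1000000

open ModularCurve Polynomial

noncomputable section

namespace Fermat.Agent.S34x.Comp.H14

open Fermat.Agent.S18x.Spec.H26 Fermat.Agent.S18x.Qepo Fermat.Agent.S18x.IG.H29
  Fermat.Agent.S18x.IG.H28 Fermat.Agent.S37x.Kron.H2 Fermat.Agent.S28.Deg.H9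
  Fermat.Agent.S34x.Comp.H22

/-- In a valuation subring of residue characteristic `q` the integers prime to `q` are units. -/
theorem h14_hOq {K : Type*} [Field K] (O : ValuationSubring K) (q : ℕ) (hq : q.Prime)
    (hq0 : (q : IsLocalRing.ResidueField O) = 0) (n : ℤ) (hn : ¬ (q : ℤ) ∣ n) :
    ((n : K))⁻¹ ∈ O := by
  have hqm : ((q : ℕ) : O) ∈ IsLocalRing.maximalIdeal O := by
    rw [← IsLocalRing.residue_eq_zero_iff, map_natCast]
    exact hq0
  have hcop : IsCoprime (q : ℤ) n :=
    (Nat.prime_iff_prime_int.mp hq).coprime_iff_not_dvd.mpr hn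
  obtain ⟨a, b, hab⟩ := hcop
  have e1 : ((b : O)) * ((n : O)) = 1 - (a : O) * ((q : ℕ) : O) := by
    have := congrArg (Int.cast : ℤ → O) hab
    push_cast at this
    rw [← this]
    ring
  have hu : IsUnit ((b : O) * (n : O)) := by
    rw [e1]
    by_contra hnu
    have h1 : (1 : O) - (a : O) * ((q : ℕ) : O) ∈ IsLocalRing.maximalIdeal O :=
      (IsLocalRing.mem_maximalIdeal _).mpr hnu
    have h2 : (a : O) * ((q : ℕ) : O) ∈ IsLocalRing.maximalIdeal O :=
      Ideal.mul_mem_left _ _ hqm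
    have h3 : (1 : O) ∈ IsLocalRing.maximalIdeal O := by
      have := Ideal.add_mem _ h1 h2
      simpa using this
    exact (Ideal.ne_top_iff_one _).mp (IsLocalRing.maximalIdeal.isMaximal O).ne_top h3
  have hun : IsUnit ((n : O)) := isUnit_of_mul_isUnit_right hu
  obtain ⟨u, hu'⟩ := hun
  have h6 : ((n : O) : K) = (n : K) := by push_cast; rfl
  have h7 : ((u⁻¹ : Oˣ) : O) * (u : O) = 1 := u.inv_mul
  have h5 : ((((u⁻¹ : Oˣ) : O) : K)) * (n : K) = 1 := by
    rw [← h6, ← hu']
    calc ((((u⁻¹ : Oˣ) : O) : K)) * ((u : O) : K)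
        = ((((u⁻¹ : Oˣ) : O) * (u : O) : O) : K) := rfl
      _ = 1 := by rw [h7]; rfl
  rw [← eq_inv_of_mul_eq_one_left h5]
  exact (((u⁻¹ : Oˣ) : O)).2

section Inst

variable (K : Type) [Field K] [CharZero K] (O : ValuationSubring K) (M N : ℕ) [NeZero M]
  [NeZero N] [Algebra O (FM K M)] [IsScalarTower O K (FM K M)]
  [Algebra O (FM K N)] [IsScalarTower O K (FM K N)]

/-- **`hβB`, level 2** (both charts), from (KO) in unit form. -/
theorem h14_betaB_two_of_cusp (q : ℕ) [NeZero q] (hq : q.Prime) (hq2 : q ≠ 2)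
    (h2qN : q * 2 ∣ N) (hq0 : (q : IsLocalRing.ResidueField O) = 0)
    (hKO : H22CuspFact q hq (FM K N))
    (τ : FM K M →+* FM K N)
    (hτ : ∀ a : FM K M, ((τ a : FM K N) : LaurentSeries K) = qExpand K q (a : LaurentSeries K))
    (hmemM : coeffMap (Int.castRingHom K) h2 ∈ modularFunctionFieldFullC K M)
    (hmem : coeffMap (Int.castRingHom K) h2 ∈ modularFunctionFieldFullC K N) :
    (∀ a ∈ (chart O (coordM K M h2 hmemM)).toSubring,
        τ a ∈ (chart O (coordM K N h2 hmem)).toSubring) ∧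
      (∀ a ∈ (chart O (coordM K M h2 hmemM)⁻¹).toSubring,
        τ a ∈ (chart O (coordM K N h2 hmem)⁻¹).toSubring) := by
  have hmemq : qExpand K q (coeffMap (Int.castRingHom K) h2) ∈ modularFunctionFieldFullC K N := by
    have := (τ (coordM K M h2 hmemM)).2
    rw [hτ] at this
    exact this
  obtain ⟨h1, h2'⟩ := h22_betaInt_two_of_cusp K O N q hq hq2 h2qN (h14_hOq O q hq hq0) hKO
    hmem hmemq
  exact ⟨fun a ha => h22_beta_chart K O M N q τ hτ h2 hmemM hmem hmemq h1 a ha,
    fun a ha => h22_beta_chart_inv K O M N q τ hτ h2 hmemM hmem hmemq h2' a ha⟩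

/-- **`hβB`, level 3** (both charts), from (KO) in unit form. -/
theorem h14_betaB_three_of_cusp (q : ℕ) [NeZero q] (hq : q.Prime) (hq3 : q ≠ 3)
    (h3qN : q * 3 ∣ N) (hq0 : (q : IsLocalRing.ResidueField O) = 0)
    (hKO : H22CuspFact q hq (FM K N))
    (τ : FM K M →+* FM K N)
    (hτ : ∀ a : FM K M, ((τ a : FM K N) : LaurentSeries K) = qExpand K q (a : LaurentSeries K))
    (hmemM : coeffMap (Int.castRingHom K) h3 ∈ modularFunctionFieldFullC K M)
    (hmem : coeffMap (Int.castRingHom K) h3 ∈ modularFunctionFieldFullC K N) :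
    (∀ a ∈ (chart O (coordM K M h3 hmemM)).toSubring,
        τ a ∈ (chart O (coordM K N h3 hmem)).toSubring) ∧
      (∀ a ∈ (chart O (coordM K M h3 hmemM)⁻¹).toSubring,
        τ a ∈ (chart O (coordM K N h3 hmem)⁻¹).toSubring) := by
  have hmemq : qExpand K q (coeffMap (Int.castRingHom K) h3) ∈ modularFunctionFieldFullC K N := by
    have := (τ (coordM K M h3 hmemM)).2
    rw [hτ] at this
    exact this
  obtain ⟨h1, h2'⟩ := h22_betaInt_three_of_cusp K O N q hq hq3 h3qN (h14_hOq O q hq hq0) hKO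
    hmem hmemq
  exact ⟨fun a ha => h22_beta_chart K O M N q τ hτ h3 hmemM hmem hmemq h1 a ha,
    fun a ha => h22_beta_chart_inv K O M N q τ hτ h3 hmemM hmem hmemq h2' a ha⟩

/-- **`hβB`, level 2** (both charts), from (KO) in valuation form. -/
theorem h14_betaB_two_of_KO (q : ℕ) [NeZero q] (hq : q.Prime) (hq2 : q ≠ 2)
    (h2qN : q * 2 ∣ N) (hq0 : (q : IsLocalRing.ResidueField O) = 0)
    (hKO : H22KO q hq (FM K N))
    (τ : FM K M →+* FM K N)
    (hτ : ∀ a : FM K M, ((τ a : FM K N) : LaurentSeries K) = qExpand K q (a : LaurentSeries K))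
    (hmemM : coeffMap (Int.castRingHom K) h2 ∈ modularFunctionFieldFullC K M)
    (hmem : coeffMap (Int.castRingHom K) h2 ∈ modularFunctionFieldFullC K N) :
    (∀ a ∈ (chart O (coordM K M h2 hmemM)).toSubring,
        τ a ∈ (chart O (coordM K N h2 hmem)).toSubring) ∧
      (∀ a ∈ (chart O (coordM K M h2 hmemM)⁻¹).toSubring,
        τ a ∈ (chart O (coordM K N h2 hmem)⁻¹).toSubring) :=
  h14_betaB_two_of_cusp K O M N q hq hq2 h2qN hq0 (h22_cuspFact_of_KO q hq hKO) τ hτ hmemM hmem

/-- **`hβB`, level 3** (both charts), from (KO) in valuation form. -/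
theorem h14_betaB_three_of_KO (q : ℕ) [NeZero q] (hq : q.Prime) (hq3 : q ≠ 3)
    (h3qN : q * 3 ∣ N) (hq0 : (q : IsLocalRing.ResidueField O) = 0)
    (hKO : H22KO q hq (FM K N))
    (τ : FM K M →+* FM K N)
    (hτ : ∀ a : FM K M, ((τ a : FM K N) : LaurentSeries K) = qExpand K q (a : LaurentSeries K))
    (hmemM : coeffMap (Int.castRingHom K) h3 ∈ modularFunctionFieldFullC K M)
    (hmem : coeffMap (Int.castRingHom K) h3 ∈ modularFunctionFieldFullC K N) :
    (∀ a ∈ (chart O (coordM K M h3 hmemM)).toSubring,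
        τ a ∈ (chart O (coordM K N h3 hmem)).toSubring) ∧
      (∀ a ∈ (chart O (coordM K M h3 hmemM)⁻¹).toSubring,
        τ a ∈ (chart O (coordM K N h3 hmem)⁻¹).toSubring) :=
  h14_betaB_three_of_cusp K O M N q hq hq3 h3qN hq0 (h22_cuspFact_of_KO q hq hKO) τ hτ hmemM hmem

end Inst

end Fermat.Agent.S34x.Comp.H14
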