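import Mathlib
import Fermat.Agent.S34x.Val.H6_Inst
import Fermat.Agent.S34x.Sat.H21_SatCoord
import Fermat.Agent.S18x.Spec.H26_Charts

/-!
# W10 / S34, stage (C) COMP, (S)-INST (helper15): the two separation inputs `hsep₁₂`, `hsep₂₁`
of `h7_comp_abs` / `h7_comp_abs2` at the instance

For helper6's instance of stage (A) (`V = h6V = W[j_q] ⊆ F_N`, `W = gaussValM O M`), any
`e₁ e₂` with `H2Two V π e₁ e₂` and the descriptions of the two maximal ideals given by `h6_two`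
(`G₁ = X - j̄ ^ q`, `G₂ = X ^ q - j̄`), and a coordinate `x = coordM K N x₀ hmem` of level `M`
satisfying a Hauptmodul identity `j x ^ k = N₀(x)` over `ℤ` (`coord2`, `coord3`): each of the two
charts `chart O x`, `chart O x⁻¹` contains an element of `𝔪₁ \ 𝔪₂` and an element of `𝔪₂ \ 𝔪₁`.

The separating elements are explicit: `c₁ = j_q - j ^ q ∈ 𝔪₁ \ 𝔪₂`, `c₂ = j_q ^ q - j ∈ 𝔪₂ \ 𝔪₁`
(Kronecker's congruences on the two components), which are integral over `O[x, x⁻¹]`; a power of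
`x` (resp. of `x⁻¹`), which is a unit of `V`, moves them into the chart.

* `h15_sep_abs` : the abstract core (scaling into the two charts);
* `h15_int_j`, `h15_int_jq` : `j`, `j_q` are integral over `O[x, x⁻¹]`;
* `h15_c₁_in`, `h15_c₁_not`, `h15_c₂_in`, `h15_c₂_not` : the four membership statements;
* `h15_sep_coordM` : generic export; `h15_sep_coord2`, `h15_sep_coord3` : the instances.
-/

set_option autoImplicit false
set_option linter.unusedSectionVars false
set_option linter.unusedVariables false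
set_option linter.style.haveILetI false
set_option synthInstance.maxHeartbeats 400000
set_option maxHeartbeats 1000000

open ModularCurve Polynomial

noncomputable section

namespace Fermat.Agent.S34x.Comp.H15

open Fermat.Agent.S18x.Dict.H20 Fermat.Agent.S18x.Spec.H26 Fermat.Agent.S28.Asm
  Fermat.Agent.S18x.IG.H29 Fermat.Agent.S18x.IG.H28 Fermat.Agent.S18x.IG.H10
  Fermat.Agent.S18x.Qepo Fermat.Agent.S34x.Val.H2 Fermat.Agent.S34x.Val.H6
  Fermat.Agent.S34x.Sat.H21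

/-! ### The abstract core -/

section Abs

variable {O F : Type*} [CommRing O] [Field F] [Algebra O F]

/-- An element of `𝔪_e \ 𝔪_e'` which is integral over `O[x, x']`, `x x' = 1`, `x, x' ∈ V`, can be
moved into each of the two charts. -/
theorem h15_sep_abs (V : Subring F) {π e e' : F} (hc : H2Comp V π e) (hc' : H2Comp V π e')
    {x x' : F} (hxx' : x * x' = 1) (hxV : x ∈ V) (hx'V : x' ∈ V)
    (c : F) (hc12 : IsIntegral (Algebra.adjoin O {x, x'}) c)
    (hin : H2In V π e c) (hnot : ¬ H2In V π e' c) :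
    (∃ b ∈ (chart O x).toSubring, H2In V π e b ∧ ¬ H2In V π e' b) ∧
    (∃ b ∈ (chart O x').toSubring, H2In V π e b ∧ ¬ H2In V π e' b) := by
  constructor
  · obtain ⟨n, hn⟩ := h26_chart_scale₁₂ O hxx' c hc12
    refine ⟨x ^ n * c, hn, hc.in_mul_left hin (V.pow_mem hxV n), fun h => hnot ?_⟩
    have h1 := hc'.in_mul_left h (V.pow_mem hx'V n)
    have h2 : x' ^ n * (x ^ n * c) = c := by
      rw [← mul_assoc, ← mul_pow, mul_comm x' x, hxx', one_pow, one_mul]
    rwa [h2] at h1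
  · obtain ⟨n, hn⟩ := h26_chart_scale₁₂' O hxx' c hc12
    refine ⟨x' ^ n * c, hn, hc.in_mul_left hin (V.pow_mem hx'V n), fun h => hnot ?_⟩
    have h1 := hc'.in_mul_left h (V.pow_mem hxV n)
    have h2 : x ^ n * (x' ^ n * c) = c := by
      rw [← mul_assoc, ← mul_pow, hxx', one_pow, one_mul]
    rwa [h2] at h1

/-- `j x ^ k = N(x)` and `x x' = 1` give `j ∈ O[x, x']`. -/
theorem h15_mem_adjoin_of_identity {j x x' : F} (hxx' : x * x' = 1) (P : O[X]) (k : ℕ)
    (hid : j * x ^ k = aeval x P) : j ∈ Algebra.adjoin O {x, x'} := by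
  have hx : x ∈ Algebra.adjoin O {x, x'} := Algebra.subset_adjoin (Set.mem_insert _ _)
  have hx' : x' ∈ Algebra.adjoin O {x, x'} :=
    Algebra.subset_adjoin (Set.mem_insert_of_mem _ (Set.mem_singleton _))
  have h1 : j = aeval x P * x' ^ k := by
    rw [← hid, mul_assoc, ← mul_pow, hxx', one_pow, mul_one]
  rw [h1]
  refine Subalgebra.mul_mem _ ?_ (Subalgebra.pow_mem _ hx' k)
  have h2 : aeval x P = ((aeval (⟨x, hx⟩ : Algebra.adjoin O {x, x'}) P :
      Algebra.adjoin O {x, x'}) : F) := by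
    rw [← Subalgebra.coe_val, ← Polynomial.aeval_algHom_apply]
    rfl
  rw [h2]
  exact Subtype.coe_prop _

end Abs

/-! ### The instance -/

section Inst

variable {K : Type} [Field K] [CharZero K] (O : ValuationSubring K)
  [IsDiscreteValuationRing O]
  (M N : ℕ) [NeZero M] [NeZero N] (hMN : M ∣ N) (q : ℕ) [NeZero q] (hq : q.Prime)
  (hqN : q ∣ N)
  [Algebra O (FM K M)] [IsScalarTower O K (FM K M)]
  [Algebra O (FM K N)] [IsScalarTower O K (FM K N)]
  (π : O)

/-- `α j = j`: the `j`-invariant of level `M`, seen in `F_N`. -/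
theorem h15_incl_j : h6incl M N hMN (jbFull K M) = jbFull K N := Subtype.ext rfl

variable (x₀ : LaurentSeries ℤ) (hlead : x₀.coeff (-1) = 1)
  (hmemM : coeffMap (Int.castRingHom K) x₀ ∈ modularFunctionFieldFullC K M)
  (hmemN : coeffMap (Int.castRingHom K) x₀ ∈ modularFunctionFieldFullC K N)
  (N₀ : ℤ[X]) (k : ℕ) (hid : jqModC ℤ * aeval x₀ (X ^ k : ℤ[X]) = aeval x₀ N₀)

include hlead hid in
/-- `j ∈ O[x, x⁻¹]`. -/
theorem h15_j_mem_adjoin :
    jbFull K N ∈ Algebra.adjoin O {coordM K N x₀ hmemN, (coordM K N x₀ hmemN)⁻¹} := by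
  have h1 := h10_identity_coordM O N x₀ hmemN N₀ (X ^ k) hid
  rw [Polynomial.map_pow, Polynomial.map_X, map_pow, aeval_X] at h1
  exact h15_mem_adjoin_of_identity (coordM_mul_inv K N x₀ hlead hmemN) _ k h1

include hlead hid in
/-- `j` is integral over `O[x, x⁻¹]`. -/
theorem h15_int_j :
    IsIntegral (Algebra.adjoin O {coordM K N x₀ hmemN, (coordM K N x₀ hmemN)⁻¹})
      (jbFull K N) :=
  h26_isIntegral_of_mem (h15_j_mem_adjoin O N x₀ hlead hmemN N₀ k hid)

include hlead hid hq in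
/-- `j_q` is integral over `O[x, x⁻¹]`. -/
theorem h15_int_jq :
    IsIntegral (Algebra.adjoin O {coordM K N x₀ hmemN, (coordM K N x₀ hmemN)⁻¹})
      (jbdFull K N q hqN) := by
  have h1 : Algebra.adjoin O {jbFull K N} ≤
      Algebra.adjoin O {coordM K N x₀ hmemN, (coordM K N x₀ hmemN)⁻¹} := by
    apply Algebra.adjoin_le
    intro z hz
    rw [Set.mem_singleton_iff] at hz
    rw [hz]
    exact h15_j_mem_adjoin O N x₀ hlead hmemN N₀ k hid
  exact h26_isIntegral_mono h1 (h21_isIntegral_jp O N q hq hqN)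

include hlead hid hq in
/-- `c₁ = j_q - j ^ q` is integral over `O[x, x⁻¹]`. -/
theorem h15_int_c₁ :
    IsIntegral (Algebra.adjoin O {coordM K N x₀ hmemN, (coordM K N x₀ hmemN)⁻¹})
      (jbdFull K N q hqN - h6incl M N hMN (jbFull K M) ^ q) := by
  rw [h15_incl_j]
  exact (h15_int_jq O N q hq hqN x₀ hlead hmemN N₀ k hid).sub
    ((h15_int_j O N x₀ hlead hmemN N₀ k hid).pow q)

include hlead hid hq in
/-- `c₂ = j_q ^ q - j` is integral over `O[x, x⁻¹]`. -/
theorem h15_int_c₂ :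
    IsIntegral (Algebra.adjoin O {coordM K N x₀ hmemN, (coordM K N x₀ hmemN)⁻¹})
      (jbdFull K N q hqN ^ q - h6incl M N hMN (jbFull K M)) := by
  rw [h15_incl_j]
  exact ((h15_int_jq O N q hq hqN x₀ hlead hmemN N₀ k hid).pow q).sub
    (h15_int_j O N x₀ hlead hmemN N₀ k hid)

/-! ### The four membership statements -/

omit [CharZero K] in
theorem h15_ev_c₁ : h6ev O M N hMN q hqN (X - C (jM O M ^ q))
    = jbdFull K N q hqN - h6incl M N hMN (jbFull K M) ^ q := by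
  rw [map_sub, h6ev_X, h6ev_C, ← map_pow]
  rfl

omit [CharZero K] in
theorem h15_ev_c₂ : h6ev O M N hMN q hqN (X ^ q - C (jM O M))
    = jbdFull K N q hqN ^ q - h6incl M N hMN (jbFull K M) := by
  rw [map_sub, map_pow, h6ev_X, h6ev_C]
  rfl

omit [CharZero K] in
theorem h15_map_c₁ : (X - C (jM O M ^ q) : (gaussValM O M)[X]).map
    (IsLocalRing.residue (gaussValM O M)) = X - C (h6jbar O M ^ q) := by
  rw [Polynomial.map_sub, Polynomial.map_X, Polynomial.map_C,
    map_pow (IsLocalRing.residue (gaussValM O M))]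
  rfl

omit [CharZero K] in
theorem h15_map_c₂ : (X ^ q - C (jM O M) : (gaussValM O M)[X]).map
    (IsLocalRing.residue (gaussValM O M)) = X ^ q - C (h6jbar O M) := by
  rw [Polynomial.map_sub, Polynomial.map_pow, Polynomial.map_X, Polynomial.map_C]
  rfl

omit [CharZero K] in
/-- `c₁ ∈ 𝔪₁`. -/
theorem h15_c₁_in (e₁ : FM K N)
    (hm₁ : ∀ P : (gaussValM O M)[X],
      H2In (h6V O M N hMN q hqN) (algebraMap O (FM K N) π) e₁ (h6ev O M N hMN q hqN P) ↔
        (X - C (h6jbar O M ^ q)) ∣ P.map (IsLocalRing.residue (gaussValM O M))) :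
    H2In (h6V O M N hMN q hqN) (algebraMap O (FM K N) π) e₁
      (jbdFull K N q hqN - h6incl M N hMN (jbFull K M) ^ q) := by
  rw [← h15_ev_c₁ O M N hMN q hqN, hm₁, h15_map_c₁]

omit [CharZero K] in
/-- `c₂ ∈ 𝔪₂`. -/
theorem h15_c₂_in (e₂ : FM K N)
    (hm₂ : ∀ P : (gaussValM O M)[X],
      H2In (h6V O M N hMN q hqN) (algebraMap O (FM K N) π) e₂ (h6ev O M N hMN q hqN P) ↔
        (X ^ q - C (h6jbar O M)) ∣ P.map (IsLocalRing.residue (gaussValM O M))) :
    H2In (h6V O M N hMN q hqN) (algebraMap O (FM K N) π) e₂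
      (jbdFull K N q hqN ^ q - h6incl M N hMN (jbFull K M)) := by
  rw [← h15_ev_c₂ O M N hMN q hqN, hm₂, h15_map_c₂]

omit [CharZero K] in
include hq in
/-- `c₁ ∉ 𝔪₂`. -/
theorem h15_c₁_not (e₂ : FM K N)
    (hm₂ : ∀ P : (gaussValM O M)[X],
      H2In (h6V O M N hMN q hqN) (algebraMap O (FM K N) π) e₂ (h6ev O M N hMN q hqN P) ↔
        (X ^ q - C (h6jbar O M)) ∣ P.map (IsLocalRing.residue (gaussValM O M))) :
    ¬ H2In (h6V O M N hMN q hqN) (algebraMap O (FM K N) π) e₂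
      (jbdFull K N q hqN - h6incl M N hMN (jbFull K M) ^ q) := by
  rw [← h15_ev_c₁ O M N hMN q hqN, hm₂, h15_map_c₁]
  exact (h6_red_irr₂ O M q hq).coprime_iff_not_dvd.mp (h6_red_coprime O M q hq).symm

omit [CharZero K] in
include hq in
/-- `c₂ ∉ 𝔪₁`. -/
theorem h15_c₂_not (e₁ : FM K N)
    (hm₁ : ∀ P : (gaussValM O M)[X],
      H2In (h6V O M N hMN q hqN) (algebraMap O (FM K N) π) e₁ (h6ev O M N hMN q hqN P) ↔
        (X - C (h6jbar O M ^ q)) ∣ P.map (IsLocalRing.residue (gaussValM O M))) :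
    ¬ H2In (h6V O M N hMN q hqN) (algebraMap O (FM K N) π) e₁
      (jbdFull K N q hqN ^ q - h6incl M N hMN (jbFull K M)) := by
  rw [← h15_ev_c₂ O M N hMN q hqN, hm₁, h15_map_c₂]
  exact (h6_red_irr₁ O M q).coprime_iff_not_dvd.mp (h6_red_coprime O M q hq)

/-! ### The exports -/

include hlead hid hq hmemM in
/-- **(S)-INST, generic form**: `hsep₁₂` and `hsep₂₁` of `h7_comp_abs` / `h7_comp_abs2` at
helper6's instance, for the chart of `x = coordM K N x₀ hmemN` and for the chart of `x⁻¹`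
(`x` of level `M` with a Hauptmodul identity `j x ^ k = N₀(x)` over `ℤ`). -/
theorem h15_sep_coordM (e₁ e₂ : FM K N)
    (h2 : H2Two (h6V O M N hMN q hqN) (algebraMap O (FM K N) π) e₁ e₂)
    (hm₁ : ∀ P : (gaussValM O M)[X],
      H2In (h6V O M N hMN q hqN) (algebraMap O (FM K N) π) e₁ (h6ev O M N hMN q hqN P) ↔
        (X - C (h6jbar O M ^ q)) ∣ P.map (IsLocalRing.residue (gaussValM O M)))
    (hm₂ : ∀ P : (gaussValM O M)[X],
      H2In (h6V O M N hMN q hqN) (algebraMap O (FM K N) π) e₂ (h6ev O M N hMN q hqN P) ↔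
        (X ^ q - C (h6jbar O M)) ∣ P.map (IsLocalRing.residue (gaussValM O M))) :
    ((∃ b ∈ (chart O (coordM K N x₀ hmemN)).toSubring,
        H2In (h6V O M N hMN q hqN) (algebraMap O (FM K N) π) e₁ b ∧
        ¬ H2In (h6V O M N hMN q hqN) (algebraMap O (FM K N) π) e₂ b) ∧
     (∃ b ∈ (chart O (coordM K N x₀ hmemN)).toSubring,
        H2In (h6V O M N hMN q hqN) (algebraMap O (FM K N) π) e₂ b ∧
        ¬ H2In (h6V O M N hMN q hqN) (algebraMap O (FM K N) π) e₁ b)) ∧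
    ((∃ b ∈ (chart O (coordM K N x₀ hmemN)⁻¹).toSubring,
        H2In (h6V O M N hMN q hqN) (algebraMap O (FM K N) π) e₁ b ∧
        ¬ H2In (h6V O M N hMN q hqN) (algebraMap O (FM K N) π) e₂ b) ∧
     (∃ b ∈ (chart O (coordM K N x₀ hmemN)⁻¹).toSubring,
        H2In (h6V O M N hMN q hqN) (algebraMap O (FM K N) π) e₂ b ∧
        ¬ H2In (h6V O M N hMN q hqN) (algebraMap O (FM K N) π) e₁ b)) := by
  have hxx' := coordM_mul_inv K N x₀ hlead hmemN
  have hxV : coordM K N x₀ hmemN ∈ h6V O M N hMN q hqN :=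
    h6_coord_mem O M N hMN q hqN x₀ hmemM hmemN
  have hx'V : (coordM K N x₀ hmemN)⁻¹ ∈ h6V O M N hMN q hqN :=
    h6_coord_inv_mem O M N hMN q hqN x₀ hlead hmemM hmemN
  have A := h15_sep_abs (O := O) (h6V O M N hMN q hqN) h2.c₁ h2.c₂ hxx' hxV hx'V _
    (h15_int_c₁ O M N hMN q hq hqN x₀ hlead hmemN N₀ k hid)
    (h15_c₁_in O M N hMN q hqN π e₁ hm₁) (h15_c₁_not O M N hMN q hq hqN π e₂ hm₂)
  have B := h15_sep_abs (O := O) (h6V O M N hMN q hqN) h2.c₂ h2.c₁ hxx' hxV hx'V _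
    (h15_int_c₂ O M N hMN q hq hqN x₀ hlead hmemN N₀ k hid)
    (h15_c₂_in O M N hMN q hqN π e₂ hm₂) (h15_c₂_not O M N hMN q hq hqN π e₁ hm₁)
  exact ⟨⟨A.1, B.1⟩, ⟨A.2, B.2⟩⟩

include hq in
/-- **(S)-INST for the level-`2` Hauptmodul** (`2 ∣ M`): `hsep₁₂`, `hsep₂₁` for the chart of
`coord2` and for the chart of its inverse. -/
theorem h15_sep_coord2 (hM2 : 2 ∣ M) (hN2 : 2 ∣ N) (e₁ e₂ : FM K N)
    (h2 : H2Two (h6V O M N hMN q hqN) (algebraMap O (FM K N) π) e₁ e₂)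
    (hm₁ : ∀ P : (gaussValM O M)[X],
      H2In (h6V O M N hMN q hqN) (algebraMap O (FM K N) π) e₁ (h6ev O M N hMN q hqN P) ↔
        (X - C (h6jbar O M ^ q)) ∣ P.map (IsLocalRing.residue (gaussValM O M)))
    (hm₂ : ∀ P : (gaussValM O M)[X],
      H2In (h6V O M N hMN q hqN) (algebraMap O (FM K N) π) e₂ (h6ev O M N hMN q hqN P) ↔
        (X ^ q - C (h6jbar O M)) ∣ P.map (IsLocalRing.residue (gaussValM O M))) :
    ((∃ b ∈ (chart O (coord2 K N hN2)).toSubring,
        H2In (h6V O M N hMN q hqN) (algebraMap O (FM K N) π) e₁ b ∧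
        ¬ H2In (h6V O M N hMN q hqN) (algebraMap O (FM K N) π) e₂ b) ∧
     (∃ b ∈ (chart O (coord2 K N hN2)).toSubring,
        H2In (h6V O M N hMN q hqN) (algebraMap O (FM K N) π) e₂ b ∧
        ¬ H2In (h6V O M N hMN q hqN) (algebraMap O (FM K N) π) e₁ b)) ∧
    ((∃ b ∈ (chart O (coord2 K N hN2)⁻¹).toSubring,
        H2In (h6V O M N hMN q hqN) (algebraMap O (FM K N) π) e₁ b ∧
        ¬ H2In (h6V O M N hMN q hqN) (algebraMap O (FM K N) π) e₂ b) ∧
     (∃ b ∈ (chart O (coord2 K N hN2)⁻¹).toSubring,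
        H2In (h6V O M N hMN q hqN) (algebraMap O (FM K N) π) e₂ b ∧
        ¬ H2In (h6V O M N hMN q hqN) (algebraMap O (FM K N) π) e₁ b)) :=
  h15_sep_coordM O M N hMN q hq hqN π Fermat.Agent.S18x.IG.H28.h2 coeff_h2_neg_one
    (h2_mem_full K M hM2)
    (h2_mem_full K N hN2) h10_N2 2 h10_identity_two e₁ e₂ h2 hm₁ hm₂

include hq in
/-- **(S)-INST for the level-`3` Hauptmodul** (`3 ∣ M`): `hsep₁₂`, `hsep₂₁` for the chart of
`coord3` and for the chart of its inverse. -/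
theorem h15_sep_coord3 (hM3 : 3 ∣ M) (hN3 : 3 ∣ N) (e₁ e₂ : FM K N)
    (h2 : H2Two (h6V O M N hMN q hqN) (algebraMap O (FM K N) π) e₁ e₂)
    (hm₁ : ∀ P : (gaussValM O M)[X],
      H2In (h6V O M N hMN q hqN) (algebraMap O (FM K N) π) e₁ (h6ev O M N hMN q hqN P) ↔
        (X - C (h6jbar O M ^ q)) ∣ P.map (IsLocalRing.residue (gaussValM O M)))
    (hm₂ : ∀ P : (gaussValM O M)[X],
      H2In (h6V O M N hMN q hqN) (algebraMap O (FM K N) π) e₂ (h6ev O M N hMN q hqN P) ↔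
        (X ^ q - C (h6jbar O M)) ∣ P.map (IsLocalRing.residue (gaussValM O M))) :
    ((∃ b ∈ (chart O (coord3 K N hN3)).toSubring,
        H2In (h6V O M N hMN q hqN) (algebraMap O (FM K N) π) e₁ b ∧
        ¬ H2In (h6V O M N hMN q hqN) (algebraMap O (FM K N) π) e₂ b) ∧
     (∃ b ∈ (chart O (coord3 K N hN3)).toSubring,
        H2In (h6V O M N hMN q hqN) (algebraMap O (FM K N) π) e₂ b ∧
        ¬ H2In (h6V O M N hMN q hqN) (algebraMap O (FM K N) π) e₁ b)) ∧
    ((∃ b ∈ (chart O (coord3 K N hN3)⁻¹).toSubring,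
        H2In (h6V O M N hMN q hqN) (algebraMap O (FM K N) π) e₁ b ∧
        ¬ H2In (h6V O M N hMN q hqN) (algebraMap O (FM K N) π) e₂ b) ∧
     (∃ b ∈ (chart O (coord3 K N hN3)⁻¹).toSubring,
        H2In (h6V O M N hMN q hqN) (algebraMap O (FM K N) π) e₂ b ∧
        ¬ H2In (h6V O M N hMN q hqN) (algebraMap O (FM K N) π) e₁ b)) :=
  h15_sep_coordM O M N hMN q hq hqN π Fermat.Agent.S18x.IG.H28.h3 coeff_h3_neg_one
    (h3_mem_full K M hM3)
    (h3_mem_full K N hN3) h10_N3 3 h10_identity_three e₁ e₂ h2 hm₁ hm₂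

end Inst

end Fermat.Agent.S34x.Comp.H15
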