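import Mathlib
import Fermat.Agent.S34x.Comp.H15_Sep
import Fermat.Agent.S34x.Val.H2_Ideals

/-!
# W10 / S34, stage (C) COMP, (S)-INST, plug form (helper15)

The binder `hsep` of helper7's `h7_comp_inst_gen` is quantified over ALL `e₁ e₂` with
`H2Two V π e₁ e₂` (no description of the two maximal ideals in scope).  Since a ring `V` with
`H2Two V π f₁ f₂` has exactly two maximal ideals containing `π`, the pair `(𝔪_{e₁}, 𝔪_{e₂})` is
`(𝔪_{f₁}, 𝔪_{f₂})` or `(𝔪_{f₂}, 𝔪_{f₁})`, and the (symmetric) separation statement transfers.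

* `h15_ideal_eq_or` : a component of `V` is one of the two components of a decomposition;
* `h15_in_iff_or` : the two decompositions agree up to the order;
* `h15_sepV_abs` : `h15_sep_abs` with the separating element in `V`;
* `h15_hsep_plug_coordM`, `h15_hsep_plug_two`, `h15_hsep_plug_three` : **`hsep` of
  `h7_comp_inst_gen` VERBATIM**, for the chart of the Hauptmodul and for the chart of its inverse.
-/

set_option autoImplicit false
set_option linter.unusedSectionVars false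
set_option linter.unusedVariables false
set_option linter.style.haveILetI false
set_option synthInstance.maxHeartbeats 400000
set_option maxHeartbeats 1000000

open ModularCurve Polynomial

noncomputable section

namespace Fermat.Agent.S34x.Comp.H15

open Fermat.Agent.S18x.Dict.H20 Fermat.Agent.S18x.Spec.H26 Fermat.Agent.S28.Asm
  Fermat.Agent.S18x.IG.H29 Fermat.Agent.S18x.IG.H28 Fermat.Agent.S18x.IG.H10
  Fermat.Agent.S18x.Qepo Fermat.Agent.S34x.Val.H2 Fermat.Agent.S34x.Val.H6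
  Fermat.Agent.S34x.Sat.H21

/-! ### The abstract transfer -/

section Abs

variable {F : Type*} [Field F] {A : Subring F} {π e₁ e₂ f f₁ f₂ : F}

/-- A component of `A` is one of the two components of a decomposition of `A / πA`. -/
theorem h15_ideal_eq_or (h2 : H2Two A π e₁ e₂) (hf : H2Comp A π f) :
    hf.ideal = h2.c₁.ideal ∨ hf.ideal = h2.c₂.ideal := by
  have hprod : (⟨e₂, h2.c₂.he⟩ : A) * ⟨e₁, h2.c₁.he⟩ ∈ hf.ideal := by
    show H2In A π f (e₂ * e₁)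
    exact hf.in_of_div h2.in_two
  rcases (hf.ideal_isPrime).mem_or_mem hprod with h | h
  · left
    refine (h2.c₁.ideal_isMaximal.eq_of_le hf.ideal_ne_top ?_).symm
    intro a ha
    have h1 : H2In A π f ((a : F) * e₁) := hf.in_of_div ha
    have h3 : H2In A π f ((a : F) * e₂) := hf.in_mul_left h a.2
    have h4 := hf.in_add h1 h3
    rw [← mul_add, h2.hsum, mul_one] at h4
    exact h4
  · right
    refine (h2.c₂.ideal_isMaximal.eq_of_le hf.ideal_ne_top ?_).symm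
    intro a ha
    have h1 : H2In A π f ((a : F) * e₂) := hf.in_of_div ha
    have h3 : H2In A π f ((a : F) * e₁) := hf.in_mul_left h a.2
    have h4 := hf.in_add h3 h1
    rw [← mul_add, h2.hsum, mul_one] at h4
    exact h4

theorem h15_in_iff_of_ideal_eq (hc : H2Comp A π e₁) (hf : H2Comp A π f)
    (h : hc.ideal = hf.ideal) (a : F) (ha : a ∈ A) : H2In A π e₁ a ↔ H2In A π f a := by
  have h1 : (⟨a, ha⟩ : A) ∈ hc.ideal ↔ (⟨a, ha⟩ : A) ∈ hf.ideal := by rw [h]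
  exact h1

/-- Two decompositions of `A / πA` agree up to the order. -/
theorem h15_in_iff_or (h2 : H2Two A π e₁ e₂) (h2' : H2Two A π f₁ f₂) :
    ((∀ a ∈ A, H2In A π e₁ a ↔ H2In A π f₁ a) ∧ (∀ a ∈ A, H2In A π e₂ a ↔ H2In A π f₂ a)) ∨
    ((∀ a ∈ A, H2In A π e₁ a ↔ H2In A π f₂ a) ∧ (∀ a ∈ A, H2In A π e₂ a ↔ H2In A π f₁ a)) := by
  rcases h15_ideal_eq_or h2' h2.c₁ with h1 | h1 <;>
    rcases h15_ideal_eq_or h2' h2.c₂ with h3 | h3
  · exact absurd (h1.trans h3.symm) h2.ideal_ne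
  · exact Or.inl ⟨h15_in_iff_of_ideal_eq h2.c₁ h2'.c₁ h1, h15_in_iff_of_ideal_eq h2.c₂ h2'.c₂ h3⟩
  · exact Or.inr ⟨h15_in_iff_of_ideal_eq h2.c₁ h2'.c₂ h1, h15_in_iff_of_ideal_eq h2.c₂ h2'.c₁ h3⟩
  · exact absurd (h1.trans h3.symm) h2.ideal_ne

/-- The separation statement (both directions, separating elements in `A`) does not depend on
the decomposition. -/
theorem h15_sep_transfer (B : Subring F) (h2 : H2Two A π e₁ e₂) (h2' : H2Two A π f₁ f₂)
    (h₁₂ : ∃ b ∈ B, b ∈ A ∧ H2In A π f₁ b ∧ ¬ H2In A π f₂ b)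
    (h₂₁ : ∃ b ∈ B, b ∈ A ∧ H2In A π f₂ b ∧ ¬ H2In A π f₁ b) :
    (∃ b ∈ B, H2In A π e₁ b ∧ ¬ H2In A π e₂ b) ∧
    (∃ b ∈ B, H2In A π e₂ b ∧ ¬ H2In A π e₁ b) := by
  obtain ⟨b, hbB, hbA, hb1, hb2⟩ := h₁₂
  obtain ⟨c, hcB, hcA, hc1, hc2⟩ := h₂₁
  rcases h15_in_iff_or h2 h2' with ⟨i1, i2⟩ | ⟨i1, i2⟩
  · exact ⟨⟨b, hbB, (i1 b hbA).mpr hb1, fun h => hb2 ((i2 b hbA).mp h)⟩,
      ⟨c, hcB, (i2 c hcA).mpr hc1, fun h => hc2 ((i1 c hcA).mp h)⟩⟩
  · exact ⟨⟨c, hcB, (i1 c hcA).mpr hc1, fun h => hc2 ((i2 c hcA).mp h)⟩,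
      ⟨b, hbB, (i2 b hbA).mpr hb1, fun h => hb2 ((i1 b hbA).mp h)⟩⟩

end Abs

section AbsV

variable {O F : Type*} [CommRing O] [Field F] [Algebra O F]

/-- `h15_sep_abs` with the separating element in `V`. -/
theorem h15_sepV_abs (V : Subring F) {π e e' : F} (hc : H2Comp V π e) (hc' : H2Comp V π e')
    {x x' : F} (hxx' : x * x' = 1) (hxV : x ∈ V) (hx'V : x' ∈ V)
    (c : F) (hcV : c ∈ V) (hc12 : IsIntegral (Algebra.adjoin O {x, x'}) c)
    (hin : H2In V π e c) (hnot : ¬ H2In V π e' c) :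
    (∃ b ∈ (chart O x).toSubring, b ∈ V ∧ H2In V π e b ∧ ¬ H2In V π e' b) ∧
    (∃ b ∈ (chart O x').toSubring, b ∈ V ∧ H2In V π e b ∧ ¬ H2In V π e' b) := by
  constructor
  · obtain ⟨n, hn⟩ := h26_chart_scale₁₂ O hxx' c hc12
    refine ⟨x ^ n * c, hn, V.mul_mem (V.pow_mem hxV n) hcV,
      hc.in_mul_left hin (V.pow_mem hxV n), fun h => hnot ?_⟩
    have h1 := hc'.in_mul_left h (V.pow_mem hx'V n)
    have h2 : x' ^ n * (x ^ n * c) = c := by
      rw [← mul_assoc, ← mul_pow, mul_comm x' x, hxx', one_pow, one_mul]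
    rwa [h2] at h1
  · obtain ⟨n, hn⟩ := h26_chart_scale₁₂' O hxx' c hc12
    refine ⟨x' ^ n * c, hn, V.mul_mem (V.pow_mem hx'V n) hcV,
      hc.in_mul_left hin (V.pow_mem hx'V n), fun h => hnot ?_⟩
    have h1 := hc'.in_mul_left h (V.pow_mem hxV n)
    have h2 : x ^ n * (x' ^ n * c) = c := by
      rw [← mul_assoc, ← mul_pow, hxx', one_pow, one_mul]
    rwa [h2] at h1

end AbsV

/-! ### The plug -/

section Inst

variable {K : Type} [Field K] [CharZero K] (O : ValuationSubring K)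
  [IsDiscreteValuationRing O]
  (M N : ℕ) [NeZero M] [NeZero N] (hMN : M ∣ N) (q : ℕ) [NeZero q] (hq : q.Prime)
  (hqN : q ∣ N)
  [Algebra O (FM K M)] [IsScalarTower O K (FM K M)]
  [Algebra O (FM K N)] [IsScalarTower O K (FM K N)]
  (π : O) (hπ : Irreducible π)

variable (x₀ : LaurentSeries ℤ) (hlead : x₀.coeff (-1) = 1)
  (hmemM : coeffMap (Int.castRingHom K) x₀ ∈ modularFunctionFieldFullC K M)
  (hmemN : coeffMap (Int.castRingHom K) x₀ ∈ modularFunctionFieldFullC K N)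
  (N₀ : ℤ[X]) (k : ℕ) (hid : jqModC ℤ * aeval x₀ (X ^ k : ℤ[X]) = aeval x₀ N₀)

include hπ hq hlead hmemM hid in
/-- **`hsep` of `h7_comp_inst_gen`, generic form**: for the chart of `x = coordM K N x₀ hmemN`
and for the chart of `x⁻¹`. -/
theorem h15_hsep_plug_coordM (hq0 : (q : IsLocalRing.ResidueField O) = 0)
    (hgen : H6Gen (K := K) M N q) :
    (∀ e₁ e₂ : FM K N,
      H2Two (h6V O M N hMN q hqN) (algebraMap O (FM K N) π) e₁ e₂ →
      (∃ b ∈ (chart O (coordM K N x₀ hmemN)).toSubring,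
        H2In (h6V O M N hMN q hqN) (algebraMap O (FM K N) π) e₁ b ∧
          ¬ H2In (h6V O M N hMN q hqN) (algebraMap O (FM K N) π) e₂ b) ∧
      (∃ b ∈ (chart O (coordM K N x₀ hmemN)).toSubring,
        H2In (h6V O M N hMN q hqN) (algebraMap O (FM K N) π) e₂ b ∧
          ¬ H2In (h6V O M N hMN q hqN) (algebraMap O (FM K N) π) e₁ b)) ∧
    (∀ e₁ e₂ : FM K N,
      H2Two (h6V O M N hMN q hqN) (algebraMap O (FM K N) π) e₁ e₂ →
      (∃ b ∈ (chart O (coordM K N x₀ hmemN)⁻¹).toSubring,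
        H2In (h6V O M N hMN q hqN) (algebraMap O (FM K N) π) e₁ b ∧
          ¬ H2In (h6V O M N hMN q hqN) (algebraMap O (FM K N) π) e₂ b) ∧
      (∃ b ∈ (chart O (coordM K N x₀ hmemN)⁻¹).toSubring,
        H2In (h6V O M N hMN q hqN) (algebraMap O (FM K N) π) e₂ b ∧
          ¬ H2In (h6V O M N hMN q hqN) (algebraMap O (FM K N) π) e₁ b)) := by
  obtain ⟨f₁, f₂, h2', hm₁, hm₂⟩ := h6_two O M N hMN q hq hqN π hπ hq0 hgen
  have hxx' := coordM_mul_inv K N x₀ hlead hmemN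
  have hxV : coordM K N x₀ hmemN ∈ h6V O M N hMN q hqN :=
    h6_coord_mem O M N hMN q hqN x₀ hmemM hmemN
  have hx'V : (coordM K N x₀ hmemN)⁻¹ ∈ h6V O M N hMN q hqN :=
    h6_coord_inv_mem O M N hMN q hqN x₀ hlead hmemM hmemN
  have hc₁V : jbdFull K N q hqN - h6incl M N hMN (jbFull K M) ^ q ∈ h6V O M N hMN q hqN := by
    rw [← h15_ev_c₁ O M N hMN q hqN]
    exact h6ev_mem O M N hMN q hqN _
  have hc₂V : jbdFull K N q hqN ^ q - h6incl M N hMN (jbFull K M) ∈ h6V O M N hMN q hqN := by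
    rw [← h15_ev_c₂ O M N hMN q hqN]
    exact h6ev_mem O M N hMN q hqN _
  have A := h15_sepV_abs (O := O) (h6V O M N hMN q hqN) h2'.c₁ h2'.c₂ hxx' hxV hx'V _ hc₁V
    (h15_int_c₁ O M N hMN q hq hqN x₀ hlead hmemN N₀ k hid)
    (h15_c₁_in O M N hMN q hqN π f₁ hm₁) (h15_c₁_not O M N hMN q hq hqN π f₂ hm₂)
  have B := h15_sepV_abs (O := O) (h6V O M N hMN q hqN) h2'.c₂ h2'.c₁ hxx' hxV hx'V _ hc₂V
    (h15_int_c₂ O M N hMN q hq hqN x₀ hlead hmemN N₀ k hid)
    (h15_c₂_in O M N hMN q hqN π f₂ hm₂) (h15_c₂_not O M N hMN q hq hqN π f₁ hm₁)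
  exact ⟨fun e₁ e₂ h2 => h15_sep_transfer _ h2 h2' A.1 B.1,
    fun e₁ e₂ h2 => h15_sep_transfer _ h2 h2' A.2 B.2⟩

include hπ hq in
/-- **`hsep` of `h7_comp_inst_gen` for the level-`2` Hauptmodul** (`.1` : the chart of `coord2`,
`.2` : the chart of its inverse). -/
theorem h15_hsep_plug_two (hM2 : 2 ∣ M) (hN2 : 2 ∣ N)
    (hq0 : (q : IsLocalRing.ResidueField O) = 0) (hgen : H6Gen (K := K) M N q) :
    (∀ e₁ e₂ : FM K N,
      H2Two (h6V O M N hMN q hqN) (algebraMap O (FM K N) π) e₁ e₂ →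
      (∃ b ∈ (chart O (coord2 K N hN2)).toSubring,
        H2In (h6V O M N hMN q hqN) (algebraMap O (FM K N) π) e₁ b ∧
          ¬ H2In (h6V O M N hMN q hqN) (algebraMap O (FM K N) π) e₂ b) ∧
      (∃ b ∈ (chart O (coord2 K N hN2)).toSubring,
        H2In (h6V O M N hMN q hqN) (algebraMap O (FM K N) π) e₂ b ∧
          ¬ H2In (h6V O M N hMN q hqN) (algebraMap O (FM K N) π) e₁ b)) ∧
    (∀ e₁ e₂ : FM K N,
      H2Two (h6V O M N hMN q hqN) (algebraMap O (FM K N) π) e₁ e₂ →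
      (∃ b ∈ (chart O (coord2 K N hN2)⁻¹).toSubring,
        H2In (h6V O M N hMN q hqN) (algebraMap O (FM K N) π) e₁ b ∧
          ¬ H2In (h6V O M N hMN q hqN) (algebraMap O (FM K N) π) e₂ b) ∧
      (∃ b ∈ (chart O (coord2 K N hN2)⁻¹).toSubring,
        H2In (h6V O M N hMN q hqN) (algebraMap O (FM K N) π) e₂ b ∧
          ¬ H2In (h6V O M N hMN q hqN) (algebraMap O (FM K N) π) e₁ b)) :=
  h15_hsep_plug_coordM O M N hMN q hq hqN π hπ Fermat.Agent.S18x.IG.H28.h2 coeff_h2_neg_one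
    (h2_mem_full K M hM2) (h2_mem_full K N hN2) h10_N2 2 h10_identity_two hq0 hgen

include hπ hq in
/-- **`hsep` of `h7_comp_inst_gen` for the level-`3` Hauptmodul** (`.1` : the chart of `coord3`,
`.2` : the chart of its inverse). -/
theorem h15_hsep_plug_three (hM3 : 3 ∣ M) (hN3 : 3 ∣ N)
    (hq0 : (q : IsLocalRing.ResidueField O) = 0) (hgen : H6Gen (K := K) M N q) :
    (∀ e₁ e₂ : FM K N,
      H2Two (h6V O M N hMN q hqN) (algebraMap O (FM K N) π) e₁ e₂ →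
      (∃ b ∈ (chart O (coord3 K N hN3)).toSubring,
        H2In (h6V O M N hMN q hqN) (algebraMap O (FM K N) π) e₁ b ∧
          ¬ H2In (h6V O M N hMN q hqN) (algebraMap O (FM K N) π) e₂ b) ∧
      (∃ b ∈ (chart O (coord3 K N hN3)).toSubring,
        H2In (h6V O M N hMN q hqN) (algebraMap O (FM K N) π) e₂ b ∧
          ¬ H2In (h6V O M N hMN q hqN) (algebraMap O (FM K N) π) e₁ b)) ∧
    (∀ e₁ e₂ : FM K N,
      H2Two (h6V O M N hMN q hqN) (algebraMap O (FM K N) π) e₁ e₂ →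
      (∃ b ∈ (chart O (coord3 K N hN3)⁻¹).toSubring,
        H2In (h6V O M N hMN q hqN) (algebraMap O (FM K N) π) e₁ b ∧
          ¬ H2In (h6V O M N hMN q hqN) (algebraMap O (FM K N) π) e₂ b) ∧
      (∃ b ∈ (chart O (coord3 K N hN3)⁻¹).toSubring,
        H2In (h6V O M N hMN q hqN) (algebraMap O (FM K N) π) e₂ b ∧
          ¬ H2In (h6V O M N hMN q hqN) (algebraMap O (FM K N) π) e₁ b)) :=
  h15_hsep_plug_coordM O M N hMN q hq hqN π hπ Fermat.Agent.S18x.IG.H28.h3 coeff_h3_neg_one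
    (h3_mem_full K M hM3) (h3_mem_full K N hN3) h10_N3 3 h10_identity_three hq0 hgen

end Inst

end Fermat.Agent.S34x.Comp.H15
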