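import Mathlib

/-!
# S34 (W10), stage (C): the branch-parameter lemma without maximality (helper20)

`A` a noetherian ring, `π ∈ A` with `(π)` prime, (SM) in element form at every maximal ideal of
`A` containing `π` (i.e. `A / π` has DVR-or-field localisations: `A / π` is "Dedekind in element
form").  `φ : A →+* B`, `p ≤ n` primes of `B` with `φ π ∈ p` and such that every element of `B` is
a fraction `φ a / φ s` modulo `p` (`B / p` is an overring of the image of `A / π`).  Then
`(B / p)_n` has a principal maximal ideal, generated by the image of some `t ∈ A`, in element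
form: `∃ t, φ t ∈ n ∧ ∀ z ∈ n, ∃ s ∉ n, ∃ w, s * z - φ t * w ∈ p`.

This is the OVERRING LEMMA ("a ring between a DVR and its fraction field is the DVR or the
field") in element form.  No maximality of `n` or of `φ⁻¹ n` is needed, and `φ⁻¹ p = (π)` is not
needed either.

* `h20_krull` : Krull's intersection theorem in element form.
* `h20_ord` : every element has an order at `m` modulo `π`.
* `h20_dich` : the dichotomy `a / s ∈ t L` or `s / a ∈ L` (or `a = 0`) in `L = (A / π)_m`.
* `h20_branch` : the branch-parameter lemma.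
-/

set_option autoImplicit false

namespace Fermat.Agent.S34x.Comp.H20

variable {A : Type*} [CommRing A]

/-- **Krull's intersection theorem, element form**: if `a ∈ (π, t ^ k)` locally at the prime `m`
for every `k` (`t ∈ m`), then `a ∈ (π)` locally at `m`. -/
theorem h20_krull [IsNoetherianRing A] (π t : A) (m : Ideal A) [m.IsPrime] (ht : t ∈ m)
    (a : A) (h : ∀ k : ℕ, ∃ r : A, r ∉ m ∧ ∃ c d : A, r * a = t ^ k * c + π * d) :
    ∃ r : A, r ∉ m ∧ ∃ d : A, r * a = π * d := by
  classical
  let L := Localization.AtPrime m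
  let J : Ideal L := Ideal.map (algebraMap A L) (Ideal.span {π})
  let I : Ideal L := IsLocalRing.maximalIdeal L
  have hI : I ≠ ⊤ := Ideal.IsPrime.ne_top inferInstance
  have hK := Ideal.iInf_pow_smul_eq_bot_of_isLocalRing (R := L) (M := L ⧸ J) I hI
  have hx : (Ideal.Quotient.mk J (algebraMap A L a))
      ∈ (⨅ i : ℕ, I ^ i • ⊤ : Submodule L (L ⧸ J)) := by
    rw [Submodule.mem_iInf]
    intro k
    obtain ⟨r, hr, c, d, hrcd⟩ := h k
    have hru : IsUnit (algebraMap A L r) :=
      IsLocalization.map_units L (⟨r, hr⟩ : m.primeCompl)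
    obtain ⟨ri, hri⟩ := hru.exists_right_inv
    have hπJ : algebraMap A L π ∈ J := Ideal.mem_map_of_mem _ (Ideal.mem_span_singleton_self π)
    have htI : algebraMap A L t ∈ I :=
      (IsLocalization.AtPrime.to_map_mem_maximal_iff L m t).mpr ht
    have heq : algebraMap A L a
        = algebraMap A L t ^ k * (algebraMap A L c * ri)
          + algebraMap A L π * (algebraMap A L d * ri) := by
      have h1 : algebraMap A L r * algebraMap A L a
          = algebraMap A L t ^ k * algebraMap A L c + algebraMap A L π * algebraMap A L d := by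
        rw [← map_mul, hrcd, map_add, map_mul, map_mul, map_pow]
      calc algebraMap A L a = (algebraMap A L r * ri) * algebraMap A L a := by rw [hri, one_mul]
        _ = (algebraMap A L r * algebraMap A L a) * ri := by ring
        _ = _ := by rw [h1]; ring
    have hmk : Ideal.Quotient.mk J (algebraMap A L a)
        = (algebraMap A L t ^ k) • Ideal.Quotient.mk J (algebraMap A L c * ri) := by
      have h2 : (algebraMap A L t ^ k) • Ideal.Quotient.mk J (algebraMap A L c * ri)
          = Ideal.Quotient.mk J (algebraMap A L t ^ k * (algebraMap A L c * ri)) := rfl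
      rw [h2, Ideal.Quotient.eq, heq, add_sub_cancel_left]
      exact J.mul_mem_right _ hπJ
    rw [hmk]
    exact Submodule.smul_mem_smul (Ideal.pow_mem_pow htI k) Submodule.mem_top
  rw [hK, Submodule.mem_bot] at hx
  have hx' : algebraMap A L a ∈ J := Ideal.Quotient.eq_zero_iff_mem.mp hx
  obtain ⟨r, hr, hra⟩ :=
    (IsLocalization.algebraMap_mem_map_algebraMap_iff m.primeCompl L _ a).mp hx'
  obtain ⟨d, hd⟩ := Ideal.mem_span_singleton'.mp hra
  exact ⟨r, hr, d, by rw [← hd]; ring⟩

/-- **Order at `m` modulo `π`**: with (SM) at the prime `m` (parameter `t`), every `a` is locally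
in `(π)` or of the form `unit * t ^ k` modulo `π`. -/
theorem h20_ord [IsNoetherianRing A] (π t : A) (m : Ideal A) [m.IsPrime] (ht : t ∈ m)
    (hSM : ∀ y ∈ m, ∃ s : A, s ∉ m ∧ ∃ u w : A, s * y = π * u + t * w) (a : A) :
    (∃ r : A, r ∉ m ∧ ∃ d : A, r * a = π * d) ∨
      ∃ (k : ℕ) (r c d : A), r ∉ m ∧ c ∉ m ∧ r * a = t ^ k * c + π * d := by
  classical
  by_cases hinf : ∃ r : A, r ∉ m ∧ ∃ d : A, r * a = π * d
  · exact Or.inl hinf
  right
  have hex : ∃ k : ℕ, ¬ ∃ r : A, r ∉ m ∧ ∃ c d : A, r * a = t ^ k * c + π * d := by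
    by_contra hcon
    apply hinf
    refine h20_krull π t m ht a ?_
    intro k
    by_contra hk
    exact hcon ⟨k, hk⟩
  have h1m : (1 : A) ∉ m := (Ideal.ne_top_iff_one m).mp (Ideal.IsPrime.ne_top inferInstance)
  have hfind := Nat.find_spec hex
  have hmin := fun k (hk : k < Nat.find hex) => Nat.find_min hex hk
  rcases Nat.eq_zero_or_pos (Nat.find hex) with h0 | hpos
  · exfalso
    apply hfind
    rw [h0]
    exact ⟨1, h1m, a, 0, by ring⟩
  obtain ⟨k0, hk0⟩ : ∃ k0, Nat.find hex = k0 + 1 := ⟨Nat.find hex - 1, by omega⟩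
  have hk0J : ∃ r : A, r ∉ m ∧ ∃ c d : A, r * a = t ^ k0 * c + π * d := by
    by_contra hcon
    exact hmin k0 (by omega) hcon
  obtain ⟨r, hr, c, d, hrcd⟩ := hk0J
  refine ⟨k0, r, c, d, hr, ?_, hrcd⟩
  intro hc
  obtain ⟨s, hs, u, w, hsuw⟩ := hSM c hc
  apply hfind
  rw [hk0]
  refine ⟨s * r, ?_, w, t ^ k0 * u + s * d, ?_⟩
  · intro hsr
    rcases Ideal.IsPrime.mem_or_mem inferInstance hsr with h | h
    · exact hs h
    · exact hr h
  · linear_combination s * hrcd + t ^ k0 * hsuw

/-- **The dichotomy** in `L = (A / π)_m` (a DVR or a field): for `a, s` with `s ∉ (π)`, either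
`a = 0`, or `a / s ∈ t ^ k * L^×` with `k ≥ 1`, or `s / a ∈ L`. -/
theorem h20_dich [IsNoetherianRing A] (π t : A) (hπ : (Ideal.span {π}).IsPrime)
    (m : Ideal A) [m.IsPrime] (hπm : π ∈ m) (ht : t ∈ m)
    (hSM : ∀ y ∈ m, ∃ s : A, s ∉ m ∧ ∃ u w : A, s * y = π * u + t * w)
    (a s : A) (hs : s ∉ Ideal.span {π}) :
    (∃ r : A, r ∉ m ∧ ∃ d : A, r * a = π * d) ∨
      (∃ (k : ℕ) (r c d : A), r ∉ m ∧ c ∉ m ∧ r * a = t ^ (k + 1) * (c * s) + π * d) ∨
      (∃ r c d : A, r ∉ m ∧ r * s = c * a + π * d) := by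
  have hmul : ∀ {x y : A}, x ∉ m → y ∉ m → x * y ∉ m := by
    intro x y hx hy hxy
    rcases Ideal.IsPrime.mem_or_mem inferInstance hxy with h | h
    · exact hx h
    · exact hy h
  rcases h20_ord π t m ht hSM a with hinf | ⟨ka, ra, ca, da, hra, hca, ha⟩
  · exact Or.inl hinf
  right
  rcases h20_ord π t m ht hSM s with ⟨r, hr, d, hrd⟩ | ⟨ks, rs, cs, ds, hrs, hcs, hs'⟩
  · exfalso
    have hmem : r * s ∈ Ideal.span {π} := by
      rw [hrd]
      exact Ideal.mul_mem_right _ _ (Ideal.mem_span_singleton_self π)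
    rcases hπ.mem_or_mem hmem with h | h
    · apply hr
      have hle : Ideal.span {π} ≤ m := (Ideal.span_singleton_le_iff_mem m).mpr hπm
      exact hle h
    · exact hs h
  rcases Nat.lt_or_ge ks ka with hlt | hge
  · left
    obtain ⟨e, rfl⟩ : ∃ e, ka = ks + e + 1 := ⟨ka - ks - 1, by omega⟩
    refine ⟨e, cs * ra, ca * rs, cs * da - t ^ (e + 1) * ca * ds, hmul hcs hra, hmul hca hrs, ?_⟩
    linear_combination cs * ha - t ^ (e + 1) * ca * hs'
  · right
    obtain ⟨e, rfl⟩ : ∃ e, ks = ka + e := ⟨ks - ka, by omega⟩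
    refine ⟨ca * rs, t ^ e * cs * ra, ca * ds - t ^ e * cs * da, hmul hca hrs, ?_⟩
    linear_combination ca * hs' - t ^ e * cs * ha

/-- **The branch-parameter lemma (overring lemma in element form)**.  `A` noetherian with `(π)`
prime and (SM) at every maximal ideal containing `π`; `φ : A →+* B`; `p ≤ n` primes of `B` with
`φ π ∈ p`; every element of `B` is a fraction `φ a / φ s` modulo `p`, `φ s ∉ p`.  Then the
maximal ideal of `(B / p)_n` is generated by the image of some `t ∈ A`. -/
theorem h20_branch {B : Type*} [CommRing B] [IsNoetherianRing A] (φ : A →+* B) (π : A)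
    (hπ : (Ideal.span {π}).IsPrime)
    (p n : Ideal B) [p.IsPrime] [n.IsPrime] (hpn : p ≤ n) (hπp : φ π ∈ p)
    (hfrac : ∀ z : B, ∃ a s : A, φ s ∉ p ∧ φ s * z - φ a ∈ p)
    (hSM : ∀ m : Ideal A, m.IsMaximal → π ∈ m →
      ∃ t ∈ m, ∀ y ∈ m, ∃ s : A, s ∉ m ∧ ∃ u w : A, s * y = π * u + t * w) :
    ∃ t : A, φ t ∈ n ∧ ∀ z ∈ n, ∃ s : B, s ∉ n ∧ ∃ w : B, s * z - φ t * w ∈ p := by
  classical
  have hpp : p.IsPrime := inferInstance
  have hnp : n.IsPrime := inferInstance
  have hm0 : (n.comap φ).IsPrime := Ideal.comap_isPrime φ n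
  obtain ⟨m', hm'max, hm0m'⟩ := Ideal.exists_le_maximal (n.comap φ) hm0.ne_top
  have hm'p : m'.IsPrime := hm'max.isPrime
  have hπm' : π ∈ m' := hm0m' (Ideal.mem_comap.mpr (hpn hπp))
  obtain ⟨t', ht'm', hSM'⟩ := hSM m' hm'max hπm'
  have hnotn : ∀ r : A, r ∉ m' → φ r ∉ n := fun r hr hrn => hr (hm0m' (Ideal.mem_comap.mpr hrn))
  have h1n : (1 : B) ∉ n := (Ideal.ne_top_iff_one n).mp hnp.ne_top
  have hcancel : ∀ {s X : B}, s ∉ p → s * X ∈ p → X ∈ p := fun hs h =>
    (hpp.mem_or_mem h).resolve_left hs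
  -- the three cases for `z ∈ n`
  have key : ∀ z ∈ n, z ∈ p ∨ ∃ (k : ℕ) (r c : A), r ∉ m' ∧ c ∉ m' ∧
      φ r * z - φ t' * φ (t' ^ k * c) ∈ p := by
    intro z hz
    obtain ⟨a, s, hsp, hsa⟩ := hfrac z
    have hs : s ∉ Ideal.span {π} := by
      intro hs
      obtain ⟨d, hd⟩ := Ideal.mem_span_singleton'.mp hs
      apply hsp
      rw [← hd, map_mul]
      exact p.mul_mem_left _ hπp
    rcases h20_dich π t' hπ m' hπm' ht'm' hSM' a s hs with
      ⟨r, hr, d, hrd⟩ | ⟨k, r, c, d, hr, hc, h⟩ | ⟨r, c, d, hr, h⟩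
    · left
      have h1 : φ s * (φ r * z) ∈ p := by
        have e : φ s * (φ r * z) = φ r * (φ s * z - φ a) + φ π * φ d := by
          have : φ r * φ a = φ π * φ d := by rw [← map_mul, hrd, map_mul]
          linear_combination this
        rw [e]
        exact p.add_mem (p.mul_mem_left _ hsa) (p.mul_mem_right _ hπp)
      have h2 : φ r * z ∈ p := hcancel hsp h1
      have hrp : φ r ∉ p := fun h => hnotn r hr (hpn h)
      exact hcancel hrp h2
    · right
      refine ⟨k, r, c, hr, hc, ?_⟩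
      apply hcancel hsp
      have e : φ s * (φ r * z - φ t' * φ (t' ^ k * c))
          = φ r * (φ s * z - φ a) + φ π * φ d := by
        have : φ r * φ a = φ t' ^ (k + 1) * (φ c * φ s) + φ π * φ d := by
          rw [← map_mul, h, map_add, map_mul, map_mul, map_mul, map_pow]
        rw [map_mul, map_pow]
        linear_combination this
      rw [e]
      exact p.add_mem (p.mul_mem_left _ hsa) (p.mul_mem_right _ hπp)
    · exfalso
      have h1 : φ s * (φ r - φ c * z) ∈ p := by
        have e : φ s * (φ r - φ c * z) = - (φ c * (φ s * z - φ a)) + φ π * φ d := by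
          have : φ r * φ s = φ c * φ a + φ π * φ d := by
            rw [← map_mul, h, map_add, map_mul, map_mul]
          linear_combination this
        rw [e]
        exact p.add_mem (p.neg_mem (p.mul_mem_left _ hsa)) (p.mul_mem_right _ hπp)
      have h2 : φ r - φ c * z ∈ n := hpn (hcancel hsp h1)
      have h3 : φ r ∈ n := by
        have : φ r = (φ r - φ c * z) + φ c * z := by ring
        rw [this]
        exact n.add_mem h2 (n.mul_mem_left _ hz)
      exact hnotn r hr h3
  by_cases ht'n : φ t' ∈ n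
  · refine ⟨t', ht'n, ?_⟩
    intro z hz
    rcases key z hz with hzp | ⟨k, r, c, hr, -, h⟩
    · exact ⟨1, h1n, 0, by simpa using hzp⟩
    · exact ⟨φ r, hnotn r hr, φ (t' ^ k * c), h⟩
  · refine ⟨0, by simp, ?_⟩
    intro z hz
    rcases key z hz with hzp | ⟨k, r, c, hr, hc, h⟩
    · exact ⟨1, h1n, 0, by simpa using hzp⟩
    · exfalso
      have h1 : φ t' * φ (t' ^ k * c) ∈ n := by
        have : φ t' * φ (t' ^ k * c) = φ r * z - (φ r * z - φ t' * φ (t' ^ k * c)) := by ring
        rw [this]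
        exact n.sub_mem (n.mul_mem_left _ hz) (hpn h)
      rcases hnp.mem_or_mem h1 with h2 | h2
      · exact ht'n h2
      · rw [map_mul, map_pow] at h2
        rcases hnp.mem_or_mem h2 with h3 | h3
        · exact ht'n (hnp.mem_of_pow_mem k h3)
        · exact hnotn c hc h3

end Fermat.Agent.S34x.Comp.H20
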