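import Mathlib

/-!
# S34 / W10 (C) COMP (helper22): the branch parameter lemma

Abstract form of the inputs (ii) and (iv) of the Goursat lemma `h8_goursat_elem`
(`S34x/Comp/H8_GoursatChart`), by the overring argument.

`A` is the chart of level `M`, `B` the chart of level `M q`, `φ : A → B` one of the two
degeneracy maps, `𝔭` the vertical prime of `B` cut out by the corresponding valuation, `𝔫` a
closed point of `B` on that component.  If the residue field of the branch is the fraction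
field of `A / π` (`hfrac`) and the local ring of `A / π` at `φ⁻¹ 𝔫` has principal maximal
ideal generated by `t` (`hSM`, the shape of `IG.HSM`), then `φ t` generates `𝔫` locally
modulo `𝔭`.

* `h22_valuationRing` : a noetherian domain localised at a prime that is locally principal
  is a valuation ring;
* `h22_branch` : the statement;
* `h22_branch_mul` : the same parameter multiplied by an element outside `𝔫`.
-/

set_option autoImplicit false

namespace Fermat.Agent.S34x.Comp.H22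

open IsLocalRing

/-- the local ring of a noetherian domain at a prime whose maximal ideal is generated by `t`
locally is a valuation ring -/
theorem h22_valuationRing {D : Type*} [CommRing D] [IsDomain D] [IsNoetherianRing D]
    (m : Ideal D) [m.IsPrime] (t : D) (ht : t ∈ m)
    (hgen : ∀ y ∈ m, ∃ s : D, s ∉ m ∧ ∃ w : D, s * y = t * w) :
    ValuationRing (Localization.AtPrime m) := by
  have hprinc : (maximalIdeal (Localization.AtPrime m)).IsPrincipal := by
    refine ⟨algebraMap D (Localization.AtPrime m) t, ?_⟩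
    rw [← IsLocalization.AtPrime.map_eq_maximalIdeal m (Localization.AtPrime m)]
    apply le_antisymm
    · rw [Ideal.map_le_iff_le_comap]
      intro y hy
      obtain ⟨s, hs, w, hw⟩ := hgen y hy
      rw [Ideal.mem_comap]
      have hu : IsUnit (algebraMap D (Localization.AtPrime m) s) :=
        IsLocalization.map_units (Localization.AtPrime m) (⟨s, hs⟩ : m.primeCompl)
      obtain ⟨u, hu⟩ := hu
      have h1 : algebraMap D (Localization.AtPrime m) y
          = algebraMap D (Localization.AtPrime m) t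
            * (algebraMap D (Localization.AtPrime m) w * ((u⁻¹ : (Localization.AtPrime m)ˣ) :
                Localization.AtPrime m)) := by
        have h2 : (u : Localization.AtPrime m) * algebraMap D (Localization.AtPrime m) y
            = algebraMap D (Localization.AtPrime m) t * algebraMap D (Localization.AtPrime m) w := by
          rw [hu, ← map_mul, ← map_mul, hw]
        calc algebraMap D (Localization.AtPrime m) y
            = ((u⁻¹ : (Localization.AtPrime m)ˣ) : Localization.AtPrime m)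
                * ((u : Localization.AtPrime m) * algebraMap D (Localization.AtPrime m) y) := by
              rw [← mul_assoc, Units.inv_mul, one_mul]
          _ = _ := by rw [h2]; ring
      rw [h1]
      exact Ideal.mul_mem_right _ _ (Submodule.mem_span_singleton_self _)
    · rw [Submodule.span_singleton_le_iff_mem]
      exact Ideal.mem_map_of_mem _ ht
  exact ((tfae_of_isNoetherianRing_of_isLocalRing_of_isDomain (Localization.AtPrime m)).out 4 1).mp
    hprinc

/-- **Branch parameter lemma.**  `φ t` generates `𝔫` locally modulo `𝔭`. -/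
theorem h22_branch {A B : Type*} [CommRing A] [IsNoetherianRing A] [CommRing B]
    (φ : A →+* B) (π : A) (hπ : (Ideal.span {π}).IsPrime)
    (𝔭 𝔫 : Ideal B) [𝔭.IsPrime] [𝔫.IsPrime] (h𝔭𝔫 : 𝔭 ≤ 𝔫)
    (hπ𝔭 : φ π ∈ 𝔭)
    (hfrac : ∀ z : B, ∃ a s : A, φ s ∉ 𝔭 ∧ φ s * z - φ a ∈ 𝔭)
    (t : A) (ht : φ t ∈ 𝔫)
    (hSM : ∀ y : A, φ y ∈ 𝔫 → ∃ s : A, φ s ∉ 𝔫 ∧ ∃ u w : A, s * y = π * u + t * w) :
    ∀ z ∈ 𝔫, ∃ s ∉ 𝔫, ∃ w : B, s * z - φ t * w ∈ 𝔭 := by
  classical
  have := hπ
  -- the fibre `D = A / π`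
  let I : Ideal A := Ideal.span {π}
  have hπ𝔫A : I ≤ 𝔫.comap φ := by
    rw [Ideal.span_le, Set.singleton_subset_iff]
    exact h𝔭𝔫 hπ𝔭
  have hI𝔭 : ∀ a ∈ I, φ a ∈ 𝔭 := by
    intro a ha
    obtain ⟨c, rfl⟩ := Ideal.mem_span_singleton'.mp ha
    rw [map_mul]
    exact Ideal.mul_mem_left _ _ hπ𝔭
  let m : Ideal (A ⧸ I) := (𝔫.comap φ).map (Ideal.Quotient.mk I)
  have hmem : ∀ a : A, Ideal.Quotient.mk I a ∈ m ↔ φ a ∈ 𝔫 := by
    intro a
    exact Ideal.mem_quotient_iff_mem hπ𝔫A
  have hmprime : m.IsPrime := by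
    apply Ideal.map_isPrime_of_surjective Ideal.Quotient.mk_surjective
    rw [Ideal.mk_ker]
    exact hπ𝔫A
  have hgen : ∀ y ∈ m, ∃ s : A ⧸ I, s ∉ m ∧ ∃ w : A ⧸ I, s * y = Ideal.Quotient.mk I t * w := by
    intro y hy
    obtain ⟨y₀, rfl⟩ := Ideal.Quotient.mk_surjective y
    obtain ⟨s, hs, u, w, hsy⟩ := hSM y₀ ((hmem y₀).mp hy)
    refine ⟨Ideal.Quotient.mk I s, fun h => hs ((hmem s).mp h), Ideal.Quotient.mk I w, ?_⟩
    rw [← map_mul, ← map_mul, hsy, map_add, map_mul, map_mul]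
    have : Ideal.Quotient.mk I π = 0 :=
      Ideal.Quotient.eq_zero_iff_mem.mpr (Ideal.mem_span_singleton_self π)
    rw [this, zero_mul, zero_add]
  have hval : ValuationRing (Localization.AtPrime m) :=
    h22_valuationRing m (Ideal.Quotient.mk I t) ((hmem t).mpr ht) hgen
  have hinj : Function.Injective (algebraMap (A ⧸ I) (Localization.AtPrime m)) :=
    IsLocalization.injective (Localization.AtPrime m) m.primeCompl_le_nonZeroDivisors
  -- transfer of congruences modulo `π` to congruences modulo `𝔭`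
  have hcong : ∀ a b : A, Ideal.Quotient.mk I a = Ideal.Quotient.mk I b → φ a - φ b ∈ 𝔭 := by
    intro a b hab
    rw [← map_sub]
    exact hI𝔭 _ (Ideal.Quotient.eq.mp hab)
  intro z hz
  obtain ⟨a, s, hs𝔭, hsa⟩ := hfrac z
  -- the dichotomy
  obtain ⟨c, hc⟩ := ValuationRing.cond (algebraMap (A ⧸ I) (Localization.AtPrime m)
    (Ideal.Quotient.mk I a)) (algebraMap (A ⧸ I) (Localization.AtPrime m) (Ideal.Quotient.mk I s))
  obtain ⟨⟨wq, ⟨cq, hcq⟩⟩, hwc⟩ := IsLocalization.surj m.primeCompl c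
  obtain ⟨w, rfl⟩ := Ideal.Quotient.mk_surjective wq
  obtain ⟨c₀, rfl⟩ := Ideal.Quotient.mk_surjective cq
  have hc₀ : φ c₀ ∉ 𝔫 := fun h => hcq ((hmem c₀).mpr h)
  simp only at hwc
  rcases hc with hc | hc
  · -- `a * c = s`: then `z * w - c₀ ∈ 𝔭`, contradiction
    exfalso
    have h1 : Ideal.Quotient.mk I (a * w) = Ideal.Quotient.mk I (s * c₀) := by
      apply hinj
      rw [map_mul, map_mul, map_mul, map_mul, ← hwc, ← hc]
      ring
    have h2 : φ (a * w) - φ (s * c₀) ∈ 𝔭 := hcong _ _ h1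
    have h3 : φ s * (z * φ w - φ c₀) ∈ 𝔭 := by
      have : φ s * (z * φ w - φ c₀)
          = (φ s * z - φ a) * φ w + (φ (a * w) - φ (s * c₀)) := by
        rw [map_mul, map_mul]; ring
      rw [this]
      exact Ideal.add_mem _ (Ideal.mul_mem_right _ _ hsa) h2
    have h4 : z * φ w - φ c₀ ∈ 𝔭 := (Ideal.IsPrime.mem_or_mem ‹𝔭.IsPrime› h3).resolve_left hs𝔭
    apply hc₀
    have h5 : φ c₀ = z * φ w - (z * φ w - φ c₀) := by ring
    rw [h5]
    exact Ideal.sub_mem _ (Ideal.mul_mem_right _ _ hz) (h𝔭𝔫 h4)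
  · -- `s * c = a`: then `c₀ * z - w ∈ 𝔭`
    have h1 : Ideal.Quotient.mk I (s * w) = Ideal.Quotient.mk I (a * c₀) := by
      apply hinj
      rw [map_mul, map_mul, map_mul, map_mul, ← hwc, ← hc]
      ring
    have h2 : φ (s * w) - φ (a * c₀) ∈ 𝔭 := hcong _ _ h1
    have h3 : φ s * (φ c₀ * z - φ w) ∈ 𝔭 := by
      have : φ s * (φ c₀ * z - φ w)
          = (φ s * z - φ a) * φ c₀ - (φ (s * w) - φ (a * c₀)) := by
        rw [map_mul, map_mul]; ring
      rw [this]
      exact Ideal.sub_mem _ (Ideal.mul_mem_right _ _ hsa) h2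
    have h4 : φ c₀ * z - φ w ∈ 𝔭 := (Ideal.IsPrime.mem_or_mem ‹𝔭.IsPrime› h3).resolve_left hs𝔭
    have hw𝔫 : φ w ∈ 𝔫 := by
      have h5 : φ w = φ c₀ * z - (φ c₀ * z - φ w) := by ring
      rw [h5]
      exact Ideal.sub_mem _ (Ideal.mul_mem_left _ _ hz) (h𝔭𝔫 h4)
    obtain ⟨s₂, hs₂, u, w₂, hsw⟩ := hSM w hw𝔫
    refine ⟨φ s₂ * φ c₀, ?_, φ w₂, ?_⟩
    · intro h
      rcases Ideal.IsPrime.mem_or_mem ‹𝔫.IsPrime› h with h | h
      · exact hs₂ h
      · exact hc₀ h
    · have h6 : φ s₂ * φ c₀ * z - φ t * φ w₂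
          = φ s₂ * (φ c₀ * z - φ w) + φ π * φ u := by
        have h7 : φ s₂ * φ w = φ π * φ u + φ t * φ w₂ := by
          rw [← map_mul, hsw, map_add, map_mul, map_mul]
        linear_combination h7
      rw [h6]
      exact Ideal.add_mem _ (Ideal.mul_mem_left _ _ h4) (Ideal.mul_mem_right _ _ hπ𝔭)

/-- The branch parameter may be multiplied by any element outside `𝔫`. -/
theorem h22_branch_mul {B : Type*} [CommRing B] (𝔭 𝔫 : Ideal B) [𝔫.IsPrime] (t c : B)
    (hc : c ∉ 𝔫)
    (ht : ∀ z ∈ 𝔫, ∃ s ∉ 𝔫, ∃ w : B, s * z - t * w ∈ 𝔭) :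
    ∀ z ∈ 𝔫, ∃ s ∉ 𝔫, ∃ w : B, s * z - (c * t) * w ∈ 𝔭 := by
  intro z hz
  obtain ⟨s, hs, w, hw⟩ := ht z hz
  refine ⟨c * s, ?_, w, ?_⟩
  · intro h
    rcases Ideal.IsPrime.mem_or_mem ‹𝔫.IsPrime› h with h | h
    · exact hc h
    · exact hs h
  · have : c * s * z - c * t * w = c * (s * z - t * w) := by ring
    rw [this]
    exact Ideal.mul_mem_left _ _ hw

end Fermat.Agent.S34x.Comp.H22
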