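import Mathlib
import Fermat.Agent.S34x.Val.H2_Ideals
import Fermat.Agent.S34x.Comp.H22_Branch
import Fermat.Agent.S34x.Comp.H7_Export

/-!
# W10 (S34), stage (C) COMP: the two vertical primes of the chart and the branch parameters
(helper7)

`F` the function field of level `M q`, `V ≤ F` the two-component ring of stage (A)
(`Val.H2.H2Two V π e₁ e₂`), `B ≤ V` a chart of the normal model, saturated in `V`.

* `h7p hBV hc` : the vertical prime `B ∩ 𝔪_e` of `B`; `h7p_isPrime`, `h7_pi_mem_p`,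
  `h7p_inf_le` (`𝔭₁ ∩ 𝔭₂ ⊆ (π)`, from (SAT)), `h7p_not_le` (incomparability, from one element
  of `B` separating the components), `h7_sep_of_denom`;
* `h7_fracW` : at level `M`, every element of the valuation ring `W` is `a / s` with `a, s` in
  the chart `BM` and `s` a unit of `W` (from (SAT) at level `M`);
* `h7_branch_unif` : the branch parameter `H4Unif (h7p hBV hc) 𝔫 (φ t)` at a closed point `𝔫`
  of the component `e`, for a degeneracy map `φ : F₀ → F` (`α` or `β`) mapping the chart `BM`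
  of level `M` into `B` and `W` into `V`, as soon as the residue field of the component is
  `φ̄ (κ_W)` (`hres`) and (SM) holds at level `M` at `φ⁻¹ 𝔫`.
-/

set_option autoImplicit false
set_option linter.unusedSectionVars false
set_option linter.style.haveILetI false

namespace Fermat.Agent.S34x.Comp.H7

open Fermat.Agent.S34x.Val.H2 Fermat.Agent.S34x.Comp.H4

section Primes

variable {F : Type*} [Field F] {B V : Subring F} {π e e₁ e₂ : F}

/-- The vertical prime `B ∩ 𝔪_e` of the chart `B`. -/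
def h7p (hBV : B ≤ V) (hc : H2Comp V π e) : Ideal B :=
  hc.ideal.comap (Subring.inclusion hBV)

theorem h7_mem_p_iff (hBV : B ≤ V) (hc : H2Comp V π e) (b : B) :
    b ∈ h7p hBV hc ↔ H2In V π e (b : F) := Iff.rfl

instance h7p_isPrime (hBV : B ≤ V) (hc : H2Comp V π e) : (h7p hBV hc).IsPrime :=
  Ideal.comap_isPrime _ _

theorem h7_pi_mem_p (hBV : B ≤ V) (hc : H2Comp V π e) (hπB : π ∈ B) :
    (⟨π, hπB⟩ : B) ∈ h7p hBV hc := by
  show H2In V π e π
  exact hc.in_of_div ⟨1, V.one_mem, by rw [mul_one]⟩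

/-- `𝔭₁ ∩ 𝔭₂ ⊆ (π)`, from (SAT). -/
theorem h7p_inf_le (hBV : B ≤ V) (h : H2Two V π e₁ e₂) (hπB : π ∈ B)
    (hsat : ∀ v ∈ V, π * v ∈ B → v ∈ B) :
    h7p hBV h.c₁ ⊓ h7p hBV h.c₂ ≤ Ideal.span {(⟨π, hπB⟩ : B)} := by
  rintro b ⟨h1, h2⟩
  obtain ⟨c, hc, hbc⟩ := h.div_of_in h1 h2
  have hcB : c ∈ B := hsat c hc (hbc ▸ b.2)
  rw [Ideal.mem_span_singleton']
  exact ⟨⟨c, hcB⟩, Subtype.ext (by rw [Subring.coe_mul, mul_comm]; exact hbc.symm)⟩

/-- incomparability from one separating element of `B` -/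
theorem h7p_not_le (hBV : B ≤ V) (hc : H2Comp V π e₁) (hc' : H2Comp V π e₂)
    (hsep : ∃ b ∈ B, H2In V π e₁ b ∧ ¬ H2In V π e₂ b) :
    ¬ h7p hBV hc ≤ h7p hBV hc' := by
  obtain ⟨b, hb, h1, h2⟩ := hsep
  intro hle
  exact h2 (hle (show (⟨b, hb⟩ : B) ∈ h7p hBV hc from h1))

/-- a separating element of `B` from the idempotent `e'` of the other component (`e' ∈ 𝔪_e`,
`e' ∉ 𝔪_e'`) and a denominator which is a unit of `V` -/
theorem h7_sep_of_denom {e e' : F} (hc : H2Comp V π e) (hc' : H2Comp V π e')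
    (hin : H2In V π e e') (hBV : B ≤ V)
    (hden : ∃ s ∈ B, s ≠ 0 ∧ s⁻¹ ∈ V ∧ s * e' ∈ B) :
    ∃ b ∈ B, H2In V π e b ∧ ¬ H2In V π e' b := by
  obtain ⟨s, hs, hs0, hsinv, hse⟩ := hden
  refine ⟨s * e', hse, ?_, ?_⟩
  · have := hc.in_mul_left hin (hBV hs)
    simpa [mul_comm] using this
  · intro hin'
    have h2 := hc'.in_mul_left hin' hsinv
    have h3 : s⁻¹ * (s * e') = e' := by field_simp
    rw [h3] at h2
    exact hc'.not_in_e h2

end Primes

section LevelM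

variable {F₀ : Type*} [Field F₀] (BM W : Subring F₀) (π₀ : F₀)

/-- iterated (SAT) -/
theorem h7_sat_pow (hπB : π₀ ∈ BM) (hBW : BM ≤ W)
    (hsat : ∀ v ∈ W, π₀ * v ∈ BM → v ∈ BM) :
    ∀ (k : ℕ) (v : F₀), v ∈ W → π₀ ^ k * v ∈ BM → v ∈ BM := by
  intro k
  induction k with
  | zero => intro v _ h; simpa using h
  | succ k ih =>
    intro v hv h
    apply ih v hv
    apply hsat _ (W.mul_mem (W.pow_mem (hBW hπB) k) hv)
    rw [← mul_assoc, ← pow_succ']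
    exact h

/-- **(FRAC) at level `M`**: every element of the valuation ring `W` is `a / s` with `a`, `s` in
the chart and `s` a unit of `W`. -/
theorem h7_fracW (hπB : π₀ ∈ BM) (hBW : BM ≤ W)
    (hfrac : ∀ x : F₀, ∃ a b : BM, b ≠ 0 ∧ x * (b : F₀) = (a : F₀))
    (hsat : ∀ v ∈ W, π₀ * v ∈ BM → v ∈ BM)
    (hunif : ∀ c ∈ W, c ≠ 0 → ∃ (k : ℕ) (u : F₀), u ∈ W ∧ u⁻¹ ∈ W ∧ c = π₀ ^ k * u)
    (w : F₀) (hw : w ∈ W) :
    ∃ a s : BM, (s : F₀) ≠ 0 ∧ (s : F₀)⁻¹ ∈ W ∧ w * (s : F₀) = (a : F₀) := by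
  obtain ⟨a, b, hb0, hab⟩ := hfrac w
  have hb0' : (b : F₀) ≠ 0 := fun h => hb0 (Subtype.ext h)
  obtain ⟨k, u, hu, hu', hbu⟩ := hunif b (hBW b.2) hb0'
  have huB : u ∈ BM := h7_sat_pow BM W π₀ hπB hBW hsat k u hu (hbu ▸ b.2)
  have hwuB : w * u ∈ BM := by
    apply h7_sat_pow BM W π₀ hπB hBW hsat k (w * u) (W.mul_mem hw hu)
    have : π₀ ^ k * (w * u) = w * (b : F₀) := by rw [hbu]; ring
    rw [this, hab]
    exact a.2
  have hu0 : u ≠ 0 := by
    rintro rfl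
    apply hb0'
    rw [hbu, mul_zero]
  exact ⟨⟨w * u, hwuB⟩, ⟨u, huB⟩, hu0, hu', rfl⟩

end LevelM

section Branch

variable {F₀ F : Type*} [Field F₀] [Field F] (φ : F₀ →+* F)
  (BM W : Subring F₀) (B V : Subring F) (hBV : B ≤ V) (π₀ : F₀) (hπBM : π₀ ∈ BM)
  {e : F} (hc : H2Comp V (φ π₀) e)
  (hφB : ∀ a ∈ BM, φ a ∈ B)

/-- The degeneracy map restricted to the charts. -/
def h7phi : BM →+* B :=
  (φ.comp BM.subtype).codRestrict B (fun a => hφB a a.2)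

theorem h7phi_coe (a : BM) : ((h7phi φ BM B hφB a : B) : F) = φ (a : F₀) := rfl

/-- **The branch parameter** at a closed point `𝔫` of the component `e` of the chart `B`. -/
theorem h7_branch_unif [IsNoetherianRing BM] (hφV : ∀ w ∈ W, φ w ∈ V)
    (hprime : (Ideal.span {(⟨π₀, hπBM⟩ : BM)}).IsPrime)
    (hfracW : ∀ w ∈ W, ∃ a s : BM, (s : F₀) ≠ 0 ∧ (s : F₀)⁻¹ ∈ W ∧ w * (s : F₀) = (a : F₀))
    (hres : ∀ z ∈ B, ∃ w ∈ W, H2In V (φ π₀) e (z - φ w))
    (𝔫 : Ideal B) [𝔫.IsPrime] (hp𝔫 : h7p hBV hc ≤ 𝔫)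
    (t : BM) (ht : h7phi φ BM B hφB t ∈ 𝔫)
    (hSM : ∀ y : BM, h7phi φ BM B hφB y ∈ 𝔫 → ∃ s : BM, h7phi φ BM B hφB s ∉ 𝔫 ∧
      ∃ u w : BM, s * y = ⟨π₀, hπBM⟩ * u + t * w) :
    H4Unif (h7p hBV hc) 𝔫 (h7phi φ BM B hφB t) := by
  refine ⟨ht, ?_⟩
  have key := Fermat.Agent.S34x.Comp.H22.h22_branch (h7phi φ BM B hφB) (⟨π₀, hπBM⟩ : BM) hprime
    (h7p hBV hc) 𝔫 hp𝔫 ?_ ?_ t ht hSM
  · intro y hy
    obtain ⟨s, hs, w, hw⟩ := key y hy
    exact ⟨s, hs, w, hw⟩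
  · -- `φ π₀ ∈ 𝔭`
    show H2In V (φ π₀) e (φ π₀)
    exact hc.in_of_div ⟨1, V.one_mem, by rw [mul_one]⟩
  · -- the residue field of the branch
    intro z
    obtain ⟨w, hw, hzw⟩ := hres z z.2
    obtain ⟨a, s, hs0, hsinv, hws⟩ := hfracW w hw
    refine ⟨a, s, ?_, ?_⟩
    · intro hin
      have hin' : H2In V (φ π₀) e (φ (s : F₀)) := hin
      have h1 := hc.in_mul_left hin' (hφV _ hsinv)
      have h2 : φ ((s : F₀)⁻¹) * φ (s : F₀) = 1 := by
        rw [← map_mul, inv_mul_cancel₀ hs0, map_one]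
      rw [h2] at h1
      exact hc.not_in_one h1
    · show H2In V (φ π₀) e
        (((h7phi φ BM B hφB s * z - h7phi φ BM B hφB a : B) : B) : F)
      have h3 : (((h7phi φ BM B hφB s * z - h7phi φ BM B hφB a : B) : B) : F)
          = φ (s : F₀) * ((z : F) - φ w) := by
        have e1 : (((h7phi φ BM B hφB s * z - h7phi φ BM B hφB a : B) : B) : F)
            = φ (s : F₀) * (z : F) - φ (a : F₀) := rfl
        rw [e1, ← hws, map_mul]
        ring
      rw [h3]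
      exact hc.in_mul_left hzw (hBV (hφB _ s.2))

end Branch

end Fermat.Agent.S34x.Comp.H7
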