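import Mathlib
import Fermat.Agent.S18x.IG.Defs
import Fermat.Agent.S34x.Comp.H7_Branch
import Fermat.Agent.S34x.Comp.H20_Branch

/-!
# S34 (W10), stage (C): the branch parameters `hD1` / `hD2` of `h7_comp` without the (SM)
adapter (helper20)

`h20_branch_unif` is helper7's `h7_branch_unif` (same setting, same hypotheses `hφV`, `hprime`,
`hfracW`, `hres`) with the pair `(t, hSM at φ⁻¹ 𝔫)` replaced by (SM) at every maximal ideal of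
the level-`M` chart `BM` containing `π₀` - which is `IG.HSMChart` verbatim.  No maximality of
`𝔫` or of `φ⁻¹ 𝔫` is needed (`h20_branch` instead of `h22_branch`).

`h20_branch_unif_chart` : the same with `BM := (chart O x₀).toSubring` and the hypothesis
`IG.HSMChart O x₀ π₀`; `h20_hD` : the shape of `hD1` / `hD2` of `h7_comp`.
-/

set_option autoImplicit false
set_option linter.unusedSectionVars false

namespace Fermat.Agent.S34x.Comp.H20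

open Fermat.Agent.S34x.Val.H2 Fermat.Agent.S34x.Comp.H4 Fermat.Agent.S34x.Comp.H7

section Branch

variable {F₀ F : Type*} [Field F₀] [Field F] (φ : F₀ →+* F)
  (BM W : Subring F₀) (B V : Subring F) (hBV : B ≤ V) (π₀ : F₀) (hπBM : π₀ ∈ BM)
  {e : F} (hc : H2Comp V (φ π₀) e)
  (hφB : ∀ a ∈ BM, φ a ∈ B)

/-- **The branch parameter without maximality**: `h7_branch_unif` with (SM) at all maximal
ideals of `BM` over `π₀` as the hypothesis. -/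
theorem h20_branch_unif [IsNoetherianRing BM] (hφV : ∀ w ∈ W, φ w ∈ V)
    (hprime : (Ideal.span {(⟨π₀, hπBM⟩ : BM)}).IsPrime)
    (hfracW : ∀ w ∈ W, ∃ a s : BM, (s : F₀) ≠ 0 ∧ (s : F₀)⁻¹ ∈ W ∧ w * (s : F₀) = (a : F₀))
    (hres : ∀ z ∈ B, ∃ w ∈ W, H2In V (φ π₀) e (z - φ w))
    (𝔫 : Ideal B) [𝔫.IsPrime] (hp𝔫 : h7p hBV hc ≤ 𝔫)
    (hSM : ∀ m : Ideal BM, m.IsMaximal → (⟨π₀, hπBM⟩ : BM) ∈ m →
      ∃ t ∈ m, ∀ y ∈ m, ∃ s : BM, s ∉ m ∧ ∃ u w : BM, s * y = ⟨π₀, hπBM⟩ * u + t * w) :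
    ∃ t : BM, H4Unif (h7p hBV hc) 𝔫 (h7phi φ BM B hφB t) := by
  have key := h20_branch (h7phi φ BM B hφB) (⟨π₀, hπBM⟩ : BM) hprime
    (h7p hBV hc) 𝔫 hp𝔫 ?_ ?_ hSM
  · obtain ⟨t, ht, h⟩ := key
    exact ⟨t, ht, h⟩
  · -- `φ π₀ ∈ 𝔭`
    show H2In V (φ π₀) e (φ π₀)
    exact hc.in_of_div ⟨1, V.one_mem, by rw [mul_one]⟩
  · -- the residue field of the branch
    intro z
    obtain ⟨w, hw, hzw⟩ := hres z z.2
    obtain ⟨a, s, hs0, hsinv, hws⟩ := hfracW w hw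
    refine ⟨a, s, ?_, ?_⟩
    · intro hin
      have hin' : H2In V (φ π₀) e (φ (s : F₀)) := hin
      have h1 := hc.in_mul_left hin' (hφV _ hsinv)
      have h2 : φ ((s : F₀)⁻¹) * φ (s : F₀) = 1 := by
        rw [← map_mul, inv_mul_cancel₀ hs0, map_one]
      rw [h2] at h1
      exact hc.not_in_one h1
    · show H2In V (φ π₀) e
        (((h7phi φ BM B hφB s * z - h7phi φ BM B hφB a : B) : B) : F)
      have h3 : (((h7phi φ BM B hφB s * z - h7phi φ BM B hφB a : B) : B) : F)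
          = φ (s : F₀) * ((z : F) - φ w) := by
        have e1 : (((h7phi φ BM B hφB s * z - h7phi φ BM B hφB a : B) : B) : F)
            = φ (s : F₀) * (z : F) - φ (a : F₀) := rfl
        rw [e1, ← hws, map_mul]
        ring
      rw [h3]
      exact hc.in_mul_left hzw (hBV (hφB _ s.2))

/-- The shape of `hD1` / `hD2` of `h7_comp`. -/
theorem h20_hD [IsNoetherianRing BM] (hφB : ∀ a ∈ BM, φ a ∈ B) (hφV : ∀ w ∈ W, φ w ∈ V)
    (hprime : (Ideal.span {(⟨π₀, hπBM⟩ : BM)}).IsPrime)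
    (hfracW : ∀ w ∈ W, ∃ a s : BM, (s : F₀) ≠ 0 ∧ (s : F₀)⁻¹ ∈ W ∧ w * (s : F₀) = (a : F₀))
    (hres : ∀ z ∈ B, ∃ w ∈ W, H2In V (φ π₀) e (z - φ w))
    (hSM : ∀ m : Ideal BM, m.IsMaximal → (⟨π₀, hπBM⟩ : BM) ∈ m →
      ∃ t ∈ m, ∀ y ∈ m, ∃ s : BM, s ∉ m ∧ ∃ u w : BM, s * y = ⟨π₀, hπBM⟩ * u + t * w) :
    ∀ 𝔫 : Ideal B, 𝔫.IsMaximal → h7p hBV hc ≤ 𝔫 → ∃ t, H4Unif (h7p hBV hc) 𝔫 t := by
  intro 𝔫 h𝔫 hp𝔫
  have h𝔫p : 𝔫.IsPrime := h𝔫.isPrime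
  obtain ⟨t, ht⟩ := h20_branch_unif φ BM W B V hBV π₀ hπBM hc hφB hφV hprime hfracW hres 𝔫 hp𝔫 hSM
  exact ⟨_, ht⟩

end Branch

section Chart

open Fermat.Agent.S18x.Spec.H26 Fermat.Agent.S18x.IG

variable {O F₀ F : Type*} [CommRing O] [Field F₀] [Field F] [Algebra O F₀] (φ : F₀ →+* F)
  (x₀ : F₀) (π₀ : O) (W : Subring F₀) (B V : Subring F) (hBV : B ≤ V)
  {e : F} (hc : H2Comp V (φ (algebraMap O F₀ π₀)) e)

/-- **`hD1` / `hD2` of `h7_comp` from `IG.HSMChart` at level `M`** (no (SM) adapter). -/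
theorem h20_hD_chart [IsNoetherianRing (chart O x₀).toSubring]
    (hφB : ∀ a ∈ (chart O x₀).toSubring, φ a ∈ B) (hφV : ∀ w ∈ W, φ w ∈ V)
    (hprime : (Ideal.span {(⟨algebraMap O F₀ π₀, (chart O x₀).algebraMap_mem π₀⟩ :
      (chart O x₀).toSubring)}).IsPrime)
    (hfracW : ∀ w ∈ W, ∃ a s : (chart O x₀).toSubring,
      (s : F₀) ≠ 0 ∧ (s : F₀)⁻¹ ∈ W ∧ w * (s : F₀) = (a : F₀))
    (hres : ∀ z ∈ B, ∃ w ∈ W, H2In V (φ (algebraMap O F₀ π₀)) e (z - φ w))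
    (H : HSMChart O x₀ π₀) :
    ∀ 𝔫 : Ideal B, 𝔫.IsMaximal → h7p hBV hc ≤ 𝔫 → ∃ t, H4Unif (h7p hBV hc) 𝔫 t :=
  h20_hD φ (chart O x₀).toSubring W B V hBV (algebraMap O F₀ π₀)
    ((chart O x₀).algebraMap_mem π₀) hc hφB hφV hprime hfracW hres H

end Chart

end Fermat.Agent.S34x.Comp.H20
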