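import Mathlib
import Fermat.Agent.S34x.Comp.H20_Branch

/-!
# S34 (W10), stage (C2): `B / p_0` has DVR localisations - abstract form (helper20)

Setting (element form, subrings of fields): `β : F1 →+* F` (in the application `F1 = F_M`,
`F = F_(Mq)`, `β = qExpand q`), `B1 ≤ V1` subrings of `F1` (the level-`M` chart inside the Gauss
valuation ring `V_M`, uniformiser `π1`), `B ≤ V0` subrings of `F` (the level-`Mq` chart inside the
valuation ring `V_0` of the component `C_0`), and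

* (β-INT) `β B1 ⊆ B`;
* (β-VAL) `β y ∈ V0 → y ∈ V1`;
* (β-RES) every `v ∈ V0` is `β y + β π1 * v'` with `y ∈ V1`, `v' ∈ V0`;
* level `M`: (W1), (W2) for `V1`, `Frac B1 = F1`, (SAT) `π1 v ∈ B1, v ∈ V1 → v ∈ B1`, `B1`
  noetherian, (SM) at every maximal ideal of `B1` containing `π1` (= `HSMChart`);
* `p0 = B ∩ π V0`, a prime ideal of `B`.

Conclusion: for every prime `n ⊇ p0` of `B` there is `t ∈ n` with
`∀ y ∈ n, ∃ s ∉ n, ∃ w, s * y - t * w ∈ p0`, i.e. `∃ t, H4Unif p0 n t` (helper4), which is the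
input `hD2` of helper7's `h7_comp`.
-/

set_option autoImplicit false

namespace Fermat.Agent.S34x.Comp.H20

section Level

variable {F1 : Type*} [Field F1] (B1 V1 : Subring F1) (π1 : F1)

/-- Iterated saturation. -/
theorem h20_sat_pow (hπV1 : π1 ∈ V1) (hsat1 : ∀ v ∈ V1, π1 * v ∈ B1 → v ∈ B1) (k : ℕ) :
    ∀ v ∈ V1, π1 ^ k * v ∈ B1 → v ∈ B1 := by
  induction k with
  | zero =>
    intro v _ h
    simpa using h
  | succ k ih =>
    intro v hv h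
    apply ih v hv
    apply hsat1 _ (V1.mul_mem (V1.pow_mem hπV1 k) hv)
    have : π1 * (π1 ^ k * v) = π1 ^ (k + 1) * v := by ring
    rw [this]
    exact h

/-- Every nonzero element of `V1` is a power of the uniformiser times a unit. -/
theorem h20_pow_unit (hπ0 : π1 ≠ 0)
    (hmax : ∀ w ∈ V1, w⁻¹ ∈ V1 ∨ ∃ w' ∈ V1, w = π1 * w') (k : ℕ) :
    ∀ s ∈ V1, s ≠ 0 → π1 ^ k * s⁻¹ ∈ V1 → ∃ (j : ℕ) (u : F1), u ∈ V1 ∧ u⁻¹ ∈ V1 ∧ s = π1 ^ j * u := by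
  induction k with
  | zero =>
    intro s hs _ h
    refine ⟨0, s, hs, by simpa using h, by simp⟩
  | succ k ih =>
    intro s hs hs0 h
    rcases hmax s hs with hinv | ⟨w', hw', hsw'⟩
    · exact ⟨0, s, hs, hinv, by simp⟩
    · have hw'0 : w' ≠ 0 := by
        rintro rfl
        apply hs0
        rw [hsw', mul_zero]
      have h' : π1 ^ k * w'⁻¹ ∈ V1 := by
        have : π1 ^ (k + 1) * s⁻¹ = π1 ^ k * w'⁻¹ := by
          rw [hsw', mul_inv, pow_succ]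
          field_simp
        rw [← this]
        exact h
      obtain ⟨j, u, hu, hui, hju⟩ := ih w' hw' hw'0 h'
      refine ⟨j + 1, u, hu, hui, ?_⟩
      rw [hsw', hju]
      ring

/-- `V1` is the localisation of `B1` at `(π1)`: every `y ∈ V1` is `a / s` with `a, s ∈ B1` and
`s` a unit of `V1`. -/
theorem h20_loc (hπ0 : π1 ≠ 0) (hB1V1 : B1 ≤ V1) (hπB1 : π1 ∈ B1)
    (hmax : ∀ w ∈ V1, w⁻¹ ∈ V1 ∨ ∃ w' ∈ V1, w = π1 * w')
    (hdvr : ∀ c : F1, ∃ k : ℕ, π1 ^ k * c ∈ V1)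
    (hfrac1 : ∀ y : F1, ∃ s ∈ B1, s ≠ 0 ∧ s * y ∈ B1)
    (hsat1 : ∀ v ∈ V1, π1 * v ∈ B1 → v ∈ B1) (y : F1) (hy : y ∈ V1) :
    ∃ s ∈ B1, s⁻¹ ∈ V1 ∧ s ≠ 0 ∧ s * y ∈ B1 := by
  obtain ⟨s0, hs0B, hs00, hs0y⟩ := hfrac1 y
  obtain ⟨k, hk⟩ := hdvr s0⁻¹
  obtain ⟨j, u, hu, hui, hju⟩ := h20_pow_unit V1 π1 hπ0 hmax k s0 (hB1V1 hs0B) hs00 hk
  have hπV1 : π1 ∈ V1 := hB1V1 hπB1
  have hu0 : u ≠ 0 := by
    rintro rfl
    apply hs00
    rw [hju, mul_zero]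
  have huB : u ∈ B1 := by
    apply h20_sat_pow B1 V1 π1 hπV1 hsat1 j u hu
    rw [← hju]
    exact hs0B
  refine ⟨u, huB, hui, hu0, ?_⟩
  apply h20_sat_pow B1 V1 π1 hπV1 hsat1 j (u * y) (V1.mul_mem hu hy)
  have : π1 ^ j * (u * y) = s0 * y := by
    rw [hju]
    ring
  rw [this]
  exact hs0y

/-- `(π1)` is a prime ideal of `B1`. -/
theorem h20_pi_prime (hB1V1 : B1 ≤ V1) (hπB1 : π1 ∈ B1) (hπu : π1⁻¹ ∉ V1)
    (hmax : ∀ w ∈ V1, w⁻¹ ∈ V1 ∨ ∃ w' ∈ V1, w = π1 * w')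
    (hsat1 : ∀ v ∈ V1, π1 * v ∈ B1 → v ∈ B1) :
    (Ideal.span {(⟨π1, hπB1⟩ : B1)}).IsPrime := by
  have hmem : ∀ x : B1, (∃ w' ∈ V1, (x : F1) = π1 * w') → x ∈ Ideal.span {(⟨π1, hπB1⟩ : B1)} := by
    rintro x ⟨w', hw', hxw'⟩
    have hw'B : w' ∈ B1 := hsat1 w' hw' (by rw [← hxw']; exact x.2)
    rw [Ideal.mem_span_singleton']
    refine ⟨⟨w', hw'B⟩, ?_⟩
    apply Subtype.ext
    show w' * π1 = (x : F1)
    rw [hxw', mul_comm]
  rw [Ideal.isPrime_iff]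
  constructor
  · intro htop
    have h1 : (1 : B1) ∈ Ideal.span {(⟨π1, hπB1⟩ : B1)} := by
      rw [htop]
      exact Submodule.mem_top
    obtain ⟨c, hc⟩ := Ideal.mem_span_singleton'.mp h1
    apply hπu
    have hc' : (c : F1) * π1 = 1 := congrArg Subtype.val hc
    have : π1⁻¹ = (c : F1) := by
      rw [inv_eq_iff_eq_inv]
      exact (eq_inv_of_mul_eq_one_right hc')
    rw [this]
    exact hB1V1 c.2
  · intro x y hxy
    obtain ⟨c, hc⟩ := Ideal.mem_span_singleton'.mp hxy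
    have hc' : (c : F1) * π1 = (x : F1) * (y : F1) := congrArg Subtype.val hc
    by_cases hx0 : (x : F1) = 0
    · left
      exact hmem x ⟨0, V1.zero_mem, by rw [hx0, mul_zero]⟩
    by_cases hy0 : (y : F1) = 0
    · right
      exact hmem y ⟨0, V1.zero_mem, by rw [hy0, mul_zero]⟩
    rcases hmax x (hB1V1 x.2) with hxi | hx
    · rcases hmax y (hB1V1 y.2) with hyi | hy
      · exfalso
        apply hπu
        have : π1⁻¹ = (c : F1) * ((x : F1)⁻¹ * (y : F1)⁻¹) := by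
          rw [inv_eq_iff_eq_inv]
          have h1 : (c : F1) * ((x : F1)⁻¹ * (y : F1)⁻¹) * π1 = 1 := by
            have : (c : F1) * ((x : F1)⁻¹ * (y : F1)⁻¹) * π1
                = ((c : F1) * π1) * ((x : F1)⁻¹ * (y : F1)⁻¹) := by ring
            rw [this, hc']
            field_simp
          exact eq_inv_of_mul_eq_one_right h1
        rw [this]
        exact V1.mul_mem (hB1V1 c.2) (V1.mul_mem hxi hyi)
      · right
        exact hmem y hy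
    · left
      exact hmem x hx

end Level

section Main

variable {F1 F : Type*} [Field F1] [Field F]

/-- The restriction of `β` to the charts. -/
def h20Phi (β : F1 →+* F) (B1 : Subring F1) (B : Subring F) (hint : ∀ b ∈ B1, β b ∈ B) :
    B1 →+* B :=
  (β.comp B1.subtype).codRestrict B (fun b => hint b b.2)

@[simp] theorem coe_h20Phi (β : F1 →+* F) (B1 : Subring F1) (B : Subring F)
    (hint : ∀ b ∈ B1, β b ∈ B) (b : B1) : ((h20Phi β B1 B hint b : B) : F) = β (b : F1) := rfl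

/-- **(C2), abstract form**: `B / p_0` has DVR localisations; the output is `∃ t, H4Unif p0 n t`
unfolded (helper4), i.e. the input `hD2` of `h7_comp` at `n`. -/
theorem h20_c2_abs (β : F1 →+* F) (B1 V1 : Subring F1) (B V0 : Subring F) (π1 : F1)
    (hπ0 : π1 ≠ 0) (hπB1 : π1 ∈ B1) (hB1V1 : B1 ≤ V1) (hBV0 : B ≤ V0)
    (hint : ∀ b ∈ B1, β b ∈ B)
    (hval : ∀ y : F1, β y ∈ V0 → y ∈ V1)
    (hres : ∀ v ∈ V0, ∃ y ∈ V1, ∃ v' ∈ V0, v = β y + β π1 * v')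
    (hπu : π1⁻¹ ∉ V1)
    (hmax : ∀ w ∈ V1, w⁻¹ ∈ V1 ∨ ∃ w' ∈ V1, w = π1 * w')
    (hdvr : ∀ c : F1, ∃ k : ℕ, π1 ^ k * c ∈ V1)
    (hfrac1 : ∀ y : F1, ∃ s ∈ B1, s ≠ 0 ∧ s * y ∈ B1)
    (hsat1 : ∀ v ∈ V1, π1 * v ∈ B1 → v ∈ B1)
    [IsNoetherianRing B1]
    (hSM : ∀ m : Ideal B1, m.IsMaximal → (⟨π1, hπB1⟩ : B1) ∈ m →
      ∃ t ∈ m, ∀ y ∈ m, ∃ s : B1, s ∉ m ∧ ∃ u w : B1, s * y = ⟨π1, hπB1⟩ * u + t * w)
    (p0 n : Ideal B) [p0.IsPrime] [n.IsPrime] (hpn : p0 ≤ n)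
    (hp0 : ∀ b : B, (∃ v ∈ V0, (b : F) = β π1 * v) → b ∈ p0)
    (hp0' : ∀ b : B, b ∈ p0 → ∃ v ∈ V0, (b : F) = β π1 * v) :
    ∃ t : B, t ∈ n ∧ ∀ y ∈ n, ∃ s : B, s ∉ n ∧ ∃ w : B, s * y - t * w ∈ p0 := by
  have hπprime := h20_pi_prime B1 V1 π1 hB1V1 hπB1 hπu hmax hsat1
  have hβπ0 : β π1 ≠ 0 := by
    rw [Ne, map_eq_zero]
    exact hπ0
  have hπp : h20Phi β B1 B hint ⟨π1, hπB1⟩ ∈ p0 :=
    hp0 _ ⟨1, V0.one_mem, by simp⟩
  have hfrac : ∀ z : B, ∃ a s : B1, h20Phi β B1 B hint s ∉ p0 ∧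
      h20Phi β B1 B hint s * z - h20Phi β B1 B hint a ∈ p0 := by
    intro z
    obtain ⟨y, hy, v', hv', hzy⟩ := hres (z : F) (hBV0 z.2)
    obtain ⟨s, hsB, hsi, hs0, hsy⟩ :=
      h20_loc B1 V1 π1 hπ0 hB1V1 hπB1 hmax hdvr hfrac1 hsat1 y hy
    refine ⟨⟨s * y, hsy⟩, ⟨s, hsB⟩, ?_, ?_⟩
    · intro hsp
      obtain ⟨v, hv, hsv⟩ := hp0' _ hsp
      rw [coe_h20Phi] at hsv
      apply hπu
      have h1 : β (s * π1⁻¹) = v := by
        rw [map_mul, map_inv₀, hsv]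
        field_simp
      have h2 : s * π1⁻¹ ∈ V1 := hval _ (by rw [h1]; exact hv)
      have h3 : π1⁻¹ = s⁻¹ * (s * π1⁻¹) := by
        field_simp
      rw [h3]
      exact V1.mul_mem hsi h2
    · apply hp0
      refine ⟨β s * v', V0.mul_mem (hBV0 (hint s hsB)) hv', ?_⟩
      show β s * (z : F) - β (s * y) = β π1 * (β s * v')
      rw [hzy, map_mul]
      ring
  obtain ⟨t, htn, ht⟩ := h20_branch (h20Phi β B1 B hint) ⟨π1, hπB1⟩ hπprime p0 n hpn hπp hfrac hSM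
  exact ⟨h20Phi β B1 B hint t, htn, ht⟩

end Main

end Fermat.Agent.S34x.Comp.H20
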