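import Mathlib
import Fermat.Agent.S18x.IG.H24_HsmFinal
import Fermat.Agent.S34x.Val.H6_Red
import Fermat.Agent.S34x.Comp.H20_C2Abs
import Fermat.Agent.S34x.Comp.H20_BranchUnif

/-!
# S34 (W10), stage (C): the level-`M` pack for the branch parameters (helper20)

`H20LevelM O W x₀ π₀` : the four level-`M` inputs of `h20_hD_chart` (= of helper7's
`h7_branch_unif`) for the chart `chart O x₀` inside the valuation ring `W` of `F_M`:
the chart is noetherian, `(π₀)` is prime in it, `W` is the localisation of the chart at `(π₀)`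
(`hfracW`), and (SM) holds at every maximal ideal over `π₀` (`IG.HSMChart`).

* `h20_levelM_of` : the pack from (SAT) + `HSMChart` + the coordinate inputs;
* `h20_levelM_two`, `h20_levelM_three` : the pack for the Hauptmodul of level `p₀ ∈ {2, 3}` and
  its inverse, at every level `M` divisible by `p₀` and prime to the residue characteristic
  `ℓ ≠ p₀`, over every number field `K ⊆ ℚ̄` with `O = A ∩ K`, for EVERY uniformiser `π₀`;
* `h20_hD_of_levelM` : `hD1` / `hD2` of `h7_comp` from the pack.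
-/

set_option autoImplicit false
set_option linter.unusedSectionVars false
set_option linter.style.haveILetI false
set_option synthInstance.maxHeartbeats 400000
set_option maxHeartbeats 1000000

open Polynomial ModularCurve

namespace Fermat.Agent.S34x.Comp.H20

open Fermat.Agent.S18x.Spec.H26 Fermat.Agent.S18x.Dict.H20 Fermat.Agent.S18x.IG
  Fermat.Agent.S34x.Val.H2 Fermat.Agent.S34x.Comp.H4 Fermat.Agent.S34x.Comp.H7

section Def

variable (O : Type*) {F₀ : Type*} [CommRing O] [Field F₀] [Algebra O F₀]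

/-- The level-`M` pack. -/
def H20LevelM (W : Subring F₀) (x₀ : F₀) (π₀ : O) : Prop :=
  IsNoetherianRing ↥(chart O x₀).toSubring ∧
  (Ideal.span {(⟨algebraMap O F₀ π₀, (chart O x₀).algebraMap_mem π₀⟩ :
      (chart O x₀).toSubring)}).IsPrime ∧
  (∀ w ∈ W, ∃ a s : (chart O x₀).toSubring,
      (s : F₀) ≠ 0 ∧ (s : F₀)⁻¹ ∈ W ∧ w * (s : F₀) = (a : F₀)) ∧
  HSMChart O x₀ π₀

/-- (SM) does not depend on the uniformiser. -/
theorem h20_hsmChart_of_mul (x₀ : F₀) (π₀ π₀' ε : O) (hε : π₀' = ε * π₀)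
    (H : HSMChart O x₀ π₀') : HSMChart O x₀ π₀ := by
  intro 𝔫 h𝔫 hπ𝔫
  have hπ' : chartPi O x₀ π₀' = chartC O x₀ ε * chartPi O x₀ π₀ := by
    apply Subtype.ext
    show algebraMap O F₀ π₀' = algebraMap O F₀ ε * algebraMap O F₀ π₀
    rw [hε, map_mul]
  have hπ'𝔫 : chartPi O x₀ π₀' ∈ 𝔫 := by
    rw [hπ']
    exact 𝔫.mul_mem_left _ hπ𝔫
  obtain ⟨t, ht, hSM⟩ := H 𝔫 h𝔫 hπ'𝔫
  refine ⟨t, ht, ?_⟩
  intro y hy
  obtain ⟨s, hs, u, w, h⟩ := hSM y hy
  refine ⟨s, hs, chartC O x₀ ε * u, w, ?_⟩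
  rw [h, hπ']
  ring

end Def

section Of

variable {O : Type*} {F₀ : Type*} [CommRing O] [IsDomain O] [IsIntegrallyClosed O]
  [IsNoetherianRing O] [Field F₀] [CharZero F₀] [Algebra O F₀]

/-- The level-`M` pack from the coordinate inputs, (W1), (W2), (SAT) and (SM). -/
theorem h20_levelM_of (W : ValuationSubring F₀) (x₀ : F₀) (π₀ : O)
    (hj : Transcendental O x₀) (hfin : H26FinOver O x₀)
    (hOW : ∀ c : O, algebraMap O F₀ c ∈ W) (hxW : x₀ ∈ W)
    (hπ0 : algebraMap O F₀ π₀ ≠ 0) (hπu : (algebraMap O F₀ π₀)⁻¹ ∉ W)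
    (hmax : ∀ w ∈ W, w⁻¹ ∈ W ∨ ∃ w' ∈ W, w = algebraMap O F₀ π₀ * w')
    (hdvr : ∀ c : F₀, ∃ k : ℕ, algebraMap O F₀ π₀ ^ k * c ∈ W)
    (hsat : ∀ v ∈ W, algebraMap O F₀ π₀ * v ∈ chart O x₀ → v ∈ chart O x₀)
    (H : HSMChart O x₀ π₀) :
    H20LevelM O W.toSubring x₀ π₀ := by
  have hBW : (chart O x₀).toSubring ≤ W.toSubring := by
    intro y hy
    refine h26_closure_le (O := O) {x₀} W.toSubring (h26_valuationSubring_ic W) hOW ?_ hy
    intro s hs
    rw [Set.mem_singleton_iff] at hs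
    rw [hs]
    exact hxW
  have hπB : algebraMap O F₀ π₀ ∈ (chart O x₀).toSubring := (chart O x₀).algebraMap_mem π₀
  refine ⟨h26_isNoetherianRing_chart O hj hfin, ?_, ?_, H⟩
  · exact h20_pi_prime (chart O x₀).toSubring W.toSubring (algebraMap O F₀ π₀) hBW hπB hπu hmax
      hsat
  · intro w hw
    have hfrac1 : ∀ y : F₀, ∃ s ∈ (chart O x₀).toSubring, s ≠ 0 ∧ s * y ∈ (chart O x₀).toSubring := by
      intro y
      obtain ⟨a, b, hb0, hab⟩ := h26_chart_hfrac O hj hfin y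
      refine ⟨(b : F₀), b.2, fun h => hb0 (Subtype.ext h), ?_⟩
      rw [mul_comm, hab]
      exact a.2
    obtain ⟨s, hsB, hsi, hs0, hsy⟩ := h20_loc (chart O x₀).toSubring W.toSubring
      (algebraMap O F₀ π₀) hπ0 hBW hπB hmax hdvr hfrac1 hsat w hw
    exact ⟨⟨s * w, hsy⟩, ⟨s, hsB⟩, hs0, hsi, mul_comm _ _⟩

end Of

section HD

variable {O F₀ F : Type*} [CommRing O] [Field F₀] [Field F] [Algebra O F₀] (φ : F₀ →+* F)
  (x₀ : F₀) (π₀ : O) (W : Subring F₀) (B V : Subring F) (hBV : B ≤ V)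
  {e : F} (hc : H2Comp V (φ (algebraMap O F₀ π₀)) e)

/-- **`hD1` / `hD2` of `h7_comp` from the level-`M` pack.** -/
theorem h20_hD_of_levelM (L : H20LevelM O W x₀ π₀)
    (hφB : ∀ a ∈ (chart O x₀).toSubring, φ a ∈ B) (hφV : ∀ w ∈ W, φ w ∈ V)
    (hres : ∀ z ∈ B, ∃ w ∈ W, H2In V (φ (algebraMap O F₀ π₀)) e (z - φ w)) :
    ∀ 𝔫 : Ideal B, 𝔫.IsMaximal → h7p hBV hc ≤ 𝔫 → ∃ t, H4Unif (h7p hBV hc) 𝔫 t := by
  obtain ⟨hnoeth, hprime, hfracW, H⟩ := L
  haveI := hnoeth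
  exact h20_hD_chart φ x₀ π₀ W B V hBV hc hφB hφV hprime hfracW hres H

end HD

section Inst

open Fermat.Agent.S18x.IG.H28 Fermat.Agent.S18x.IG.H29 Fermat.Agent.S18x.Dict.H23
  Fermat.Agent.S18x.Dict.H7 Fermat.Agent.S34x.Val.H6

local notation "Lbar" => AlgebraicClosure ℚ

variable (A : ValuationSubring Lbar) {ℓ : ℕ} (hℓ : ℓ.Prime) (hA : A.LiesOverPrime ℓ)
  (M : ℕ) [NeZero M]

/-- The level-`M` pack for a coordinate `x = coordM K M x₀ hmem` and its inverse, from (SAT) and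
(SM) for both charts. -/
theorem h20_levelM_coord (K : IntermediateField ℚ Lbar)
    [IsDiscreteValuationRing (A.comap (algebraMap ↥K Lbar))]
    (x₀ : LaurentSeries ℤ) (hord : x₀.order = -1) (hlead : x₀.coeff (-1) = 1)
    (hmem : coeffMap (Int.castRingHom ↥K) x₀ ∈ modularFunctionFieldFullC ↥K M)
    (π₀ : A.comap (algebraMap ↥K Lbar)) (hπ₀ : Irreducible π₀)
    (hs1 : ∀ v ∈ gaussValM (A.comap (algebraMap ↥K Lbar)) M,
      algebraMap (A.comap (algebraMap ↥K Lbar)) ↥(modularFunctionFieldFullC ↥K M) π₀ * v ∈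
        chart (A.comap (algebraMap ↥K Lbar)) (coordM ↥K M x₀ hmem) →
        v ∈ chart (A.comap (algebraMap ↥K Lbar)) (coordM ↥K M x₀ hmem))
    (hs2 : ∀ v ∈ gaussValM (A.comap (algebraMap ↥K Lbar)) M,
      algebraMap (A.comap (algebraMap ↥K Lbar)) ↥(modularFunctionFieldFullC ↥K M) π₀ * v ∈
        chart (A.comap (algebraMap ↥K Lbar)) (coordM ↥K M x₀ hmem)⁻¹ →
        v ∈ chart (A.comap (algebraMap ↥K Lbar)) (coordM ↥K M x₀ hmem)⁻¹)
    (H1 : HSMChart (A.comap (algebraMap ↥K Lbar)) (coordM ↥K M x₀ hmem) π₀)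
    (H2 : HSMChart (A.comap (algebraMap ↥K Lbar)) (coordM ↥K M x₀ hmem)⁻¹ π₀) :
    H20LevelM (A.comap (algebraMap ↥K Lbar))
        (gaussValM (A.comap (algebraMap ↥K Lbar)) M).toSubring (coordM ↥K M x₀ hmem) π₀ ∧
      H20LevelM (A.comap (algebraMap ↥K Lbar))
        (gaussValM (A.comap (algebraMap ↥K Lbar)) M).toSubring (coordM ↥K M x₀ hmem)⁻¹ π₀ := by
  haveI : IsScalarTower (A.comap (algebraMap ↥K Lbar)) ↥K ↥(modularFunctionFieldFullC ↥K M) :=
    IsScalarTower.of_algebraMap_eq (fun c => rfl)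
  obtain ⟨h1, h2, h3, h4, h5⟩ := coord_inputs (A.comap (algebraMap ↥K Lbar)) M x₀ hmem hord hlead
  have hπ0 : algebraMap (A.comap (algebraMap ↥K Lbar)) ↥(modularFunctionFieldFullC ↥K M) π₀ ≠ 0 :=
    h6_unifM_ne_zero (A.comap (algebraMap ↥K Lbar)) M π₀ hπ₀
  have hπu : (algebraMap (A.comap (algebraMap ↥K Lbar)) ↥(modularFunctionFieldFullC ↥K M) π₀)⁻¹
      ∉ gaussValM (A.comap (algebraMap ↥K Lbar)) M := by
    intro h
    exact h7_hπV (A.comap (algebraMap ↥K Lbar)) M π₀ hπ₀ _ h (mul_inv_cancel₀ hπ0)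
  have hmax := h6_W1 (A.comap (algebraMap ↥K Lbar)) M π₀ hπ₀
  have hdvr := h6_W2 (A.comap (algebraMap ↥K Lbar)) M π₀ hπ₀
  have hOW := h7_hOV (A.comap (algebraMap ↥K Lbar)) M
  constructor
  · exact h20_levelM_of (gaussValM (A.comap (algebraMap ↥K Lbar)) M) (coordM ↥K M x₀ hmem) π₀
      h2 h3 hOW h4 hπ0 hπu hmax hdvr hs1 H1
  · exact h20_levelM_of (gaussValM (A.comap (algebraMap ↥K Lbar)) M) (coordM ↥K M x₀ hmem)⁻¹ π₀
      (h26_transcendental_inv (A.comap (algebraMap ↥K Lbar)) h1 h2)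
      (h26_finOver_inv (A.comap (algebraMap ↥K Lbar)) h1 h3) hOW h5 hπ0 hπu hmax hdvr hs2 H2

include hℓ hA in
/-- **The level-`M` pack for the Hauptmodul of level `2`** (`2 ∣ M`, `ℓ ≠ 2`, `ℓ ∤ M`), for
every uniformiser `π₀` of `O = A ∩ K`. -/
theorem h20_levelM_two (hℓ2 : ℓ ≠ 2) (h2M : 2 ∣ M) (hℓM : ¬ ℓ ∣ M)
    (K : IntermediateField ℚ Lbar) [FiniteDimensional ℚ K]
    [IsDiscreteValuationRing (A.comap (algebraMap ↥K Lbar))]
    (π₀ : A.comap (algebraMap ↥K Lbar)) (hπ₀ : Irreducible π₀) :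
    H20LevelM (A.comap (algebraMap ↥K Lbar))
        (gaussValM (A.comap (algebraMap ↥K Lbar)) M).toSubring (coord2 ↥K M h2M) π₀ ∧
      H20LevelM (A.comap (algebraMap ↥K Lbar))
        (gaussValM (A.comap (algebraMap ↥K Lbar)) M).toSubring (coord2 ↥K M h2M)⁻¹ π₀ := by
  haveI : IsScalarTower (A.comap (algebraMap ↥K Lbar)) ↥K ↥(modularFunctionFieldFullC ↥K M) :=
    IsScalarTower.of_algebraMap_eq (fun c => rfl)
  haveI := Fermat.Agent.S18x.Dict.H22.isIntegral_intermediate K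
  have h2u := H21.h21_isUnit_two (K := ↥K) A hℓ hA hℓ2
  obtain ⟨hs1, hs2⟩ := h24_hsat_of_identity A hℓ hA M hℓM K h2 order_h2 coeff_h2_neg_one
    (h2_mem_full ↥K M h2M) ((X + C 256) ^ 3) (X ^ 2) ((monic_X_add_C 256).pow 3)
    (monic_X_pow 2)
    (by rw [natDegree_X_pow, natDegree_pow, natDegree_X_add_C]; norm_num)
    (by rw [coeff_X_pow]; norm_num) (256 ^ 3)
    (by rw [coeff_zero_eq_eval_zero, eval_pow, eval_add, eval_X, eval_C]; norm_num)
    (by
      intro h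
      have h1 : ℓ ∣ 2 := by
        have h2 : (256 : ℕ) ^ 3 = 2 ^ 24 := by norm_num
        rw [h2] at h
        exact hℓ.dvd_of_dvd_pow h
      exact hℓ2 ((Nat.prime_dvd_prime_iff_eq hℓ Nat.prime_two).mp h1))
    (by
      rw [map_pow, map_pow, map_add, aeval_X, aeval_C]
      have e : algebraMap ℤ (LaurentSeries ℤ) 256 = 256 := map_ofNat _ 256
      rw [e]
      exact j_h2)
    π₀ hπ₀
  have key := h24_hSM_two A hℓ hA M K h2M hℓ2 π₀ hπ₀ hs1 hs2
    (H5.h5_hred_two (A.comap (algebraMap ↥K Lbar)) M h2M π₀ hπ₀ _ (by simp) (by simp))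
    (H5.h5_hred_two_inv (A.comap (algebraMap ↥K Lbar)) M h2M π₀ hπ₀ _ (by simp)
      (-H21.h21_inv 64 (H21.h21_isUnit_64 h2u))
      (by
        have := H21.h21_mul_inv (64 : A.comap (algebraMap ↥K Lbar)) (H21.h21_isUnit_64 h2u)
        linear_combination -this)
      (by simp))
  exact h20_levelM_coord A M K h2 order_h2 coeff_h2_neg_one (h2_mem_full ↥K M h2M) π₀ hπ₀
    hs1 hs2 key.1 key.2

include hℓ hA in
/-- **The level-`M` pack for the Hauptmodul of level `3`** (`3 ∣ M`, `ℓ ≠ 3`, `ℓ ∤ M`), for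
every uniformiser `π₀` of `O = A ∩ K`. -/
theorem h20_levelM_three (hℓ3 : ℓ ≠ 3) (h3M : 3 ∣ M) (hℓM : ¬ ℓ ∣ M)
    (K : IntermediateField ℚ Lbar) [FiniteDimensional ℚ K]
    [IsDiscreteValuationRing (A.comap (algebraMap ↥K Lbar))]
    (π₀ : A.comap (algebraMap ↥K Lbar)) (hπ₀ : Irreducible π₀) :
    H20LevelM (A.comap (algebraMap ↥K Lbar))
        (gaussValM (A.comap (algebraMap ↥K Lbar)) M).toSubring (coord3 ↥K M h3M) π₀ ∧
      H20LevelM (A.comap (algebraMap ↥K Lbar))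
        (gaussValM (A.comap (algebraMap ↥K Lbar)) M).toSubring (coord3 ↥K M h3M)⁻¹ π₀ := by
  haveI : IsScalarTower (A.comap (algebraMap ↥K Lbar)) ↥K ↥(modularFunctionFieldFullC ↥K M) :=
    IsScalarTower.of_algebraMap_eq (fun c => rfl)
  haveI := Fermat.Agent.S18x.Dict.H22.isIntegral_intermediate K
  have h3u := H21.h21_isUnit_three (K := ↥K) A hℓ hA hℓ3
  obtain ⟨hs1, hs2⟩ := h24_hsat_of_identity A hℓ hA M hℓM K h3 order_h3 coeff_h3_neg_one
    (h3_mem_full ↥K M h3M) ((X + C 243) ^ 3 * (X + C 27)) (X ^ 3)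
    (((monic_X_add_C 243).pow 3).mul (monic_X_add_C 27)) (monic_X_pow 3)
    (by
      rw [natDegree_X_pow,
        (((monic_X_add_C (243 : ℤ)).pow 3).natDegree_mul (monic_X_add_C 27)),
        natDegree_pow, natDegree_X_add_C, natDegree_X_add_C]
      norm_num)
    (by rw [coeff_X_pow]; norm_num) (243 ^ 3 * 27)
    (by
      rw [coeff_zero_eq_eval_zero, eval_mul, eval_pow, eval_add, eval_add, eval_X, eval_C,
        eval_C]
      norm_num)
    (by
      intro h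
      have h1 : ℓ ∣ 3 := by
        have h2 : (243 : ℕ) ^ 3 * 27 = 3 ^ 18 := by norm_num
        rw [h2] at h
        exact hℓ.dvd_of_dvd_pow h
      exact hℓ3 ((Nat.prime_dvd_prime_iff_eq hℓ Nat.prime_three).mp h1))
    (by
      rw [map_pow, map_mul, map_pow, map_add, map_add, aeval_X, aeval_C, aeval_C]
      have e : algebraMap ℤ (LaurentSeries ℤ) 243 = 243 := map_ofNat _ 243
      have e' : algebraMap ℤ (LaurentSeries ℤ) 27 = 27 := map_ofNat _ 27
      rw [e, e']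
      exact j_h3)
    π₀ hπ₀
  have key := h24_hSM_three A hℓ hA M K h3M hℓ3 π₀ hπ₀ hs1 hs2
    (H5.h5_hred_three (A.comap (algebraMap ↥K Lbar)) M h3M π₀ hπ₀ _ (by simp) (by simp))
    (H5.h5_hred_three_inv (A.comap (algebraMap ↥K Lbar)) M h3M π₀ hπ₀ _ (by simp)
      (-H21.h21_inv 27 (H21.h21_isUnit_27 h3u))
      (by
        have := H21.h21_mul_inv (27 : A.comap (algebraMap ↥K Lbar)) (H21.h21_isUnit_27 h3u)
        linear_combination -this)
      (by simp))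
  exact h20_levelM_coord A M K h3 order_h3 coeff_h3_neg_one (h3_mem_full ↥K M h3M) π₀ hπ₀
    hs1 hs2 key.1 key.2

end Inst

end Fermat.Agent.S34x.Comp.H20
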