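import Fermat.Agent.S34x.Comp.H22_BetaPlug
import Fermat.Agent.S34x.Comp.H10_CuspFact
import Fermat.Agent.S34x.Comp.H11_Beta

/-!
# S34 / W10 (C) COMP (helper22): (β-INT), hypothesis-free

`β = h11Beta K M N q hMqN : F_M → F_N` (helper11), `x = coord2`, `coord3`, `O` a valuation
subring of `K` lying over `q`, `q ≠ p0`: `β` maps `chart O x_M` into `chart O x_N` and
`chart O x_M⁻¹` into `chart O x_N⁻¹`.  The Kronecker order relation is helper10's
`h10_cusp_fact`.

* `h22_hβB_two_final`, `h22_hβB_three_final` : `hβB` of `h7_comp_abs2` for both charts;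
* `h22_betaInt_two_final`, `h22_betaInt_three_final` : `β x ∈ chart O x`, `(β x)⁻¹ ∈ chart O x⁻¹`.
-/

set_option autoImplicit false
set_option linter.unusedSectionVars false
set_option linter.unusedVariables false
set_option linter.style.haveILetI false
set_option synthInstance.maxHeartbeats 400000
set_option maxHeartbeats 1000000

open ModularCurve Polynomial

noncomputable section

namespace Fermat.Agent.S34x.Comp.H22

open Fermat.Agent.S18x.Spec.H26 Fermat.Agent.S18x.Qepo Fermat.Agent.S18x.IG.H29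
  Fermat.Agent.S18x.IG.H28 Fermat.Agent.S34x.Comp.H10 Fermat.Agent.S34x.Comp.H11B

variable (K : Type) [Field K] [CharZero K] (O : ValuationSubring K) (M N : ℕ) [NeZero M]
  [NeZero N] [Algebra O (FM K M)] [IsScalarTower O K (FM K M)]
  [Algebra O (FM K N)] [IsScalarTower O K (FM K N)]

/-- **(β-INT) at level 2, hypothesis-free.** -/
theorem h22_betaInt_two_final (q : ℕ) [NeZero q] (hq : q.Prime) (hq2 : q ≠ 2)
    (h2qN : q * 2 ∣ N) (hO : O.LiesOverPrime q)
    (hmem : coeffMap (Int.castRingHom K) Fermat.Agent.S18x.IG.H28.h2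
      ∈ modularFunctionFieldFullC K N)
    (hmemq : qExpand K q (coeffMap (Int.castRingHom K) Fermat.Agent.S18x.IG.H28.h2)
      ∈ modularFunctionFieldFullC K N) :
    h22BetaCoord K N q Fermat.Agent.S18x.IG.H28.h2 hmemq
        ∈ chart O (coordM K N Fermat.Agent.S18x.IG.H28.h2 hmem) ∧
      (h22BetaCoord K N q Fermat.Agent.S18x.IG.H28.h2 hmemq)⁻¹
        ∈ chart O (coordM K N Fermat.Agent.S18x.IG.H28.h2 hmem)⁻¹ :=
  h22_betaInt_two_of_cusp K O N q hq hq2 h2qN (h22_hOq_of_liesOver hq O hO)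
    (h10_cusp_fact q hq (FM K N)) hmem hmemq

/-- **(β-INT) at level 3, hypothesis-free.** -/
theorem h22_betaInt_three_final (q : ℕ) [NeZero q] (hq : q.Prime) (hq3 : q ≠ 3)
    (h3qN : q * 3 ∣ N) (hO : O.LiesOverPrime q)
    (hmem : coeffMap (Int.castRingHom K) Fermat.Agent.S18x.IG.H28.h3
      ∈ modularFunctionFieldFullC K N)
    (hmemq : qExpand K q (coeffMap (Int.castRingHom K) Fermat.Agent.S18x.IG.H28.h3)
      ∈ modularFunctionFieldFullC K N) :
    h22BetaCoord K N q Fermat.Agent.S18x.IG.H28.h3 hmemq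
        ∈ chart O (coordM K N Fermat.Agent.S18x.IG.H28.h3 hmem) ∧
      (h22BetaCoord K N q Fermat.Agent.S18x.IG.H28.h3 hmemq)⁻¹
        ∈ chart O (coordM K N Fermat.Agent.S18x.IG.H28.h3 hmem)⁻¹ :=
  h22_betaInt_three_of_cusp K O N q hq hq3 h3qN (h22_hOq_of_liesOver hq O hO)
    (h10_cusp_fact q hq (FM K N)) hmem hmemq

/-- **`hβB` at level 2, hypothesis-free**, for helper11's `β`. -/
theorem h22_hβB_two_final (q : ℕ) [NeZero q] (hq : q.Prime) (hq2 : q ≠ 2) (h2M : 2 ∣ M)
    (h2N : 2 ∣ N) (hMqN : M * q ∣ N) (hO : O.LiesOverPrime q) :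
    (∀ a ∈ (chart O (coord2 K M h2M)).toSubring,
        h11Beta K M N q hMqN a ∈ (chart O (coord2 K N h2N)).toSubring) ∧
      (∀ a ∈ (chart O (coord2 K M h2M)⁻¹).toSubring,
        h11Beta K M N q hMqN a ∈ (chart O (coord2 K N h2N)⁻¹).toSubring) :=
  h22_hβB_two K O M N q hq hq2 h2M h2N hMqN (h22_hOq_of_liesOver hq O hO)
    (h10_cusp_fact q hq (FM K N)) (h11Beta K M N q hMqN) (h11Beta_coe K M N q hMqN)

/-- **`hβB` at level 3, hypothesis-free**, for helper11's `β`. -/
theorem h22_hβB_three_final (q : ℕ) [NeZero q] (hq : q.Prime) (hq3 : q ≠ 3) (h3M : 3 ∣ M)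
    (h3N : 3 ∣ N) (hMqN : M * q ∣ N) (hO : O.LiesOverPrime q) :
    (∀ a ∈ (chart O (coord3 K M h3M)).toSubring,
        h11Beta K M N q hMqN a ∈ (chart O (coord3 K N h3N)).toSubring) ∧
      (∀ a ∈ (chart O (coord3 K M h3M)⁻¹).toSubring,
        h11Beta K M N q hMqN a ∈ (chart O (coord3 K N h3N)⁻¹).toSubring) :=
  h22_hβB_three K O M N q hq hq3 h3M h3N hMqN (h22_hOq_of_liesOver hq O hO)
    (h10_cusp_fact q hq (FM K N)) (h11Beta K M N q hMqN) (h11Beta_coe K M N q hMqN)

end Fermat.Agent.S34x.Comp.H22
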