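import Fermat.Agent.S34x.Val.H6_Inst
import Fermat.Agent.S37x.Red.H2_ChartMap
import Fermat.Agent.S18x.Spec.H26_Spec
import Fermat.Agent.S18x.Spec.H26_Adapt

/-!
# S34 / W10 (C) COMP (helper22): the `α`-side inputs of `h7_comp_abs2` at the instance

Setting of helper6's `H6_Inst`: `F₀ = FM K M`, `F = FM K N`, `α := h6incl M N hMN` (the
inclusion), `W := (gaussValM O M).toSubring`, `V := h6V O M N hMN q hqN`,
`BM := (chart O x_M).toSubring`, `B := (chart O x_N).toSubring` for a coordinate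
`x = coordM K · x₀ _` (`x₀ = h2`, `h3`) and for its inverse.

* `h22_hαO`, `h22_hαπ` : `α` is the identity on the constants;
* `h22_hαx`, `h22_hαx_inv` : `α x_M = x_N`, `α x_M⁻¹ = x_N⁻¹`;
* `h22_hαV` : `α W ⊆ V`;
* `h22_hαB`, `h22_hαB_inv` : `α` maps the charts of level `M` into the charts of level `N`;
* `h22_hBW`, `h22_hBW_inv` : the charts of level `M` lie in the Gauss valuation ring;
* `h22_hBV`, `h22_hBV_inv` : the charts of level `N` lie in `V` (from `hVic`);
* `h22_hπBM`, `h22_hπB`, and the same for the inverse coordinate.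
-/

set_option autoImplicit false
set_option linter.unusedSectionVars false
set_option linter.unusedVariables false
set_option linter.style.haveILetI false
set_option synthInstance.maxHeartbeats 400000
set_option maxHeartbeats 1000000

open ModularCurve Polynomial

noncomputable section

namespace Fermat.Agent.S34x.Comp.H22

open Fermat.Agent.S18x.Spec.H26 Fermat.Agent.S18x.Qepo Fermat.Agent.S18x.IG.H29
  Fermat.Agent.S18x.Dict.H20 Fermat.Agent.S34x.Val.H6 Fermat.Agent.S34x.Val.H2

variable {K : Type} [Field K] (O : ValuationSubring K) [IsDiscreteValuationRing O]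
  (M N : ℕ) [NeZero M] [NeZero N] (hMN : M ∣ N) (q : ℕ) [NeZero q] (hqN : q ∣ N)
  [Algebra O (FM K M)] [IsScalarTower O K (FM K M)]
  [Algebra O (FM K N)] [IsScalarTower O K (FM K N)]

/-- `hαO` : the inclusion is the identity on the constants. -/
theorem h22_hαO (c : O) :
    h6incl M N hMN (algebraMap O (FM K M) c) = algebraMap O (FM K N) c := by
  apply Subtype.ext
  rw [h6incl_coe, coe_algebraMap_O, coe_algebraMap_O]

/-- `hαπ`. -/
theorem h22_hαπ (π : O) :
    h6incl M N hMN (algebraMap O (FM K M) π) = algebraMap O (FM K N) π :=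
  h22_hαO O M N hMN π

/-- `hαV` : `α W ⊆ V`. -/
theorem h22_hαV :
    ∀ w ∈ (gaussValM O M).toSubring, h6incl M N hMN w ∈ h6V O M N hMN q hqN :=
  fun w hw => h6V_incl O M N hMN q hqN w hw

/-- `hπBM`. -/
theorem h22_hπBM (x : FM K M) (π : O) :
    algebraMap O (FM K M) π ∈ (chart O x).toSubring :=
  (chart O x).algebraMap_mem π

/-- `hπB`. -/
theorem h22_hπB (x : FM K N) (π : O) :
    algebraMap O (FM K N) π ∈ (chart O x).toSubring :=
  (chart O x).algebraMap_mem π

section Coord

variable (x₀ : LaurentSeries ℤ) (hlead : x₀.coeff (-1) = 1)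
  (hmemM : coeffMap (Int.castRingHom K) x₀ ∈ modularFunctionFieldFullC K M)
  (hmemN : coeffMap (Int.castRingHom K) x₀ ∈ modularFunctionFieldFullC K N)

/-- `α x_M = x_N`. -/
theorem h22_hαx : h6incl M N hMN (coordM K M x₀ hmemM) = coordM K N x₀ hmemN :=
  Subtype.ext rfl

/-- `α x_M⁻¹ = x_N⁻¹`. -/
theorem h22_hαx_inv :
    h6incl M N hMN (coordM K M x₀ hmemM)⁻¹ = (coordM K N x₀ hmemN)⁻¹ := by
  rw [map_inv₀, h22_hαx M N hMN x₀ hmemM hmemN]

/-- `hαB` : `α` maps the chart of `x_M` into the chart of `x_N`. -/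
theorem h22_hαB :
    ∀ a ∈ (chart O (coordM K M x₀ hmemM)).toSubring,
      h6incl M N hMN a ∈ (chart O (coordM K N x₀ hmemN)).toSubring := by
  intro a ha
  have h := Fermat.Agent.S37x.Red.H2.h2c_chart_map (O₁ := O) (O₂ := O) (h6incl M N hMN)
    (fun c => ⟨c, h22_hαO O M N hMN c⟩) (coordM K M x₀ hmemM) a ha
  rw [h22_hαx M N hMN x₀ hmemM hmemN] at h
  exact h

/-- `hαB` for the inverse coordinate. -/
theorem h22_hαB_inv :
    ∀ a ∈ (chart O (coordM K M x₀ hmemM)⁻¹).toSubring,
      h6incl M N hMN a ∈ (chart O (coordM K N x₀ hmemN)⁻¹).toSubring := by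
  intro a ha
  have h := Fermat.Agent.S37x.Red.H2.h2c_chart_map (O₁ := O) (O₂ := O) (h6incl M N hMN)
    (fun c => ⟨c, h22_hαO O M N hMN c⟩) (coordM K M x₀ hmemM)⁻¹ a ha
  rw [h22_hαx_inv M N hMN x₀ hmemM hmemN] at h
  exact h

/-- `hBW` : the chart of level `M` lies in the Gauss valuation ring. -/
theorem h22_hBW :
    (chart O (coordM K M x₀ hmemM)).toSubring ≤ (gaussValM O M).toSubring := by
  intro y hy
  refine h26_closure_le (O := O) {coordM K M x₀ hmemM} (gaussValM O M).toSubring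
    (h26_valuationSubring_ic (gaussValM O M)) (hOV_gaussValM O M) ?_ hy
  intro s hs
  rw [Set.mem_singleton_iff] at hs
  rw [hs]
  exact coordM_mem_gaussValM O M x₀ hmemM

include hlead in
/-- `hBW` for the inverse coordinate. -/
theorem h22_hBW_inv :
    (chart O (coordM K M x₀ hmemM)⁻¹).toSubring ≤ (gaussValM O M).toSubring := by
  intro y hy
  refine h26_closure_le (O := O) {(coordM K M x₀ hmemM)⁻¹} (gaussValM O M).toSubring
    (h26_valuationSubring_ic (gaussValM O M)) (hOV_gaussValM O M) ?_ hy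
  intro s hs
  rw [Set.mem_singleton_iff] at hs
  rw [hs]
  exact coordM_inv_mem_gaussValM O M x₀ hlead hmemM

include hmemM in
/-- `hBV` : the chart of level `N` lies in `V`, for every integrally closed `V` (`hVic`). -/
theorem h22_hBV
    (hVic : ∀ y : FM K N, IsIntegral (h6V O M N hMN q hqN) y → y ∈ h6V O M N hMN q hqN) :
    (chart O (coordM K N x₀ hmemN)).toSubring ≤ h6V O M N hMN q hqN := by
  intro y hy
  refine h26_closure_le (O := O) {coordM K N x₀ hmemN} (h6V O M N hMN q hqN)
    hVic (h6_hOV O M N hMN q hqN) ?_ hy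
  intro s hs
  rw [Set.mem_singleton_iff] at hs
  rw [hs]
  exact h6_coord_mem O M N hMN q hqN x₀ hmemM hmemN

include hlead hmemM in
/-- `hBV` for the inverse coordinate. -/
theorem h22_hBV_inv
    (hVic : ∀ y : FM K N, IsIntegral (h6V O M N hMN q hqN) y → y ∈ h6V O M N hMN q hqN) :
    (chart O (coordM K N x₀ hmemN)⁻¹).toSubring ≤ h6V O M N hMN q hqN := by
  intro y hy
  refine h26_closure_le (O := O) {(coordM K N x₀ hmemN)⁻¹} (h6V O M N hMN q hqN)
    hVic (h6_hOV O M N hMN q hqN) ?_ hy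
  intro s hs
  rw [Set.mem_singleton_iff] at hs
  rw [hs]
  exact h6_coord_inv_mem O M N hMN q hqN x₀ hlead hmemM hmemN

end Coord

section Final

variable (π : O) (hπ : Irreducible π) (hq : q.Prime)
  (x₀ : LaurentSeries ℤ) (hlead : x₀.coeff (-1) = 1)
  (hmemM : coeffMap (Int.castRingHom K) x₀ ∈ modularFunctionFieldFullC K M)
  (hmemN : coeffMap (Int.castRingHom K) x₀ ∈ modularFunctionFieldFullC K N)

include hπ hq hmemM in
/-- `hBV` from helper6's `h6_hVic` (modulo `H6Gen`). -/
theorem h22_hBV_inst (hq0 : (q : IsLocalRing.ResidueField O) = 0)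
    (hgen : H6Gen (K := K) M N q) :
    (chart O (coordM K N x₀ hmemN)).toSubring ≤ h6V O M N hMN q hqN :=
  h22_hBV O M N hMN q hqN x₀ hmemM hmemN (h6_hVic O M N hMN q hq hqN π hπ hq0 hgen)

include hπ hq hlead hmemM in
/-- `hBV` for the inverse coordinate from helper6's `h6_hVic` (modulo `H6Gen`). -/
theorem h22_hBV_inv_inst (hq0 : (q : IsLocalRing.ResidueField O) = 0)
    (hgen : H6Gen (K := K) M N q) :
    (chart O (coordM K N x₀ hmemN)⁻¹).toSubring ≤ h6V O M N hMN q hqN :=
  h22_hBV_inv O M N hMN q hqN x₀ hlead hmemM hmemN (h6_hVic O M N hMN q hq hqN π hπ hq0 hgen)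

end Final

end Fermat.Agent.S34x.Comp.H22
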