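import Fermat.Agent.S34x.Val.H6_Inst
import Fermat.Agent.S18x.Spec.H26_Adapt
import Fermat.Agent.S18x.IG.H29_Coord
import Fermat.Agent.S18x.IG.H28_HmInst

/-!
# S34 / W10 (C) COMP (helper22): the charts of level `N` are noetherian

The instance binder `[IsNoetherianRing (chart O xN).toSubring]` of helper7's
`h7_comp_inst_gen` (and the same for the level-`M` chart), for the coordinate
`x = coordM K N x₀ _` and for its inverse, and at the two Hauptmoduln `coord2`, `coord3`.

Setting of helper6's `H6_Inst` + `[CharZero K]`: `{K : Type} [Field K] (O : ValuationSubring K)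
[IsDiscreteValuationRing O] (N : ℕ) [NeZero N] [Algebra O (FM K N)]
[IsScalarTower O K (FM K N)]`.

* `h22_coordN_inputs` : transcendence and finiteness (`Transcendental O x`, `H26FinOver O x`) for
  `x` and `x⁻¹` (helper29's `coord_inputs` + helper26's adapters);
* `h22_noeth_coordM`, `h22_noeth_coordM_inv` : the two charts are noetherian rings;
* `h22_noeth_coord2`, `h22_noeth_coord2_inv`, `h22_noeth_coord3`, `h22_noeth_coord3_inv`.
-/

set_option autoImplicit false
set_option linter.unusedSectionVars false
set_option linter.unusedVariables false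
set_option linter.style.haveILetI false
set_option synthInstance.maxHeartbeats 400000
set_option maxHeartbeats 1000000

open ModularCurve Polynomial

noncomputable section

namespace Fermat.Agent.S34x.Comp.H22

open Fermat.Agent.S18x.Spec.H26 Fermat.Agent.S18x.Qepo Fermat.Agent.S18x.IG.H29
  Fermat.Agent.S18x.Dict.H20
  Fermat.Agent.S34x.Val.H6

variable {K : Type} [Field K] [CharZero K] (O : ValuationSubring K) [IsDiscreteValuationRing O]
  (N : ℕ) [NeZero N] [Algebra O (FM K N)] [IsScalarTower O K (FM K N)]

section CoordM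

variable (x₀ : LaurentSeries ℤ) (hord : x₀.order = -1) (hlead : x₀.coeff (-1) = 1)
  (hmemN : coeffMap (Int.castRingHom K) x₀ ∈ modularFunctionFieldFullC K N)

include hord hlead in
/-- Transcendence and finiteness for the coordinate of level `N` and for its inverse. -/
theorem h22_coordN_inputs :
    (Transcendental O (coordM K N x₀ hmemN) ∧ H26FinOver O (coordM K N x₀ hmemN)) ∧
      (Transcendental O (coordM K N x₀ hmemN)⁻¹ ∧ H26FinOver O (coordM K N x₀ hmemN)⁻¹) := by
  obtain ⟨h1, hx, hfin, -, -⟩ := coord_inputs O N x₀ hmemN hord hlead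
  exact ⟨⟨hx, hfin⟩, h26_transcendental_inv O h1 hx, h26_finOver_inv O h1 hfin⟩

include hord hlead in
/-- The chart of the coordinate of level `N` is a noetherian ring. -/
theorem h22_noeth_coordM :
    IsNoetherianRing (chart O (coordM K N x₀ hmemN)).toSubring := by
  obtain ⟨⟨hx, hfin⟩, -⟩ := h22_coordN_inputs O N x₀ hord hlead hmemN
  exact h26_isNoetherianRing_chart O hx hfin

include hord hlead in
/-- The chart of the inverse coordinate of level `N` is a noetherian ring. -/
theorem h22_noeth_coordM_inv :
    IsNoetherianRing (chart O (coordM K N x₀ hmemN)⁻¹).toSubring := by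
  obtain ⟨-, hx, hfin⟩ := h22_coordN_inputs O N x₀ hord hlead hmemN
  exact h26_isNoetherianRing_chart O hx hfin

end CoordM

section Haupt

open Fermat.Agent.S18x.IG.H28 in
/-- The chart of the Hauptmodul of level `2` (at level `N`, `2 ∣ N`) is noetherian. -/
theorem h22_noeth_coord2 (hN2 : 2 ∣ N) :
    IsNoetherianRing (chart O (coord2 K N hN2)).toSubring :=
  h22_noeth_coordM O N Fermat.Agent.S18x.IG.H28.h2 order_h2 coeff_h2_neg_one
    (h2_mem_full K N hN2)

open Fermat.Agent.S18x.IG.H28 in
/-- The chart of the inverse of the Hauptmodul of level `2` is noetherian. -/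
theorem h22_noeth_coord2_inv (hN2 : 2 ∣ N) :
    IsNoetherianRing (chart O (coord2 K N hN2)⁻¹).toSubring :=
  h22_noeth_coordM_inv O N Fermat.Agent.S18x.IG.H28.h2 order_h2 coeff_h2_neg_one
    (h2_mem_full K N hN2)

open Fermat.Agent.S18x.IG.H28 in
/-- The chart of the Hauptmodul of level `3` (at level `N`, `3 ∣ N`) is noetherian. -/
theorem h22_noeth_coord3 (hN3 : 3 ∣ N) :
    IsNoetherianRing (chart O (coord3 K N hN3)).toSubring :=
  h22_noeth_coordM O N Fermat.Agent.S18x.IG.H28.h3 order_h3 coeff_h3_neg_one
    (h3_mem_full K N hN3)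

open Fermat.Agent.S18x.IG.H28 in
/-- The chart of the inverse of the Hauptmodul of level `3` is noetherian. -/
theorem h22_noeth_coord3_inv (hN3 : 3 ∣ N) :
    IsNoetherianRing (chart O (coord3 K N hN3)⁻¹).toSubring :=
  h22_noeth_coordM_inv O N Fermat.Agent.S18x.IG.H28.h3 order_h3 coeff_h3_neg_one
    (h3_mem_full K N hN3)

end Haupt

end Fermat.Agent.S34x.Comp.H22
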