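import Mathlib

/-!
# W10 (S34), stage (C) COMP: the field lemma (PINS) (helper4)

`E` a field of characteristic `q`, `k ≤ E` a perfect subfield, `u ∈ E` not a `q`-th power in `E`,
`E` finite over `k(u)`.  Then `E = E^q(u)`: every `a ∈ E` is `∑_{i<q} c_i ^ q * u ^ i`.

Proof: degree count `[E : E^q] [E^q : k(u^q)] = [E : k(u)] [k(u) : k(u^q)]` with
`[E^q : k(u^q)] = [E : k(u)]` (Frobenius) and `[k(u) : k(u^q)] ≤ q`, so `[E : E^q] ≤ q`;
`X^q - u^q` is irreducible over `E^q`, so `[E^q(u) : E^q] = q` and `E^q(u) = E`.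

Application (contact order one at a crossing point): `E := κ_M`, the residue field of the Gauss
valuation of level `M`, `u := j̄`; then `ᾱ(κ_M) = κ_0 ^ q`.

Mathlib only.
-/

set_option autoImplicit false

open Module Polynomial

namespace Fermat.Agent.S34x.Comp.H4

variable {E : Type*} [Field E]

/-- The relative degree of a simple extension of a subfield. -/
theorem h4_relfinrank_simple (A : Subfield E) (x : E) (hx : IsIntegral A x) :
    A.relfinrank (IntermediateField.adjoin A {x}).toSubfield = (minpoly A x).natDegree := by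
  have h : A ≤ (IntermediateField.adjoin A {x}).toSubfield := by
    intro a ha
    exact (IntermediateField.adjoin A {x}).algebraMap_mem ⟨a, ha⟩
  rw [Subfield.relfinrank_eq_finrank_of_le h]
  have e : Subfield.extendScalars h = IntermediateField.adjoin A {x} :=
    IntermediateField.toSubfield_injective (Subfield.extendScalars_toSubfield h)
  rw [e]
  exact IntermediateField.adjoin.finrank hx

theorem h4_le_adjoin (A : Subfield E) (x : E) :
    A ≤ (IntermediateField.adjoin A {x}).toSubfield := by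
  intro a ha
  exact (IntermediateField.adjoin A {x}).algebraMap_mem ⟨a, ha⟩

/-- `x` is a root of `X ^ q - C (x ^ q)` over any subfield containing `x ^ q`. -/
theorem h4_aeval_pow_sub (A : Subfield E) (q : ℕ) (x : E) (hx : x ^ q ∈ A) :
    aeval x (X ^ q - C (⟨x ^ q, hx⟩ : A) : A[X]) = 0 := by
  rw [map_sub, map_pow, aeval_X, aeval_C]
  exact sub_self _

/-- **(PINS)**, module form of the finiteness hypothesis. -/
theorem h4_pins_finite (q : ℕ) [hq : Fact q.Prime] [CharP E q] (k : Subfield E)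
    (hk : ∀ c ∈ k, ∃ c' ∈ k, c' ^ q = c) (u : E) (hu : ∀ b : E, b ^ q ≠ u)
    (hfin : Module.Finite (Subfield.closure ((k : Set E) ∪ {u})) E) (a : E) :
    ∃ c : Fin q → E, a = ∑ i, c i ^ q * u ^ (i : ℕ) := by
  classical
  have hq0 : q ≠ 0 := hq.out.ne_zero
  set φ : E →+* E := frobenius E q with hφ
  have hφd : ∀ x : E, φ x = x ^ q := fun x => frobenius_def q x
  have hφinj : Function.Injective φ := frobenius_inj E q
  set K : Subfield E := Subfield.closure ((k : Set E) ∪ {u}) with hK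
  have huK : u ∈ K := Subfield.subset_closure (Or.inr rfl)
  have hkK : ∀ c ∈ k, c ∈ K := fun c hc => Subfield.subset_closure (Or.inl hc)
  set K₁ : Subfield E := K.map φ with hK₁
  set Eq : Subfield E := (⊤ : Subfield E).map φ with hEq
  have h1 : K₁.relfinrank Eq = K.relfinrank ⊤ := Subfield.relfinrank_map_map K ⊤ φ
  have hK₁K : K₁ ≤ K := by
    rintro _ ⟨x, hx, rfl⟩
    rw [hφd]
    exact pow_mem hx q
  have hK₁Eq : K₁ ≤ Eq := by
    rintro _ ⟨x, -, rfl⟩
    exact ⟨x, Subfield.mem_top x, rfl⟩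
  -- `[K : K₁] ≤ q`
  have huq : u ^ q ∈ K₁ := ⟨u, huK, hφd u⟩
  have hroot₁ := h4_aeval_pow_sub K₁ q u huq
  have hmonic₁ : (X ^ q - C (⟨u ^ q, huq⟩ : K₁) : K₁[X]).Monic := monic_X_pow_sub_C _ hq0
  have hint₁ : IsIntegral K₁ u := ⟨_, hmonic₁, by rw [← aeval_def]; exact hroot₁⟩
  have hdeg₁ : (minpoly K₁ u).natDegree ≤ q := by
    have := natDegree_le_of_dvd (minpoly.dvd K₁ u hroot₁) hmonic₁.ne_zero
    rwa [natDegree_X_pow_sub_C] at this
  have hKL : K ≤ (IntermediateField.adjoin K₁ {u}).toSubfield := by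
    rw [hK, Subfield.closure_le]
    rintro x (hx | hx)
    · obtain ⟨c', hc', rfl⟩ := hk x hx
      exact h4_le_adjoin K₁ u ⟨c', hkK c' hc', hφd c'⟩
    · rw [Set.mem_singleton_iff] at hx
      rw [hx]
      exact IntermediateField.mem_adjoin_simple_self K₁ u
  have ht := Subfield.relfinrank_mul_relfinrank hK₁K hKL
  rw [h4_relfinrank_simple K₁ u hint₁] at ht
  have hpos₁ : 0 < (minpoly K₁ u).natDegree := minpoly.natDegree_pos hint₁
  have hr₁q : K₁.relfinrank K ≤ q :=
    (Nat.le_of_dvd hpos₁ (Dvd.intro _ ht)).trans hdeg₁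
  -- `d := [E : K] > 0`
  have hd : 0 < K.relfinrank ⊤ := by
    rw [Subfield.relfinrank_top_right]
    exact Module.finrank_pos
  -- `[E : E^q] ≤ q`, `≠ 0`
  have t1 := Subfield.relfinrank_mul_relfinrank hK₁K (le_top : K ≤ ⊤)
  have t2 := Subfield.relfinrank_mul_relfinrank hK₁Eq (le_top : Eq ≤ ⊤)
  have hr : Eq.relfinrank ⊤ = K₁.relfinrank K := by
    have e : K.relfinrank ⊤ * Eq.relfinrank ⊤ = K.relfinrank ⊤ * K₁.relfinrank K := by
      rw [← h1, t2, ← t1, h1]
      exact mul_comm _ _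
    exact Nat.eq_of_mul_eq_mul_left hd e
  have hrq : Eq.relfinrank ⊤ ≤ q := hr ▸ hr₁q
  have hr0 : Eq.relfinrank ⊤ ≠ 0 := by
    rw [hr]
    intro h0
    rw [h0, zero_mul] at ht
    omega
  -- `[E^q(u) : E^q] = q`
  have huq' : u ^ q ∈ Eq := ⟨u, Subfield.mem_top u, hφd u⟩
  have hroot := h4_aeval_pow_sub Eq q u huq'
  have hmonic : (X ^ q - C (⟨u ^ q, huq'⟩ : Eq) : Eq[X]).Monic := monic_X_pow_sub_C _ hq0
  have hirr : Irreducible (X ^ q - C (⟨u ^ q, huq'⟩ : Eq) : Eq[X]) := by
    refine X_pow_sub_C_irreducible_of_prime hq.out (fun b hb => ?_)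
    have hb' : ((b : E)) ^ q = u ^ q := by
      have := congrArg (fun z : Eq => (z : E)) hb
      simpa using this
    have hbu : (b : E) = u := hφinj (by rw [hφd, hφd, hb'])
    obtain ⟨x, -, hx⟩ := b.2
    exact hu x (by rw [← hφd, hx, hbu])
  have hmin := minpoly.eq_of_irreducible_of_monic hirr hroot hmonic
  have hint : IsIntegral Eq u := ⟨_, hmonic, by rw [← aeval_def]; exact hroot⟩
  have hdeg : (minpoly Eq u).natDegree = q := by
    rw [← hmin, natDegree_X_pow_sub_C]
  have t3 := Subfield.relfinrank_mul_relfinrank (h4_le_adjoin Eq u)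
    (le_top : (IntermediateField.adjoin Eq {u}).toSubfield ≤ ⊤)
  rw [h4_relfinrank_simple Eq u hint, hdeg] at t3
  have hone : (IntermediateField.adjoin Eq {u}).toSubfield.relfinrank ⊤ = 1 := by
    have hle : q * (IntermediateField.adjoin Eq {u}).toSubfield.relfinrank ⊤ ≤ q := t3 ▸ hrq
    have hne : (IntermediateField.adjoin Eq {u}).toSubfield.relfinrank ⊤ ≠ 0 := by
      intro h0
      rw [h0, mul_zero] at t3
      exact hr0 t3.symm
    have hqpos : 0 < q := Nat.pos_of_ne_zero hq0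
    have := Nat.le_of_mul_le_mul_left (by simpa using hle :
      q * (IntermediateField.adjoin Eq {u}).toSubfield.relfinrank ⊤ ≤ q * 1) hqpos
    omega
  have htop : a ∈ (IntermediateField.adjoin Eq {u}).toSubfield :=
    (Subfield.relfinrank_eq_one_iff.1 hone) (Subfield.mem_top a)
  -- power basis
  have ha : a ∈ (IntermediateField.adjoin Eq {u}).toSubalgebra := htop
  rw [IntermediateField.adjoin_simple_toSubalgebra_of_isAlgebraic hint.isAlgebraic,
    Algebra.adjoin_singleton_eq_range_aeval] at ha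
  obtain ⟨P, hP⟩ := ha
  have hP' : aeval u P = a := hP
  set m : Eq[X] := X ^ q - C (⟨u ^ q, huq'⟩ : Eq) with hm
  have hmod : aeval u P = aeval u (P %ₘ m) := by
    conv_lhs => rw [← modByMonic_add_div P m]
    rw [map_add, map_mul, hroot, zero_mul, add_zero]
  have hm1 : m ≠ 1 := by
    intro h
    have := congrArg natDegree h
    rw [hm, natDegree_X_pow_sub_C, natDegree_one] at this
    exact hq0 this
  have hdegP : (P %ₘ m).natDegree < q := by
    have := natDegree_modByMonic_lt P hmonic hm1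
    rwa [hm, natDegree_X_pow_sub_C] at this
  have hc : ∀ i : ℕ, ∃ x : E, x ^ q = (((P %ₘ m).coeff i : Eq) : E) := by
    intro i
    obtain ⟨x, -, hx⟩ := ((P %ₘ m).coeff i).2
    exact ⟨x, by rw [← hφd, hx]⟩
  choose c hc using hc
  refine ⟨fun i => c i, ?_⟩
  rw [← hP', hmod, aeval_eq_sum_range' hdegP u, Finset.sum_range]
  refine Finset.sum_congr rfl (fun i _ => ?_)
  rw [hc, Algebra.smul_def]
  rfl

/-- **(PINS)**, element form of the finiteness hypothesis: `E` is spanned over `k(u)` by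
finitely many elements. -/
theorem h4_pins (q : ℕ) [Fact q.Prime] [CharP E q] (k : Subfield E)
    (hk : ∀ c ∈ k, ∃ c' ∈ k, c' ^ q = c) (u : E) (hu : ∀ b : E, b ^ q ≠ u)
    (hfin : ∃ (n : ℕ) (e : Fin n → E), ∀ a : E, ∃ c : Fin n → E,
      (∀ i, c i ∈ Subfield.closure ((k : Set E) ∪ {u})) ∧ a = ∑ i, c i * e i)
    (a : E) : ∃ c : Fin q → E, a = ∑ i, c i ^ q * u ^ (i : ℕ) := by
  classical
  obtain ⟨n, e, he⟩ := hfin
  have hfin' : Module.Finite (Subfield.closure ((k : Set E) ∪ {u})) E := by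
    refine ⟨⟨Finset.univ.image e, ?_⟩⟩
    rw [eq_top_iff]
    rintro a -
    obtain ⟨c, hc, rfl⟩ := he a
    refine Submodule.sum_mem _ (fun i _ => ?_)
    have : c i * e i = (⟨c i, hc i⟩ : Subfield.closure ((k : Set E) ∪ {u})) • e i := rfl
    rw [this]
    refine Submodule.smul_mem _ _ (Submodule.subset_span ?_)
    rw [Finset.coe_image]
    exact ⟨i, Finset.mem_coe.2 (Finset.mem_univ i), rfl⟩
  exact h4_pins_finite q k hk u hu hfin' a

/-- **(PINS)**, algebra form: `k₀` a perfect field, `E` a `k₀`-algebra of characteristic `q`,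
finite over `k₀(u)`, `u` not a `q`-th power in `E`. -/
theorem h4_pins_alg {k₀ : Type*} [Field k₀] [Algebra k₀ E] (q : ℕ) [Fact q.Prime] [CharP E q]
    (hk : ∀ c : k₀, ∃ c' : k₀, c' ^ q = c) (u : E) (hu : ∀ b : E, b ^ q ≠ u)
    [hfin : FiniteDimensional (IntermediateField.adjoin k₀ {u}) E] (a : E) :
    ∃ c : Fin q → E, a = ∑ i, c i ^ q * u ^ (i : ℕ) := by
  classical
  refine h4_pins q (algebraMap k₀ E).fieldRange ?_ u hu ?_ a
  · rintro _ ⟨c, rfl⟩
    obtain ⟨c', hc'⟩ := hk c
    exact ⟨algebraMap k₀ E c', ⟨c', rfl⟩, by rw [← map_pow, hc']⟩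
  · have hcl : (IntermediateField.adjoin k₀ {u}).toSubfield
        = Subfield.closure (((algebraMap k₀ E).fieldRange : Set E) ∪ {u}) := by
      rw [IntermediateField.adjoin_toSubfield]
      rfl
    let b := Module.finBasis (IntermediateField.adjoin k₀ {u}) E
    refine ⟨_, fun i => b i, fun a => ⟨fun i => ((b.repr a i : IntermediateField.adjoin k₀ {u}) : E),
      fun i => ?_, ?_⟩⟩
    · rw [← hcl]
      exact (b.repr a i).2
    · conv_lhs => rw [← b.sum_repr a]
      rfl

end Fermat.Agent.S34x.Comp.H4
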