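import Mathlib

/-!
# W10 (S34), stage (C) COMP, abstract leaf CONTACT (helper8)

The contact input of the Goursat lemma (`h8_goursat_contact`, `h8_goursat_contact_symm`) from
"`t` is a `k`-th power on the other branch", `k ≥ 2`:

* `h8_contact_dvr` : in a noetherian local domain `D` with principal maximal ideal `(ϖ)`, an element
  `τ` of the maximal ideal with `τ β₂ ^ k = β₁ ^ k`, `β₂ ≠ 0`, `k ≥ 2`, is divisible by `ϖ ^ 2`
  (its order is divisible by `k`);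
* `h8_contact_local` : chart / element form: `B` noetherian, `𝔮 ≤ 𝔫` primes, `s` a local parameter
  of `𝔫` modulo `𝔮`, `t ∈ 𝔫` with `t b₂ ^ k - b₁ ^ k ∈ 𝔮`, `b₂ ∉ 𝔮`, `k ≥ 2`.  Then
  `c t ∈ 𝔫 ^ 2 + 𝔮` for some `c ∉ 𝔫`.

Mathlib only.
-/

set_option autoImplicit false

namespace Fermat.Agent.S34x.Comp.H8

open IsLocalRing

/-- In a noetherian local domain with principal maximal ideal `(ϖ)`: if `τ` is a non-unit and
`τ β₂ ^ k = β₁ ^ k` with `β₂ ≠ 0`, `k ≥ 2`, then `ϖ ^ 2 ∣ τ`. -/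
theorem h8_contact_dvr {D : Type*} [CommRing D] [IsDomain D] [IsNoetherianRing D] [IsLocalRing D]
    (ϖ : D) (hϖ : maximalIdeal D = Ideal.span {ϖ})
    (τ β₁ β₂ : D) (hτ : τ ∈ maximalIdeal D) (hβ₂ : β₂ ≠ 0)
    (k : ℕ) (hk : 2 ≤ k) (hrel : τ * β₂ ^ k = β₁ ^ k) : ϖ ^ 2 ∣ τ := by
  classical
  by_cases hτ0 : τ = 0
  · rw [hτ0]; exact dvd_zero _
  have hϖ0 : ϖ ≠ 0 := by
    rintro rfl
    rw [hϖ] at hτ
    simp at hτ
    exact hτ0 hτ
  have hnf : ¬ IsField D := by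
    intro hf
    have := IsLocalRing.isField_iff_maximalIdeal_eq.mp hf
    rw [hϖ] at this
    exact hϖ0 (Ideal.span_singleton_eq_bot.mp this)
  have hprin : (maximalIdeal D).IsPrincipal := ⟨⟨ϖ, hϖ⟩⟩
  have hdvr : IsDiscreteValuationRing D := ((IsDiscreteValuationRing.TFAE D hnf).out 0 4).mpr hprin
  have hirr : Irreducible ϖ := (IsDiscreteValuationRing.irreducible_iff_uniformizer ϖ).mpr hϖ
  have hβ₁ : β₁ ≠ 0 := by
    rintro rfl
    rw [zero_pow (by omega : k ≠ 0)] at hrel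
    rcases mul_eq_zero.mp hrel with h | h
    · exact hτ0 h
    · exact hβ₂ (pow_eq_zero_iff (by omega : k ≠ 0) |>.mp h)
  have hv := congrArg (IsDiscreteValuationRing.addVal D) hrel
  rw [IsDiscreteValuationRing.addVal_mul, IsDiscreteValuationRing.addVal_pow,
    IsDiscreteValuationRing.addVal_pow] at hv
  obtain ⟨e, he⟩ := ENat.ne_top_iff_exists.mp
    (fun h => hβ₂ (IsDiscreteValuationRing.addVal_eq_top_iff.mp h))
  obtain ⟨f, hf⟩ := ENat.ne_top_iff_exists.mp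
    (fun h => hβ₁ (IsDiscreteValuationRing.addVal_eq_top_iff.mp h))
  obtain ⟨a, ha⟩ := ENat.ne_top_iff_exists.mp
    (fun h => hτ0 (IsDiscreteValuationRing.addVal_eq_top_iff.mp h))
  rw [← he, ← hf, ← ha] at hv
  have hv' : a + k * e = k * f := by
    have : ((a + k * e : ℕ) : ℕ∞) = ((k * f : ℕ) : ℕ∞) := by
      push_cast
      simpa [nsmul_eq_mul] using hv
    exact_mod_cast this
  have hka : k ∣ a := by
    have h1 : k ∣ a + k * e := hv' ▸ Dvd.intro _ rfl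
    exact (Nat.dvd_add_left (Dvd.intro _ rfl)).mp h1
  have ha1 : 1 ≤ a := by
    have h1 : ϖ ∣ τ := by
      rw [hϖ] at hτ
      exact Ideal.mem_span_singleton.mp hτ
    have h2 := IsDiscreteValuationRing.addVal_le_iff_dvd.mpr h1
    rw [IsDiscreteValuationRing.addVal_uniformizer hirr, ← ha] at h2
    exact_mod_cast h2
  have ha2 : 2 ≤ a := by
    have := Nat.le_of_dvd (by omega) hka
    omega
  apply IsDiscreteValuationRing.addVal_le_iff_dvd.mp
  rw [IsDiscreteValuationRing.addVal_pow, IsDiscreteValuationRing.addVal_uniformizer hirr, ← ha]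
  simp only [nsmul_eq_mul, mul_one]
  exact_mod_cast ha2

/-- **Local contact, chart / element form.** -/
theorem h8_contact_local {B : Type*} [CommRing B] [IsNoetherianRing B]
    (𝔫 : Ideal B) [𝔫.IsPrime] (𝔮 : Ideal B) [𝔮.IsPrime] (hqn : 𝔮 ≤ 𝔫)
    (s : B) (hs𝔫 : s ∈ 𝔫) (hs : ∀ z ∈ 𝔫, ∃ s' ∉ 𝔫, ∃ w : B, s' * z - s * w ∈ 𝔮)
    (t : B) (ht𝔫 : t ∈ 𝔫) (b₁ b₂ : B) (hb₂ : b₂ ∉ 𝔮)
    (k : ℕ) (hk : 2 ≤ k) (hrel : t * b₂ ^ k - b₁ ^ k ∈ 𝔮) :
    ∃ c ∉ 𝔫, c * t ∈ 𝔫 ^ 2 ⊔ 𝔮 := by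
  classical
  let D := B ⧸ 𝔮
  let φ : B →+* D := Ideal.Quotient.mk 𝔮
  have hφs : Function.Surjective φ := Ideal.Quotient.mk_surjective
  have hker : RingHom.ker φ ≤ 𝔫 := by
    rw [Ideal.mk_ker]; exact hqn
  let 𝔫' : Ideal D := Ideal.map φ 𝔫
  have h𝔫' : 𝔫'.IsPrime := Ideal.map_isPrime_of_surjective hφs hker
  have hmem : ∀ b : B, φ b ∈ 𝔫' ↔ b ∈ 𝔫 := by
    intro b
    constructor
    · intro hb
      have : b ∈ Ideal.comap φ (Ideal.map φ 𝔫) := hb
      rw [Ideal.comap_map_of_surjective φ hφs] at this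
      obtain ⟨x, hx, y, hy, rfl⟩ := Submodule.mem_sup.mp this
      refine Ideal.add_mem _ hx (hker ?_)
      exact hy
    · exact fun hb => Ideal.mem_map_of_mem φ hb
  let D' := Localization.AtPrime 𝔫'
  have hle : 𝔫'.primeCompl ≤ nonZeroDivisors D := by
    intro x hx
    exact mem_nonZeroDivisors_of_ne_zero (fun h => hx (h ▸ 𝔫'.zero_mem))
  have : IsDomain D' := IsLocalization.isDomain_localization hle
  have : IsNoetherianRing D' := IsLocalization.isNoetherianRing 𝔫'.primeCompl D' inferInstance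
  have hinj : Function.Injective (algebraMap D D') := IsLocalization.injective D' hle
  let ι : B →+* D' := (algebraMap D D').comp φ
  have hunit : ∀ c : B, c ∉ 𝔫 → IsUnit (ι c) := fun c hc =>
    (IsLocalization.AtPrime.isUnit_to_map_iff D' 𝔫' (φ c)).mpr (fun h => hc ((hmem c).mp h))
  have hιq : ∀ b : B, b ∈ 𝔮 → ι b = 0 := by
    intro b hb
    have : φ b = 0 := Ideal.Quotient.eq_zero_iff_mem.mpr hb
    simp only [ι, RingHom.comp_apply, this, map_zero]
  -- the maximal ideal of `D'` is generated by the image of `s`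
  have hmax : maximalIdeal D' = Ideal.span {ι s} := by
    refine le_antisymm ?_ ?_
    · intro r hr
      obtain ⟨d, s0, rfl⟩ := IsLocalization.exists_mk'_eq 𝔫'.primeCompl r
      have hd : d ∈ 𝔫' := (IsLocalization.AtPrime.mk'_mem_maximal_iff D' 𝔫' d s0).mp hr
      obtain ⟨b, rfl⟩ := hφs d
      have hb : b ∈ 𝔫 := (hmem b).mp hd
      obtain ⟨s', hs', w, hw⟩ := hs b hb
      rw [← Ideal.unit_mul_mem_iff_mem _ (IsLocalization.map_units D' s0),
        IsLocalization.mk'_spec', ← Ideal.unit_mul_mem_iff_mem _ (hunit s' hs')]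
      have h1 : ι s' * algebraMap D D' (φ b) = ι s * ι w := by
        have h2 := hιq _ hw
        simp only [map_sub, map_mul] at h2
        have h3 : ι s' * ι b = ι s * ι w := sub_eq_zero.mp h2
        exact h3
      rw [h1]
      exact Ideal.mul_mem_right _ _ (Ideal.mem_span_singleton_self _)
    · rw [Ideal.span_singleton_le_iff_mem]
      exact (IsLocalization.AtPrime.to_map_mem_maximal_iff D' 𝔫' (φ s)).mpr
        ((hmem s).mpr hs𝔫)
  have hτ : ι t ∈ maximalIdeal D' :=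
    (IsLocalization.AtPrime.to_map_mem_maximal_iff D' 𝔫' (φ t)).mpr ((hmem t).mpr ht𝔫)
  have hβ₂ : ι b₂ ≠ 0 := by
    intro h
    have h1 : φ b₂ = 0 := hinj (by simpa [ι] using h)
    exact hb₂ (Ideal.Quotient.eq_zero_iff_mem.mp h1)
  have hrel' : ι t * ι b₂ ^ k = ι b₁ ^ k := by
    have h2 := hιq _ hrel
    simp only [map_sub, map_mul, map_pow] at h2
    exact sub_eq_zero.mp h2
  obtain ⟨r, hr⟩ := h8_contact_dvr (ι s) hmax (ι t) (ι b₁) (ι b₂) hτ hβ₂ k hk hrel'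
  -- pull back `ι t = ι s ^ 2 * r`
  obtain ⟨d, s0, rfl⟩ := IsLocalization.exists_mk'_eq 𝔫'.primeCompl r
  obtain ⟨b, rfl⟩ := hφs d
  obtain ⟨c, hc⟩ := hφs (s0 : D)
  have hc𝔫 : c ∉ 𝔫 := fun h => s0.2 (hc ▸ (hmem c).mpr h)
  refine ⟨c, hc𝔫, ?_⟩
  have h1 : ι (c * t - s ^ 2 * b) = 0 := by
    have h2 : ι c = algebraMap D D' (s0 : D) := by simp only [ι, RingHom.comp_apply, hc]
    have h3 : ι b = algebraMap D D' (φ b) := rfl
    rw [map_sub, map_mul, map_mul, map_pow, hr, h2, h3]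
    have h4 := IsLocalization.mk'_spec' D' (φ b) s0
    linear_combination ((ι s) ^ 2) * h4
  have h2 : c * t - s ^ 2 * b ∈ 𝔮 := by
    have h3 : φ (c * t - s ^ 2 * b) = 0 := hinj (by simpa [ι] using h1)
    exact Ideal.Quotient.eq_zero_iff_mem.mp h3
  have h3 : c * t = s ^ 2 * b + (c * t - s ^ 2 * b) := by ring
  rw [h3]
  exact Ideal.add_mem _
    (Ideal.mem_sup_left (Ideal.mul_mem_right _ _ (Ideal.pow_mem_pow hs𝔫 2)))
    (Ideal.mem_sup_right h2)

end Fermat.Agent.S34x.Comp.H8
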