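import Mathlib
import Fermat.Agent.S34x.Comp.H8_Contact

/-!
# W10 (S34), stage (C) COMP, leaf CONTACT (helper8): steps (b), (c), (d) of the contact input

Abstract form of `hcontact` at a crossing point `𝔫` of the chart `B` (level `M q`), for the ONE
local parameter `t = α(t_M)` of the branch `p_oo`:

* (b) `h8_pins_lift` : a `q`-basis statement in the residue field of a local ring `W` (`= V_M`)
  lifts to `W` modulo the maximal ideal;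
* (c) `h8_kron_pow` : in a ring `V` with an ideal `m0 ∋ q`, `jq ^ q ≡ j` and
  `a ≡ ∑ c_i ^ q j ^ i` imply `a ≡ (∑ c_i jq ^ i) ^ q` modulo `m0` (Frobenius is additive);
* (d) `h8_rel_of_res` + `h8_contact_local` : `t ≡ v ^ q` modulo `m0`, `v = b₁ / b₂` in the residue
  field of the branch, gives `c t ∈ 𝔫 ^ 2 + 𝔮`;
* `h8_hcontact` : the three steps together, conclusion in the spelling of `h4_contact_of_unif`
  (`∃ s, s ∉ 𝔫 ∧ s * t ∈ 𝔮 ⊔ 𝔫 ^ 2`).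

Mathlib only.
-/

set_option autoImplicit false

namespace Fermat.Agent.S34x.Comp.H8

open IsLocalRing

/-- (b): lifting a `q`-basis expansion from the residue field. -/
theorem h8_pins_lift {W : Type*} [CommRing W] [IsLocalRing W] (q : ℕ) (u : W)
    (hE : ∀ a : ResidueField W, ∃ c : Fin q → ResidueField W,
      a = ∑ i, c i ^ q * (residue W u) ^ (i : ℕ))
    (a : W) : ∃ c : Fin q → W, a - ∑ i, c i ^ q * u ^ (i : ℕ) ∈ maximalIdeal W := by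
  obtain ⟨c, hc⟩ := hE (residue W a)
  choose c' hc' using fun i => residue_surjective (R := W) (c i)
  refine ⟨c', ?_⟩
  rw [← IsLocalRing.residue_eq_zero_iff, map_sub, map_sum, sub_eq_zero, hc]
  refine Finset.sum_congr rfl (fun i _ => ?_)
  rw [map_mul, map_pow, map_pow, hc']

/-- (c): Frobenius is additive modulo an ideal containing the prime `q`. -/
theorem h8_kron_pow {V : Type*} [CommRing V] (m0 : Ideal V) (q : ℕ) [hq' : Fact q.Prime]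
    (hq : (q : V) ∈ m0) (j jq : V) (hkron : jq ^ q - j ∈ m0)
    (a : V) (c : Fin q → V) (hpins : a - ∑ i, c i ^ q * j ^ (i : ℕ) ∈ m0) :
    a - (∑ i, c i * jq ^ (i : ℕ)) ^ q ∈ m0 := by
  by_cases htop : m0 = ⊤
  · rw [htop]; exact Submodule.mem_top
  have : Nontrivial (V ⧸ m0) := Ideal.Quotient.nontrivial_iff.mpr htop
  have hq0 : ((q : ℕ) : V ⧸ m0) = 0 := by
    have := Ideal.Quotient.eq_zero_iff_mem.mpr hq
    simpa using this
  have hchar : CharP (V ⧸ m0) q :=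
    ringChar.of_eq (CharP.ringChar_of_prime_eq_zero hq'.out hq0)
  rw [← Ideal.Quotient.eq_zero_iff_mem] at hkron hpins ⊢
  rw [map_sub, sub_eq_zero] at hkron hpins ⊢
  rw [hpins, map_pow, map_sum, map_sum, sum_pow_char]
  refine Finset.sum_congr rfl (fun i _ => ?_)
  rw [map_mul, map_mul, map_pow, map_pow, map_pow, mul_pow, ← pow_mul, mul_comm (i : ℕ) q,
    pow_mul, ← map_pow _ jq, hkron]

/-- (d), first half: `t ≡ v ^ k` modulo `m0` and `v = b₁ / b₂` in the residue ring give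
`t b₂ ^ k - b₁ ^ k ∈ 𝔮 = φ⁻¹(m0)`. -/
theorem h8_rel_of_res {B V : Type*} [CommRing B] [CommRing V] (φ : B →+* V) (m0 : Ideal V)
    (k : ℕ) (t : B) (v : V) (htv : φ t - v ^ k ∈ m0)
    (b₁ b₂ : B) (hb : φ b₂ * v - φ b₁ ∈ m0) :
    t * b₂ ^ k - b₁ ^ k ∈ m0.comap φ := by
  rw [Ideal.mem_comap, map_sub, map_mul, map_pow, map_pow]
  have h1 : (φ b₂ * v) ^ k - φ b₁ ^ k ∈ m0 := by
    obtain ⟨d, hd⟩ := sub_dvd_pow_sub_pow (φ b₂ * v) (φ b₁) k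
    rw [hd]
    exact Ideal.mul_mem_right _ _ hb
  have h2 : φ t * φ b₂ ^ k - φ b₁ ^ k
      = φ b₂ ^ k * (φ t - v ^ k) + ((φ b₂ * v) ^ k - φ b₁ ^ k) := by ring
  rw [h2]
  exact Ideal.add_mem _ (Ideal.mul_mem_left _ _ htv) h1

/-- **The contact input `hcontact` for one local parameter**, abstract form.
`B` = chart of level `M q`, `φ : B → V` the inclusion into `V = V_M[j_q]` (or into `V_0`),
`m0` the ideal of the branch `p_0`, `𝔮 = φ⁻¹(m0) = p_0`; `s` a local parameter of `𝔫` modulo `𝔮`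
[(C2)]; `hres` : the residue ring of `m0` is generated by fractions of `B` [`V_0 = B_(p_0)`];
`hkron` : `j_q ^ q ≡ j` modulo `m0`; `hpins` : `t ≡ ∑ c_i ^ q j ^ i` modulo `m0`
[(PINS) at level `M` for `t = α(t_M)`].  Then `∃ s ∉ 𝔫, s * t ∈ 𝔮 ⊔ 𝔫 ^ 2`. -/
theorem h8_hcontact {B V : Type*} [CommRing B] [IsNoetherianRing B] [CommRing V]
    (φ : B →+* V) (m0 : Ideal V) (q : ℕ) [Fact q.Prime] (hq : (q : V) ∈ m0)
    (𝔫 : Ideal B) [𝔫.IsPrime] (𝔮 : Ideal B) [𝔮.IsPrime] (h𝔮 : 𝔮 = m0.comap φ) (hqn : 𝔮 ≤ 𝔫)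
    (s : B) (hs𝔫 : s ∈ 𝔫) (hs : ∀ z ∈ 𝔫, ∃ s' ∉ 𝔫, ∃ w : B, s' * z - s * w ∈ 𝔮)
    (hres : ∀ v : V, ∃ b₁ b₂ : B, b₂ ∉ 𝔮 ∧ φ b₂ * v - φ b₁ ∈ m0)
    (j jq : V) (hkron : jq ^ q - j ∈ m0)
    (t : B) (ht𝔫 : t ∈ 𝔫) (c : Fin q → V) (hpins : φ t - ∑ i, c i ^ q * j ^ (i : ℕ) ∈ m0) :
    ∃ s', s' ∉ 𝔫 ∧ s' * t ∈ 𝔮 ⊔ 𝔫 ^ 2 := by
  have h1 := h8_kron_pow m0 q hq j jq hkron (φ t) c hpins
  obtain ⟨b₁, b₂, hb₂, hb⟩ := hres (∑ i, c i * jq ^ (i : ℕ))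
  have h2 : t * b₂ ^ q - b₁ ^ q ∈ 𝔮 := by
    rw [h𝔮]
    exact h8_rel_of_res φ m0 q t _ h1 b₁ b₂ hb
  obtain ⟨c', hc', hct⟩ := h8_contact_local 𝔫 𝔮 hqn s hs𝔫 hs t ht𝔫 b₁ b₂ hb₂ q
    (Fact.out : q.Prime).two_le h2
  exact ⟨c', hc', by rwa [sup_comm]⟩

end Fermat.Agent.S34x.Comp.H8
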