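import Mathlib
import Fermat.Agent.S18x.Qepo.H1_Basis
import Fermat.Agent.S34x.Val.H6_Red
import Fermat.Agent.S34x.Comp.H4_Pins
import Fermat.Agent.S34x.Comp.H8_ContactKron

/-!
# W10 (S34), stage (C) COMP: the instance of (PINS) at the Gauss valuation of level `M` (helper4)

`K` a field of characteristic `0`, `O : ValuationSubring K` a discrete valuation ring with
perfect residue field `κ` of characteristic `q`, `q ∤ M`, `W = gaussValM O M`, `κ_W` its residue
field, `j̄` the residue of `j`.

* `h4_pins_full` : (PINS) for the function field `κ(j_d : d ∣ M) ⊆ κ((Q))`;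
* `h4_pins_inst` : every `a ∈ κ_W` is `∑_{i<q} c_i ^ q * j̄ ^ i`
  (= the hypothesis `hE` of helper8's `h8_pins_lift` for `W := gaussValM O M`, `u := jM O M`);
* `h4_pins_gauss` : every `a ∈ W` is `∑_{i<q} c_i ^ q * j ^ i` modulo the maximal ideal of `W`.
-/

set_option autoImplicit false
set_option linter.unusedSectionVars false
set_option linter.style.haveILetI false

open ModularCurve

noncomputable section

namespace Fermat.Agent.S34x.Comp.H4

open Fermat.Agent.S18x.Dict.H20 Fermat.Agent.S18x.Qepo Fermat.Agent.S28.Asm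
  Fermat.Agent.S34x.Val.H6

/-- (PINS) for the modular function field over a perfect field of characteristic `q ∤ M`. -/
theorem h4_pins_full (κ : Type) [Field κ] (M : ℕ) [NeZero M] (q : ℕ) [Fact q.Prime] [CharP κ q]
    (hqM : ¬ q ∣ M) (hperf : ∀ c : κ, ∃ c' : κ, c' ^ q = c)
    (a : ↥(modularFunctionFieldFullC κ M)) :
    ∃ c : Fin q → ↥(modularFunctionFieldFullC κ M), a = ∑ i, c i ^ q * (jbFull κ M) ^ (i : ℕ) := by
  haveI : CharP ↥(modularFunctionFieldFullC κ M) q :=
    charP_of_injective_algebraMap (algebraMap κ ↥(modularFunctionFieldFullC κ M)).injective q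
  haveI : FiniteDimensional (IntermediateField.adjoin κ {jbFull κ M})
      ↥(modularFunctionFieldFullC κ M) := (degC_kappa κ M q hqM).1
  refine h4_pins_alg (k₀ := κ) q hperf (jbFull κ M) (fun b hb => ?_) a
  have h1 : ((b : LaurentSeries κ)) ^ q = jqModC κ := by
    have := congrArg (fun z : ↥(modularFunctionFieldFullC κ M) => (z : LaurentSeries κ)) hb
    simpa [jbFull] using this
  have h2 := congrArg HahnSeries.order h1
  rw [HahnSeries.order_pow, h6_order_jq, nsmul_eq_mul] at h2
  have hq2 : 2 ≤ q := (Fact.out : q.Prime).two_le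
  have h3 : (q : ℤ) ∣ -1 := Dvd.intro _ h2
  have h4 : (q : ℤ) ∣ 1 := (dvd_neg.mp h3)
  have h5 : (q : ℤ) ≤ 1 := Int.le_of_dvd one_pos h4
  omega

variable {K : Type} [Field K] [CharZero K] (O : ValuationSubring K) [IsDiscreteValuationRing O]
  (π : O) (hπ : Irreducible π) (M : ℕ) [NeZero M] (q : ℕ) [Fact q.Prime]
  [CharP (IsLocalRing.ResidueField O) q]

include hπ in
/-- The image of the residue field of `gaussValM O M` in `κ((Q))` lies in the modular function
field over `κ`. -/
theorem h4_resEmb_mem (hqM : ¬ q ∣ M) (a : IsLocalRing.ResidueField (gaussValM O M)) :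
    h6ResEmb O M a ∈ modularFunctionFieldFullC (IsLocalRing.ResidueField O) M := by
  obtain ⟨x, rfl⟩ := IsLocalRing.residue_surjective a
  rw [h6ResEmb_residue, gaussRedM_apply]
  exact gaussRed_mem_full O π hπ M q hqM _ (x : ↥(modularFunctionFieldFullC K M)).2

/-- Every element of the modular function field over `κ` is in the image of the residue field
of `gaussValM O M`. -/
theorem h4_resEmb_surj (g : LaurentSeries (IsLocalRing.ResidueField O))
    (hg : g ∈ modularFunctionFieldFullC (IsLocalRing.ResidueField O) M) :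
    ∃ a : IsLocalRing.ResidueField (gaussValM O M), h6ResEmb O M a = g := by
  obtain ⟨y, hy, hred⟩ := exists_lift O M g hg
  have hmem : (⟨gIota O y, hy⟩ : ↥(modularFunctionFieldFullC K M)) ∈ gaussValM O M :=
    (mem_gaussValM_iff O M).mpr (coeffMap_subtype_mem_gaussRing O y)
  refine ⟨IsLocalRing.residue (gaussValM O M) ⟨⟨gIota O y, hy⟩, hmem⟩, ?_⟩
  rw [h6ResEmb_residue, gaussRedM_apply, ← hred]
  exact gaussRed_coeffMap_subtype O y

include hπ in
/-- **(PINS-INST)**: the hypothesis `hE` of `h8_pins_lift` for `W := gaussValM O M`,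
`u := jM O M`. -/
theorem h4_pins_inst (hqM : ¬ q ∣ M)
    (hperf : ∀ c : IsLocalRing.ResidueField O, ∃ c' : IsLocalRing.ResidueField O, c' ^ q = c)
    (a : IsLocalRing.ResidueField (gaussValM O M)) :
    ∃ c : Fin q → IsLocalRing.ResidueField (gaussValM O M),
      a = ∑ i, c i ^ q * (IsLocalRing.residue (gaussValM O M) (jM O M)) ^ (i : ℕ) := by
  obtain ⟨c', hc'⟩ := h4_pins_full (IsLocalRing.ResidueField O) M q hqM hperf
    ⟨h6ResEmb O M a, h4_resEmb_mem O π hπ M q hqM a⟩
  have hc'' := congrArg
    (fun z : ↥(modularFunctionFieldFullC (IsLocalRing.ResidueField O) M) =>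
      (z : LaurentSeries (IsLocalRing.ResidueField O))) hc'
  have hlift := fun i => h4_resEmb_surj O M (c' i : LaurentSeries (IsLocalRing.ResidueField O))
    (c' i).2
  choose c hc using hlift
  refine ⟨c, h6ResEmb_injective O M ?_⟩
  have hj : h6ResEmb O M (IsLocalRing.residue (gaussValM O M) (jM O M))
      = jqModC (IsLocalRing.ResidueField O) := h6ResEmb_jbar O M
  rw [map_sum]
  simp only [map_mul, map_pow, hc, hj]
  simpa [jbFull] using hc''

include hπ in
/-- (PINS) in the Gauss valuation ring itself: every `a ∈ W` is `∑_{i<q} c_i ^ q * j ^ i` modulo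
the maximal ideal. -/
theorem h4_pins_gauss (hqM : ¬ q ∣ M)
    (hperf : ∀ c : IsLocalRing.ResidueField O, ∃ c' : IsLocalRing.ResidueField O, c' ^ q = c)
    (a : gaussValM O M) :
    ∃ c : Fin q → gaussValM O M,
      a - ∑ i, c i ^ q * (jM O M) ^ (i : ℕ) ∈ IsLocalRing.maximalIdeal (gaussValM O M) :=
  Fermat.Agent.S34x.Comp.H8.h8_pins_lift q (jM O M) (h4_pins_inst O π hπ M q hqM hperf) a

/-- The perfectness hypothesis in element form, from `PerfectRing`. -/
theorem h4_hperf_of_perfectRing (κ : Type*) [CommSemiring κ] (q : ℕ) [ExpChar κ q]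
    [PerfectRing κ q] (c : κ) : ∃ c' : κ, c' ^ q = c := by
  obtain ⟨c', hc'⟩ := surjective_frobenius κ q c
  exact ⟨c', by rw [← frobenius_def]; exact hc'⟩

include hπ in
/-- `h4_pins_gauss` with the perfectness of the residue field as an instance. -/
theorem h4_pins_gauss_perfect [PerfectRing (IsLocalRing.ResidueField O) q] (hqM : ¬ q ∣ M)
    (a : gaussValM O M) :
    ∃ c : Fin q → gaussValM O M,
      a - ∑ i, c i ^ q * (jM O M) ^ (i : ℕ) ∈ IsLocalRing.maximalIdeal (gaussValM O M) :=
  h4_pins_gauss O π hπ M q hqM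
    (h4_hperf_of_perfectRing (IsLocalRing.ResidueField O) q) a

end Fermat.Agent.S34x.Comp.H4
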