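import Mathlib
import Fermat.Agent.S34x.Val.H6_Inst
import Fermat.Agent.S34x.Comp.H4_PinsInst

/-!
# W10 (S34), stage (C) COMP: the plug `hpins` of `h7_comp_abs` at the instance (helper4)

Setting of helper6's `H6_Inst`: `K` a field of characteristic `0`, `O : ValuationSubring K` a
discrete valuation ring with uniformiser `π` and perfect residue field of characteristic `q`,
`M ∣ N`, `q ∣ N`, `q ∤ M`, `W = gaussValM O M ⊆ F_M`, `V = h6V = W[j_q] ⊆ F_N`,
`α = h6incl : F_M → F_N`, `j = jbFull K M`.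

* `h4_pinsW` : every `a ∈ W` is `∑_{i<q} c_i ^ q * j ^ i + π w` with `c_i, w ∈ W`
  (`h4_pins_gauss` with the maximal ideal of `W` spelled `(π)`);
* `h4_pins_plug` : **the hypothesis `hpins` of helper7's `h7_comp_abs`** at the instance, for any
  component `e` of `V` (`H2Comp V π e`);
* `h4_pins_plug_perfect`, `h4_pins_plug_finite` : the same with the perfectness of the residue
  field of `O` as an instance (`PerfectRing`, resp. `Finite`).
-/

set_option autoImplicit false
set_option linter.unusedSectionVars false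
set_option linter.style.haveILetI false

open ModularCurve

noncomputable section

namespace Fermat.Agent.S34x.Comp.H4

open Fermat.Agent.S18x.Dict.H20 Fermat.Agent.S18x.Qepo Fermat.Agent.S28.Asm
  Fermat.Agent.S34x.Val.H6 Fermat.Agent.S34x.Val.H2

variable {K : Type} [Field K] [CharZero K] (O : ValuationSubring K) [IsDiscreteValuationRing O]
  (M N : ℕ) [NeZero M] [NeZero N] (hMN : M ∣ N) (q : ℕ) [NeZero q] (hq : q.Prime) (hqN : q ∣ N)
  (π : O) (hπ : Irreducible π)

include hπ hq in
/-- (PINS) in `W = gaussValM O M` with the maximal ideal spelled `(π)`: every `a ∈ W` is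
`∑_{i<q} c_i ^ q * j ^ i + π w` with `c_i, w ∈ W`. -/
theorem h4_pinsW (hq0 : (q : IsLocalRing.ResidueField O) = 0) (hqM : ¬ q ∣ M)
    (hperf : ∀ c : IsLocalRing.ResidueField O, ∃ c' : IsLocalRing.ResidueField O, c' ^ q = c)
    (a : FM K M) (ha : a ∈ gaussValM O M) :
    ∃ c : Fin q → FM K M, (∀ i, c i ∈ gaussValM O M) ∧ ∃ w ∈ gaussValM O M,
      a - ∑ i, c i ^ q * (jbFull K M) ^ (i : ℕ) = unifM O M π * w := by
  haveI : Fact q.Prime := ⟨hq⟩
  haveI : CharP (IsLocalRing.ResidueField O) q := (CharP.charP_iff_prime_eq_zero hq).mpr hq0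
  obtain ⟨c, hc⟩ := h4_pins_gauss O π hπ M q hqM hperf ⟨a, ha⟩
  rw [← ker_gaussRedM, RingHom.mem_ker] at hc
  obtain ⟨y, hy⟩ := exists_eq_mul_of_gaussRedM_eq_zero O M π hπ hc
  refine ⟨fun i => (c i : FM K M), fun i => (c i).2, (y : FM K M), y.2, ?_⟩
  rw [← hy]
  push_cast
  rfl

variable [Algebra O (FM K M)] [IsScalarTower O K (FM K M)]
  [Algebra O (FM K N)] [IsScalarTower O K (FM K N)]

include hπ hq in
/-- **The hypothesis `hpins` of `h7_comp_abs` at the instance** (`W := gaussValM O M`,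
`V := h6V`, `α := h6incl`, `j := α (jbFull K M)`), for any component `e` of `V`. -/
theorem h4_pins_plug {e : FM K N}
    (hc : H2Comp (h6V O M N hMN q hqN) (algebraMap O (FM K N) π) e)
    (hq0 : (q : IsLocalRing.ResidueField O) = 0) (hqM : ¬ q ∣ M)
    (hperf : ∀ c : IsLocalRing.ResidueField O, ∃ c' : IsLocalRing.ResidueField O, c' ^ q = c) :
    ∀ a ∈ (gaussValM O M).toSubring, ∃ c : Fin q → FM K N,
      (∀ i, c i ∈ h6V O M N hMN q hqN) ∧
      H2In (h6V O M N hMN q hqN) (algebraMap O (FM K N) π) e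
        (h6incl M N hMN a - ∑ i, c i ^ q * (h6incl M N hMN (jbFull K M)) ^ (i : ℕ)) := by
  intro a ha
  obtain ⟨c, hcW, w, hw, hcw⟩ := h4_pinsW O M q hq π hπ hq0 hqM hperf a ha
  refine ⟨fun i => h6incl M N hMN (c i), fun i => h6V_incl O M N hMN q hqN _ (hcW i), ?_⟩
  have e1 : h6incl M N hMN a
      - ∑ i, (h6incl M N hMN (c i)) ^ q * (h6incl M N hMN (jbFull K M)) ^ (i : ℕ)
      = algebraMap O (FM K N) π * h6incl M N hMN w := by
    rw [← h6incl_unifM O M N hMN π, ← map_mul, ← hcw, map_sub, map_sum]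
    simp only [map_mul, map_pow]
  rw [e1]
  exact hc.in_of_div ⟨h6incl M N hMN w, h6V_incl O M N hMN q hqN w hw, rfl⟩

include hπ hq in
/-- `h4_pins_plug` with the perfectness of the residue field of `O` as an instance. -/
theorem h4_pins_plug_perfect {e : FM K N}
    (hc : H2Comp (h6V O M N hMN q hqN) (algebraMap O (FM K N) π) e)
    (hq0 : (q : IsLocalRing.ResidueField O) = 0) (hqM : ¬ q ∣ M)
    [ExpChar (IsLocalRing.ResidueField O) q] [PerfectRing (IsLocalRing.ResidueField O) q] :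
    ∀ a ∈ (gaussValM O M).toSubring, ∃ c : Fin q → FM K N,
      (∀ i, c i ∈ h6V O M N hMN q hqN) ∧
      H2In (h6V O M N hMN q hqN) (algebraMap O (FM K N) π) e
        (h6incl M N hMN a - ∑ i, c i ^ q * (h6incl M N hMN (jbFull K M)) ^ (i : ℕ)) :=
  h4_pins_plug O M N hMN q hq hqN π hπ hc hq0 hqM
    (h4_hperf_of_perfectRing (IsLocalRing.ResidueField O) q)

include hπ hq in
/-- `h4_pins_plug` for a finite residue field. -/
theorem h4_pins_plug_finite {e : FM K N}
    (hc : H2Comp (h6V O M N hMN q hqN) (algebraMap O (FM K N) π) e)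
    (hq0 : (q : IsLocalRing.ResidueField O) = 0) (hqM : ¬ q ∣ M)
    [Finite (IsLocalRing.ResidueField O)] :
    ∀ a ∈ (gaussValM O M).toSubring, ∃ c : Fin q → FM K N,
      (∀ i, c i ∈ h6V O M N hMN q hqN) ∧
      H2In (h6V O M N hMN q hqN) (algebraMap O (FM K N) π) e
        (h6incl M N hMN a - ∑ i, c i ^ q * (h6incl M N hMN (jbFull K M)) ^ (i : ℕ)) := by
  haveI : CharP (IsLocalRing.ResidueField O) q := (CharP.charP_iff_prime_eq_zero hq).mpr hq0
  haveI : ExpChar (IsLocalRing.ResidueField O) q := ExpChar.prime hq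
  haveI : PerfectRing (IsLocalRing.ResidueField O) q := PerfectRing.ofFiniteOfIsReduced q _
  exact h4_pins_plug_perfect O M N hMN q hq hqN π hπ hc hq0 hqM

/-! ### (I1) and (I2) at the instance -/

include hπ hq in
/-- **`hq` of `h7_comp_abs` at the instance**: `q ∈ 𝔪_e` for every component `e` of `V`
(the residue characteristic of `O` is `q`). -/
theorem h4_q_in {e : FM K N}
    (hc : H2Comp (h6V O M N hMN q hqN) (algebraMap O (FM K N) π) e)
    (hq0 : (q : IsLocalRing.ResidueField O) = 0) :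
    H2In (h6V O M N hMN q hqN) (algebraMap O (FM K N) π) e (q : FM K N) := by
  have h1 : (q : O) ∈ IsLocalRing.maximalIdeal O := by
    rw [← IsLocalRing.residue_eq_zero_iff, map_natCast]
    exact hq0
  rw [hπ.maximalIdeal_eq, Ideal.mem_span_singleton'] at h1
  obtain ⟨u, hu⟩ := h1
  refine hc.in_of_div ⟨algebraMap O (FM K N) u, h6_hOV O M N hMN q hqN u, ?_⟩
  rw [← map_mul, mul_comm, hu, map_natCast]

/-- **`hkron` of `h7_comp_abs` at the instance**: `j_q ^ q - j ∈ 𝔪_{e₂}`, from the description of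
`𝔪_{e₂}` in helper6's `h6_two` (`G₂ = X ^ q - C j̄`). -/
theorem h4_kron_in {e₂ : FM K N}
    (h3 : ∀ P : Polynomial (gaussValM O M),
      H2In (h6V O M N hMN q hqN) (algebraMap O (FM K N) π) e₂ (h6ev O M N hMN q hqN P) ↔
        (Polynomial.X ^ q - Polynomial.C (h6jbar O M)) ∣
          P.map (IsLocalRing.residue (gaussValM O M))) :
    H2In (h6V O M N hMN q hqN) (algebraMap O (FM K N) π) e₂
      (jbdFull K N q hqN ^ q - h6incl M N hMN (jbFull K M)) := by
  have h := (h3 (Polynomial.X ^ q - Polynomial.C (jM O M))).mpr (by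
    rw [Polynomial.map_sub, Polynomial.map_pow, Polynomial.map_X, Polynomial.map_C]
    exact dvd_refl _)
  rw [map_sub, map_pow, h6ev_X, h6ev_C] at h
  exact h

end Fermat.Agent.S34x.Comp.H4
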