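import Mathlib
import Fermat.Agent.S18x.IG.Defs
import Fermat.Agent.S34x.Comp.H7_Branch

/-!
# W10 (S34), stage (C) COMP: the (SM) adapter (helper17)

`h7_branch_unif` (helper7) needs, at a closed point `𝔫` of the chart `B` of level `M q`, the
property (SM) of the chart `BM` of level `M` at the point `φ⁻¹ 𝔫`, in element form, where
`φ : F₀ → F` is a degeneracy map.  The frozen input of level `M` is `IG.HSMChart O x₀ π₀`:
(SM) at every **maximal** ideal of the chart `BM` containing the uniformiser.  So one has to know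
that `φ⁻¹ 𝔫` is maximal.

* `h17_comap_isMaximal` : `φ : A → B`, `𝔫` maximal in `B`, `B ⧸ 𝔫` integral over `A`
  ⟹ `𝔫.comap φ` is maximal;
* `h17_sm_adapter` (+ variants `_of_isIntegral`, `_of_finite`, `_of_base`) : the abstract adapter;
* `h17_zariski_one` : a field `L` integral over the image of `O[X]`, with `π₀ ↦ 0` and `(π₀)`
  maximal in `O`, is integral over `O` (Zariski's lemma in one variable, from Mathlib's Jacobson
  ring theory over the field `O ⧸ π₀`);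
* `h17_chart_quot_isIntegral` : for a ring `B` integral over the image of `O[X]` and a maximal
  ideal `𝔫 ∋ π₀`, the residue field `B ⧸ 𝔫` is integral over `O`;
* `h17_sm_chart` : **the adapter in the form consumed by `h7_branch_unif`** — no integrality
  hypothesis on `φ`; `h17_sm_chart'` : the same for `B = chart O x`.
-/

set_option autoImplicit false
set_option linter.unusedSectionVars false
set_option linter.style.haveILetI false

open Polynomial

namespace Fermat.Agent.S34x.Comp.H17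

section Abstract

variable {A B : Type*} [CommRing A] [CommRing B]

/-- If the residue field of the maximal ideal `𝔫` is integral over `A`, then the contraction of
`𝔫` is maximal. -/
theorem h17_comap_isMaximal (φ : A →+* B) (𝔫 : Ideal B) [h𝔫 : 𝔫.IsMaximal]
    (hint : ((Ideal.Quotient.mk 𝔫).comp φ).IsIntegral) : (𝔫.comap φ).IsMaximal := by
  have hbot : (⊥ : Ideal (B ⧸ 𝔫)).IsMaximal := (Ideal.bot_quotient_isMaximal_iff 𝔫).mpr h𝔫
  have h := Ideal.isMaximal_comap_of_isIntegral_of_isMaximal' _ hint (⊥ : Ideal (B ⧸ 𝔫))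
  have e : (⊥ : Ideal (B ⧸ 𝔫)).comap ((Ideal.Quotient.mk 𝔫).comp φ) = 𝔫.comap φ := by
    rw [← Ideal.comap_comap, ← RingHom.ker_eq_comap_bot, Ideal.mk_ker]
  rwa [e] at h

/-- **The (SM) adapter, abstract form.** -/
theorem h17_sm_adapter (φ : A →+* B) (π : A)
    (hSM : ∀ 𝔪 : Ideal A, 𝔪.IsMaximal → π ∈ 𝔪 →
      ∃ t ∈ 𝔪, ∀ y ∈ 𝔪, ∃ s : A, s ∉ 𝔪 ∧ ∃ u w : A, s * y = π * u + t * w)
    (𝔫 : Ideal B) [𝔫.IsMaximal] (hπ : φ π ∈ 𝔫)
    (hint : ((Ideal.Quotient.mk 𝔫).comp φ).IsIntegral) :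
    ∃ t : A, φ t ∈ 𝔫 ∧ ∀ y : A, φ y ∈ 𝔫 →
      ∃ s : A, φ s ∉ 𝔫 ∧ ∃ u w : A, s * y = π * u + t * w := by
  have hmax := h17_comap_isMaximal φ 𝔫 hint
  obtain ⟨t, ht, h⟩ := hSM (𝔫.comap φ) hmax hπ
  exact ⟨t, ht, fun y hy => h y hy⟩

/-- The adapter for an integral `φ`. -/
theorem h17_sm_adapter_of_isIntegral (φ : A →+* B) (π : A)
    (hSM : ∀ 𝔪 : Ideal A, 𝔪.IsMaximal → π ∈ 𝔪 →
      ∃ t ∈ 𝔪, ∀ y ∈ 𝔪, ∃ s : A, s ∉ 𝔪 ∧ ∃ u w : A, s * y = π * u + t * w)
    (𝔫 : Ideal B) [𝔫.IsMaximal] (hπ : φ π ∈ 𝔫) (hφ : φ.IsIntegral) :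
    ∃ t : A, φ t ∈ 𝔫 ∧ ∀ y : A, φ y ∈ 𝔫 →
      ∃ s : A, φ s ∉ 𝔫 ∧ ∃ u w : A, s * y = π * u + t * w :=
  h17_sm_adapter φ π hSM 𝔫 hπ
    (hφ.trans _ _ ((Ideal.Quotient.mk 𝔫).isIntegral_of_surjective Ideal.Quotient.mk_surjective))

/-- The adapter when the residue field is integral over a base ring `O → A`. -/
theorem h17_sm_adapter_of_base {O : Type*} [CommRing O] (ψ : O →+* A) (φ : A →+* B) (π : A)
    (hSM : ∀ 𝔪 : Ideal A, 𝔪.IsMaximal → π ∈ 𝔪 →
      ∃ t ∈ 𝔪, ∀ y ∈ 𝔪, ∃ s : A, s ∉ 𝔪 ∧ ∃ u w : A, s * y = π * u + t * w)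
    (𝔫 : Ideal B) [𝔫.IsMaximal] (hπ : φ π ∈ 𝔫)
    (hint : ((Ideal.Quotient.mk 𝔫).comp (φ.comp ψ)).IsIntegral) :
    ∃ t : A, φ t ∈ 𝔫 ∧ ∀ y : A, φ y ∈ 𝔫 →
      ∃ s : A, φ s ∉ 𝔫 ∧ ∃ u w : A, s * y = π * u + t * w := by
  refine h17_sm_adapter φ π hSM 𝔫 hπ ?_
  refine RingHom.IsIntegral.tower_top ψ _ ?_
  rwa [RingHom.comp_assoc]

/-- The adapter when the residue field is finite. -/
theorem h17_sm_adapter_of_finite (φ : A →+* B) (π : A)
    (hSM : ∀ 𝔪 : Ideal A, 𝔪.IsMaximal → π ∈ 𝔪 →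
      ∃ t ∈ 𝔪, ∀ y ∈ 𝔪, ∃ s : A, s ∉ 𝔪 ∧ ∃ u w : A, s * y = π * u + t * w)
    (𝔫 : Ideal B) [𝔫.IsMaximal] (hπ : φ π ∈ 𝔫) [Finite (B ⧸ 𝔫)] :
    ∃ t : A, φ t ∈ 𝔫 ∧ ∀ y : A, φ y ∈ 𝔫 →
      ∃ s : A, φ s ∉ 𝔫 ∧ ∃ u w : A, s * y = π * u + t * w := by
  refine h17_sm_adapter φ π hSM 𝔫 hπ ?_
  letI : Algebra A (B ⧸ 𝔫) := ((Ideal.Quotient.mk 𝔫).comp φ).toAlgebra
  haveI : Module.Finite A (B ⧸ 𝔫) := Module.Finite.of_finite
  intro z
  exact (Algebra.IsIntegral.of_finite A (B ⧸ 𝔫)).isIntegral z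

end Abstract

section Zariski

variable {O L : Type*} [CommRing O] [Field L]

/-- **Zariski's lemma in one variable**: a field integral over the image of `O[X]`, in which the
generator `π₀` of a maximal ideal of `O` vanishes, is integral over `O`. -/
theorem h17_zariski_one (f : O →+* L) (π₀ : O) (hmax : (Ideal.span {π₀}).IsMaximal)
    (hπ : f π₀ = 0) (x : L) (hL : (Polynomial.eval₂RingHom f x).IsIntegral) : f.IsIntegral := by
  -- the residue field `k` of `O`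
  haveI hJ : IsJacobsonRing (O ⧸ Ideal.span {π₀}) := by
    letI : Field (O ⧸ Ideal.span {π₀}) := Ideal.Quotient.field _
    infer_instance
  have hker : ∀ a ∈ Ideal.span {π₀}, f a = 0 := by
    intro a ha
    obtain ⟨c, rfl⟩ := Ideal.mem_span_singleton.mp ha
    rw [map_mul, hπ, zero_mul]
  let fbar : O ⧸ Ideal.span {π₀} →+* L := Ideal.Quotient.lift _ f hker
  have hf : fbar.comp (Ideal.Quotient.mk _) = f := by
    ext a
    rfl
  let hbar : (O ⧸ Ideal.span {π₀})[X] →+* L := Polynomial.eval₂RingHom fbar x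
  have hh : hbar.comp (Polynomial.mapRingHom (Ideal.Quotient.mk (Ideal.span {π₀})))
      = Polynomial.eval₂RingHom f x := by
    apply Polynomial.ringHom_ext
    · intro a
      simp [hbar, fbar]
    · simp [hbar]
  have hbarint : hbar.IsIntegral := by
    refine RingHom.IsIntegral.tower_top
      (Polynomial.mapRingHom (Ideal.Quotient.mk (Ideal.span {π₀}))) _ ?_
    rw [hh]
    exact hL
  -- the kernel of `hbar` is maximal
  have hbot : (⊥ : Ideal L).IsMaximal := Ideal.bot_isMaximal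
  haveI hPmax : (RingHom.ker hbar).IsMaximal := by
    rw [RingHom.ker_eq_comap_bot]
    exact Ideal.isMaximal_comap_of_isIntegral_of_isMaximal' _ hbarint ⊥
  have h1 := Polynomial.quotient_mk_comp_C_isIntegral_of_isJacobsonRing (RingHom.ker hbar)
  let g : (O ⧸ Ideal.span {π₀})[X] ⧸ RingHom.ker hbar →+* L :=
    Ideal.Quotient.lift (RingHom.ker hbar) hbar fun _ h => h
  have hg : g.comp (Ideal.Quotient.mk (RingHom.ker hbar)) = hbar := by
    ext a
    · rfl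
    · rfl
  have hgint : RingHom.IsIntegral (R := (O ⧸ Ideal.span {π₀})[X] ⧸ RingHom.ker hbar) (A := L)
      g := by
    refine RingHom.IsIntegral.tower_top (Ideal.Quotient.mk (RingHom.ker hbar)) _ ?_
    rw [hg]
    exact hbarint
  have hfbar : fbar = g.comp ((Ideal.Quotient.mk (RingHom.ker hbar)).comp Polynomial.C) := by
    rw [← RingHom.comp_assoc, hg]
    ext a
    simp [hbar]
  have hfbarint : fbar.IsIntegral := by
    rw [hfbar]
    exact h1.trans _ _ hgint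
  rw [← hf]
  exact ((Ideal.Quotient.mk (Ideal.span {π₀})).isIntegral_of_surjective
    Ideal.Quotient.mk_surjective).trans _ _ hfbarint

/-- The residue field of a maximal ideal `𝔫 ∋ π₀` of a ring `B` integral over the image of
`O[X]` is integral over `O`. -/
theorem h17_chart_quot_isIntegral {B : Type*} [CommRing B] (ι : O →+* B) (π₀ : O)
    (hmax : (Ideal.span {π₀}).IsMaximal) (x : B)
    (hB : (Polynomial.eval₂RingHom ι x).IsIntegral)
    (𝔫 : Ideal B) [h𝔫 : 𝔫.IsMaximal] (hπ : ι π₀ ∈ 𝔫) :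
    ((Ideal.Quotient.mk 𝔫).comp ι).IsIntegral := by
  letI : Field (B ⧸ 𝔫) := Ideal.Quotient.field 𝔫
  refine h17_zariski_one ((Ideal.Quotient.mk 𝔫).comp ι) π₀ hmax ?_ (Ideal.Quotient.mk 𝔫 x) ?_
  · exact Ideal.Quotient.eq_zero_iff_mem.mpr hπ
  · have e : Polynomial.eval₂RingHom ((Ideal.Quotient.mk 𝔫).comp ι) (Ideal.Quotient.mk 𝔫 x)
        = (Ideal.Quotient.mk 𝔫).comp (Polynomial.eval₂RingHom ι x) := by
      apply Polynomial.ringHom_ext
      · intro a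
        simp
      · simp
    rw [e]
    exact hB.trans _ _
      ((Ideal.Quotient.mk 𝔫).isIntegral_of_surjective Ideal.Quotient.mk_surjective)

end Zariski

section Chart

open Fermat.Agent.S18x.Spec.H26 Fermat.Agent.S34x.Comp.H7

variable {O F₀ F : Type*} [CommRing O] [Field F₀] [Field F] [Algebra O F₀] [Algebra O F]

/-- In a discrete valuation ring the ideal of a uniformiser is maximal. -/
theorem h17_span_isMaximal_of_irreducible {R : Type*} [CommRing R] [IsDomain R]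
    [IsDiscreteValuationRing R] {π₀ : R} (hπ₀ : Irreducible π₀) :
    (Ideal.span {π₀}).IsMaximal := by
  rw [← (IsDiscreteValuationRing.irreducible_iff_uniformizer π₀).mp hπ₀]
  exact IsLocalRing.maximalIdeal.isMaximal R

/-- A subring `B` of `F` whose elements are integral over `O[x]`, `x ∈ B`, is integral over the
image of `O[X]` (ring homomorphism form). -/
theorem h17_chart_eval₂_isIntegral (B : Subring F) (ι : O →+* B)
    (hι : ∀ c : O, ((ι c : B) : F) = algebraMap O F c) (x : F) (hxB : x ∈ B)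
    (hBint : ∀ b ∈ B, IsIntegral (Algebra.adjoin O {x}) b) :
    (Polynomial.eval₂RingHom ι (⟨x, hxB⟩ : B)).IsIntegral := by
  intro b
  obtain ⟨p, hp, hcoeff, hpb⟩ := (h26_isIntegral_iff (Algebra.adjoin O {x}) (b : F)).mp
    (hBint b b.2)
  have hl : p ∈ Polynomial.lifts ((Polynomial.aeval x : O[X] →ₐ[O] F) : O[X] →+* F) := by
    rw [Polynomial.lifts_iff_coeff_lifts]
    intro n
    have h := hcoeff n
    rw [Algebra.adjoin_singleton_eq_range_aeval] at h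
    obtain ⟨Q, hQ⟩ := h
    exact ⟨Q, hQ⟩
  obtain ⟨P, hPmap, -, hPm⟩ := Polynomial.lifts_and_natDegree_eq_and_monic hl hp
  refine ⟨P, hPm, ?_⟩
  have hcomp : B.subtype.comp (Polynomial.eval₂RingHom ι (⟨x, hxB⟩ : B))
      = ((Polynomial.aeval x : O[X] →ₐ[O] F) : O[X] →+* F) := by
    apply Polynomial.ringHom_ext
    · intro c
      simp only [RingHom.coe_comp, Function.comp_apply, Polynomial.coe_eval₂RingHom,
        Polynomial.eval₂_C, Subring.coe_subtype, RingHom.coe_coe, Polynomial.aeval_C]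
      exact hι c
    · simp only [RingHom.coe_comp, Function.comp_apply, Polynomial.coe_eval₂RingHom,
        Polynomial.eval₂_X, Subring.coe_subtype, RingHom.coe_coe, Polynomial.aeval_X]
  apply Subtype.ext
  have h1 : B.subtype (Polynomial.eval₂ (Polynomial.eval₂RingHom ι (⟨x, hxB⟩ : B)) b P)
      = Polynomial.eval₂ (B.subtype.comp (Polynomial.eval₂RingHom ι (⟨x, hxB⟩ : B)))
          (B.subtype b) P := Polynomial.hom_eval₂ P _ B.subtype b
  have h2 : (((Polynomial.eval₂ (Polynomial.eval₂RingHom ι (⟨x, hxB⟩ : B)) b P : B)) : F)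
      = Polynomial.eval₂ ((Polynomial.aeval x : O[X] →ₐ[O] F) : O[X] →+* F) (b : F) P := by
    rw [← hcomp]
    exact h1
  rw [h2, ← Polynomial.eval_map, hPmap, hpb]
  rfl

/-- **The (SM) adapter for `h7_branch_unif`** (helper7's `hSM`, with `π₀ := algebraMap O F₀ π₀`):
`BM = chart O x₀` the chart of level `M`, with `IG.HSMChart O x₀ π₀`; `B ≤ F` a subring containing
`x`, integral over `O[x]`; `φ : F₀ → F` a ring homomorphism over `O` with
`φ BM ⊆ B`.  Then at every maximal ideal `𝔫 ∋ π₀` of `B` the contraction `φ⁻¹ 𝔫` is a maximal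
ideal of `BM`, and (SM) holds there.  No integrality assumption on `φ`. -/
theorem h17_sm_chart (φ : F₀ →+* F) (hφO : ∀ c : O, φ (algebraMap O F₀ c) = algebraMap O F c)
    (x₀ : F₀) (π₀ : O) (hmax : (Ideal.span {π₀}).IsMaximal)
    (H : Fermat.Agent.S18x.IG.HSMChart O x₀ π₀)
    (B : Subring F) (x : F) (hxB : x ∈ B)
    (hBint : ∀ b ∈ B, IsIntegral (Algebra.adjoin O {x}) b)
    (hφB : ∀ a ∈ (chart O x₀).toSubring, φ a ∈ B)
    (hπBM : algebraMap O F₀ π₀ ∈ (chart O x₀).toSubring)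
    (𝔫 : Ideal B) [𝔫.IsMaximal]
    (hπ : h7phi φ (chart O x₀).toSubring B hφB ⟨algebraMap O F₀ π₀, hπBM⟩ ∈ 𝔫) :
    ∃ t : (chart O x₀).toSubring, h7phi φ (chart O x₀).toSubring B hφB t ∈ 𝔫 ∧
      ∀ y : (chart O x₀).toSubring, h7phi φ (chart O x₀).toSubring B hφB y ∈ 𝔫 →
        ∃ s : (chart O x₀).toSubring, h7phi φ (chart O x₀).toSubring B hφB s ∉ 𝔫 ∧
          ∃ u w : (chart O x₀).toSubring,
            s * y = ⟨algebraMap O F₀ π₀, hπBM⟩ * u + t * w := by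
  refine h17_sm_adapter_of_base (Fermat.Agent.S18x.IG.chartC O x₀)
    (h7phi φ (chart O x₀).toSubring B hφB) ⟨algebraMap O F₀ π₀, hπBM⟩
    (fun 𝔪 h𝔪 hπ𝔪 => H 𝔪 h𝔪 hπ𝔪) 𝔫 hπ ?_
  refine h17_chart_quot_isIntegral
    ((h7phi φ (chart O x₀).toSubring B hφB).comp (Fermat.Agent.S18x.IG.chartC O x₀)) π₀ hmax
    ⟨x, hxB⟩ ?_ 𝔫 hπ
  exact h17_chart_eval₂_isIntegral B _ (fun c => hφO c) x hxB hBint

/-- `h17_sm_chart` for `B = chart O x`. -/
theorem h17_sm_chart' (φ : F₀ →+* F) (hφO : ∀ c : O, φ (algebraMap O F₀ c) = algebraMap O F c)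
    (x₀ : F₀) (π₀ : O) (hmax : (Ideal.span {π₀}).IsMaximal)
    (H : Fermat.Agent.S18x.IG.HSMChart O x₀ π₀) (x : F)
    (hφB : ∀ a ∈ (chart O x₀).toSubring, φ a ∈ (chart O x).toSubring)
    (hπBM : algebraMap O F₀ π₀ ∈ (chart O x₀).toSubring)
    (𝔫 : Ideal (chart O x).toSubring) [𝔫.IsMaximal]
    (hπ : h7phi φ (chart O x₀).toSubring (chart O x).toSubring hφB
      ⟨algebraMap O F₀ π₀, hπBM⟩ ∈ 𝔫) :
    ∃ t : (chart O x₀).toSubring,
      h7phi φ (chart O x₀).toSubring (chart O x).toSubring hφB t ∈ 𝔫 ∧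
      ∀ y : (chart O x₀).toSubring,
        h7phi φ (chart O x₀).toSubring (chart O x).toSubring hφB y ∈ 𝔫 →
        ∃ s : (chart O x₀).toSubring,
          h7phi φ (chart O x₀).toSubring (chart O x).toSubring hφB s ∉ 𝔫 ∧
          ∃ u w : (chart O x₀).toSubring,
            s * y = ⟨algebraMap O F₀ π₀, hπBM⟩ * u + t * w :=
  h17_sm_chart φ hφO x₀ π₀ hmax H (chart O x).toSubring x (self_mem_chart O x)
    (fun _ hb => (mem_chart O).mp hb) hφB hπBM 𝔫 hπ

/-- The contraction of a closed point of the special fibre of `B` to the chart of level `M` is a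
closed point (the maximality statement alone). -/
theorem h17_comap_chart_isMaximal (φ : F₀ →+* F)
    (hφO : ∀ c : O, φ (algebraMap O F₀ c) = algebraMap O F c)
    (BM : Subring F₀) (hOBM : ∀ c : O, algebraMap O F₀ c ∈ BM) (π₀ : O)
    (hmax : (Ideal.span {π₀}).IsMaximal)
    (B : Subring F) (x : F) (hxB : x ∈ B)
    (hBint : ∀ b ∈ B, IsIntegral (Algebra.adjoin O {x}) b)
    (hφB : ∀ a ∈ BM, φ a ∈ B)
    (𝔫 : Ideal B) [𝔫.IsMaximal]
    (hπ : h7phi φ BM B hφB ⟨algebraMap O F₀ π₀, hOBM π₀⟩ ∈ 𝔫) :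
    (𝔫.comap (h7phi φ BM B hφB)).IsMaximal := by
  refine h17_comap_isMaximal _ 𝔫 ?_
  let ψ : O →+* BM := (algebraMap O F₀).codRestrict BM hOBM
  refine RingHom.IsIntegral.tower_top ψ _ ?_
  rw [RingHom.comp_assoc]
  refine h17_chart_quot_isIntegral ((h7phi φ BM B hφB).comp ψ) π₀ hmax ⟨x, hxB⟩ ?_ 𝔫 hπ
  exact h17_chart_eval₂_isIntegral B _ (fun c => hφO c) x hxB hBint

/-- **`hSMα` / `hSMβ` of `h7_comp_abs` VERBATIM** (with `BM := (chart O x₀).toSubring`,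
`π₀ := algebraMap O F₀ π₀`, `π := φ π₀`): from `IG.HSMChart O x₀ π₀`, for a subring `B ∋ x`
integral over `O[x]` and a ring homomorphism `φ` over `O` with `φ BM ⊆ B`. -/
theorem h17_hSM_chart (φ : F₀ →+* F) (hφO : ∀ c : O, φ (algebraMap O F₀ c) = algebraMap O F c)
    (x₀ : F₀) (π₀ : O) (hmax : (Ideal.span {π₀}).IsMaximal)
    (H : Fermat.Agent.S18x.IG.HSMChart O x₀ π₀)
    (B : Subring F) (x : F) (hxB : x ∈ B)
    (hBint : ∀ b ∈ B, IsIntegral (Algebra.adjoin O {x}) b)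
    (hφB : ∀ a ∈ (chart O x₀).toSubring, φ a ∈ B)
    (hπBM : algebraMap O F₀ π₀ ∈ (chart O x₀).toSubring)
    {π : F} (hφπ : φ (algebraMap O F₀ π₀) = π) (hπB : π ∈ B) :
    ∀ 𝔫 : Ideal B, 𝔫.IsMaximal → (⟨π, hπB⟩ : B) ∈ 𝔫 →
      ∃ t : (chart O x₀).toSubring, h7phi φ (chart O x₀).toSubring B hφB t ∈ 𝔫 ∧
        ∀ y : (chart O x₀).toSubring, h7phi φ (chart O x₀).toSubring B hφB y ∈ 𝔫 →
          ∃ s : (chart O x₀).toSubring, h7phi φ (chart O x₀).toSubring B hφB s ∉ 𝔫 ∧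
            ∃ u w : (chart O x₀).toSubring,
              s * y = ⟨algebraMap O F₀ π₀, hπBM⟩ * u + t * w := by
  intro 𝔫 h𝔫 hπ𝔫
  haveI := h𝔫
  subst hφπ
  exact h17_sm_chart φ hφO x₀ π₀ hmax H B x hxB hBint hφB hπBM 𝔫 hπ𝔫

/-- `h17_hSM_chart` for `B = chart O x` over a discrete valuation ring `O` with uniformiser
`π₀`. -/
theorem h17_hSM_chart_dvr [IsDomain O] [IsDiscreteValuationRing O]
    (φ : F₀ →+* F) (hφO : ∀ c : O, φ (algebraMap O F₀ c) = algebraMap O F c)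
    (x₀ : F₀) (π₀ : O) (hπ₀ : Irreducible π₀)
    (H : Fermat.Agent.S18x.IG.HSMChart O x₀ π₀) (x : F)
    (hφB : ∀ a ∈ (chart O x₀).toSubring, φ a ∈ (chart O x).toSubring)
    (hπBM : algebraMap O F₀ π₀ ∈ (chart O x₀).toSubring)
    {π : F} (hφπ : φ (algebraMap O F₀ π₀) = π) (hπB : π ∈ (chart O x).toSubring) :
    ∀ 𝔫 : Ideal (chart O x).toSubring, 𝔫.IsMaximal →
      (⟨π, hπB⟩ : (chart O x).toSubring) ∈ 𝔫 →
      ∃ t : (chart O x₀).toSubring,
        h7phi φ (chart O x₀).toSubring (chart O x).toSubring hφB t ∈ 𝔫 ∧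
        ∀ y : (chart O x₀).toSubring,
          h7phi φ (chart O x₀).toSubring (chart O x).toSubring hφB y ∈ 𝔫 →
          ∃ s : (chart O x₀).toSubring,
            h7phi φ (chart O x₀).toSubring (chart O x).toSubring hφB s ∉ 𝔫 ∧
            ∃ u w : (chart O x₀).toSubring,
              s * y = ⟨algebraMap O F₀ π₀, hπBM⟩ * u + t * w :=
  h17_hSM_chart φ hφO x₀ π₀ (h17_span_isMaximal_of_irreducible hπ₀) H
    (chart O x).toSubring x (self_mem_chart O x) (fun _ hb => (mem_chart O).mp hb)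
    hφB hπBM hφπ hπB

/-- **`h7_branch_unif` with (SM) discharged**: the branch parameter of the component `e` at a
closed point `𝔫` of the chart `B`, from `IG.HSMChart O x₀ π₀` at level `M`.  All the other
hypotheses are those of `h7_branch_unif` verbatim (with `BM := chart O x₀`,
`π₀ := algebraMap O F₀ π₀`). -/
theorem h17_branch_unif_chart (φ : F₀ →+* F)
    (hφO : ∀ c : O, φ (algebraMap O F₀ c) = algebraMap O F c)
    (x₀ : F₀) (π₀ : O) (hmax : (Ideal.span {π₀}).IsMaximal)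
    (H : Fermat.Agent.S18x.IG.HSMChart O x₀ π₀)
    (W : Subring F₀) (B V : Subring F) (hBV : B ≤ V) (x : F) (hxB : x ∈ B)
    (hBint : ∀ b ∈ B, IsIntegral (Algebra.adjoin O {x}) b)
    (hπBM : algebraMap O F₀ π₀ ∈ (chart O x₀).toSubring)
    {e : F} (hc : Fermat.Agent.S34x.Val.H2.H2Comp V (φ (algebraMap O F₀ π₀)) e)
    (hφB : ∀ a ∈ (chart O x₀).toSubring, φ a ∈ B)
    [IsNoetherianRing (chart O x₀).toSubring] (hφV : ∀ w ∈ W, φ w ∈ V)
    (hprime : (Ideal.span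
      {(⟨algebraMap O F₀ π₀, hπBM⟩ : (chart O x₀).toSubring)}).IsPrime)
    (hfracW : ∀ w ∈ W, ∃ a s : (chart O x₀).toSubring,
      (s : F₀) ≠ 0 ∧ (s : F₀)⁻¹ ∈ W ∧ w * (s : F₀) = (a : F₀))
    (hres : ∀ z ∈ B, ∃ w ∈ W,
      Fermat.Agent.S34x.Val.H2.H2In V (φ (algebraMap O F₀ π₀)) e (z - φ w))
    (𝔫 : Ideal B) [𝔫.IsMaximal] (hp𝔫 : h7p hBV hc ≤ 𝔫) :
    ∃ t : (chart O x₀).toSubring,
      Fermat.Agent.S34x.Comp.H4.H4Unif (h7p hBV hc) 𝔫
        (h7phi φ (chart O x₀).toSubring B hφB t) := by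
  have hπ : h7phi φ (chart O x₀).toSubring B hφB ⟨algebraMap O F₀ π₀, hπBM⟩ ∈ 𝔫 :=
    hp𝔫 (h7_pi_mem_p hBV hc (hφB _ hπBM))
  obtain ⟨t, ht, hSM⟩ := h17_sm_chart φ hφO x₀ π₀ hmax H B x hxB hBint hφB hπBM 𝔫 hπ
  exact ⟨t, h7_branch_unif φ (chart O x₀).toSubring W B V hBV (algebraMap O F₀ π₀) hπBM hc hφB
    hφV hprime hfracW hres 𝔫 hp𝔫 t ht hSM⟩

end Chart

end Fermat.Agent.S34x.Comp.H17
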