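import Mathlib
import Fermat.Agent.S34x.Comp.H8_ContactKron
import Fermat.Agent.S34x.Comp.H4_Goursat

/-!
# W10 (S34), stage (C) COMP, leaf CONTACT (helper8): the plug into `h4_goursat` / `h7_comp`

`h8_hcontact_all` : the hypothesis `hcontact` of `h4_goursat` (and of the glue theorem of the
(C) export) at ONE crossing point `n`, from

* `ht : H4Unif p1 n t`   (local parameter of the branch `p1 = p_oo`, `t = α(t_M)`),
* `hs : H4Unif p2 n s`   (local parameter of the branch `p2 = p_0`),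
* `hres`  : the residue ring of `m0` consists of fractions of `B`,
* `hkron` : `jq ^ q ≡ j` modulo `m0`,
* `hpins` : `t ≡ ∑ c_i ^ q j ^ i` modulo `m0`.
-/

set_option autoImplicit false

namespace Fermat.Agent.S34x.Comp.H8

open Fermat.Agent.S34x.Comp.H4

theorem h8_hcontact_all {B V : Type*} [CommRing B] [IsNoetherianRing B] [CommRing V]
    (φ : B →+* V) (m0 : Ideal V) (q : ℕ) [Fact q.Prime] (hq : (q : V) ∈ m0)
    (p1 p2 n : Ideal B) [n.IsPrime] [p2.IsPrime] (hp2 : p2 = m0.comap φ) (h2n : p2 ≤ n)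
    (t : B) (ht : H4Unif p1 n t) (s : B) (hs : H4Unif p2 n s)
    (hres : ∀ v : V, ∃ b₁ b₂ : B, b₂ ∉ p2 ∧ φ b₂ * v - φ b₁ ∈ m0)
    (j jq : V) (hkron : jq ^ q - j ∈ m0)
    (c : Fin q → V) (hpins : φ t - ∑ i, c i ^ q * j ^ (i : ℕ) ∈ m0) :
    ∀ z ∈ n, ∃ s', s' ∉ n ∧ s' * z ∈ p1 ⊔ p2 ⊔ n ^ 2 :=
  h4_contact_of_unif ht
    (h8_hcontact φ m0 q hq n p2 hp2 h2n s hs.1 hs.2 hres j jq hkron t ht.1 c hpins)

end Fermat.Agent.S34x.Comp.H8
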