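import Mathlib
import Fermat.Agent.S34x.Comp.H7_Branch
import Fermat.Agent.S34x.Comp.H8_ContactPlug

/-!
# W10 (S34), stage (C) COMP: the assembly of the stage, abstract over the fields (helper7)

`F₀ = F_M`, `F = F_(M q)`, `α β : F₀ →+* F` the two degeneracy maps, `BM ≤ W ≤ F₀` the chart and
the Gauss valuation ring of level `M`, `B ≤ V ≤ F` the chart of level `M q` and the two-component
ring of stage (A) (`H2Two V π e₁ e₂`, `e₁` the component of `α`, `e₂` the component of `β`).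

* `h7_branch_unif'` : `h7_branch_unif` with the uniformiser of `V` named;
* `h7_res_frac` : (I3) of the contact leaf: every `v ∈ V` is `b₁ / b₂` modulo `𝔪_e` with
  `b₁, b₂ ∈ B`, `b₂ ∉ 𝔭_e`;
* `h7_comp_abs` : **the export `H7Comp` of stage (C)** for the chart `B`, from the inputs of the
  instance leaves: (SAT), (SM) at level `M` pulled back along `α` and `β`, the residue fields of
  the two components (`hresα`, `hresβ`), (beta-INT) (`hβB`), the separating elements, and the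
  contact inputs (Kronecker `hkron` + (PINS) `hpins`).
-/

set_option autoImplicit false
set_option linter.unusedSectionVars false
set_option linter.style.haveILetI false

namespace Fermat.Agent.S34x.Comp.H7

open Fermat.Agent.S34x.Val.H2 Fermat.Agent.S34x.Comp.H4 Fermat.Agent.S34x.Comp.H8

variable {F₀ F : Type*} [Field F₀] [Field F]

/-- `h7_branch_unif` with the uniformiser of `V` named (`φ π₀ = π`). -/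
theorem h7_branch_unif' (φ : F₀ →+* F) (BM W : Subring F₀) (B V : Subring F) (hBV : B ≤ V)
    (π₀ : F₀) (hπBM : π₀ ∈ BM) {π e : F} (hφπ : φ π₀ = π) (hc : H2Comp V π e)
    (hφB : ∀ a ∈ BM, φ a ∈ B) [IsNoetherianRing BM] (hφV : ∀ w ∈ W, φ w ∈ V)
    (hprime : (Ideal.span {(⟨π₀, hπBM⟩ : BM)}).IsPrime)
    (hfracW : ∀ w ∈ W, ∃ a s : BM, (s : F₀) ≠ 0 ∧ (s : F₀)⁻¹ ∈ W ∧ w * (s : F₀) = (a : F₀))
    (hres : ∀ z ∈ B, ∃ w ∈ W, H2In V π e (z - φ w))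
    (𝔫 : Ideal B) [𝔫.IsPrime] (hp𝔫 : h7p hBV hc ≤ 𝔫)
    (t : BM) (ht : h7phi φ BM B hφB t ∈ 𝔫)
    (hSM : ∀ y : BM, h7phi φ BM B hφB y ∈ 𝔫 → ∃ s : BM, h7phi φ BM B hφB s ∉ 𝔫 ∧
      ∃ u w : BM, s * y = ⟨π₀, hπBM⟩ * u + t * w) :
    H4Unif (h7p hBV hc) 𝔫 (h7phi φ BM B hφB t) := by
  subst hφπ
  exact h7_branch_unif φ BM W B V hBV π₀ hπBM hc hφB hφV hprime hfracW hres 𝔫 hp𝔫 t ht hSM

/-- **(I3)**: every `v ∈ V` is `b₁ / b₂` modulo `𝔪_e` with `b₁, b₂ ∈ B`, `b₂ ∉ 𝔭_e`. -/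
theorem h7_res_frac (φ : F₀ →+* F) (BM W : Subring F₀) (B V : Subring F) (hBV : B ≤ V)
    {π e : F} (hc : H2Comp V π e)
    (hφB : ∀ a ∈ BM, φ a ∈ B) (hφV : ∀ w ∈ W, φ w ∈ V)
    (hfracW : ∀ w ∈ W, ∃ a s : BM, (s : F₀) ≠ 0 ∧ (s : F₀)⁻¹ ∈ W ∧ w * (s : F₀) = (a : F₀))
    (hres : ∀ v ∈ V, ∃ w ∈ W, H2In V π e (v - φ w)) (v : V) :
    ∃ b₁ b₂ : B, b₂ ∉ h7p hBV hc ∧
      Subring.inclusion hBV b₂ * v - Subring.inclusion hBV b₁ ∈ hc.ideal := by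
  obtain ⟨w, hw, hvw⟩ := hres v v.2
  obtain ⟨a, s, hs0, hsinv, hws⟩ := hfracW w hw
  refine ⟨⟨φ a, hφB _ a.2⟩, ⟨φ s, hφB _ s.2⟩, ?_, ?_⟩
  · intro hin
    have hin' : H2In V π e (φ (s : F₀)) := hin
    have h1 := hc.in_mul_left hin' (hφV _ hsinv)
    have h2 : φ ((s : F₀)⁻¹) * φ (s : F₀) = 1 := by
      rw [← map_mul, inv_mul_cancel₀ hs0, map_one]
    rw [h2] at h1
    exact hc.not_in_one h1
  · show H2In V π e (φ (s : F₀) * (v : F) - φ (a : F₀))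
    have h3 : φ (s : F₀) * (v : F) - φ (a : F₀) = φ (s : F₀) * ((v : F) - φ w) := by
      rw [← hws, map_mul]
      ring
    rw [h3]
    exact hc.in_mul_left hvw (hBV (hφB _ s.2))

/-- **Stage (C), assembly (abstract over the fields)**: the export `H7Comp` for the chart `B`. -/
theorem h7_comp_abs (α β : F₀ →+* F) (BM W : Subring F₀) (B V : Subring F)
    (hBW : BM ≤ W) (hBV : B ≤ V)
    (π₀ : F₀) (hπBM : π₀ ∈ BM) {π e₁ e₂ : F} (hαπ : α π₀ = π) (hβπ : β π₀ = π) (hπB : π ∈ B)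
    (h2 : H2Two V π e₁ e₂)
    (hsat : ∀ v ∈ V, π * v ∈ B → v ∈ B)
    [IsNoetherianRing BM] [IsNoetherianRing B]
    (hαB : ∀ a ∈ BM, α a ∈ B) (hβB : ∀ a ∈ BM, β a ∈ B)
    (hαV : ∀ w ∈ W, α w ∈ V) (hβV : ∀ w ∈ W, β w ∈ V)
    (hprime : (Ideal.span {(⟨π₀, hπBM⟩ : BM)}).IsPrime)
    (hfracW : ∀ w ∈ W, ∃ a s : BM, (s : F₀) ≠ 0 ∧ (s : F₀)⁻¹ ∈ W ∧ w * (s : F₀) = (a : F₀))
    (hresα : ∀ v ∈ V, ∃ w ∈ W, H2In V π e₁ (v - α w))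
    (hresβ : ∀ v ∈ V, ∃ w ∈ W, H2In V π e₂ (v - β w))
    (hSMα : ∀ 𝔫 : Ideal B, 𝔫.IsMaximal → (⟨π, hπB⟩ : B) ∈ 𝔫 →
      ∃ t : BM, h7phi α BM B hαB t ∈ 𝔫 ∧
        ∀ y : BM, h7phi α BM B hαB y ∈ 𝔫 → ∃ s : BM, h7phi α BM B hαB s ∉ 𝔫 ∧
          ∃ u w : BM, s * y = ⟨π₀, hπBM⟩ * u + t * w)
    (hSMβ : ∀ 𝔫 : Ideal B, 𝔫.IsMaximal → (⟨π, hπB⟩ : B) ∈ 𝔫 →
      ∃ t : BM, h7phi β BM B hβB t ∈ 𝔫 ∧
        ∀ y : BM, h7phi β BM B hβB y ∈ 𝔫 → ∃ s : BM, h7phi β BM B hβB s ∉ 𝔫 ∧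
          ∃ u w : BM, s * y = ⟨π₀, hπBM⟩ * u + t * w)
    (hsep₁₂ : ∃ b ∈ B, H2In V π e₁ b ∧ ¬ H2In V π e₂ b)
    (hsep₂₁ : ∃ b ∈ B, H2In V π e₂ b ∧ ¬ H2In V π e₁ b)
    (q : ℕ) [Fact q.Prime] (hq : H2In V π e₂ (q : F))
    (j jq : F) (hj : j ∈ V) (hjq : jq ∈ V) (hkron : H2In V π e₂ (jq ^ q - j))
    (hpins : ∀ a ∈ W, ∃ c : Fin q → F, (∀ i, c i ∈ V) ∧
      H2In V π e₂ (α a - ∑ i, c i ^ q * j ^ (i : ℕ))) :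
    H7Comp (⟨π, hπB⟩ : B) := by
  have hD1 : ∀ 𝔫 : Ideal B, 𝔫.IsMaximal → h7p hBV h2.c₁ ≤ 𝔫 →
      ∃ t : BM, H4Unif (h7p hBV h2.c₁) 𝔫 (h7phi α BM B hαB t) := by
    intro 𝔫 h𝔫 hp
    haveI : 𝔫.IsPrime := h𝔫.isPrime
    obtain ⟨t, ht, hSM⟩ := hSMα 𝔫 h𝔫 (hp (h7_pi_mem_p hBV h2.c₁ hπB))
    exact ⟨t, h7_branch_unif' α BM W B V hBV π₀ hπBM hαπ h2.c₁ hαB hαV hprime hfracW
      (fun z hz => hresα z (hBV hz)) 𝔫 hp t ht hSM⟩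
  have hD2 : ∀ 𝔫 : Ideal B, 𝔫.IsMaximal → h7p hBV h2.c₂ ≤ 𝔫 →
      ∃ t : BM, H4Unif (h7p hBV h2.c₂) 𝔫 (h7phi β BM B hβB t) := by
    intro 𝔫 h𝔫 hp
    haveI : 𝔫.IsPrime := h𝔫.isPrime
    obtain ⟨t, ht, hSM⟩ := hSMβ 𝔫 h𝔫 (hp (h7_pi_mem_p hBV h2.c₂ hπB))
    exact ⟨t, h7_branch_unif' β BM W B V hBV π₀ hπBM hβπ h2.c₂ hβB hβV hprime hfracW
      (fun z hz => hresβ z (hBV hz)) 𝔫 hp t ht hSM⟩
  refine h7_comp (⟨π, hπB⟩ : B) (h7p hBV h2.c₁) (h7p hBV h2.c₂)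
    (h7p_inf_le hBV h2 hπB hsat) (h7_pi_mem_p hBV h2.c₁ hπB) (h7_pi_mem_p hBV h2.c₂ hπB)
    (h7p_not_le hBV h2.c₁ h2.c₂ hsep₁₂) (h7p_not_le hBV h2.c₂ h2.c₁ hsep₂₁)
    (fun 𝔫 h𝔫 hp => (hD1 𝔫 h𝔫 hp).elim fun t ht => ⟨_, ht⟩)
    (fun 𝔫 h𝔫 hp => (hD2 𝔫 h𝔫 hp).elim fun t ht => ⟨_, ht⟩) ?_
  intro 𝔫 h𝔫 hp1 hp2
  haveI : 𝔫.IsPrime := h𝔫.isPrime
  obtain ⟨t, ht⟩ := hD1 𝔫 h𝔫 hp1
  obtain ⟨s, hs⟩ := hD2 𝔫 h𝔫 hp2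
  obtain ⟨c, hcV, hc⟩ := hpins (t : F₀) (hBW t.2)
  refine h8_hcontact_all (Subring.inclusion hBV) h2.c₂.ideal q ?_ (h7p hBV h2.c₁)
    (h7p hBV h2.c₂) 𝔫 rfl hp2 (h7phi α BM B hαB t) ht (h7phi β BM B hβB s) hs
    (h7_res_frac β BM W B V hBV h2.c₂ hβB hβV hfracW hresβ)
    (⟨j, hj⟩ : V) (⟨jq, hjq⟩ : V) ?_ (fun i => (⟨c i, hcV i⟩ : V)) ?_
  · show H2In V π e₂ (((q : V) : V) : F)
    have : (((q : V) : V) : F) = (q : F) := by push_cast; rfl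
    rw [this]
    exact hq
  · show H2In V π e₂ ((((⟨jq, hjq⟩ : V) ^ q - (⟨j, hj⟩ : V) : V) : V) : F)
    exact hkron
  · show H2In V π e₂ (((Subring.inclusion hBV (h7phi α BM B hαB t)
      - ∑ i, (⟨c i, hcV i⟩ : V) ^ q * (⟨j, hj⟩ : V) ^ (i : ℕ) : V) : V) : F)
    have e1 : (((Subring.inclusion hBV (h7phi α BM B hαB t)
        - ∑ i, (⟨c i, hcV i⟩ : V) ^ q * (⟨j, hj⟩ : V) ^ (i : ℕ) : V) : V) : F)
        = α (t : F₀) - ∑ i, c i ^ q * j ^ (i : ℕ) := by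
      push_cast
      rfl
    rw [e1]
    exact hc

end Fermat.Agent.S34x.Comp.H7
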