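import Mathlib
import Fermat.Agent.S34x.Comp.H17_SMAdapter
import Fermat.Agent.S34x.Comp.H7_CompAbs

/-!
# W10 (S34), stage (C) COMP: `h7_comp_abs` for the charts, with (SM) discharged (helper17)

`h17_comp_chart` = helper7's `h7_comp_abs` with `BM := chart O x₀` (level `M`),
`B := chart O x` (level `M q`), `π₀ := algebraMap O F₀ π₀`, `π := algebraMap O F π₀`, and the two
hypotheses `hSMα`, `hSMβ` replaced by the frozen input `IG.HSMChart O x₀ π₀` of level `M`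
(via `h17_hSM_chart_dvr`).  All the other hypotheses are those of `h7_comp_abs` verbatim.
-/

set_option autoImplicit false
set_option linter.unusedSectionVars false

namespace Fermat.Agent.S34x.Comp.H17

open Fermat.Agent.S34x.Comp.H7 Fermat.Agent.S18x.Spec.H26 Fermat.Agent.S34x.Val.H2

/-- **Stage (C) for the charts, (SM) discharged.** -/
theorem h17_comp_chart {O F₀ F : Type*} [CommRing O] [IsDomain O] [IsDiscreteValuationRing O]
    [Field F₀] [Field F] [Algebra O F₀] [Algebra O F]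
    (α β : F₀ →+* F) (hαO : ∀ c : O, α (algebraMap O F₀ c) = algebraMap O F c)
    (hβO : ∀ c : O, β (algebraMap O F₀ c) = algebraMap O F c)
    (x₀ : F₀) (x : F) (π₀ : O) (hπ₀ : Irreducible π₀)
    (H : Fermat.Agent.S18x.IG.HSMChart O x₀ π₀)
    (W : Subring F₀) (V : Subring F)
    (hBW : (chart O x₀).toSubring ≤ W) (hBV : (chart O x).toSubring ≤ V)
    {e₁ e₂ : F}
    (h2 : H2Two V (algebraMap O F π₀) e₁ e₂)
    (hsat : ∀ v ∈ V, algebraMap O F π₀ * v ∈ (chart O x).toSubring →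
      v ∈ (chart O x).toSubring)
    [IsNoetherianRing (chart O x₀).toSubring] [IsNoetherianRing (chart O x).toSubring]
    (hαB : ∀ a ∈ (chart O x₀).toSubring, α a ∈ (chart O x).toSubring)
    (hβB : ∀ a ∈ (chart O x₀).toSubring, β a ∈ (chart O x).toSubring)
    (hαV : ∀ w ∈ W, α w ∈ V) (hβV : ∀ w ∈ W, β w ∈ V)
    (hprime : (Ideal.span {(⟨algebraMap O F₀ π₀, (chart O x₀).algebraMap_mem π₀⟩ :
      (chart O x₀).toSubring)}).IsPrime)
    (hfracW : ∀ w ∈ W, ∃ a s : (chart O x₀).toSubring,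
      (s : F₀) ≠ 0 ∧ (s : F₀)⁻¹ ∈ W ∧ w * (s : F₀) = (a : F₀))
    (hresα : ∀ v ∈ V, ∃ w ∈ W, H2In V (algebraMap O F π₀) e₁ (v - α w))
    (hresβ : ∀ v ∈ V, ∃ w ∈ W, H2In V (algebraMap O F π₀) e₂ (v - β w))
    (hsep₁₂ : ∃ b ∈ (chart O x).toSubring, H2In V (algebraMap O F π₀) e₁ b ∧
      ¬ H2In V (algebraMap O F π₀) e₂ b)
    (hsep₂₁ : ∃ b ∈ (chart O x).toSubring, H2In V (algebraMap O F π₀) e₂ b ∧
      ¬ H2In V (algebraMap O F π₀) e₁ b)
    (q : ℕ) [Fact q.Prime] (hq : H2In V (algebraMap O F π₀) e₂ (q : F))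
    (j jq : F) (hj : j ∈ V) (hjq : jq ∈ V)
    (hkron : H2In V (algebraMap O F π₀) e₂ (jq ^ q - j))
    (hpins : ∀ a ∈ W, ∃ c : Fin q → F, (∀ i, c i ∈ V) ∧
      H2In V (algebraMap O F π₀) e₂ (α a - ∑ i, c i ^ q * j ^ (i : ℕ))) :
    H7Comp (⟨algebraMap O F π₀, (chart O x).algebraMap_mem π₀⟩ : (chart O x).toSubring) :=
  h7_comp_abs α β (chart O x₀).toSubring W (chart O x).toSubring V hBW hBV
    (algebraMap O F₀ π₀) ((chart O x₀).algebraMap_mem π₀) (hαO π₀) (hβO π₀)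
    ((chart O x).algebraMap_mem π₀) h2 hsat hαB hβB hαV hβV hprime hfracW hresα hresβ
    (h17_hSM_chart_dvr α hαO x₀ π₀ hπ₀ H x hαB _ (hαO π₀) _)
    (h17_hSM_chart_dvr β hβO x₀ π₀ hπ₀ H x hβB _ (hβO π₀) _)
    hsep₁₂ hsep₂₁ q hq j jq hj hjq hkron hpins

end Fermat.Agent.S34x.Comp.H17
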