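import Mathlib
import Fermat.Agent.S34x.Val.H2_TwoValPoly
import Fermat.Agent.S34x.Comp.H22_Branch
import Fermat.Agent.S34x.Comp.H4_Goursat

/-!
# W10 / S34, stage (C) COMP, input (C1) (helper23): the branch `C_∞` is the level-`M` fibre

Abstract form, over helper2's core `H2Poly` (`V = W[x]`, `x = j_q`, `G mod π = G₁ G₂`), of the
inputs of `h22_branch` / `h4_unif_of_hSM` for the degeneracy map `α` (the inclusion
`F₀ = F_M → F = F_(Mq)`) and the vertical prime `𝔭 = B ∩ 𝔪₁` of the chart `B ≤ V`, where `𝔪₁`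
is the component of `V / π` cut out by a LINEAR factor `G₁ = X - c̄`:

* `h23_res`   : the residue field of `𝔪₁` is that of `W`: every `v ∈ V` is `≡ w mod 𝔪₁`, `w ∈ W`;
* `h23_kerW`  : `𝔪₁ ∩ W = π W`;
* `h23_locW`  : `W` is the localisation of the level-`M` chart `A₀` at `π` (from saturation);
* `h23_hfrac` : `hfrac` of `h22_branch` verbatim;
* `h23_hker`  : `α a ∈ 𝔭 → π ∣ a` in `A₀`;
* `h23_hD1`   : `hD1` of `h7_comp`: at every maximal ideal `𝔫 ⊇ 𝔭` of `B` there is a branch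
  parameter `t` (`H4Unif 𝔭 𝔫 t`), namely the image of a level-`M` parameter.
-/

set_option autoImplicit false

open Polynomial

namespace Fermat.Agent.S34x.Comp.H23

open Fermat.Agent.S34x.Val.H2

variable {F₀ F : Type*} [Field F₀] [Field F] [Algebra F₀ F]
variable {W : ValuationSubring F₀} {π : F₀} {x : F}

/-- **(RES)**: if `𝔪₁` is cut out by the linear factor `G₁ = X - c̄`, every element of `V = W[x]`
is congruent modulo `𝔪₁` to an element of `W`. -/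
theorem h23_res (e₁ : F) (G₁ : (IsLocalRing.ResidueField W)[X]) (c : W)
    (hG₁ : G₁ = X - C (IsLocalRing.residue W c))
    (hm₁ : ∀ P : W[X], H2In (h2A W x) (algebraMap F₀ F π) e₁ (h2ev W x P) ↔
        G₁ ∣ P.map (IsLocalRing.residue W))
    (v : F) (hv : v ∈ h2A W x) :
    ∃ w ∈ W, H2In (h2A W x) (algebraMap F₀ F π) e₁ (v - algebraMap F₀ F w) := by
  obtain ⟨P, rfl⟩ := hv
  refine ⟨((P.eval c : W) : F₀), (P.eval c).2, ?_⟩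
  have h1 : h2ev W x P - algebraMap F₀ F ((P.eval c : W) : F₀)
      = h2ev W x (P - C (P.eval c)) := by
    rw [map_sub, h2ev_C]
  rw [h1, hm₁]
  have h2 : (X - C c) ∣ P - C (P.eval c) := Polynomial.X_sub_C_dvd_sub_C_eval
  have h3 := Polynomial.map_dvd (IsLocalRing.residue W) h2
  rw [hG₁]
  simpa using h3

/-- **(KER)**: `𝔪₁ ∩ W = π W` (any irreducible factor). -/
theorem h23_kerW (hπW : π ∈ W) (hπu : π⁻¹ ∉ W)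
    (hmax : ∀ w ∈ W, w⁻¹ ∈ W ∨ ∃ w' ∈ W, w = π * w')
    (e₁ : F) (G₁ : (IsLocalRing.ResidueField W)[X]) (hirr : Irreducible G₁)
    (hm₁ : ∀ P : W[X], H2In (h2A W x) (algebraMap F₀ F π) e₁ (h2ev W x P) ↔
        G₁ ∣ P.map (IsLocalRing.residue W))
    (w : F₀) (hw : w ∈ W)
    (h : H2In (h2A W x) (algebraMap F₀ F π) e₁ (algebraMap F₀ F w)) :
    ∃ w' ∈ W, w = π * w' := by
  have h1 : G₁ ∣ (C (⟨w, hw⟩ : W)).map (IsLocalRing.residue W) := by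
    rw [← hm₁, h2ev_C]
    exact h
  rw [Polynomial.map_C] at h1
  have h2 : IsLocalRing.residue W (⟨w, hw⟩ : W) = 0 := by
    by_contra hne
    have hu : IsUnit (C (IsLocalRing.residue W (⟨w, hw⟩ : W))) :=
      Polynomial.isUnit_C.mpr (IsUnit.mk0 _ hne)
    exact hirr.not_isUnit (isUnit_of_dvd_unit h1 hu)
  obtain ⟨w', hw'⟩ := (h2_residue_eq_zero_iff hπW hπu hmax _).mp h2
  refine ⟨(w' : F₀), w'.2, ?_⟩
  have := congrArg Subtype.val hw'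
  simpa using this

section Loc

variable (A₀ : Subring F₀)

/-- iterated saturation -/
theorem h23_sat_pow (hsat : ∀ v ∈ W, π * v ∈ A₀ → v ∈ A₀) (hπW : π ∈ W) :
    ∀ (k : ℕ) (v : F₀), v ∈ W → π ^ k * v ∈ A₀ → v ∈ A₀ := by
  intro k
  induction k with
  | zero => intro v _ h; simpa using h
  | succ k ih =>
    intro v hv h
    have h1 : π * (π ^ k * v) ∈ A₀ := by
      have : π * (π ^ k * v) = π ^ (k + 1) * v := by ring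
      rw [this]; exact h
    have h2 : π ^ k * v ∈ A₀ := hsat _ (W.mul_mem _ _ (W.pow_mem hπW k) hv) h1
    exact ih v hv h2

/-- a nonzero element of the chart is a power of `π` times an element of the chart which is a
unit of `W` -/
theorem h23_split (hA₀W : ∀ a ∈ A₀, a ∈ W) (hsat : ∀ v ∈ W, π * v ∈ A₀ → v ∈ A₀)
    (hπ0 : π ≠ 0)
    (hmax : ∀ w ∈ W, w⁻¹ ∈ W ∨ ∃ w' ∈ W, w = π * w') :
    ∀ (k : ℕ) (b : F₀), b ∈ A₀ → b ≠ 0 → π ^ k * b⁻¹ ∈ W →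
      ∃ (j : ℕ) (s : F₀), s ∈ A₀ ∧ s⁻¹ ∈ W ∧ b = π ^ j * s := by
  intro k
  induction k with
  | zero =>
    intro b hb _ h
    refine ⟨0, b, hb, by simpa using h, by simp⟩
  | succ k ih =>
    intro b hb hb0 h
    rcases hmax b (hA₀W b hb) with hinv | ⟨b', hb', hbb'⟩
    · exact ⟨0, b, hb, hinv, by simp⟩
    · have hb'A : b' ∈ A₀ := hsat b' hb' (hbb' ▸ hb)
      have hb'0 : b' ≠ 0 := by
        rintro rfl
        exact hb0 (by rw [hbb', mul_zero])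
      have h1 : π ^ k * b'⁻¹ ∈ W := by
        have : π ^ k * b'⁻¹ = π ^ (k + 1) * b⁻¹ := by
          rw [hbb', mul_inv, pow_succ]
          field_simp
        rw [this]; exact h
      obtain ⟨j, s, hs, hsinv, hbs⟩ := ih b' hb'A hb'0 h1
      refine ⟨j + 1, s, hs, hsinv, ?_⟩
      rw [hbb', hbs, pow_succ]
      ring

/-- **(LOC-W)**: `W` is the localisation of the chart `A₀` at `π`. -/
theorem h23_locW (hA₀W : ∀ a ∈ A₀, a ∈ W) (hsat : ∀ v ∈ W, π * v ∈ A₀ → v ∈ A₀)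
    (hπW : π ∈ W) (hπ0 : π ≠ 0)
    (hmax : ∀ w ∈ W, w⁻¹ ∈ W ∨ ∃ w' ∈ W, w = π * w')
    (hdvr : ∀ c : F₀, ∃ k : ℕ, π ^ k * c ∈ W)
    (hfrac₀ : ∀ z : F₀, ∃ a b : F₀, a ∈ A₀ ∧ b ∈ A₀ ∧ b ≠ 0 ∧ z * b = a)
    (w : F₀) (hw : w ∈ W) :
    ∃ a s : F₀, a ∈ A₀ ∧ s ∈ A₀ ∧ s ≠ 0 ∧ s⁻¹ ∈ W ∧ s * w = a := by
  obtain ⟨a, b, ha, hb, hb0, hab⟩ := hfrac₀ w
  obtain ⟨k, hk⟩ := hdvr b⁻¹
  obtain ⟨j, s, hs, hsinv, hbs⟩ := h23_split A₀ hA₀W hsat hπ0 hmax k b hb hb0 hk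
  have hs0 : s ≠ 0 := by
    rintro rfl
    exact hb0 (by rw [hbs, mul_zero])
  refine ⟨s * w, s, ?_, hs, hs0, hsinv, rfl⟩
  apply h23_sat_pow A₀ hsat hπW j (s * w) (W.mul_mem _ _ (hA₀W s hs) hw)
  have : π ^ j * (s * w) = a := by
    rw [← hab, hbs]; ring
  rw [this]; exact ha

end Loc

section Main

variable (A₀ : Subring F₀) (B : Subring F) (φ : A₀ →+* B)
  (e₁ : F) (G₁ : (IsLocalRing.ResidueField W)[X]) (𝔭 : Ideal B)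

/-- **`hfrac` of `h22_branch`** for `φ = α` and `𝔭 = B ∩ 𝔪₁`. -/
theorem h23_hfrac (hφ : ∀ a : A₀, ((φ a : B) : F) = algebraMap F₀ F (a : F₀))
    (hBV : ∀ b ∈ B, b ∈ h2A W x)
    (hc₁ : H2Comp (h2A W x) (algebraMap F₀ F π) e₁)
    (c : W) (hG₁ : G₁ = X - C (IsLocalRing.residue W c)) (hirr : Irreducible G₁)
    (hm₁ : ∀ P : W[X], H2In (h2A W x) (algebraMap F₀ F π) e₁ (h2ev W x P) ↔
        G₁ ∣ P.map (IsLocalRing.residue W))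
    (h𝔭 : ∀ b : B, b ∈ 𝔭 ↔ H2In (h2A W x) (algebraMap F₀ F π) e₁ (b : F))
    (hA₀W : ∀ a ∈ A₀, a ∈ W) (hsat : ∀ v ∈ W, π * v ∈ A₀ → v ∈ A₀)
    (hπW : π ∈ W) (hπ0 : π ≠ 0) (hπu : π⁻¹ ∉ W)
    (hmax : ∀ w ∈ W, w⁻¹ ∈ W ∨ ∃ w' ∈ W, w = π * w')
    (hdvr : ∀ c : F₀, ∃ k : ℕ, π ^ k * c ∈ W)
    (hfrac₀ : ∀ z : F₀, ∃ a b : F₀, a ∈ A₀ ∧ b ∈ A₀ ∧ b ≠ 0 ∧ z * b = a) :
    ∀ z : B, ∃ a s : A₀, φ s ∉ 𝔭 ∧ φ s * z - φ a ∈ 𝔭 := by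
  intro z
  obtain ⟨w, hw, hzw⟩ := h23_res e₁ G₁ c hG₁ hm₁ (z : F) (hBV _ z.2)
  obtain ⟨a, s, ha, hs, hs0, hsinv, hsw⟩ :=
    h23_locW A₀ hA₀W hsat hπW hπ0 hmax hdvr hfrac₀ w hw
  refine ⟨⟨a, ha⟩, ⟨s, hs⟩, ?_, ?_⟩
  · rw [h𝔭, hφ]
    intro hin
    obtain ⟨s', hs', hss'⟩ := h23_kerW hπW hπu hmax e₁ G₁ hirr hm₁ s (hA₀W s hs) hin
    apply hπu
    have hs'0 : s' ≠ 0 := by
      rintro rfl
      exact hs0 (by rw [hss', mul_zero])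
    have : π⁻¹ = s' * s⁻¹ := by
      rw [hss', mul_inv]
      field_simp
    rw [this]
    exact W.mul_mem _ _ hs' hsinv
  · rw [h𝔭]
    have h1 : ((φ ⟨s, hs⟩ * z - φ ⟨a, ha⟩ : B) : F)
        = algebraMap F₀ F s * ((z : F) - algebraMap F₀ F w) := by
      push_cast
      rw [hφ, hφ]
      simp only []
      rw [← hsw, map_mul]
      ring
    rw [h1]
    exact hc₁.in_mul_left hzw (h2_algebraMap_mem W x (hA₀W s hs))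

/-- **`hπ𝔭`**: the uniformiser lies in `𝔭`. -/
theorem h23_pi_mem (hφ : ∀ a : A₀, ((φ a : B) : F) = algebraMap F₀ F (a : F₀))
    (hc₁ : H2Comp (h2A W x) (algebraMap F₀ F π) e₁)
    (h𝔭 : ∀ b : B, b ∈ 𝔭 ↔ H2In (h2A W x) (algebraMap F₀ F π) e₁ (b : F))
    (πA : A₀) (hπA : (πA : F₀) = π) : φ πA ∈ 𝔭 := by
  rw [h𝔭, hφ, hπA]
  exact hc₁.in_of_div ⟨1, (h2A W x).one_mem, by rw [mul_one]⟩

/-- **`hker`**: `α a ∈ 𝔭 → π ∣ a` in the level-`M` chart. -/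
theorem h23_hker (hφ : ∀ a : A₀, ((φ a : B) : F) = algebraMap F₀ F (a : F₀))
    (hirr : Irreducible G₁)
    (hm₁ : ∀ P : W[X], H2In (h2A W x) (algebraMap F₀ F π) e₁ (h2ev W x P) ↔
        G₁ ∣ P.map (IsLocalRing.residue W))
    (h𝔭 : ∀ b : B, b ∈ 𝔭 ↔ H2In (h2A W x) (algebraMap F₀ F π) e₁ (b : F))
    (hA₀W : ∀ a ∈ A₀, a ∈ W) (hsat : ∀ v ∈ W, π * v ∈ A₀ → v ∈ A₀)
    (hπW : π ∈ W) (hπu : π⁻¹ ∉ W)
    (hmax : ∀ w ∈ W, w⁻¹ ∈ W ∨ ∃ w' ∈ W, w = π * w')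
    (πA : A₀) (hπA : (πA : F₀) = π) (a : A₀) (ha : φ a ∈ 𝔭) : ∃ a' : A₀, a = πA * a' := by
  rw [h𝔭, hφ] at ha
  obtain ⟨w', hw', hww'⟩ := h23_kerW hπW hπu hmax e₁ G₁ hirr hm₁ (a : F₀) (hA₀W _ a.2) ha
  have hw'A : w' ∈ A₀ := hsat w' hw' (hww' ▸ a.2)
  refine ⟨⟨w', hw'A⟩, Subtype.ext ?_⟩
  push_cast
  rw [hπA]
  exact hww'

/-- **(C1) `hD1` of `h7_comp`**: at every maximal ideal `𝔫 ⊇ 𝔭 = B ∩ 𝔪₁` of the chart `B` of level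
`M q` there is a branch parameter, namely the image under `α` of the level-`M` parameter at the
contraction of `𝔫`.  Inputs: helper2's component `𝔪₁` with LINEAR factor `G₁ = X - c̄`; the chart
`A₀` of level `M` is noetherian, saturated in `W`, has fraction field `F₀`, `π` is prime in it and
it satisfies (SM) in the `HSMChart` spelling; `φ = α|A₀ : A₀ → B` is integral. -/
theorem h23_hD1 [IsNoetherianRing A₀]
    (hφ : ∀ a : A₀, ((φ a : B) : F) = algebraMap F₀ F (a : F₀))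
    (hφint : φ.IsIntegral)
    (hBV : ∀ b ∈ B, b ∈ h2A W x)
    (hc₁ : H2Comp (h2A W x) (algebraMap F₀ F π) e₁)
    (c : W) (hG₁ : G₁ = X - C (IsLocalRing.residue W c)) (hirr : Irreducible G₁)
    (hm₁ : ∀ P : W[X], H2In (h2A W x) (algebraMap F₀ F π) e₁ (h2ev W x P) ↔
        G₁ ∣ P.map (IsLocalRing.residue W))
    [𝔭.IsPrime]
    (h𝔭 : ∀ b : B, b ∈ 𝔭 ↔ H2In (h2A W x) (algebraMap F₀ F π) e₁ (b : F))
    (hA₀W : ∀ a ∈ A₀, a ∈ W) (hsat : ∀ v ∈ W, π * v ∈ A₀ → v ∈ A₀)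
    (hπW : π ∈ W) (hπ0 : π ≠ 0) (hπu : π⁻¹ ∉ W)
    (hmax : ∀ w ∈ W, w⁻¹ ∈ W ∨ ∃ w' ∈ W, w = π * w')
    (hdvr : ∀ c : F₀, ∃ k : ℕ, π ^ k * c ∈ W)
    (hfrac₀ : ∀ z : F₀, ∃ a b : F₀, a ∈ A₀ ∧ b ∈ A₀ ∧ b ≠ 0 ∧ z * b = a)
    (πA : A₀) (hπA : (πA : F₀) = π) (hπprime : (Ideal.span {πA}).IsPrime)
    (hSM₀ : ∀ m : Ideal A₀, m.IsMaximal → πA ∈ m →
      ∃ t ∈ m, ∀ y ∈ m, ∃ s : A₀, s ∉ m ∧ ∃ u w : A₀, s * y = πA * u + t * w) :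
    ∀ 𝔫 : Ideal B, 𝔫.IsMaximal → 𝔭 ≤ 𝔫 → ∃ t : B, Fermat.Agent.S34x.Comp.H4.H4Unif 𝔭 𝔫 t := by
  intro 𝔫 h𝔫 h𝔭𝔫
  have hπ𝔭 : φ πA ∈ 𝔭 := h23_pi_mem A₀ B φ e₁ 𝔭 hφ hc₁ h𝔭 πA hπA
  have hmmax : (𝔫.comap φ).IsMaximal :=
    Ideal.isMaximal_comap_of_isIntegral_of_isMaximal' φ hφint 𝔫
  obtain ⟨t, ht, hSM⟩ := hSM₀ (𝔫.comap φ) hmmax (Ideal.mem_comap.mpr (h𝔭𝔫 hπ𝔭))
  refine ⟨φ t, Ideal.mem_comap.mp ht, ?_⟩
  have hfrac := h23_hfrac A₀ B φ e₁ G₁ 𝔭 hφ hBV hc₁ c hG₁ hirr hm₁ h𝔭 hA₀W hsat hπW hπ0 hπu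
    hmax hdvr hfrac₀
  have key := Fermat.Agent.S34x.Comp.H22.h22_branch φ πA hπprime 𝔭 𝔫 h𝔭𝔫 hπ𝔭 hfrac t
    (Ideal.mem_comap.mp ht)
    (fun y hy => by
      obtain ⟨s, hs, u, w, e⟩ := hSM y (Ideal.mem_comap.mpr hy)
      exact ⟨s, fun h => hs (Ideal.mem_comap.mpr h), u, w, e⟩)
  intro y hy
  obtain ⟨s, hs, w, hw⟩ := key y hy
  exact ⟨s, hs, w, hw⟩

end Main

end Fermat.Agent.S34x.Comp.H23
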