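import Mathlib
import Fermat.Agent.S34x.Val.H6_Inst
import Fermat.Agent.S34x.Comp.H23_Frac

/-!
# W10 / S34, stage (C) COMP, input (C1) (helper23): `hresα` at the instance

For helper6's instance of stage (A) (`V = h6V = W[j_q] ⊆ F_N`, `W = gaussValM O M`,
`α = h6incl : F_M → F_N`, `𝔪₁` the component cut out by `G₁ = X - j̄^q`): every `v ∈ V` is
congruent modulo `𝔪₁` to `α w` with `w ∈ W`.  This is the hypothesis `hresα` of helper7's
`h7_comp_abs`, for any `e₁` with the description of `𝔪₁` given by `h6_two`.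
-/

set_option autoImplicit false
set_option linter.unusedSectionVars false
set_option linter.style.haveILetI false

open ModularCurve Polynomial

noncomputable section

namespace Fermat.Agent.S34x.Comp.H23

open Fermat.Agent.S18x.Dict.H20 Fermat.Agent.S18x.Qepo Fermat.Agent.S34x.Val.H2
  Fermat.Agent.S34x.Val.H6 Fermat.Agent.S28.Asm

variable {K : Type} [Field K] (O : ValuationSubring K) [IsDiscreteValuationRing O]
  (M N : ℕ) [NeZero M] [NeZero N] (hMN : M ∣ N) (q : ℕ) [NeZero q] (hqN : q ∣ N)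
  [Algebra O (FM K M)] [IsScalarTower O K (FM K M)]
  [Algebra O (FM K N)] [IsScalarTower O K (FM K N)]
  (π : O)

/-- **`hresα`** of `h7_comp_abs` at the instance. -/
theorem h23_resα_inst (e₁ : FM K N)
    (hm₁ : ∀ P : (gaussValM O M)[X],
      H2In (h6V O M N hMN q hqN) (algebraMap O (FM K N) π) e₁ (h6ev O M N hMN q hqN P) ↔
        (X - C (h6jbar O M ^ q)) ∣ P.map (IsLocalRing.residue (gaussValM O M))) :
    ∀ v ∈ h6V O M N hMN q hqN, ∃ w ∈ gaussValM O M,
      H2In (h6V O M N hMN q hqN) (algebraMap O (FM K N) π) e₁ (v - h6incl M N hMN w) := by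
  letI := h6alg (K := K) M N hMN
  have hπeq : algebraMap (FM K M) (FM K N) (unifM O M π) = algebraMap O (FM K N) π :=
    h6incl_unifM O M N hMN π
  intro v hv
  have hm₁' : ∀ P : (gaussValM O M)[X],
      H2In (h2A (gaussValM O M) (jbdFull K N q hqN)) (algebraMap (FM K M) (FM K N) (unifM O M π))
        e₁ (h2ev (gaussValM O M) (jbdFull K N q hqN) P) ↔
        (X - C (h6jbar O M ^ q)) ∣ P.map (IsLocalRing.residue (gaussValM O M)) := by
    intro P
    rw [hπeq]
    exact hm₁ P
  obtain ⟨w, hw, h⟩ := h23_res (W := gaussValM O M) (π := unifM O M π)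
    (x := jbdFull K N q hqN) e₁ (X - C (h6jbar O M ^ q)) (jM O M ^ q)
    (congrArg (fun t => (X - C t : (IsLocalRing.ResidueField (gaussValM O M))[X]))
      (map_pow (IsLocalRing.residue (gaussValM O M)) (jM O M) q).symm) hm₁' v hv
  rw [hπeq] at h
  exact ⟨w, hw, h⟩

end Fermat.Agent.S34x.Comp.H23
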