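import Mathlib
import Fermat.Agent.S34x.Val.H6_Inst
import Fermat.Agent.S34x.Comp.H17_CompChart
import Fermat.Agent.S34x.Comp.H23_ResInst

/-!
# W10 (S34), stage (C) COMP: the instance, generic coordinate (helper7)

Setting of helper6's `H6_Inst`: `K` a field of characteristic `0`, `O : ValuationSubring K` a
discrete valuation ring with uniformiser `π` and residue characteristic `q`, `M ∣ N`, `q ∣ N`,
`F_M ⊆ F_N`, `W = gaussValM O M`, `V = h6V = W[j_q]`, `α = h6incl`, `β : F_M → F_N` the second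
degeneracy map (`Q ↦ Q^q`).

* `h7_inst_hq` : `q ∈ 𝔪₂`;
* `h7_inst_hkron` : Kronecker's congruence `j_q ^ q - j ∈ 𝔪₂`;
* `h7_comp_inst_gen` : `H7Comp` for the chart of a coordinate `x_N` of level `N`, from the
  level-`M` pack of the coordinate `x_M` and the named leaf inputs.
-/

set_option autoImplicit false
set_option linter.unusedSectionVars false
set_option linter.style.haveILetI false

open ModularCurve Polynomial

noncomputable section

namespace Fermat.Agent.S34x.Comp.H7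

open Fermat.Agent.S18x.Dict.H20 Fermat.Agent.S18x.Qepo Fermat.Agent.S34x.Val.H2
  Fermat.Agent.S34x.Val.H6 Fermat.Agent.S28.Asm Fermat.Agent.S18x.Spec.H26
  Fermat.Agent.S34x.Comp.H17 Fermat.Agent.S34x.Comp.H23

variable {K : Type} [Field K] (O : ValuationSubring K) [IsDiscreteValuationRing O]
  (M N : ℕ) [NeZero M] [NeZero N] (hMN : M ∣ N) (q : ℕ) [NeZero q] (hq : q.Prime) (hqN : q ∣ N)
  [Algebra O (FM K M)] [IsScalarTower O K (FM K M)]
  [Algebra O (FM K N)] [IsScalarTower O K (FM K N)]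
  (π : O) (hπ : Irreducible π)

include hπ in
/-- `q ∈ 𝔪_e` for every component. -/
theorem h7_inst_hq {e : FM K N}
    (hc : H2Comp (h6V O M N hMN q hqN) (algebraMap O (FM K N) π) e)
    (hq0 : (q : IsLocalRing.ResidueField O) = 0) :
    H2In (h6V O M N hMN q hqN) (algebraMap O (FM K N) π) e ((q : ℕ) : FM K N) := by
  have h1 : ((q : ℕ) : O) ∈ IsLocalRing.maximalIdeal O := by
    rw [← IsLocalRing.residue_eq_zero_iff, map_natCast]
    exact hq0
  rw [hπ.maximalIdeal_eq, Ideal.mem_span_singleton] at h1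
  obtain ⟨c, hqc⟩ := h1
  have h2 : ((q : ℕ) : FM K N) = algebraMap O (FM K N) π * algebraMap O (FM K N) c := by
    rw [← map_mul, ← hqc, map_natCast]
  rw [h2]
  exact hc.in_of_div ⟨_, h6_hOV O M N hMN q hqN c, rfl⟩

/-- **Kronecker's congruence**: `j_q ^ q - j ∈ 𝔪₂`. -/
theorem h7_inst_hkron (e₂ : FM K N)
    (hm₂ : ∀ P : (gaussValM O M)[X],
      H2In (h6V O M N hMN q hqN) (algebraMap O (FM K N) π) e₂ (h6ev O M N hMN q hqN P) ↔
        (X ^ q - C (h6jbar O M)) ∣ P.map (IsLocalRing.residue (gaussValM O M))) :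
    H2In (h6V O M N hMN q hqN) (algebraMap O (FM K N) π) e₂
      (jbdFull K N q hqN ^ q - h6incl M N hMN (jbFull K M)) := by
  have h1 := (hm₂ (X ^ q - C (jM O M))).mpr (by
    rw [Polynomial.map_sub, Polynomial.map_pow, Polynomial.map_X, Polynomial.map_C]
    exact dvd_refl _)
  rw [map_sub, map_pow, h6ev_X, h6ev_C] at h1
  exact h1

/-- `α` is `O`-linear. -/
theorem h7_inst_hαO (c : O) :
    h6incl M N hMN (algebraMap O (FM K M) c) = algebraMap O (FM K N) c := by
  apply Subtype.ext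
  rw [h6incl_coe, coe_algebraMap_O, coe_algebraMap_O]

include hπ hq in
/-- **Stage (C) at the instance, generic coordinate**: `H7Comp` for the chart of `x_N`. -/
theorem h7_comp_inst_gen (xM : FM K M) (xN : FM K N)
    (hq0 : (q : IsLocalRing.ResidueField O) = 0) (hgen : H6Gen (K := K) M N q)
    -- the level-`M` pack
    (H : Fermat.Agent.S18x.IG.HSMChart O xM π)
    (hBW : (chart O xM).toSubring ≤ (gaussValM O M).toSubring)
    [IsNoetherianRing (chart O xM).toSubring]
    (hprime : (Ideal.span {(⟨algebraMap O (FM K M) π, (chart O xM).algebraMap_mem π⟩ :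
      (chart O xM).toSubring)}).IsPrime)
    (hfracW : ∀ w ∈ (gaussValM O M).toSubring, ∃ a s : (chart O xM).toSubring,
      (s : FM K M) ≠ 0 ∧ (s : FM K M)⁻¹ ∈ (gaussValM O M).toSubring ∧
        w * (s : FM K M) = (a : FM K M))
    -- the level-`N` chart
    [IsNoetherianRing (chart O xN).toSubring]
    (hBV : (chart O xN).toSubring ≤ h6V O M N hMN q hqN)
    (hsat : ∀ v ∈ h6V O M N hMN q hqN,
      algebraMap O (FM K N) π * v ∈ (chart O xN).toSubring → v ∈ (chart O xN).toSubring)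
    -- the two degeneracy maps
    (hαB : ∀ a ∈ (chart O xM).toSubring, h6incl M N hMN a ∈ (chart O xN).toSubring)
    (β : FM K M →+* FM K N)
    (hβO : ∀ c : O, β (algebraMap O (FM K M) c) = algebraMap O (FM K N) c)
    (hβB : ∀ a ∈ (chart O xM).toSubring, β a ∈ (chart O xN).toSubring)
    (hβV : ∀ w ∈ (gaussValM O M).toSubring, β w ∈ h6V O M N hMN q hqN)
    (hresβ : ∀ e₂ : FM K N,
      (∀ P : (gaussValM O M)[X],
        H2In (h6V O M N hMN q hqN) (algebraMap O (FM K N) π) e₂ (h6ev O M N hMN q hqN P) ↔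
          (X ^ q - C (h6jbar O M)) ∣ P.map (IsLocalRing.residue (gaussValM O M))) →
      ∀ v ∈ h6V O M N hMN q hqN, ∃ w ∈ (gaussValM O M).toSubring,
        H2In (h6V O M N hMN q hqN) (algebraMap O (FM K N) π) e₂ (v - β w))
    -- the separating elements
    (hsep : ∀ e₁ e₂ : FM K N,
      H2Two (h6V O M N hMN q hqN) (algebraMap O (FM K N) π) e₁ e₂ →
      (∃ b ∈ (chart O xN).toSubring,
        H2In (h6V O M N hMN q hqN) (algebraMap O (FM K N) π) e₁ b ∧
          ¬ H2In (h6V O M N hMN q hqN) (algebraMap O (FM K N) π) e₂ b) ∧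
      (∃ b ∈ (chart O xN).toSubring,
        H2In (h6V O M N hMN q hqN) (algebraMap O (FM K N) π) e₂ b ∧
          ¬ H2In (h6V O M N hMN q hqN) (algebraMap O (FM K N) π) e₁ b))
    -- (PINS)
    (hpins : ∀ e₂ : FM K N,
      H2Comp (h6V O M N hMN q hqN) (algebraMap O (FM K N) π) e₂ →
      ∀ a ∈ (gaussValM O M).toSubring, ∃ c : Fin q → FM K N,
        (∀ i, c i ∈ h6V O M N hMN q hqN) ∧
        H2In (h6V O M N hMN q hqN) (algebraMap O (FM K N) π) e₂
          (h6incl M N hMN a - ∑ i, c i ^ q * h6incl M N hMN (jbFull K M) ^ (i : ℕ))) :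
    H7Comp (⟨algebraMap O (FM K N) π, (chart O xN).algebraMap_mem π⟩ :
      (chart O xN).toSubring) := by
  haveI : Fact q.Prime := ⟨hq⟩
  obtain ⟨e₁, e₂, h2, hm₁, hm₂⟩ := h6_two O M N hMN q hq hqN π hπ hq0 hgen
  obtain ⟨hs₁₂, hs₂₁⟩ := hsep e₁ e₂ h2
  exact h17_comp_chart (h6incl M N hMN) β (h7_inst_hαO O M N hMN) hβO xM xN π hπ H
    (gaussValM O M).toSubring (h6V O M N hMN q hqN) hBW hBV h2 hsat hαB hβB
    (fun w hw => h6V_incl O M N hMN q hqN w hw) hβV hprime hfracW
    (h23_resα_inst O M N hMN q hqN π e₁ hm₁) (hresβ e₂ hm₂) hs₁₂ hs₂₁ q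
    (h7_inst_hq O M N hMN q hqN π hπ h2.c₂ hq0)
    (h6incl M N hMN (jbFull K M)) (jbdFull K N q hqN)
    (h6V_incl O M N hMN q hqN _ (jM O M).2) (h6V_jq O M N hMN q hqN)
    (h7_inst_hkron O M N hMN q hqN π e₂ hm₂) (hpins e₂ h2.c₂)

end Fermat.Agent.S34x.Comp.H7
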