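import Mathlib
import Fermat.Agent.S34x.Cross.H18_PackGeom
import Fermat.Agent.S34x.Comp.H7_CompInst
import Fermat.Agent.S34x.Comp.H20_LevelM
import Fermat.Agent.S34x.Comp.H22_CompInputsAlpha
import Fermat.Agent.S34x.Comp.H22_NoethN
import Fermat.Agent.S34x.Comp.H22_BetaFinal
import Fermat.Agent.S34x.Comp.H13_BetaPlug
import Fermat.Agent.S34x.Comp.H15_SepPlug
import Fermat.Agent.S34x.Comp.H4_PinsPlug
import Fermat.Agent.S34x.Val.H6_GenK
import Fermat.Agent.S34x.Sat.H21_SatCoord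

/-!
# W10 / S34, stage (C) at the `K`-level (helper15, audit v2): `H18CompGeom₂`, `H18CompGeom₃`

The concrete wrapper: helper7's `h7_comp_inst_gen` at `K : IntermediateField ℚ ℚ̄` finite,
`O = B ∩ K`, levels `M` and `M * q`, the Hauptmodul of level `2` / `3` and its inverse, with
every binder discharged by the leaf on main.
-/

set_option autoImplicit false
set_option linter.unusedSectionVars false
set_option linter.unusedVariables false
set_option linter.style.haveILetI false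
set_option synthInstance.maxHeartbeats 400000
set_option maxHeartbeats 4000000

noncomputable section

namespace Fermat.Agent.S34x.Comp.H15

open AlgebraicCurve ModularCurve IntermediateField Polynomial
open Fermat.Agent.S18x.Dict.H20 Fermat.Agent.S18x.Dict.H22 Fermat.Agent.S18x.Dict.H23
open Fermat.Agent.S18x.Spec.H26 Fermat.Agent.S18x.IG.H28 Fermat.Agent.S18x.Qepo
open Fermat.Agent.S34x.Val.H6 Fermat.Agent.S34x.Val.H2
open Fermat.Agent.S34x.Comp.H7 Fermat.Agent.S34x.Comp.H20 Fermat.Agent.S34x.Comp.H22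
open Fermat.Agent.S34x.Comp.H13 Fermat.Agent.S34x.Comp.H11B Fermat.Agent.S34x.Comp.H4
open Fermat.Agent.S34x.Cross.H18 Fermat.Agent.S34x.Sat.H21

local notation "Lbar" => AlgebraicClosure ℚ

section Gen

variable {K : Type} [Field K] [CharZero K] (O : ValuationSubring K)
  [IsDiscreteValuationRing O]
  (M q : ℕ) [NeZero M] [NeZero q] [NeZero (M * q)] (hq : q.Prime) (hqM : ¬ q ∣ M)
  [Algebra O (FM K M)] [IsScalarTower O K (FM K M)]
  [Algebra O (FM K (M * q))] [IsScalarTower O K (FM K (M * q))]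
  [CharP (IsLocalRing.ResidueField O) q] [Finite (IsLocalRing.ResidueField O)]
  (π : O) (hπ : Irreducible π) (hgen : H6Gen (K := K) M (M * q) q)
  (hO : O.LiesOverPrime q)

include hq hqM hπ hgen hO in
/-- Stage (C) on the two charts of the Hauptmodul of level `2`, from the level-`M` pack. -/
theorem h15_comp₂_of_levelM (hM2 : 2 ∣ M)
    (L : H20LevelM O (gaussValM O M).toSubring (coord2 K M hM2) π ∧
      H20LevelM O (gaussValM O M).toSubring (coord2 K M hM2)⁻¹ π) :
    H7Comp (⟨algebraMap O (FM K (M * q)) π,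
        (chart O (coord2 K (M * q) (Dvd.dvd.mul_right hM2 q))).algebraMap_mem π⟩ :
      (chart O (coord2 K (M * q) (Dvd.dvd.mul_right hM2 q))).toSubring) ∧
    H7Comp (⟨algebraMap O (FM K (M * q)) π,
        (chart O (coord2 K (M * q) (Dvd.dvd.mul_right hM2 q))⁻¹).algebraMap_mem π⟩ :
      (chart O (coord2 K (M * q) (Dvd.dvd.mul_right hM2 q))⁻¹).toSubring) := by
  haveI : Fact q.Prime := ⟨hq⟩
  have hq2 : q ≠ 2 := fun h => hqM (h ▸ hM2)
  have hq0 : (q : IsLocalRing.ResidueField O) = 0 := CharP.cast_eq_zero _ q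
  have hMN : M ∣ M * q := Dvd.intro q rfl
  have hqN : q ∣ M * q := Dvd.intro_left M rfl
  have hN2 : 2 ∣ M * q := Dvd.dvd.mul_right hM2 q
  obtain ⟨⟨hn1, hprime1, hfracW1, H1⟩, ⟨hn2, hprime2, hfracW2, H2⟩⟩ := L
  obtain ⟨hsat1, hsat2, -⟩ := h21_sat_coord2 O M (M * q) hMN hN2 π hπ q hqM hq2
    (h6V O M (M * q) hMN q hqN) (h6V_le_gens O M (M * q) hMN q hqN hq)
    (h6_coord_mem O M (M * q) hMN q hqN Fermat.Agent.S18x.IG.H28.h2
      (h2_mem_full K M hM2) (h2_mem_full K (M * q) hN2))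
  obtain ⟨hβB1, hβB2⟩ := h22_hβB_two_final K O M (M * q) q hq hq2 hM2 hN2 (dvd_refl _) hO
  have hsep := h15_hsep_plug_two O M (M * q) hMN q hq hqN π hπ hM2 hN2 hq0 hgen
  have hτ := h11Beta_coe K M (M * q) q (dvd_refl _)
  constructor
  · haveI := hn1
    haveI := h22_noeth_coord2 O (M * q) hN2
    exact h7_comp_inst_gen O M (M * q) hMN q hq hqN π hπ (coord2 K M hM2)
      (coord2 K (M * q) hN2) hq0 hgen H1
      (h22_hBW O M Fermat.Agent.S18x.IG.H28.h2 (h2_mem_full K M hM2)) hprime1 hfracW1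
      (h22_hBV_inst O M (M * q) hMN q hqN π hπ hq Fermat.Agent.S18x.IG.H28.h2
        (h2_mem_full K M hM2) (h2_mem_full K (M * q) hN2) hq0 hgen)
      hsat1
      (h22_hαB O M (M * q) hMN Fermat.Agent.S18x.IG.H28.h2
        (h2_mem_full K M hM2) (h2_mem_full K (M * q) hN2))
      (h11Beta K M (M * q) q (dvd_refl _))
      (h13_tau_const O M (M * q) q _ hτ) hβB1
      (h13_hβV_plug O M (M * q) hMN q hq hqN π hπ hqM hq0 hgen _ hτ)
      (h13_hresβ_plug O M (M * q) hMN q hq hqN π hπ hqM hq0 hgen _ hτ)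
      hsep.1
      (fun e₂ hc => h4_pins_plug_finite O M (M * q) hMN q hq hqN π hπ hc hq0 hqM)
  · haveI := hn2
    haveI := h22_noeth_coord2_inv O (M * q) hN2
    exact h7_comp_inst_gen O M (M * q) hMN q hq hqN π hπ (coord2 K M hM2)⁻¹
      (coord2 K (M * q) hN2)⁻¹ hq0 hgen H2
      (h22_hBW_inv O M Fermat.Agent.S18x.IG.H28.h2 coeff_h2_neg_one (h2_mem_full K M hM2))
      hprime2 hfracW2
      (h22_hBV_inv_inst O M (M * q) hMN q hqN π hπ hq Fermat.Agent.S18x.IG.H28.h2
        coeff_h2_neg_one (h2_mem_full K M hM2) (h2_mem_full K (M * q) hN2) hq0 hgen)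
      hsat2
      (h22_hαB_inv O M (M * q) hMN Fermat.Agent.S18x.IG.H28.h2
        (h2_mem_full K M hM2) (h2_mem_full K (M * q) hN2))
      (h11Beta K M (M * q) q (dvd_refl _))
      (h13_tau_const O M (M * q) q _ hτ) hβB2
      (h13_hβV_plug O M (M * q) hMN q hq hqN π hπ hqM hq0 hgen _ hτ)
      (h13_hresβ_plug O M (M * q) hMN q hq hqN π hπ hqM hq0 hgen _ hτ)
      hsep.2
      (fun e₂ hc => h4_pins_plug_finite O M (M * q) hMN q hq hqN π hπ hc hq0 hqM)

include hq hqM hπ hgen hO in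
/-- Stage (C) on the two charts of the Hauptmodul of level `3`, from the level-`M` pack. -/
theorem h15_comp₃_of_levelM (hM3 : 3 ∣ M)
    (L : H20LevelM O (gaussValM O M).toSubring (coord3 K M hM3) π ∧
      H20LevelM O (gaussValM O M).toSubring (coord3 K M hM3)⁻¹ π) :
    H7Comp (⟨algebraMap O (FM K (M * q)) π,
        (chart O (coord3 K (M * q) (Dvd.dvd.mul_right hM3 q))).algebraMap_mem π⟩ :
      (chart O (coord3 K (M * q) (Dvd.dvd.mul_right hM3 q))).toSubring) ∧
    H7Comp (⟨algebraMap O (FM K (M * q)) π,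
        (chart O (coord3 K (M * q) (Dvd.dvd.mul_right hM3 q))⁻¹).algebraMap_mem π⟩ :
      (chart O (coord3 K (M * q) (Dvd.dvd.mul_right hM3 q))⁻¹).toSubring) := by
  haveI : Fact q.Prime := ⟨hq⟩
  have hq3 : q ≠ 3 := fun h => hqM (h ▸ hM3)
  have hq0 : (q : IsLocalRing.ResidueField O) = 0 := CharP.cast_eq_zero _ q
  have hMN : M ∣ M * q := Dvd.intro q rfl
  have hqN : q ∣ M * q := Dvd.intro_left M rfl
  have hN3 : 3 ∣ M * q := Dvd.dvd.mul_right hM3 q
  obtain ⟨⟨hn1, hprime1, hfracW1, H1⟩, ⟨hn2, hprime2, hfracW2, H2⟩⟩ := L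
  obtain ⟨hsat1, hsat2, -⟩ := h21_sat_coord3 O M (M * q) hMN hN3 π hπ q hqM hq3
    (h6V O M (M * q) hMN q hqN) (h6V_le_gens O M (M * q) hMN q hqN hq)
    (h6_coord_mem O M (M * q) hMN q hqN Fermat.Agent.S18x.IG.H28.h3
      (h3_mem_full K M hM3) (h3_mem_full K (M * q) hN3))
  obtain ⟨hβB1, hβB2⟩ := h22_hβB_three_final K O M (M * q) q hq hq3 hM3 hN3 (dvd_refl _) hO
  have hsep := h15_hsep_plug_three O M (M * q) hMN q hq hqN π hπ hM3 hN3 hq0 hgen
  have hτ := h11Beta_coe K M (M * q) q (dvd_refl _)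
  constructor
  · haveI := hn1
    haveI := h22_noeth_coord3 O (M * q) hN3
    exact h7_comp_inst_gen O M (M * q) hMN q hq hqN π hπ (coord3 K M hM3)
      (coord3 K (M * q) hN3) hq0 hgen H1
      (h22_hBW O M Fermat.Agent.S18x.IG.H28.h3 (h3_mem_full K M hM3)) hprime1 hfracW1
      (h22_hBV_inst O M (M * q) hMN q hqN π hπ hq Fermat.Agent.S18x.IG.H28.h3
        (h3_mem_full K M hM3) (h3_mem_full K (M * q) hN3) hq0 hgen)
      hsat1
      (h22_hαB O M (M * q) hMN Fermat.Agent.S18x.IG.H28.h3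
        (h3_mem_full K M hM3) (h3_mem_full K (M * q) hN3))
      (h11Beta K M (M * q) q (dvd_refl _))
      (h13_tau_const O M (M * q) q _ hτ) hβB1
      (h13_hβV_plug O M (M * q) hMN q hq hqN π hπ hqM hq0 hgen _ hτ)
      (h13_hresβ_plug O M (M * q) hMN q hq hqN π hπ hqM hq0 hgen _ hτ)
      hsep.1
      (fun e₂ hc => h4_pins_plug_finite O M (M * q) hMN q hq hqN π hπ hc hq0 hqM)
  · haveI := hn2
    haveI := h22_noeth_coord3_inv O (M * q) hN3
    exact h7_comp_inst_gen O M (M * q) hMN q hq hqN π hπ (coord3 K M hM3)⁻¹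
      (coord3 K (M * q) hN3)⁻¹ hq0 hgen H2
      (h22_hBW_inv O M Fermat.Agent.S18x.IG.H28.h3 coeff_h3_neg_one (h3_mem_full K M hM3))
      hprime2 hfracW2
      (h22_hBV_inv_inst O M (M * q) hMN q hqN π hπ hq Fermat.Agent.S18x.IG.H28.h3
        coeff_h3_neg_one (h3_mem_full K M hM3) (h3_mem_full K (M * q) hN3) hq0 hgen)
      hsat2
      (h22_hαB_inv O M (M * q) hMN Fermat.Agent.S18x.IG.H28.h3
        (h3_mem_full K M hM3) (h3_mem_full K (M * q) hN3))
      (h11Beta K M (M * q) q (dvd_refl _))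
      (h13_tau_const O M (M * q) q _ hτ) hβB2
      (h13_hβV_plug O M (M * q) hMN q hq hqN π hπ hqM hq0 hgen _ hτ)
      (h13_hresβ_plug O M (M * q) hMN q hq hqN π hπ hqM hq0 hgen _ hτ)
      hsep.2
      (fun e₂ hc => h4_pins_plug_finite O M (M * q) hMN q hq hqN π hπ hc hq0 hqM)

end Gen

/-! ### The concrete setting -/

section Concrete

variable (M q : ℕ) [NeZero (M * q)] (hq : q.Prime) (hqM : ¬ q ∣ M)
  (B : ValuationSubring Lbar) (hB : B.LiesOverPrime q)

include hq hqM hB in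
/-- **Stage (C) at the `K`-level, Hauptmodul of level `2`**: helper18's `H18CompGeom₂`, with no
hypothesis left. -/
theorem h15_compGeom₂ (hM2 : 2 ∣ M) :
    H18CompGeom₂ (M * q) (Dvd.dvd.mul_right hM2 q) B := by
  intro K hKfin hdvr π₀ hπ₀
  haveI : NeZero M := ⟨fun h => NeZero.ne (M * q) (by rw [h, zero_mul])⟩
  haveI : NeZero q := ⟨hq.ne_zero⟩
  haveI : CharP (IsLocalRing.ResidueField (B.comap (algebraMap ↥K Lbar))) q :=
    h23_charP_residueField B hq hB
  haveI : IsScalarTower (B.comap (algebraMap ↥K Lbar)) ↥K ↥(modularFunctionFieldFullC ↥K M) :=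
    IsScalarTower.of_algebraMap_eq (fun c => rfl)
  haveI : IsScalarTower (B.comap (algebraMap ↥K Lbar)) ↥K
      ↥(modularFunctionFieldFullC ↥K (M * q)) :=
    IsScalarTower.of_algebraMap_eq (fun c => rfl)
  haveI : Finite (IsLocalRing.ResidueField (B.comap (algebraMap ↥K Lbar))) :=
    h23_finite_residueField_intermediate B hq hB K
  have hq2 : q ≠ 2 := fun h => hqM (h ▸ hM2)
  exact h15_comp₂_of_levelM (B.comap (algebraMap ↥K Lbar)) M q hq hqM π₀ hπ₀
    (h6GenK K M q hq (M * q) (Dvd.intro q rfl) (Dvd.intro_left M rfl) rfl hqM)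
    (h23_liesOver_comap B hB) hM2 (h20_levelM_two B hq hB M hq2 hM2 hqM K π₀ hπ₀)

include hq hqM hB in
/-- **Stage (C) at the `K`-level, Hauptmodul of level `3`**: helper18's `H18CompGeom₃`, with no
hypothesis left. -/
theorem h15_compGeom₃ (hM3 : 3 ∣ M) :
    H18CompGeom₃ (M * q) (Dvd.dvd.mul_right hM3 q) B := by
  intro K hKfin hdvr π₀ hπ₀
  haveI : NeZero M := ⟨fun h => NeZero.ne (M * q) (by rw [h, zero_mul])⟩
  haveI : NeZero q := ⟨hq.ne_zero⟩
  haveI : CharP (IsLocalRing.ResidueField (B.comap (algebraMap ↥K Lbar))) q :=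
    h23_charP_residueField B hq hB
  haveI : IsScalarTower (B.comap (algebraMap ↥K Lbar)) ↥K ↥(modularFunctionFieldFullC ↥K M) :=
    IsScalarTower.of_algebraMap_eq (fun c => rfl)
  haveI : IsScalarTower (B.comap (algebraMap ↥K Lbar)) ↥K
      ↥(modularFunctionFieldFullC ↥K (M * q)) :=
    IsScalarTower.of_algebraMap_eq (fun c => rfl)
  haveI : Finite (IsLocalRing.ResidueField (B.comap (algebraMap ↥K Lbar))) :=
    h23_finite_residueField_intermediate B hq hB K
  have hq3 : q ≠ 3 := fun h => hqM (h ▸ hM3)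
  exact h15_comp₃_of_levelM (B.comap (algebraMap ↥K Lbar)) M q hq hqM π₀ hπ₀
    (h6GenK K M q hq (M * q) (Dvd.intro q rfl) (Dvd.intro_left M rfl) rfl hqM)
    (h23_liesOver_comap B hB) hM3 (h20_levelM_three B hq hB M hq3 hM3 hqM K π₀ hπ₀)

end Concrete

end Fermat.Agent.S34x.Comp.H15
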