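import Mathlib
import Fermat.Agent.S34x.Comp.H7_CompInst
import Fermat.Agent.S34x.Comp.H20_LevelM
import Fermat.Agent.S34x.Comp.H22_CompInputsAlpha
import Fermat.Agent.S34x.Comp.H11_Beta
import Fermat.Agent.S34x.Comp.H13_BetaPlug
import Fermat.Agent.S34x.Comp.H14_BetaIntFinal
import Fermat.Agent.S34x.Comp.H15_SepPlug
import Fermat.Agent.S34x.Comp.H4_PinsPlug
import Fermat.Agent.S34x.Sat.H21_SatCoord

/-!
# W10 (S34), stage (C) COMP: the export at the Hauptmodul charts (helper7)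

`h7_comp_inst_gen` with every leaf plugged in, for the Hauptmodul of level `p₀ ∈ {2, 3}` and its
inverse, at the levels `M ∣ N`, `M * q ∣ N` (application `N = M * q`), `p₀ ∣ M`, `q ∤ M`, `q` the
residue characteristic of the discrete valuation ring `O` with finite residue field.

The only inputs left are `H6Gen M N q` (helper6's `h6GenK` over a number field) and the
level-`M` packs `H20LevelM` of the two charts (helper20's `h20_levelM_two` / `h20_levelM_three`,
which exist over the number fields `K ⊆ ℚ̄`).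

* `h7_comp_coord` : one chart, generic coordinates, from the chart-dependent leaves;
* `h7_comp_two`, `h7_comp_three` : `hcomp₁ ∧ hcomp₂` of `h18_base_geom₂` / `h18_base_geom₃`.
-/

set_option autoImplicit false
set_option linter.unusedSectionVars false
set_option linter.unusedVariables false
set_option linter.style.haveILetI false
set_option synthInstance.maxHeartbeats 400000
set_option maxHeartbeats 1000000

open ModularCurve Polynomial

noncomputable section

namespace Fermat.Agent.S34x.Comp.H7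

open Fermat.Agent.S18x.Dict.H20 Fermat.Agent.S18x.Qepo Fermat.Agent.S34x.Val.H2
  Fermat.Agent.S34x.Val.H6 Fermat.Agent.S28.Asm Fermat.Agent.S18x.Spec.H26
  Fermat.Agent.S18x.IG.H28 Fermat.Agent.S18x.IG.H29
  Fermat.Agent.S34x.Comp.H20 Fermat.Agent.S34x.Comp.H22 Fermat.Agent.S34x.Comp.H11B
  Fermat.Agent.S34x.Comp.H13 Fermat.Agent.S34x.Comp.H14 Fermat.Agent.S34x.Comp.H15
  Fermat.Agent.S34x.Comp.H4 Fermat.Agent.S34x.Sat.H21

variable {K : Type} [Field K] [CharZero K] (O : ValuationSubring K) [IsDiscreteValuationRing O]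
  (M N : ℕ) [NeZero M] [NeZero N] (hMN : M ∣ N) (q : ℕ) [NeZero q] (hq : q.Prime) (hqN : q ∣ N)
  [Algebra O (FM K M)] [IsScalarTower O K (FM K M)]
  [Algebra O (FM K N)] [IsScalarTower O K (FM K N)]
  (π : O) (hπ : Irreducible π)
  [CharP (IsLocalRing.ResidueField O) q] [Finite (IsLocalRing.ResidueField O)]

include hπ hq in
/-- **Stage (C) at one chart**, all the chart-independent leaves plugged in. -/
theorem h7_comp_coord (hMqN : M * q ∣ N) (hqM : ¬ q ∣ M)
    (hgen : H6Gen (K := K) M N q) (xM : FM K M) (xN : FM K N)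
    (L : H20LevelM O (gaussValM O M).toSubring xM π)
    (hBW : (chart O xM).toSubring ≤ (gaussValM O M).toSubring)
    (hN : IsNoetherianRing (chart O xN).toSubring)
    (hBV : (chart O xN).toSubring ≤ h6V O M N hMN q hqN)
    (hsat : ∀ v ∈ h6V O M N hMN q hqN,
      algebraMap O (FM K N) π * v ∈ (chart O xN).toSubring → v ∈ (chart O xN).toSubring)
    (hαB : ∀ a ∈ (chart O xM).toSubring, h6incl M N hMN a ∈ (chart O xN).toSubring)
    (hβB : ∀ a ∈ (chart O xM).toSubring, h11Beta K M N q hMqN a ∈ (chart O xN).toSubring)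
    (hsep : ∀ e₁ e₂ : FM K N,
      H2Two (h6V O M N hMN q hqN) (algebraMap O (FM K N) π) e₁ e₂ →
      (∃ b ∈ (chart O xN).toSubring,
        H2In (h6V O M N hMN q hqN) (algebraMap O (FM K N) π) e₁ b ∧
          ¬ H2In (h6V O M N hMN q hqN) (algebraMap O (FM K N) π) e₂ b) ∧
      (∃ b ∈ (chart O xN).toSubring,
        H2In (h6V O M N hMN q hqN) (algebraMap O (FM K N) π) e₂ b ∧
          ¬ H2In (h6V O M N hMN q hqN) (algebraMap O (FM K N) π) e₁ b)) :
    H7Comp (⟨algebraMap O (FM K N) π, (chart O xN).algebraMap_mem π⟩ :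
      (chart O xN).toSubring) := by
  have hq0 : (q : IsLocalRing.ResidueField O) = 0 := CharP.cast_eq_zero _ q
  obtain ⟨hn, hprime, hfracW, H⟩ := L
  haveI := hn
  haveI := hN
  exact h7_comp_inst_gen O M N hMN q hq hqN π hπ xM xN hq0 hgen H hBW hprime hfracW hBV hsat
    hαB (h11Beta K M N q hMqN)
    (h13_tau_const O M N q (h11Beta K M N q hMqN) (h11Beta_coe K M N q hMqN)) hβB
    (h13_hβV_plug O M N hMN q hq hqN π hπ hqM hq0 hgen (h11Beta K M N q hMqN)
      (h11Beta_coe K M N q hMqN))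
    (h13_hresβ_plug O M N hMN q hq hqN π hπ hqM hq0 hgen (h11Beta K M N q hMqN)
      (h11Beta_coe K M N q hMqN))
    hsep (fun _ hc => h4_pins_plug_finite O M N hMN q hq hqN π hπ hc hq0 hqM)

include hπ hq hMN hqN in
/-- **Stage (C) COMP for the Hauptmodul of level `2`**: `hcomp₁ ∧ hcomp₂` of `h18_base_geom₂`. -/
theorem h7_comp_two (hM2 : 2 ∣ M) (hN2 : 2 ∣ N) (hMqN : M * q ∣ N) (hqM : ¬ q ∣ M)
    (hgen : H6Gen (K := K) M N q)
    (L₁ : H20LevelM O (gaussValM O M).toSubring (coord2 K M hM2) π)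
    (L₂ : H20LevelM O (gaussValM O M).toSubring (coord2 K M hM2)⁻¹ π) :
    H7Comp (⟨algebraMap O (FM K N) π, (chart O (coord2 K N hN2)).algebraMap_mem π⟩ :
      (chart O (coord2 K N hN2)).toSubring) ∧
    H7Comp (⟨algebraMap O (FM K N) π, (chart O (coord2 K N hN2)⁻¹).algebraMap_mem π⟩ :
      (chart O (coord2 K N hN2)⁻¹).toSubring) := by
  haveI : Fact q.Prime := ⟨hq⟩
  have hq0 : (q : IsLocalRing.ResidueField O) = 0 := CharP.cast_eq_zero _ q
  have hq2 : q ≠ 2 := fun h => hqM (h ▸ hM2)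
  obtain ⟨h1, h2', h3', -, -⟩ := coord_inputs O N h2 (h2_mem_full K N hN2) order_h2
    coeff_h2_neg_one
  obtain ⟨hsat₁, hsat₂, -⟩ := h21_sat_coord2 O M N hMN hN2 π hπ q hqM hq2
    (h6V O M N hMN q hqN) (h6V_le_gens O M N hMN q hqN hq)
    (h6_coord_mem O M N hMN q hqN h2 (h2_mem_full K M hM2) (h2_mem_full K N hN2))
  have hβB := h14_betaB_two_h11 K O M N q hq hq2 hMqN hM2 hq0 (h2_mem_full K M hM2)
    (h2_mem_full K N hN2)
  have hsep := h15_hsep_plug_two O M N hMN q hq hqN π hπ hM2 hN2 hq0 hgen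
  constructor
  · exact h7_comp_coord O M N hMN q hq hqN π hπ hMqN hqM hgen (coord2 K M hM2)
      (coord2 K N hN2) L₁
      (h22_hBW O M h2 (h2_mem_full K M hM2))
      (h26_isNoetherianRing_chart O h2' h3')
      (h22_hBV_inst O M N hMN q hqN π hπ hq h2 (h2_mem_full K M hM2) (h2_mem_full K N hN2)
        hq0 hgen)
      hsat₁
      (h22_hαB O M N hMN h2 (h2_mem_full K M hM2) (h2_mem_full K N hN2))
      hβB.1 hsep.1
  · exact h7_comp_coord O M N hMN q hq hqN π hπ hMqN hqM hgen (coord2 K M hM2)⁻¹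
      (coord2 K N hN2)⁻¹ L₂
      (h22_hBW_inv O M h2 coeff_h2_neg_one (h2_mem_full K M hM2))
      (h26_isNoetherianRing_chart O (h26_transcendental_inv O h1 h2')
        (h26_finOver_inv O h1 h3'))
      (h22_hBV_inv_inst O M N hMN q hqN π hπ hq h2 coeff_h2_neg_one (h2_mem_full K M hM2)
        (h2_mem_full K N hN2) hq0 hgen)
      hsat₂
      (h22_hαB_inv O M N hMN h2 (h2_mem_full K M hM2) (h2_mem_full K N hN2))
      hβB.2 hsep.2

include hπ hq hMN hqN in
/-- **Stage (C) COMP for the Hauptmodul of level `3`**: `hcomp₁ ∧ hcomp₂` of `h18_base_geom₃`. -/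
theorem h7_comp_three (hM3 : 3 ∣ M) (hN3 : 3 ∣ N) (hMqN : M * q ∣ N) (hqM : ¬ q ∣ M)
    (hgen : H6Gen (K := K) M N q)
    (L₁ : H20LevelM O (gaussValM O M).toSubring (coord3 K M hM3) π)
    (L₂ : H20LevelM O (gaussValM O M).toSubring (coord3 K M hM3)⁻¹ π) :
    H7Comp (⟨algebraMap O (FM K N) π, (chart O (coord3 K N hN3)).algebraMap_mem π⟩ :
      (chart O (coord3 K N hN3)).toSubring) ∧
    H7Comp (⟨algebraMap O (FM K N) π, (chart O (coord3 K N hN3)⁻¹).algebraMap_mem π⟩ :
      (chart O (coord3 K N hN3)⁻¹).toSubring) := by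
  haveI : Fact q.Prime := ⟨hq⟩
  have hq0 : (q : IsLocalRing.ResidueField O) = 0 := CharP.cast_eq_zero _ q
  have hq3 : q ≠ 3 := fun h => hqM (h ▸ hM3)
  obtain ⟨h1, h2', h3', -, -⟩ := coord_inputs O N h3 (h3_mem_full K N hN3) order_h3
    coeff_h3_neg_one
  obtain ⟨hsat₁, hsat₂, -⟩ := h21_sat_coord3 O M N hMN hN3 π hπ q hqM hq3
    (h6V O M N hMN q hqN) (h6V_le_gens O M N hMN q hqN hq)
    (h6_coord_mem O M N hMN q hqN h3 (h3_mem_full K M hM3) (h3_mem_full K N hN3))
  have hβB := h14_betaB_three_h11 K O M N q hq hq3 hMqN hM3 hq0 (h3_mem_full K M hM3)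
    (h3_mem_full K N hN3)
  have hsep := h15_hsep_plug_three O M N hMN q hq hqN π hπ hM3 hN3 hq0 hgen
  constructor
  · exact h7_comp_coord O M N hMN q hq hqN π hπ hMqN hqM hgen (coord3 K M hM3)
      (coord3 K N hN3) L₁
      (h22_hBW O M h3 (h3_mem_full K M hM3))
      (h26_isNoetherianRing_chart O h2' h3')
      (h22_hBV_inst O M N hMN q hqN π hπ hq h3 (h3_mem_full K M hM3) (h3_mem_full K N hN3)
        hq0 hgen)
      hsat₁
      (h22_hαB O M N hMN h3 (h3_mem_full K M hM3) (h3_mem_full K N hN3))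
      hβB.1 hsep.1
  · exact h7_comp_coord O M N hMN q hq hqN π hπ hMqN hqM hgen (coord3 K M hM3)⁻¹
      (coord3 K N hN3)⁻¹ L₂
      (h22_hBW_inv O M h3 coeff_h3_neg_one (h3_mem_full K M hM3))
      (h26_isNoetherianRing_chart O (h26_transcendental_inv O h1 h2')
        (h26_finOver_inv O h1 h3'))
      (h22_hBV_inv_inst O M N hMN q hqN π hπ hq h3 coeff_h3_neg_one (h3_mem_full K M hM3)
        (h3_mem_full K N hN3) hq0 hgen)
      hsat₂
      (h22_hαB_inv O M N hMN h3 (h3_mem_full K M hM3) (h3_mem_full K N hN3))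
      hβB.2 hsep.2

end Fermat.Agent.S34x.Comp.H7
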