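import Mathlib
import Fermat.Agent.S34x.Cross.H18_Final
import Fermat.Agent.S34x.Comp.H7_CompInst2

/-!
# W10 (S34), (W1): stage (C) at all levels, canonical instances (helper17)

`h17_stComp₂ : Cross.H18.H18StComp₂` and `h17_stComp₃ : Cross.H18.H18StComp₃`, the two
hypotheses of helper18's `h18_s34_of_comp`, with NO hypothesis left: helper7's `h7_comp_two` /
`h7_comp_three` at `N := M * q`, `O := B.comap (algebraMap K ℚ̄)`, the canonical algebra
instances, with

* the level-`M` packs from helper20's `h20_levelM_two` / `h20_levelM_three`,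
* (GEN) from helper6's `h6Gen'`,
* the residue characteristic and the finiteness of the residue field from `Dict.H23`.

`h17_s34` : the frozen statement S34 in the spelling of `h18_s34_of_comp`.
-/

set_option autoImplicit false
set_option linter.unusedSectionVars false
set_option linter.unusedVariables false
set_option linter.style.haveILetI false
set_option synthInstance.maxHeartbeats 400000
set_option maxHeartbeats 1000000

noncomputable section

namespace Fermat.Agent.S34x.Comp.H17

open AlgebraicCurve ModularCurve IntermediateField Polynomial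
open Fermat.Agent.S18x.Dict.H20 Fermat.Agent.S18x.Dict.H22 Fermat.Agent.S18x.Dict.H23
open Fermat.Agent.S18x.Spec.H26 Fermat.Agent.S18x.IG.H28
open Fermat.Agent.S34x.Desc.H12 Fermat.Agent.S34x.Val.H6 Fermat.Agent.S34x.Val.H2
open Fermat.Agent.S34x.Comp.H7 Fermat.Agent.S34x.Cross.H18 Fermat.Agent.S34x.Comp.H20

local notation "Lbar" => AlgebraicClosure ℚ

/-- **(W1), Hauptmodul of level `2`**: stage (C) at all levels. -/
theorem h17_stComp₂ : H18StComp₂ := by
  intro M q _ hq hqM hM2 B hB K _ _ π₀ hπ₀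
  haveI : NeZero M := ⟨fun h => NeZero.ne (M * q) (by rw [h, zero_mul])⟩
  haveI : NeZero q := ⟨hq.ne_zero⟩
  haveI : Fact q.Prime := ⟨hq⟩
  haveI : CharP (IsLocalRing.ResidueField (B.comap (algebraMap ↥K Lbar))) q :=
    h23_charP_residueField B hq hB
  haveI : Finite (IsLocalRing.ResidueField (B.comap (algebraMap ↥K Lbar))) :=
    h23_finite_residueField_intermediate B hq hB K
  haveI : IsScalarTower (B.comap (algebraMap ↥K Lbar)) ↥K ↥(modularFunctionFieldFullC ↥K M) :=
    IsScalarTower.of_algebraMap_eq (fun c => rfl)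
  haveI : IsScalarTower (B.comap (algebraMap ↥K Lbar)) ↥K
      ↥(modularFunctionFieldFullC ↥K (M * q)) :=
    IsScalarTower.of_algebraMap_eq (fun c => rfl)
  have hq2 : q ≠ 2 := fun h => hqM (h ▸ hM2)
  obtain ⟨emb⟩ := h18_exists_emb K
  have hgen := h6Gen' emb M q hq (M * q) (Dvd.intro q rfl) (Dvd.intro_left M rfl) rfl hqM
  obtain ⟨L1, L2⟩ := h20_levelM_two B hq hB M hq2 hM2 hqM K π₀ hπ₀
  exact h7_comp_two (B.comap (algebraMap ↥K Lbar)) M (M * q) (Dvd.intro q rfl) q hq
    (Dvd.intro_left M rfl) π₀ hπ₀ hM2 (Dvd.dvd.mul_right hM2 q) dvd_rfl hqM hgen L1 L2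

/-- **(W1), Hauptmodul of level `3`**: stage (C) at all levels. -/
theorem h17_stComp₃ : H18StComp₃ := by
  intro M q _ hq hqM hM3 B hB K _ _ π₀ hπ₀
  haveI : NeZero M := ⟨fun h => NeZero.ne (M * q) (by rw [h, zero_mul])⟩
  haveI : NeZero q := ⟨hq.ne_zero⟩
  haveI : Fact q.Prime := ⟨hq⟩
  haveI : CharP (IsLocalRing.ResidueField (B.comap (algebraMap ↥K Lbar))) q :=
    h23_charP_residueField B hq hB
  haveI : Finite (IsLocalRing.ResidueField (B.comap (algebraMap ↥K Lbar))) :=
    h23_finite_residueField_intermediate B hq hB K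
  haveI : IsScalarTower (B.comap (algebraMap ↥K Lbar)) ↥K ↥(modularFunctionFieldFullC ↥K M) :=
    IsScalarTower.of_algebraMap_eq (fun c => rfl)
  haveI : IsScalarTower (B.comap (algebraMap ↥K Lbar)) ↥K
      ↥(modularFunctionFieldFullC ↥K (M * q)) :=
    IsScalarTower.of_algebraMap_eq (fun c => rfl)
  have hq3 : q ≠ 3 := fun h => hqM (h ▸ hM3)
  obtain ⟨emb⟩ := h18_exists_emb K
  have hgen := h6Gen' emb M q hq (M * q) (Dvd.intro q rfl) (Dvd.intro_left M rfl) rfl hqM
  obtain ⟨L1, L2⟩ := h20_levelM_three B hq hB M hq3 hM3 hqM K π₀ hπ₀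
  exact h7_comp_three (B.comap (algebraMap ↥K Lbar)) M (M * q) (Dvd.intro q rfl) q hq
    (Dvd.intro_left M rfl) π₀ hπ₀ hM3 (Dvd.dvd.mul_right hM3 q) dvd_rfl hqM hgen L1 L2

/-- helper16's `K`-level geometric export, hypothesis-free. -/
theorem h17_stPackGeom : Fermat.Agent.S34x.Desc.H16.StPackGeom :=
  h18_stPackGeom h17_stComp₂ h17_stComp₃

/-- helper16's geometric export of W10, hypothesis-free. -/
theorem h17_stKumGeom : Fermat.Agent.S34x.Desc.H16.StKumGeom :=
  h18_stKumGeom h17_stComp₂ h17_stComp₃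

end Fermat.Agent.S34x.Comp.H17
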