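import Fermat.Agent.S28.Mod.H22_Charpoly
import Fermat.Agent.S37x.Kron.H2_Kron

/-!
# S34 (W10), stage (C), leaf (PHI-SHAPE) (helper1): the shape of the modular polynomial

`Φ = h2kronPhi q hq ∈ ℤ[Y][X]` (outer variable `X`, inner variable `Y`).  Every monomial
`X ^ i * Y ^ k` of `Φ` is `X ^ (q + 1)`, `Y ^ (q + 1)` or has `i, k ≤ q`; the coefficients of
`X ^ q * Y ^ q` and of `Y ^ (q + 1)` are prime to `q`.

The proof uses no two-variable algebra: over `ℚ((Q))` one has
`Φ(X ; j(Q)) = (X - j(Q ^ q)) * χ`, `χ` the characteristic polynomial of the multiplication by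
`j(t)` on `ℚ((t))` over `ℚ((Q))`, `Q = t ^ q` (`Mod.Form.eq_mul_chi`), and a weight argument
bounds the orders of the coefficients of `χ`.

* `h1Pw` : the subring of Laurent series without negative exponents;
* `h1_charpoly_smul_coeff` : `c ^ m * (c • N).charpoly.coeff m = c ^ n * N.charpoly.coeff m`;
* `h1_chi_coeff` : the coefficients of `χ`;
* `h1_phi_shape`, `h1_phi_cqq`, `h1_phi_c0`.
-/

set_option autoImplicit false
set_option linter.unusedSectionVars false
set_option linter.unusedVariables false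

open HahnSeries Polynomial ModularCurve

noncomputable section

namespace Fermat.Agent.S34x.Comp.H1

open Fermat.Agent.S28.Mod.Form

/-! ### Laurent series without negative exponents -/

section Pw

variable (R : Type*) [CommRing R]

/-- The subring of the Laurent series without negative exponents. -/
def h1Pw : Subring (LaurentSeries R) where
  carrier := {f | ∀ n : ℤ, n < 0 → f.coeff n = 0}
  mul_mem' := by
    intro f g hf hg n hn
    rw [HahnSeries.coeff_mul]
    refine Finset.sum_eq_zero ?_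
    intro ij hij
    rw [Finset.mem_antidiagonal] at hij
    obtain ⟨-, -, hsum⟩ := hij
    by_cases h1 : ij.1 < 0
    · rw [hf _ h1, zero_mul]
    · have h2 : ij.2 < 0 := by omega
      rw [hg _ h2, mul_zero]
  one_mem' := by
    intro n hn
    rw [HahnSeries.coeff_one, if_neg (by omega)]
  add_mem' := by
    intro f g hf hg n hn
    rw [HahnSeries.coeff_add, hf n hn, hg n hn, add_zero]
  zero_mem' := by
    intro n hn
    rw [HahnSeries.coeff_zero]
  neg_mem' := by
    intro f hf n hn
    rw [HahnSeries.coeff_neg, hf n hn, neg_zero]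

variable {R}

theorem mem_h1Pw {f : LaurentSeries R} : f ∈ h1Pw R ↔ ∀ n : ℤ, n < 0 → f.coeff n = 0 :=
  Iff.rfl

end Pw

/-! ### Scaling the characteristic polynomial -/

section Scale

variable {A : Type*} [CommRing A] {n : Type*} [Fintype n] [DecidableEq n]

/-- `c ^ m * χ_{c N, m} = c ^ n * χ_{N, m}`. -/
theorem h1_charpoly_smul_coeff (c : A) (N : Matrix n n A) (m : ℕ) :
    c ^ m * (c • N).charpoly.coeff m = c ^ Fintype.card n * N.charpoly.coeff m := by
  have h1 : ((c • N).charpoly).comp (C c * X) = (C c) ^ Fintype.card n * N.charpoly := by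
    have h2 : (Polynomial.compRingHom (C c * X : A[X])).mapMatrix (Matrix.charmatrix (c • N)) =
        (C c : A[X]) • Matrix.charmatrix N := by
      ext i j : 1
      rw [RingHom.mapMatrix_apply, Matrix.map_apply, Matrix.smul_apply]
      by_cases hij : i = j
      · subst hij
        rw [Matrix.charmatrix_apply_eq, Matrix.charmatrix_apply_eq, Polynomial.coe_compRingHom_apply,
          Polynomial.sub_comp, Polynomial.X_comp, Polynomial.C_comp, Matrix.smul_apply,
          smul_eq_mul, smul_eq_mul, Polynomial.C_mul]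
        ring
      · rw [Matrix.charmatrix_apply_ne _ _ _ hij, Matrix.charmatrix_apply_ne _ _ _ hij,
          Polynomial.coe_compRingHom_apply, Polynomial.neg_comp, Polynomial.C_comp,
          Matrix.smul_apply, smul_eq_mul, smul_eq_mul, Polynomial.C_mul]
        ring
    have h3 : ((c • N).charpoly).comp (C c * X) =
        ((Polynomial.compRingHom (C c * X : A[X])).mapMatrix (Matrix.charmatrix (c • N))).det := by
      rw [← RingHom.map_det]
      rfl
    rw [h3, h2, Matrix.det_smul]
    rfl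
  have h4 : (((c • N).charpoly).comp (C c * X)).coeff m =
      ((C c) ^ Fintype.card n * N.charpoly).coeff m := by rw [h1]
  rw [Polynomial.comp_C_mul_X_coeff, ← Polynomial.C_pow, Polynomial.coeff_C_mul] at h4
  rw [mul_comm, h4]

end Scale

/-! ### The weight argument -/

section Weight

variable {R : Type*} [CommRing R] (p : ℕ) [NeZero p]

/-- The part of `f` with exponents `≡ i mod p` vanishes where `f` does. -/
theorem h1_coeff_part (i : ℕ) (hi : i < p) (f : LaurentSeries R) (m : ℤ) (hf : f.coeff m = 0) :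
    (tt R i * qExpand R p (comp p i f)).coeff m = 0 := by
  have hp := pos_p p
  obtain ⟨k, r, hr, rfl⟩ : ∃ (k : ℤ) (r : ℕ), r < p ∧ m = (p : ℤ) * k + r := by
    refine ⟨m / p, (m % p).toNat, ?_, ?_⟩
    · have h1 := Int.emod_lt_of_pos m hp
      have h2 := Int.emod_nonneg m hp.ne'
      omega
    · have h2 := Int.emod_nonneg m hp.ne'
      rw [Int.toNat_of_nonneg h2]
      exact (Int.mul_ediv_add_emod m p).symm
  rw [coeff_tt_mul_qExpand p i hi _ k r hr]
  split_ifs with h
  · subst h
    rw [comp_coeff]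
    exact hf
  · rfl

/-- The conjugating diagonal matrix `diag(1, t, …, t ^ (p - 1))`. -/
def h1D (R : Type*) [CommRing R] (p : ℕ) : Matrix (Fin p) (Fin p) (LaurentSeries R) :=
  Matrix.diagonal fun i : Fin p => HahnSeries.single ((i : ℕ) : ℤ) (1 : R)

/-- Its inverse. -/
def h1D' (R : Type*) [CommRing R] (p : ℕ) : Matrix (Fin p) (Fin p) (LaurentSeries R) :=
  Matrix.diagonal fun i : Fin p => HahnSeries.single (-((i : ℕ) : ℤ)) (1 : R)

omit [NeZero p] in
theorem h1D'_mul_h1D : h1D' R p * h1D R p = 1 := by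
  unfold h1D h1D'
  rw [Matrix.diagonal_mul_diagonal]
  have h : (fun i : Fin p => HahnSeries.single (-((i : ℕ) : ℤ)) (1 : R) *
      HahnSeries.single ((i : ℕ) : ℤ) (1 : R)) = fun _ => (1 : LaurentSeries R) := by
    funext i
    rw [HahnSeries.single_mul_single, neg_add_cancel, one_mul]
    rfl
  rw [h]
  exact Matrix.diagonal_one

/-- The conjugate `N = D A D⁻¹` of the matrix `A` of the multiplication by `s`. -/
def h1N (s : LaurentSeries R) : Matrix (Fin p) (Fin p) (LaurentSeries R) :=
  h1D R p * (mulMat p s).map (qExpand R p) * h1D' R p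

theorem h1N_apply (s : LaurentSeries R) (i j : Fin p) :
    h1N p s i j = tt R (i : ℕ) * qExpand R p (comp p (i : ℕ) (s * tt R (j : ℕ))) *
      HahnSeries.single (-((j : ℕ) : ℤ)) (1 : R) := by
  unfold h1N h1D h1D'
  rw [Matrix.mul_diagonal, Matrix.diagonal_mul, Matrix.map_apply, mulMat_apply]
  rfl

theorem h1N_charpoly (s : LaurentSeries R) :
    (h1N p s).charpoly = (chi p s).map (qExpand R p) := by
  unfold h1N
  rw [Matrix.charpoly_mul_comm, ← mul_assoc, h1D'_mul_h1D, one_mul, Matrix.charpoly_map]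
  rfl

/-- The entries of `t • N` have no negative exponents, if `s` has at most a simple pole. -/
theorem h1_smul_N_mem (s : LaurentSeries R) (hs : ∀ n : ℤ, n < -1 → s.coeff n = 0)
    (i j : Fin p) :
    (HahnSeries.single (1 : ℤ) (1 : R) • h1N p s) i j ∈ h1Pw R := by
  intro n hn
  rw [Matrix.smul_apply, smul_eq_mul, h1N_apply, HahnSeries.coeff_single_mul, one_mul,
    HahnSeries.coeff_mul_single, mul_one]
  refine h1_coeff_part p (i : ℕ) i.2 _ _ ?_
  rw [mul_comm s, coeff_tt_mul]
  refine hs _ ?_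
  omega

/-- The coefficients of the characteristic polynomial of `t • N` have no negative exponents. -/
theorem h1_charpoly_smul_N_mem (s : LaurentSeries R) (hs : ∀ n : ℤ, n < -1 → s.coeff n = 0)
    (m : ℕ) : ((HahnSeries.single (1 : ℤ) (1 : R) • h1N p s).charpoly).coeff m ∈ h1Pw R := by
  set M₀ : Matrix (Fin p) (Fin p) (h1Pw R) := Matrix.of fun i j =>
    ⟨(HahnSeries.single (1 : ℤ) (1 : R) • h1N p s) i j, h1_smul_N_mem p s hs i j⟩ with hM₀
  have h1 : HahnSeries.single (1 : ℤ) (1 : R) • h1N p s = M₀.map (h1Pw R).subtype := by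
    ext i j : 1
    rfl
  rw [h1, Matrix.charpoly_map, Polynomial.coeff_map]
  exact (M₀.charpoly.coeff m).2

/-- **The weight bound**: if `s` has at most a simple pole, the coefficient of `X ^ m` in the
characteristic polynomial `χ` of the multiplication by `s` (a Laurent series in `Q = t ^ p`) has
no term `Q ^ k` with `p k < m - p`. -/
theorem h1_chi_coeff (s : LaurentSeries R) (hs : ∀ n : ℤ, n < -1 → s.coeff n = 0)
    (m : ℕ) (k : ℤ) (hk : (p : ℤ) * k < (m : ℤ) - p) : ((chi p s).coeff m).coeff k = 0 := by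
  have h1 := h1_charpoly_smul_coeff (HahnSeries.single (1 : ℤ) (1 : R)) (h1N p s) m
  rw [Fintype.card_fin, h1N_charpoly, Polynomial.coeff_map, HahnSeries.single_pow,
    HahnSeries.single_pow, one_pow, one_pow, nsmul_eq_mul, nsmul_eq_mul, mul_one, mul_one] at h1
  have h2 := congrArg (fun y : LaurentSeries R => y.coeff ((p : ℤ) * k + p)) h1
  simp only [HahnSeries.coeff_single_mul, one_mul] at h2
  have h3 := h1_charpoly_smul_N_mem p s hs m
    ((p : ℤ) * k + p - (m : ℤ)) (by omega)
  rw [h3] at h2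
  have h4 : (p : ℤ) * k + p - (p : ℤ) = (p : ℤ) * k := by ring
  rw [h4, qExpand_coeff_mul] at h2
  exact h2.symm

end Weight

/-! ### Series vanishing below a bound -/

section Below

variable {R : Type*} [CommRing R]

/-- `f` has no exponent below `b`. -/
def H1Below (f : LaurentSeries R) (b : ℤ) : Prop := ∀ n : ℤ, n < b → f.coeff n = 0

theorem H1Below.mono {f : LaurentSeries R} {b c : ℤ} (h : H1Below f b) (hcb : c ≤ b) :
    H1Below f c := fun n hn => h n (lt_of_lt_of_le hn hcb)

theorem H1Below.mul {f g : LaurentSeries R} {b c : ℤ} (hf : H1Below f b) (hg : H1Below g c) :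
    H1Below (f * g) (b + c) := by
  intro n hn
  rw [HahnSeries.coeff_mul]
  refine Finset.sum_eq_zero ?_
  intro ij hij
  rw [Finset.mem_antidiagonal] at hij
  obtain ⟨-, -, hsum⟩ := hij
  by_cases h1 : ij.1 < b
  · rw [hf _ h1, zero_mul]
  · have h2 : ij.2 < c := by omega
    rw [hg _ h2, mul_zero]

theorem H1Below.sub {f g : LaurentSeries R} {b : ℤ} (hf : H1Below f b) (hg : H1Below g b) :
    H1Below (f - g) b := by
  intro n hn
  rw [HahnSeries.coeff_sub, hf n hn, hg n hn, sub_zero]

theorem H1Below.neg {f : LaurentSeries R} {b : ℤ} (hf : H1Below f b) : H1Below (-f) b := by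
  intro n hn
  rw [HahnSeries.coeff_neg, hf n hn, neg_zero]

theorem h1Below_jqModC : H1Below (jqModC R) (-1) := fun _ hn => coeff_jqModC_of_lt R hn

theorem h1Below_qExpand (p : ℕ) [NeZero p] {f : LaurentSeries R} {b : ℤ} (hf : H1Below f b) :
    H1Below (qExpand R p f) ((p : ℤ) * b) := by
  intro n hn
  by_cases hd : (p : ℤ) ∣ n
  · obtain ⟨k, rfl⟩ := hd
    rw [qExpand_coeff_mul]
    refine hf k ?_
    have hp := pos_p p
    exact lt_of_mul_lt_mul_left hn hp.le
  · exact qExpand_coeff_of_not_dvd p f hd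

/-- The coefficients of `χ`: no negative exponent for `m ≥ 1`, at most a simple pole for
`m = 0`. -/
theorem h1Below_chi (p : ℕ) [NeZero p] (s : LaurentSeries R) (hs : H1Below s (-1)) (m : ℕ) :
    H1Below ((chi p s).coeff m) (if m = 0 then -1 else 0) := by
  intro k hk
  refine h1_chi_coeff p s hs m k ?_
  have hp := pos_p p
  split_ifs at hk with hm
  · subst hm
    have h1 : k + 1 ≤ -1 := by omega
    have h2 : (p : ℤ) * (k + 1) ≤ (p : ℤ) * (-1) := mul_le_mul_of_nonneg_left h1 hp.le
    push_cast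
    linarith
  · have h1 : k + 1 ≤ 0 := by omega
    have h2 : (p : ℤ) * (k + 1) ≤ (p : ℤ) * 0 := mul_le_mul_of_nonneg_left h1 hp.le
    have h3 : (1 : ℤ) ≤ m := by
      have : 1 ≤ m := Nat.one_le_iff_ne_zero.mpr hm
      exact_mod_cast this
    linarith

end Below

/-! ### The degree of a polynomial in `j` -/

section Deg

/-- If `P(j)` has no exponent below `-d`, then `P` has degree at most `d`. -/
theorem h1_natDegree_le_of_below {S : Type*} [CommRing S] (P : S[X]) (d : ℕ)
    (h : H1Below (aeval (jqModC S) P) (-(d : ℤ))) : P.natDegree ≤ d := by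
  by_contra hlt
  rw [not_le] at hlt
  have h1 := Fermat.Agent.S28.Mod.PolyJ.coeff_aeval_jqModC P P.natDegree le_rfl
  have h2 : (aeval (jqModC S) P).coeff (-(P.natDegree : ℤ)) = 0 := by
    refine h _ ?_
    have : (d : ℤ) < P.natDegree := by exact_mod_cast hlt
    omega
  rw [h2] at h1
  have h3 : P = 0 := leadingCoeff_eq_zero.mp h1.symm
  rw [h3, natDegree_zero] at hlt
  exact Nat.not_lt_zero _ hlt

end Deg

/-! ### The modular polynomial -/

section Phi

open Fermat.Agent.S28.Deg.H9 (ev2)
open Fermat.Agent.S37x.Kron.H2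

variable (q : ℕ) [NeZero q] (hq : q.Prime)

/-- `Y ↦ j(Q)`, `ℤ[Y] → ℚ((Q))`. -/
def h1ev : ℤ[X] →+* LaurentSeries ℚ :=
  Polynomial.eval₂RingHom (Int.castRingHom (LaurentSeries ℚ)) (jqModC ℚ)

theorem h1ev_apply (P : ℤ[X]) :
    h1ev P = aeval (jqModC ℚ) (P.map (Int.castRingHom ℚ)) := by
  unfold h1ev
  rw [Polynomial.coe_eval₂RingHom, aeval_def, Polynomial.eval₂_map]
  congr 1
  exact RingHom.ext_int _ _

/-- `Φ(X ; j(Q)) = (X - j(Q ^ q)) * χ`. -/
theorem h1_phi_eq :
    (h2kronPhi q hq).map h1ev =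
      (X - Polynomial.C (qExpand ℚ q (jqModC ℚ))) * chi q (jqModC ℚ) := by
  have hmonic : ((h2kronPhi q hq).map h1ev).Monic := (h2kronPhi_monic q hq).map _
  have hdeg : ((h2kronPhi q hq).map h1ev).natDegree = q + 1 := by
    rw [(h2kronPhi_monic q hq).natDegree_map, h2kronPhi_natDegree]
  have hs : jqModC ℚ ≠ 0 := jqModC_ne_zero_of_nontrivial ℚ
  have hord : (jqModC ℚ).order = -1 := Fermat.Agent.S28.Mod.H7.h7_order_jqModC ℚ
  have hcop : Int.gcd (jqModC ℚ).order q = 1 := by
    rw [hord]
    simp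
  have hHa : ((h2kronPhi q hq).map h1ev).eval (qExpand ℚ q (jqModC ℚ)) = 0 := by
    rw [Polynomial.eval_map]
    exact h2kronPhi_rel₁ q hq ℚ
  have hHs : (((h2kronPhi q hq).map h1ev).map (qExpand ℚ q)).eval (jqModC ℚ) = 0 := by
    rw [Polynomial.map_map, Polynomial.eval_map]
    have hc : (qExpand ℚ q).comp h1ev =
        Polynomial.eval₂RingHom (Int.castRingHom (LaurentSeries ℚ))
          (qExpand ℚ q (jqModC ℚ)) := by
      apply Polynomial.ringHom_ext
      · intro n
        simp [h1ev]
      · simp [h1ev]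
    rw [hc]
    exact h2kronPhi_rel₂ q hq ℚ
  exact eq_mul_chi q hq.two_le hs hcop hmonic hdeg hHs _ hHa

/-- The coefficients of `Φ(X ; j(Q))`. -/
theorem h1_phi_below (i : ℕ) :
    H1Below (h1ev ((h2kronPhi q hq).coeff i)) (if i = 0 then -(q : ℤ) - 1 else -(q : ℤ)) := by
  have h1 : h1ev ((h2kronPhi q hq).coeff i) = ((h2kronPhi q hq).map h1ev).coeff i :=
    (Polynomial.coeff_map _ _).symm
  rw [h1, h1_phi_eq q hq]
  have ha : H1Below (qExpand ℚ q (jqModC ℚ)) (-(q : ℤ)) := by
    have := h1Below_qExpand q (h1Below_jqModC (R := ℚ))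
    rwa [mul_neg, mul_one] at this
  have hχ := h1Below_chi q (jqModC ℚ) h1Below_jqModC
  cases i with
  | zero =>
    rw [if_pos rfl, sub_mul, Polynomial.coeff_sub, Polynomial.coeff_X_mul_zero,
      Polynomial.coeff_C_mul, zero_sub]
    have h2 := (ha.mul (hχ 0)).neg
    rw [if_pos rfl] at h2
    exact h2.mono (by omega)
  | succ m =>
    rw [if_neg (Nat.succ_ne_zero m), sub_mul, Polynomial.coeff_sub, Polynomial.coeff_X_mul,
      Polynomial.coeff_C_mul]
    have hq2 : (2 : ℤ) ≤ q := by exact_mod_cast hq.two_le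
    refine H1Below.sub ?_ ?_
    · refine (hχ m).mono ?_
      split_ifs <;> omega
    · have h2 := ha.mul (hχ (m + 1))
      rw [if_neg (Nat.succ_ne_zero m), add_zero] at h2
      exact h2

/-- **The degrees in `Y` of the coefficients of `Φ`**: at most `q`, except for the constant
coefficient (at most `q + 1`). -/
theorem h1_phi_natDegree (i : ℕ) :
    ((h2kronPhi q hq).coeff i).natDegree ≤ if i = 0 then q + 1 else q := by
  have h1 := h1_phi_below q hq i
  rw [h1ev_apply] at h1
  have h2 : ((h2kronPhi q hq).coeff i).natDegree =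
      (((h2kronPhi q hq).coeff i).map (Int.castRingHom ℚ)).natDegree :=
    (Polynomial.natDegree_map_eq_of_injective (RingHom.injective_int (Int.castRingHom ℚ)) _).symm
  rw [h2]
  refine h1_natDegree_le_of_below _ _ ?_
  split_ifs with hi
  · rw [if_pos hi] at h1
    refine h1.mono ?_
    push_cast
    omega
  · rw [if_neg hi] at h1
    exact h1

/-- **(PHI-SHAPE)**: every monomial `X ^ i * Y ^ k` of `Φ` with `k > q` is `Y ^ (q + 1)`. -/
theorem h1_phi_shape (i k : ℕ) (hk : q < k)
    (h : ((h2kronPhi q hq).coeff i).coeff k ≠ 0) : i = 0 ∧ k = q + 1 := by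
  have h1 := h1_phi_natDegree q hq i
  have h2 : k ≤ ((h2kronPhi q hq).coeff i).natDegree := Polynomial.le_natDegree_of_ne_zero h
  split_ifs at h1 with hi
  · exact ⟨hi, by omega⟩
  · omega

/-- Every monomial `X ^ i * Y ^ k` of `Φ` with `i > q` is `X ^ (q + 1)`. -/
theorem h1_phi_shape' (i k : ℕ) (hi : q < i)
    (h : ((h2kronPhi q hq).coeff i).coeff k ≠ 0) : i = q + 1 ∧ k = 0 := by
  have hne : (h2kronPhi q hq).coeff i ≠ 0 := by
    intro h0
    rw [h0, Polynomial.coeff_zero] at h
    exact h rfl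
  have h1 : i ≤ (h2kronPhi q hq).natDegree := Polynomial.le_natDegree_of_ne_zero hne
  rw [h2kronPhi_natDegree] at h1
  have hi' : i = q + 1 := by omega
  refine ⟨hi', ?_⟩
  subst hi'
  have h2 : (h2kronPhi q hq).coeff (q + 1) = 1 := by
    have := (h2kronPhi_monic q hq).leadingCoeff
    rwa [Polynomial.leadingCoeff, h2kronPhi_natDegree] at this
  rw [h2, Polynomial.coeff_one] at h
  by_contra hk
  apply h
  rw [if_neg]
  intro h0
  exact hk (by omega)

end Phi

/-! ### The two coefficients prime to `q` -/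

section ModQ

open Fermat.Agent.S37x.Kron.H2

variable (q : ℕ) [NeZero q] (hq : q.Prime)

/-- The coefficients of Kronecker's product `(X - Y ^ q) (X ^ q - Y)`. -/
theorem h1_kron_expand {S : Type*} [CommRing S] (a b : S) :
    (X - Polynomial.C a) * (X ^ q - Polynomial.C b) = X ^ (q + 1) - Polynomial.C b * X - Polynomial.C a * X ^ q + Polynomial.C (a * b) := by
  rw [Polynomial.C_mul]
  ring

theorem h1_phi_coeff_mod (i k : ℕ) :
    ((((h2kronPhi q hq).coeff i).coeff k : ℤ) : ZMod q) =
      (((X - Polynomial.C (X ^ q : (ZMod q)[X])) * (X ^ q - Polynomial.C (X : (ZMod q)[X]))).coeff i).coeff k := by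
  rw [← h2kronPhi_map q hq, Polynomial.coeff_map, Polynomial.coe_mapRingHom,
    Polynomial.coeff_map]
  rfl

/-- The coefficient of `X ^ q * Y ^ q` in `Φ` is `-1` modulo `q`. -/
theorem h1_phi_cqq_mod :
    ((((h2kronPhi q hq).coeff q).coeff q : ℤ) : ZMod q) = -1 := by
  have hq2 := hq.two_le
  rw [h1_phi_coeff_mod, h1_kron_expand]
  have h1 : (X ^ (q + 1) - Polynomial.C (X : (ZMod q)[X]) * X - Polynomial.C (X ^ q : (ZMod q)[X]) * X ^ q +
      Polynomial.C ((X ^ q : (ZMod q)[X]) * X) : ((ZMod q)[X])[X]).coeff q = -(X ^ q : (ZMod q)[X]) := by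
    rw [Polynomial.coeff_add, Polynomial.coeff_sub, Polynomial.coeff_sub,
      Polynomial.coeff_X_pow, Polynomial.coeff_C_mul, Polynomial.coeff_C_mul,
      Polynomial.coeff_X_pow, Polynomial.coeff_X, Polynomial.coeff_C,
      if_neg (by omega), if_neg (by omega), if_pos rfl, if_neg (by omega)]
    ring
  rw [h1, Polynomial.coeff_neg, Polynomial.coeff_X_pow, if_pos rfl]

/-- The coefficient of `Y ^ (q + 1)` in `Φ` is `1` modulo `q`. -/
theorem h1_phi_c0_mod :
    ((((h2kronPhi q hq).coeff 0).coeff (q + 1) : ℤ) : ZMod q) = 1 := by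
  have hq2 := hq.two_le
  rw [h1_phi_coeff_mod, h1_kron_expand]
  have h1 : (X ^ (q + 1) - Polynomial.C (X : (ZMod q)[X]) * X - Polynomial.C (X ^ q : (ZMod q)[X]) * X ^ q +
      Polynomial.C ((X ^ q : (ZMod q)[X]) * X) : ((ZMod q)[X])[X]).coeff 0 = (X ^ (q + 1) : (ZMod q)[X]) := by
    rw [Polynomial.coeff_add, Polynomial.coeff_sub, Polynomial.coeff_sub,
      Polynomial.coeff_X_pow, Polynomial.coeff_C_mul, Polynomial.coeff_C_mul,
      Polynomial.coeff_X_pow, Polynomial.coeff_X, Polynomial.coeff_C,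
      if_neg (by omega), if_neg (by omega), if_neg (by omega), if_pos rfl]
    ring
  rw [h1, Polynomial.coeff_X_pow, if_pos rfl]

/-- **The coefficient of `X ^ q * Y ^ q` in `Φ` is prime to `q`.** -/
theorem h1_phi_cqq : ¬ (q : ℤ) ∣ ((h2kronPhi q hq).coeff q).coeff q := by
  have : Fact q.Prime := ⟨hq⟩
  intro h
  have h1 := h1_phi_cqq_mod q hq
  rw [(ZMod.intCast_zmod_eq_zero_iff_dvd _ q).mpr h] at h1
  exact one_ne_zero (neg_eq_zero.mp h1.symm)

/-- **The coefficient of `Y ^ (q + 1)` in `Φ` is prime to `q`.** -/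
theorem h1_phi_c0 : ¬ (q : ℤ) ∣ ((h2kronPhi q hq).coeff 0).coeff (q + 1) := by
  have : Fact q.Prime := ⟨hq⟩
  intro h
  have h1 := h1_phi_c0_mod q hq
  rw [(ZMod.intCast_zmod_eq_zero_iff_dvd _ q).mpr h] at h1
  exact zero_ne_one h1

end ModQ

end Fermat.Agent.S34x.Comp.H1
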