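import Mathlib
import Fermat.Agent.S34x.Comp.H7_CompInst
import Fermat.Agent.S34x.Comp.H20_LevelM
import Fermat.Agent.S34x.Comp.H22_CompInputsAlpha
import Fermat.Agent.S34x.Comp.H22_BetaFinal
import Fermat.Agent.S34x.Comp.H22_NoethN
import Fermat.Agent.S34x.Comp.H13_BetaPlug
import Fermat.Agent.S34x.Comp.H15_SepPlug
import Fermat.Agent.S34x.Comp.H4_PinsPlug
import Fermat.Agent.S34x.Comp.H11_Beta
import Fermat.Agent.S34x.Sat.H21_SatCoord

/-!
# S34 (W10), stage (C): `H7Comp` on the four charts from the level-`M` pack (helper20)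

Setting of helper6's `H6_Inst` (generic field `K`, instance binders).  `h20_comp_two_gen`,
`h20_comp_three_gen` : `H7Comp` on the chart of the Hauptmodul of level `p₀ ∈ {2, 3}` and on the
chart of its inverse, at level `N` (`M * q ∣ N`), from the level-`M` packs `H20LevelM` of the
two charts of level `M` and (GEN).  Every other binder of helper7's `h7_comp_inst_gen` is
discharged by its leaf on main.
-/

set_option autoImplicit false
set_option linter.unusedSectionVars false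
set_option linter.unusedVariables false
set_option linter.style.haveILetI false

noncomputable section

namespace Fermat.Agent.S34x.Comp.H20

open ModularCurve Polynomial
open Fermat.Agent.S18x.Dict.H20 Fermat.Agent.S18x.Qepo Fermat.Agent.S18x.Spec.H26
  Fermat.Agent.S18x.IG.H28 Fermat.Agent.S34x.Val.H6 Fermat.Agent.S34x.Val.H2
  Fermat.Agent.S34x.Comp.H7

variable {K : Type} [Field K] [CharZero K] (O : ValuationSubring K) [IsDiscreteValuationRing O]
  (M N : ℕ) [NeZero M] [NeZero N] (hMN : M ∣ N) (q : ℕ) [NeZero q] (hq : q.Prime) (hqN : q ∣ N)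
  [Algebra O (FM K M)] [IsScalarTower O K (FM K M)]
  [Algebra O (FM K N)] [IsScalarTower O K (FM K N)]
  (π : O) (hπ : Irreducible π)
  [CharP (IsLocalRing.ResidueField O) q] [Finite (IsLocalRing.ResidueField O)]

include hq hπ hMN hqN in
/-- **Stage (C), Hauptmodul of level `2`, generic field**: `H7Comp` on the two charts. -/
theorem h20_comp_two_gen (hqM : ¬ q ∣ M) (hMqN : M * q ∣ N) (hO : O.LiesOverPrime q)
    (hgen : H6Gen (K := K) M N q) (hM2 : 2 ∣ M) (hN2 : 2 ∣ N)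
    (L₁ : H20LevelM O (gaussValM O M).toSubring (coord2 K M hM2) π)
    (L₂ : H20LevelM O (gaussValM O M).toSubring (coord2 K M hM2)⁻¹ π) :
    H7Comp (⟨algebraMap O (FM K N) π, (chart O (coord2 K N hN2)).algebraMap_mem π⟩ :
        (chart O (coord2 K N hN2)).toSubring) ∧
      H7Comp (⟨algebraMap O (FM K N) π, (chart O (coord2 K N hN2)⁻¹).algebraMap_mem π⟩ :
        (chart O (coord2 K N hN2)⁻¹).toSubring) := by
  haveI : Fact q.Prime := ⟨hq⟩
  have hq2 : q ≠ 2 := fun h => hqM (h ▸ hM2)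
  have hq0 : ((q : ℕ) : IsLocalRing.ResidueField O) = 0 := CharP.cast_eq_zero _ q
  obtain ⟨hn₁, hprime₁, hfracW₁, H₁⟩ := L₁
  obtain ⟨hn₂, hprime₂, hfracW₂, H₂⟩ := L₂
  obtain ⟨hsat₁, hsat₂, -⟩ := Fermat.Agent.S34x.Sat.H21.h21_sat_coord2 O M N hMN hN2 π hπ q hqM
    hq2 (h6V O M N hMN q hqN) (h6V_le_gens O M N hMN q hqN hq)
    (h6_coord_mem O M N hMN q hqN h2 (h2_mem_full K M hM2) (h2_mem_full K N hN2))
  obtain ⟨hβB₁, hβB₂⟩ := Fermat.Agent.S34x.Comp.H22.h22_hβB_two_final K O M N q hq hq2 hM2 hN2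
    hMqN hO
  obtain ⟨hsep₁, hsep₂⟩ := Fermat.Agent.S34x.Comp.H15.h15_hsep_plug_two O M N hMN q hq hqN π hπ
    hM2 hN2 hq0 hgen
  have hβO := Fermat.Agent.S34x.Comp.H11B.h11Beta_algebraMap K O M N q hMqN
  have hβV := Fermat.Agent.S34x.Comp.H13.h13_hβV_plug O M N hMN q hq hqN π hπ hqM hq0 hgen
    (Fermat.Agent.S34x.Comp.H11B.h11Beta K M N q hMqN)
    (Fermat.Agent.S34x.Comp.H11B.h11Beta_coe K M N q hMqN)
  have hresβ := Fermat.Agent.S34x.Comp.H13.h13_hresβ_plug O M N hMN q hq hqN π hπ hqM hq0 hgen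
    (Fermat.Agent.S34x.Comp.H11B.h11Beta K M N q hMqN)
    (Fermat.Agent.S34x.Comp.H11B.h11Beta_coe K M N q hMqN)
  have hpins : ∀ e₂ : FM K N,
      H2Comp (h6V O M N hMN q hqN) (algebraMap O (FM K N) π) e₂ →
      ∀ a ∈ (gaussValM O M).toSubring, ∃ c : Fin q → FM K N,
        (∀ i, c i ∈ h6V O M N hMN q hqN) ∧
        H2In (h6V O M N hMN q hqN) (algebraMap O (FM K N) π) e₂
          (h6incl M N hMN a - ∑ i, c i ^ q *
            h6incl M N hMN (Fermat.Agent.S28.Asm.jbFull K M) ^ (i : ℕ)) :=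
    fun e₂ hc => Fermat.Agent.S34x.Comp.H4.h4_pins_plug_finite O M N hMN q hq hqN π hπ hc hq0
      hqM
  constructor
  · haveI := hn₁
    haveI := Fermat.Agent.S34x.Comp.H22.h22_noeth_coord2 O N hN2
    exact h7_comp_inst_gen O M N hMN q hq hqN π hπ (coord2 K M hM2) (coord2 K N hN2) hq0 hgen H₁
      (Fermat.Agent.S34x.Comp.H22.h22_hBW O M h2 (h2_mem_full K M hM2))
      hprime₁ hfracW₁
      (Fermat.Agent.S34x.Comp.H22.h22_hBV_inst O M N hMN q hqN π hπ hq h2 (h2_mem_full K M hM2)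
        (h2_mem_full K N hN2) hq0 hgen)
      hsat₁
      (Fermat.Agent.S34x.Comp.H22.h22_hαB O M N hMN h2 (h2_mem_full K M hM2)
        (h2_mem_full K N hN2))
      (Fermat.Agent.S34x.Comp.H11B.h11Beta K M N q hMqN) hβO hβB₁ hβV hresβ hsep₁ hpins
  · haveI := hn₂
    haveI := Fermat.Agent.S34x.Comp.H22.h22_noeth_coord2_inv O N hN2
    exact h7_comp_inst_gen O M N hMN q hq hqN π hπ (coord2 K M hM2)⁻¹ (coord2 K N hN2)⁻¹ hq0 hgen
      H₂
      (Fermat.Agent.S34x.Comp.H22.h22_hBW_inv O M h2 coeff_h2_neg_one (h2_mem_full K M hM2))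
      hprime₂ hfracW₂
      (Fermat.Agent.S34x.Comp.H22.h22_hBV_inv_inst O M N hMN q hqN π hπ hq h2 coeff_h2_neg_one
        (h2_mem_full K M hM2) (h2_mem_full K N hN2) hq0 hgen)
      hsat₂
      (Fermat.Agent.S34x.Comp.H22.h22_hαB_inv O M N hMN h2 (h2_mem_full K M hM2)
        (h2_mem_full K N hN2))
      (Fermat.Agent.S34x.Comp.H11B.h11Beta K M N q hMqN) hβO hβB₂ hβV hresβ hsep₂ hpins

include hq hπ hMN hqN in
/-- **Stage (C), Hauptmodul of level `3`, generic field**: `H7Comp` on the two charts. -/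
theorem h20_comp_three_gen (hqM : ¬ q ∣ M) (hMqN : M * q ∣ N) (hO : O.LiesOverPrime q)
    (hgen : H6Gen (K := K) M N q) (hM3 : 3 ∣ M) (hN3 : 3 ∣ N)
    (L₁ : H20LevelM O (gaussValM O M).toSubring (coord3 K M hM3) π)
    (L₂ : H20LevelM O (gaussValM O M).toSubring (coord3 K M hM3)⁻¹ π) :
    H7Comp (⟨algebraMap O (FM K N) π, (chart O (coord3 K N hN3)).algebraMap_mem π⟩ :
        (chart O (coord3 K N hN3)).toSubring) ∧
      H7Comp (⟨algebraMap O (FM K N) π, (chart O (coord3 K N hN3)⁻¹).algebraMap_mem π⟩ :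
        (chart O (coord3 K N hN3)⁻¹).toSubring) := by
  haveI : Fact q.Prime := ⟨hq⟩
  have hq3 : q ≠ 3 := fun h => hqM (h ▸ hM3)
  have hq0 : ((q : ℕ) : IsLocalRing.ResidueField O) = 0 := CharP.cast_eq_zero _ q
  obtain ⟨hn₁, hprime₁, hfracW₁, H₁⟩ := L₁
  obtain ⟨hn₂, hprime₂, hfracW₂, H₂⟩ := L₂
  obtain ⟨hsat₁, hsat₂, -⟩ := Fermat.Agent.S34x.Sat.H21.h21_sat_coord3 O M N hMN hN3 π hπ q hqM
    hq3 (h6V O M N hMN q hqN) (h6V_le_gens O M N hMN q hqN hq)
    (h6_coord_mem O M N hMN q hqN h3 (h3_mem_full K M hM3) (h3_mem_full K N hN3))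
  obtain ⟨hβB₁, hβB₂⟩ := Fermat.Agent.S34x.Comp.H22.h22_hβB_three_final K O M N q hq hq3 hM3 hN3
    hMqN hO
  obtain ⟨hsep₁, hsep₂⟩ := Fermat.Agent.S34x.Comp.H15.h15_hsep_plug_three O M N hMN q hq hqN π hπ
    hM3 hN3 hq0 hgen
  have hβO := Fermat.Agent.S34x.Comp.H11B.h11Beta_algebraMap K O M N q hMqN
  have hβV := Fermat.Agent.S34x.Comp.H13.h13_hβV_plug O M N hMN q hq hqN π hπ hqM hq0 hgen
    (Fermat.Agent.S34x.Comp.H11B.h11Beta K M N q hMqN)
    (Fermat.Agent.S34x.Comp.H11B.h11Beta_coe K M N q hMqN)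
  have hresβ := Fermat.Agent.S34x.Comp.H13.h13_hresβ_plug O M N hMN q hq hqN π hπ hqM hq0 hgen
    (Fermat.Agent.S34x.Comp.H11B.h11Beta K M N q hMqN)
    (Fermat.Agent.S34x.Comp.H11B.h11Beta_coe K M N q hMqN)
  have hpins : ∀ e₂ : FM K N,
      H2Comp (h6V O M N hMN q hqN) (algebraMap O (FM K N) π) e₂ →
      ∀ a ∈ (gaussValM O M).toSubring, ∃ c : Fin q → FM K N,
        (∀ i, c i ∈ h6V O M N hMN q hqN) ∧
        H2In (h6V O M N hMN q hqN) (algebraMap O (FM K N) π) e₂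
          (h6incl M N hMN a - ∑ i, c i ^ q *
            h6incl M N hMN (Fermat.Agent.S28.Asm.jbFull K M) ^ (i : ℕ)) :=
    fun e₂ hc => Fermat.Agent.S34x.Comp.H4.h4_pins_plug_finite O M N hMN q hq hqN π hπ hc hq0
      hqM
  constructor
  · haveI := hn₁
    haveI := Fermat.Agent.S34x.Comp.H22.h22_noeth_coord3 O N hN3
    exact h7_comp_inst_gen O M N hMN q hq hqN π hπ (coord3 K M hM3) (coord3 K N hN3) hq0 hgen H₁
      (Fermat.Agent.S34x.Comp.H22.h22_hBW O M h3 (h3_mem_full K M hM3))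
      hprime₁ hfracW₁
      (Fermat.Agent.S34x.Comp.H22.h22_hBV_inst O M N hMN q hqN π hπ hq h3 (h3_mem_full K M hM3)
        (h3_mem_full K N hN3) hq0 hgen)
      hsat₁
      (Fermat.Agent.S34x.Comp.H22.h22_hαB O M N hMN h3 (h3_mem_full K M hM3)
        (h3_mem_full K N hN3))
      (Fermat.Agent.S34x.Comp.H11B.h11Beta K M N q hMqN) hβO hβB₁ hβV hresβ hsep₁ hpins
  · haveI := hn₂
    haveI := Fermat.Agent.S34x.Comp.H22.h22_noeth_coord3_inv O N hN3
    exact h7_comp_inst_gen O M N hMN q hq hqN π hπ (coord3 K M hM3)⁻¹ (coord3 K N hN3)⁻¹ hq0 hgen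
      H₂
      (Fermat.Agent.S34x.Comp.H22.h22_hBW_inv O M h3 coeff_h3_neg_one (h3_mem_full K M hM3))
      hprime₂ hfracW₂
      (Fermat.Agent.S34x.Comp.H22.h22_hBV_inv_inst O M N hMN q hqN π hπ hq h3 coeff_h3_neg_one
        (h3_mem_full K M hM3) (h3_mem_full K N hN3) hq0 hgen)
      hsat₂
      (Fermat.Agent.S34x.Comp.H22.h22_hαB_inv O M N hMN h3 (h3_mem_full K M hM3)
        (h3_mem_full K N hN3))
      (Fermat.Agent.S34x.Comp.H11B.h11Beta K M N q hMqN) hβO hβB₂ hβV hresβ hsep₂ hpins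

end Fermat.Agent.S34x.Comp.H20
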