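import Mathlib
import Fermat.Agent.S34x.Cross.H18_PackGeom
import Fermat.Agent.S34x.Comp.H20_CompGen

/-!
# S34 (W10), stage (C) at the `K`-level: the concrete wrapper (W1) (helper20)

`h20_compGeom₂`, `h20_compGeom₃` : **stage (C) is closed**: helper18's `H18CompGeom₂ (M * q) _ B`
and `H18CompGeom₃ (M * q) _ B` (the only hypothesis of `h18_pack_geom₂ / ₃`) hold for every
valuation subring `B` of `ℚ̄` over a prime `q ∤ M`, `p₀ ∣ M`, `p₀ ∈ {2, 3}`.

Proof = `h20_comp_two_gen` / `h20_comp_three_gen` (helper7's `h7_comp_inst_gen` at the four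
charts with all leaves plugged) at `K := ↥K`, `O := B.comap (algebraMap ↥K Lbar)`,
`N := M * q`, canonical algebra instances, with the level-`M` packs `h20_levelM_two / three`
and (GEN) `h6Gen'`.
-/

set_option autoImplicit false
set_option linter.unusedSectionVars false
set_option linter.unusedVariables false
set_option linter.style.haveILetI false
set_option synthInstance.maxHeartbeats 400000
set_option maxHeartbeats 1000000

noncomputable section

namespace Fermat.Agent.S34x.Comp.H20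

open AlgebraicCurve ModularCurve IntermediateField Polynomial
open Fermat.Agent.S18x.Dict.H20 Fermat.Agent.S18x.Dict.H22 Fermat.Agent.S18x.Dict.H23
open Fermat.Agent.S18x.Spec.H26 Fermat.Agent.S18x.IG.H28
open Fermat.Agent.S34x.Val.H6 Fermat.Agent.S34x.Val.H2
open Fermat.Agent.S34x.Comp.H7 Fermat.Agent.S34x.Cross.H18

local notation "Lbar" => AlgebraicClosure ℚ

variable (M q : ℕ) [NeZero (M * q)] (hq : q.Prime) (hqM : ¬ q ∣ M)
  (B : ValuationSubring Lbar) (hB : B.LiesOverPrime q)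

include hq hqM hB in
/-- **Stage (C) at the `K`-level, Hauptmodul of level `2`** - hypothesis-free. -/
theorem h20_compGeom₂ (hM2 : 2 ∣ M) :
    H18CompGeom₂ (M * q) (Dvd.dvd.mul_right hM2 q) B := by
  intro K hKfin hdvr π₀ hπ₀
  haveI := hKfin
  haveI := hdvr
  haveI : NeZero M := ⟨fun h => NeZero.ne (M * q) (by rw [h, zero_mul])⟩
  haveI : NeZero q := ⟨hq.ne_zero⟩
  haveI : CharP (IsLocalRing.ResidueField (B.comap (algebraMap ↥K Lbar))) q :=
    h23_charP_residueField B hq hB
  haveI : Finite (IsLocalRing.ResidueField (B.comap (algebraMap ↥K Lbar))) :=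
    h23_finite_residueField_intermediate B hq hB K
  haveI : IsScalarTower (B.comap (algebraMap ↥K Lbar)) ↥K ↥(modularFunctionFieldFullC ↥K M) :=
    IsScalarTower.of_algebraMap_eq (fun c => rfl)
  haveI : IsScalarTower (B.comap (algebraMap ↥K Lbar)) ↥K
      ↥(modularFunctionFieldFullC ↥K (M * q)) :=
    IsScalarTower.of_algebraMap_eq (fun c => rfl)
  obtain ⟨emb⟩ := h18_exists_emb K
  have hq2 : q ≠ 2 := fun h => hqM (h ▸ hM2)
  obtain ⟨L₁, L₂⟩ := h20_levelM_two B hq hB M hq2 hM2 hqM K π₀ hπ₀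
  exact h20_comp_two_gen (B.comap (algebraMap ↥K Lbar)) M (M * q) (Dvd.intro q rfl) q hq
    (Dvd.intro_left M rfl) π₀ hπ₀ hqM (dvd_refl _) (h23_liesOver_comap B hB)
    (h6Gen' emb M q hq (M * q) (Dvd.intro q rfl) (Dvd.intro_left M rfl) rfl hqM)
    hM2 (Dvd.dvd.mul_right hM2 q) L₁ L₂

include hq hqM hB in
/-- **Stage (C) at the `K`-level, Hauptmodul of level `3`** - hypothesis-free. -/
theorem h20_compGeom₃ (hM3 : 3 ∣ M) :
    H18CompGeom₃ (M * q) (Dvd.dvd.mul_right hM3 q) B := by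
  intro K hKfin hdvr π₀ hπ₀
  haveI := hKfin
  haveI := hdvr
  haveI : NeZero M := ⟨fun h => NeZero.ne (M * q) (by rw [h, zero_mul])⟩
  haveI : NeZero q := ⟨hq.ne_zero⟩
  haveI : CharP (IsLocalRing.ResidueField (B.comap (algebraMap ↥K Lbar))) q :=
    h23_charP_residueField B hq hB
  haveI : Finite (IsLocalRing.ResidueField (B.comap (algebraMap ↥K Lbar))) :=
    h23_finite_residueField_intermediate B hq hB K
  haveI : IsScalarTower (B.comap (algebraMap ↥K Lbar)) ↥K ↥(modularFunctionFieldFullC ↥K M) :=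
    IsScalarTower.of_algebraMap_eq (fun c => rfl)
  haveI : IsScalarTower (B.comap (algebraMap ↥K Lbar)) ↥K
      ↥(modularFunctionFieldFullC ↥K (M * q)) :=
    IsScalarTower.of_algebraMap_eq (fun c => rfl)
  obtain ⟨emb⟩ := h18_exists_emb K
  have hq3 : q ≠ 3 := fun h => hqM (h ▸ hM3)
  obtain ⟨L₁, L₂⟩ := h20_levelM_three B hq hB M hq3 hM3 hqM K π₀ hπ₀
  exact h20_comp_three_gen (B.comap (algebraMap ↥K Lbar)) M (M * q) (Dvd.intro q rfl) q hq
    (Dvd.intro_left M rfl) π₀ hπ₀ hqM (dvd_refl _) (h23_liesOver_comap B hB)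
    (h6Gen' emb M q hq (M * q) (Dvd.intro q rfl) (Dvd.intro_left M rfl) rfl hqM)
    hM3 (Dvd.dvd.mul_right hM3 q) L₁ L₂

end Fermat.Agent.S34x.Comp.H20
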