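import Fermat.Agent.S34x.Comp.H22_BetaIntKO
import Fermat.Agent.S37x.Red.H2_ChartMap

/-!
# S34 / W10 (C) COMP (helper22): (β-INT), the chart map

* `h22_chart_le_of_mem` : `y ∈ chart O x → chart O y ≤ chart O x`;
* `h22_chart_map_of_mem` : a ring homomorphism `τ` with `τ x₁ ∈ chart O₂ x₂` maps
  `chart O₁ x₁` into `chart O₂ x₂`;
* `h22_beta_chart`, `h22_beta_chart_inv` : every ring homomorphism `τ : F_M → F_N` which is
  `Q ↦ Q ^ q` on Laurent series maps `chart O x_M` into `chart O x_N` and `chart O x_M⁻¹` into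
  `chart O x_N⁻¹`, given (β-INT).
-/

set_option autoImplicit false
set_option linter.unusedSectionVars false
set_option linter.unusedVariables false
set_option linter.style.haveILetI false
set_option synthInstance.maxHeartbeats 400000
set_option maxHeartbeats 1000000

open ModularCurve Polynomial

noncomputable section

namespace Fermat.Agent.S34x.Comp.H22

open Fermat.Agent.S18x.Spec.H26 Fermat.Agent.S18x.Qepo Fermat.Agent.S18x.IG.H29
  Fermat.Agent.S18x.IG.H28

section Abs

variable (O : Type*) {F : Type*} [CommRing O] [CommRing F] [Algebra O F]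

theorem h22_chart_le_of_mem (x y : F) (hy : y ∈ chart O x) : chart O y ≤ chart O x := by
  intro z hz
  rw [mem_chart] at hz ⊢
  have hle : Algebra.adjoin O {y} ≤ chart O x := by
    rw [Algebra.adjoin_le_iff, Set.singleton_subset_iff]
    exact hy
  have h1 : IsIntegral (chart O x) z := h26_isIntegral_mono hle hz
  have h2 : IsIntegral (integralClosure (Algebra.adjoin O {x}) F) z := h1
  exact isIntegral_trans (A := integralClosure (Algebra.adjoin O {x}) F) z h2

end Abs

section Map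

variable {O₁ O₂ F₁ F₂ : Type*} [CommRing O₁] [CommRing O₂] [CommRing F₁] [CommRing F₂]
  [Algebra O₁ F₁] [Algebra O₂ F₂]

theorem h22_chart_map_of_mem (τ : F₁ →+* F₂)
    (hO : ∀ c : O₁, ∃ c' : O₂, τ (algebraMap O₁ F₁ c) = algebraMap O₂ F₂ c')
    (x₁ : F₁) (x₂ : F₂) (h : τ x₁ ∈ chart O₂ x₂) (a : F₁) (ha : a ∈ chart O₁ x₁) :
    τ a ∈ chart O₂ x₂ :=
  h22_chart_le_of_mem O₂ x₂ (τ x₁) h (Fermat.Agent.S37x.Red.H2.h2c_chart_map τ hO x₁ a ha)

end Map

section Inst

variable (K : Type) [Field K] [CharZero K] (O : ValuationSubring K) (M N : ℕ) [NeZero M]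
  [NeZero N] [Algebra O (FM K M)] [IsScalarTower O K (FM K M)]
  [Algebra O (FM K N)] [IsScalarTower O K (FM K N)]

/-- a ring homomorphism `F_M → F_N` which is `Q ↦ Q ^ q` on Laurent series is compatible with
the constants -/
theorem h22_beta_const (q : ℕ) [NeZero q] (τ : FM K M →+* FM K N)
    (hτ : ∀ a : FM K M, ((τ a : FM K N) : LaurentSeries K) = qExpand K q (a : LaurentSeries K))
    (c : O) : τ (algebraMap O (FM K M) c) = algebraMap O (FM K N) c := by
  apply Subtype.ext
  rw [hτ, IsScalarTower.algebraMap_apply O K (FM K M), IsScalarTower.algebraMap_apply O K (FM K N)]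
  exact (qExpandAlgHomC K q).commutes (algebraMap O K c)

/-- **The chart map.** -/
theorem h22_beta_chart (q : ℕ) [NeZero q] (τ : FM K M →+* FM K N)
    (hτ : ∀ a : FM K M, ((τ a : FM K N) : LaurentSeries K) = qExpand K q (a : LaurentSeries K))
    (x₀ : LaurentSeries ℤ)
    (hmemM : coeffMap (Int.castRingHom K) x₀ ∈ modularFunctionFieldFullC K M)
    (hmem : coeffMap (Int.castRingHom K) x₀ ∈ modularFunctionFieldFullC K N)
    (hmemq : qExpand K q (coeffMap (Int.castRingHom K) x₀) ∈ modularFunctionFieldFullC K N)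
    (hint : h22BetaCoord K N q x₀ hmemq ∈ chart O (coordM K N x₀ hmem))
    (a : FM K M) (ha : a ∈ chart O (coordM K M x₀ hmemM)) :
    τ a ∈ chart O (coordM K N x₀ hmem) := by
  refine h22_chart_map_of_mem τ (fun c => ⟨c, h22_beta_const K O M N q τ hτ c⟩)
    (coordM K M x₀ hmemM) (coordM K N x₀ hmem) ?_ a ha
  have h1 : τ (coordM K M x₀ hmemM) = h22BetaCoord K N q x₀ hmemq := Subtype.ext (hτ _)
  rw [h1]
  exact hint

/-- **The chart map, inverse coordinate.** -/
theorem h22_beta_chart_inv (q : ℕ) [NeZero q] (τ : FM K M →+* FM K N)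
    (hτ : ∀ a : FM K M, ((τ a : FM K N) : LaurentSeries K) = qExpand K q (a : LaurentSeries K))
    (x₀ : LaurentSeries ℤ)
    (hmemM : coeffMap (Int.castRingHom K) x₀ ∈ modularFunctionFieldFullC K M)
    (hmem : coeffMap (Int.castRingHom K) x₀ ∈ modularFunctionFieldFullC K N)
    (hmemq : qExpand K q (coeffMap (Int.castRingHom K) x₀) ∈ modularFunctionFieldFullC K N)
    (hint : (h22BetaCoord K N q x₀ hmemq)⁻¹ ∈ chart O (coordM K N x₀ hmem)⁻¹)
    (a : FM K M) (ha : a ∈ chart O (coordM K M x₀ hmemM)⁻¹) :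
    τ a ∈ chart O (coordM K N x₀ hmem)⁻¹ := by
  refine h22_chart_map_of_mem τ (fun c => ⟨c, h22_beta_const K O M N q τ hτ c⟩)
    (coordM K M x₀ hmemM)⁻¹ (coordM K N x₀ hmem)⁻¹ ?_ a ha
  have h1 : τ (coordM K M x₀ hmemM) = h22BetaCoord K N q x₀ hmemq := Subtype.ext (hτ _)
  rw [map_inv₀, h1]
  exact hint

end Inst

end Fermat.Agent.S34x.Comp.H22
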