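import Mathlib

/-!
# S34 / W10 (C) COMP (helper22): (β-INT), abstract valuation form

`x` the Hauptmodul of level `p0 ∈ {2, 3}`, `y = β x = x (Q ^ q)`, `q ≠ p0`.  The statement
(β-INT) `y ∈ chart O x`, `y⁻¹ ∈ chart O x⁻¹` is proved through ALL valuation subrings of the
function field containing `O[x]` (Mathlib: a subring integrally closed in a field is the
intersection of the valuation subrings containing it), so that neither the saturation (SAT)
nor the dictionary prime ↔ place is needed.

* `h22_arith` : the four combinations of the two Kronecker order relations are impossible;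
* `H22Cusp v p0 x j j'` : the order relations of `j`, `j' = j(Q^p0)` in terms of the Hauptmodul;
* `h22_cusp_two`, `h22_cusp_three` : they follow from the two relations of `haupt_two`,
  `haupt_three` when `p0` is a unit for `v`;
* `h22_beta_val` : the book-keeping: `v x ≤ 1 → v y ≤ 1` and `1 ≤ v x → 1 ≤ v y`, from the
  Kronecker order relation (KO) for `(j, j_q)` and `(j', j'_q)`;
* `h22_isIntegral_of_forall_valuationSubring` : integrality from the valuation criterion.
-/

set_option autoImplicit false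

namespace Fermat.Agent.S34x.Comp.H22

section Arith

variable {Γ : Type*} [LinearOrderedCommGroupWithZero Γ]

/-- the four combinations of the two Kronecker order relations are impossible -/
theorem h22_arith {a b : Γ} (ha : 1 < a) (hb : 1 < b) (p0 q : ℕ) (hp0 : 2 ≤ p0) (hq : 0 < q)
    (hqp : q ≠ p0) (h1 : b = a ^ (p0 * q) ∨ a ^ p0 = b ^ q)
    (h2 : b ^ p0 = a ^ q ∨ a = b ^ (p0 * q)) : False := by
  have inja : Function.Injective fun n : ℕ => a ^ n :=
    pow_right_injective₀ (zero_lt_one.trans ha) ha.ne'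
  have injb : Function.Injective fun n : ℕ => b ^ n :=
    pow_right_injective₀ (zero_lt_one.trans hb) hb.ne'
  have hp0q : q < p0 * q * p0 := by
    calc q < 2 * q * 2 := by omega
      _ ≤ p0 * q * p0 := Nat.mul_le_mul (Nat.mul_le_mul hp0 le_rfl) hp0
  rcases h1 with h1 | h1 <;> rcases h2 with h2 | h2
  · -- b = a^(p0 q), b^p0 = a^q
    rw [h1, ← pow_mul] at h2
    exact hp0q.ne' (inja h2)
  · -- b = a^(p0 q), a = b^(p0 q)
    have h3 : b ^ 1 = b ^ (p0 * q * (p0 * q)) := by
      rw [pow_one, pow_mul, ← h2, ← h1]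
    have h4 : 1 = p0 * q * (p0 * q) := injb h3
    nlinarith
  · -- a^p0 = b^q, b^p0 = a^q
    have h3 : a ^ (p0 * p0) = a ^ (q * q) := by
      rw [pow_mul, h1, ← pow_mul, mul_comm q p0, pow_mul, h2, ← pow_mul]
    have h4 : p0 * p0 = q * q := inja h3
    apply hqp
    nlinarith [Nat.mul_self_inj.mp h4.symm]
  · -- a^p0 = b^q, a = b^(p0 q)
    have h3 : b ^ (p0 * q * p0) = b ^ q := by
      rw [pow_mul, ← h2, h1]
    exact hp0q.ne' (injb h3)

end Arith

section Val

variable {F : Type*} [Field F] {Γ₀ : Type*} [LinearOrderedCommGroupWithZero Γ₀]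
  (v : Valuation F Γ₀)

/-- The order relations of `j` and `j' = j (Q ^ p0)` in terms of the Hauptmodul `x` of level
`p0`, at an arbitrary valuation. -/
structure H22Cusp (p0 : ℕ) (x j j' : F) : Prop where
  zero : v x < 1 → v j * v x ^ p0 = 1 ∧ v j' * v x = 1
  infty : 1 < v x → v j = v x ∧ v j' = v x ^ p0
  unit : v x = 1 → v j ≤ 1

theorem h22_map_add_of_lt_one {x c : F} (hx : v x < 1) (hc : v c = 1) : v (x + c) = 1 := by
  rw [v.map_add_eq_of_lt_right (by rw [hc]; exact hx), hc]

theorem h22_map_add_of_one_lt {x c : F} (hx : 1 < v x) (hc : v c ≤ 1) : v (x + c) = v x :=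
  v.map_add_eq_of_lt_left (lt_of_le_of_lt hc hx)

theorem h22_map_add_le_one {x c : F} (hx : v x ≤ 1) (hc : v c ≤ 1) : v (x + c) ≤ 1 :=
  v.map_add_le hx hc

/-- level 2 -/
theorem h22_cusp_two (h2 : v 2 = 1) (x j j' : F) (hj : j * x ^ 2 = (x + 256) ^ 3)
    (hj' : j' * x = (x + 16) ^ 3) : H22Cusp v 2 x j j' := by
  have h256 : v 256 = 1 := by
    have : (256 : F) = 2 ^ 8 := by norm_num
    rw [this, map_pow, h2, one_pow]
  have h16 : v 16 = 1 := by
    have : (16 : F) = 2 ^ 4 := by norm_num
    rw [this, map_pow, h2, one_pow]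
  have e1 : v j * v x ^ 2 = v (x + 256) ^ 3 := by rw [← map_pow, ← map_mul, hj, map_pow]
  have e2 : v j' * v x = v (x + 16) ^ 3 := by rw [← map_mul, hj', map_pow]
  refine ⟨fun hx => ?_, fun hx => ?_, fun hx => ?_⟩
  · rw [e1, e2, h22_map_add_of_lt_one v hx h256, h22_map_add_of_lt_one v hx h16, one_pow]
    exact ⟨rfl, rfl⟩
  · rw [h22_map_add_of_one_lt v hx h256.le] at e1
    rw [h22_map_add_of_one_lt v hx h16.le] at e2
    have hx0 : v x ≠ 0 := (zero_lt_one.trans hx).ne'
    constructor
    · have : v j * v x ^ 2 = v x * v x ^ 2 := by rw [e1, pow_succ' (v x) 2]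
      exact mul_right_cancel₀ (pow_ne_zero 2 hx0) this
    · have : v j' * v x = v x ^ 2 * v x := by rw [e2, pow_succ (v x) 2]
      exact mul_right_cancel₀ hx0 this
  · rw [hx, one_pow, mul_one] at e1
    rw [e1]
    exact pow_le_one₀ zero_le (h22_map_add_le_one v hx.le h256.le)

/-- level 3 -/
theorem h22_cusp_three (h3 : v 3 = 1) (x j j' : F)
    (hj : j * x ^ 3 = (x + 243) ^ 3 * (x + 27))
    (hj' : j' * x = (x + 27) * (x + 3) ^ 3) : H22Cusp v 3 x j j' := by
  have h243 : v 243 = 1 := by
    have : (243 : F) = 3 ^ 5 := by norm_num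
    rw [this, map_pow, h3, one_pow]
  have h27 : v 27 = 1 := by
    have : (27 : F) = 3 ^ 3 := by norm_num
    rw [this, map_pow, h3, one_pow]
  have e1 : v j * v x ^ 3 = v (x + 243) ^ 3 * v (x + 27) := by
    rw [← map_pow, ← map_mul, hj, map_mul, map_pow]
  have e2 : v j' * v x = v (x + 27) * v (x + 3) ^ 3 := by
    rw [← map_mul, hj', map_mul, map_pow]
  refine ⟨fun hx => ?_, fun hx => ?_, fun hx => ?_⟩
  · rw [e1, e2, h22_map_add_of_lt_one v hx h243, h22_map_add_of_lt_one v hx h27,
      h22_map_add_of_lt_one v hx h3, one_pow, one_mul]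
    exact ⟨rfl, rfl⟩
  · rw [h22_map_add_of_one_lt v hx h243.le, h22_map_add_of_one_lt v hx h27.le] at e1
    rw [h22_map_add_of_one_lt v hx h27.le, h22_map_add_of_one_lt v hx h3.le] at e2
    have hx0 : v x ≠ 0 := (zero_lt_one.trans hx).ne'
    constructor
    · have : v j * v x ^ 3 = v x * v x ^ 3 := by rw [e1, mul_comm]
      exact mul_right_cancel₀ (pow_ne_zero 3 hx0) this
    · have : v j' * v x = v x ^ 3 * v x := by rw [e2, mul_comm]
      exact mul_right_cancel₀ hx0 this
  · rw [hx, one_pow, mul_one] at e1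
    rw [e1]
    exact mul_le_one₀ (pow_le_one₀ zero_le (h22_map_add_le_one v hx.le h243.le)) zero_le
      (h22_map_add_le_one v hx.le h27.le)

/-- **The order book-keeping of (β-INT).** -/
theorem h22_beta_val (p0 q : ℕ) (hp0 : 2 ≤ p0) (hq : 0 < q) (hqp : q ≠ p0)
    (x y j j' jq j'q : F)
    (hx : H22Cusp v p0 x j j') (hy : H22Cusp v p0 y jq j'q)
    (hint : v j ≤ 1 → v jq ≤ 1)
    (hKO : 1 < v j → v jq = v j ^ q ∨ v j = v jq ^ q)
    (hKO' : 1 < v j' → v j'q = v j' ^ q ∨ v j' = v j'q ^ q) :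
    (v x ≤ 1 → v y ≤ 1) ∧ (1 ≤ v x → 1 ≤ v y) := by
  have hp0' : p0 ≠ 0 := by omega
  constructor
  · intro hx1
    by_contra hy1
    rw [not_le] at hy1
    obtain ⟨hjq, hj'q⟩ := hy.infty hy1
    rcases hx1.lt_or_eq with hx2 | hx2
    · obtain ⟨e1, e2⟩ := hx.zero hx2
      have hx0 : v x ≠ 0 := by
        intro h0
        rw [h0, mul_zero] at e2
        exact zero_ne_one e2
      have ha : 1 < (v x)⁻¹ := (one_lt_inv₀ (zero_lt_iff.mpr hx0)).mpr hx2
      have hj : v j = (v x)⁻¹ ^ p0 := by
        rw [inv_pow]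
        exact eq_inv_of_mul_eq_one_left e1
      have hj' : v j' = (v x)⁻¹ := eq_inv_of_mul_eq_one_left e2
      have h1 := hKO (by rw [hj]; exact one_lt_pow₀ ha hp0')
      have h2 := hKO' (by rw [hj']; exact ha)
      rw [hjq, hj, ← pow_mul] at h1
      rw [hj'q, hj', ← pow_mul] at h2
      exact h22_arith ha hy1 p0 q hp0 hq hqp h1 h2
    · have := hint (hx.unit hx2)
      rw [hjq] at this
      exact (not_le.mpr hy1) this
  · intro hx1
    by_contra hy1
    rw [not_le] at hy1
    obtain ⟨e1, e2⟩ := hy.zero hy1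
    have hy0 : v y ≠ 0 := by
      intro h0
      rw [h0, mul_zero] at e2
      exact zero_ne_one e2
    have hb : 1 < (v y)⁻¹ := (one_lt_inv₀ (zero_lt_iff.mpr hy0)).mpr hy1
    have hjq : v jq = (v y)⁻¹ ^ p0 := by
      rw [inv_pow]
      exact eq_inv_of_mul_eq_one_left e1
    have hj'q : v j'q = (v y)⁻¹ := eq_inv_of_mul_eq_one_left e2
    rcases hx1.lt_or_eq with hx2 | hx2
    · obtain ⟨hj, hj'⟩ := hx.infty hx2
      have h1 := hKO (by rw [hj]; exact hx2)
      have h2 := hKO' (by rw [hj']; exact one_lt_pow₀ hx2 hp0')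
      rw [hjq, hj, ← pow_mul] at h1
      rw [hj'q, hj', ← pow_mul] at h2
      exact h22_arith hb hx2 p0 q hp0 hq hqp h1.symm h2.symm
    · have := hint (hx.unit hx2.symm)
      rw [hjq] at this
      exact (not_le.mpr (one_lt_pow₀ hb hp0')) this

end Val

section Crit

variable {F : Type*} [Field F]

/-- **Valuation criterion of integrality** over `O[x]`. -/
theorem h22_isIntegral_of_forall_valuationSubring (O : Type*) [CommRing O] [Algebra O F]
    (x y : F)
    (h : ∀ W : ValuationSubring F, (∀ c : O, algebraMap O F c ∈ W) → x ∈ W → y ∈ W) :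
    IsIntegral (Algebra.adjoin O {x}) y := by
  by_contra hy
  let R : Subring F := (integralClosure (Algebra.adjoin O {x}) F).toSubring
  have hyR : y ∉ R := hy
  have : IsIntegrallyClosedIn R F := by
    rw [Subring.isIntegrallyClosedIn_iff]
    intro z hz
    have hz' : IsIntegral (integralClosure (Algebra.adjoin O {x}) F) z := hz
    exact isIntegral_trans (A := integralClosure (Algebra.adjoin O {x}) F) z hz'
  obtain ⟨W, hRW, hyW⟩ := Subring.exists_le_valuationSubring_of_isIntegrallyClosedIn hyR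
  apply hyW
  refine h W (fun c => hRW ?_) (hRW ?_)
  · exact (integralClosure (Algebra.adjoin O {x}) F).algebraMap_mem
      (algebraMap O (Algebra.adjoin O {x}) c)
  · exact (integralClosure (Algebra.adjoin O {x}) F).algebraMap_mem
      (⟨x, Algebra.subset_adjoin (Set.mem_singleton x)⟩ : Algebra.adjoin O {x})

end Crit

end Fermat.Agent.S34x.Comp.H22
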