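import Fermat.Agent.S34x.Comp.H22_BetaChart
import Fermat.Agent.S18x.Dict.H23_Dvr

/-!
# S34 / W10 (C) COMP (helper22): (β-INT), the plug `hβB`

* `h22_hOq_of_liesOver` : in a valuation subring lying over `q` the integers prime to `q` are
  units (in the spelling consumed by `h22_betaInt_two_of_cusp`);
* `h22_hβB_two`, `h22_hβB_three` : for every ring homomorphism `τ : F_M → F_N` which is
  `Q ↦ Q ^ q` on Laurent series (`M * q ∣ N`, `p0 ∣ M`, `q ≠ p0`): `τ` maps `chart O x_M` into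
  `chart O x_N` and `chart O x_M⁻¹` into `chart O x_N⁻¹` (`x = coord2`, `coord3`), from the unit
  form `H22CuspFact` of the Kronecker order relation.
-/

set_option autoImplicit false
set_option linter.unusedSectionVars false
set_option linter.unusedVariables false
set_option linter.style.haveILetI false
set_option synthInstance.maxHeartbeats 400000
set_option maxHeartbeats 1000000

open ModularCurve Polynomial

noncomputable section

namespace Fermat.Agent.S34x.Comp.H22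

open Fermat.Agent.S18x.Spec.H26 Fermat.Agent.S18x.Qepo Fermat.Agent.S18x.IG.H29
  Fermat.Agent.S18x.IG.H28 Fermat.Agent.S18x.Dict.H23

theorem h22_hOq_of_liesOver {K : Type*} [Field K] {q : ℕ} (hq : q.Prime)
    (V : ValuationSubring K) (hV : V.LiesOverPrime q) :
    ∀ n : ℤ, ¬ (q : ℤ) ∣ n → ((n : K))⁻¹ ∈ V := by
  intro n hn
  obtain ⟨m, rfl | rfl⟩ := Int.eq_nat_or_neg n
  · have hm : ¬ q ∣ m := fun h => hn (Int.natCast_dvd_natCast.mpr h)
    have h1 := h23_inv_natCast_mem' hq V hV m hm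
    rw [Int.cast_natCast]
    exact h1
  · have hm : ¬ q ∣ m := fun h => hn ((dvd_neg).mpr (Int.natCast_dvd_natCast.mpr h))
    have h1 := h23_inv_natCast_mem' hq V hV m hm
    rw [Int.cast_neg, Int.cast_natCast, inv_neg]
    exact neg_mem h1

section Inst

variable (K : Type) [Field K] [CharZero K] (O : ValuationSubring K) (M N : ℕ) [NeZero M]
  [NeZero N] [Algebra O (FM K M)] [IsScalarTower O K (FM K M)]
  [Algebra O (FM K N)] [IsScalarTower O K (FM K N)]

/-- **`hβB` at level 2.** -/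
theorem h22_hβB_two (q : ℕ) [NeZero q] (hq : q.Prime) (hq2 : q ≠ 2) (h2M : 2 ∣ M)
    (h2N : 2 ∣ N) (hMqN : M * q ∣ N)
    (hOq : ∀ n : ℤ, ¬ (q : ℤ) ∣ n → ((n : K))⁻¹ ∈ O)
    (hKO : H22CuspFact q hq (FM K N))
    (τ : FM K M →+* FM K N)
    (hτ : ∀ a : FM K M, ((τ a : FM K N) : LaurentSeries K) = qExpand K q (a : LaurentSeries K)) :
    (∀ a : FM K M, a ∈ chart O (coord2 K M h2M) → τ a ∈ chart O (coord2 K N h2N)) ∧
      (∀ a : FM K M, a ∈ chart O (coord2 K M h2M)⁻¹ → τ a ∈ chart O (coord2 K N h2N)⁻¹) := by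
  have hmemM := h2_mem_full K M h2M
  have hmem := h2_mem_full K N h2N
  have hmemq : qExpand K q (coeffMap (Int.castRingHom K) h2) ∈ modularFunctionFieldFullC K N :=
    h22_beta_mem K N M q hMqN _ hmemM
  have h2qN : q * 2 ∣ N := by
    obtain ⟨c, hc⟩ := h2M
    refine Dvd.dvd.trans ⟨c, ?_⟩ hMqN
    rw [hc]; ring
  obtain ⟨hi1, hi2⟩ := h22_betaInt_two_of_cusp K O N q hq hq2 h2qN hOq hKO hmem hmemq
  exact ⟨fun a ha => h22_beta_chart K O M N q τ hτ Fermat.Agent.S18x.IG.H28.h2 hmemM hmem hmemq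
      hi1 a ha,
    fun a ha => h22_beta_chart_inv K O M N q τ hτ Fermat.Agent.S18x.IG.H28.h2 hmemM hmem hmemq
      hi2 a ha⟩

/-- **`hβB` at level 3.** -/
theorem h22_hβB_three (q : ℕ) [NeZero q] (hq : q.Prime) (hq3 : q ≠ 3) (h3M : 3 ∣ M)
    (h3N : 3 ∣ N) (hMqN : M * q ∣ N)
    (hOq : ∀ n : ℤ, ¬ (q : ℤ) ∣ n → ((n : K))⁻¹ ∈ O)
    (hKO : H22CuspFact q hq (FM K N))
    (τ : FM K M →+* FM K N)
    (hτ : ∀ a : FM K M, ((τ a : FM K N) : LaurentSeries K) = qExpand K q (a : LaurentSeries K)) :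
    (∀ a : FM K M, a ∈ chart O (coord3 K M h3M) → τ a ∈ chart O (coord3 K N h3N)) ∧
      (∀ a : FM K M, a ∈ chart O (coord3 K M h3M)⁻¹ → τ a ∈ chart O (coord3 K N h3N)⁻¹) := by
  have hmemM := h3_mem_full K M h3M
  have hmem := h3_mem_full K N h3N
  have hmemq : qExpand K q (coeffMap (Int.castRingHom K) h3) ∈ modularFunctionFieldFullC K N :=
    h22_beta_mem K N M q hMqN _ hmemM
  have h3qN : q * 3 ∣ N := by
    obtain ⟨c, hc⟩ := h3M
    refine Dvd.dvd.trans ⟨c, ?_⟩ hMqN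
    rw [hc]; ring
  obtain ⟨hi1, hi2⟩ := h22_betaInt_three_of_cusp K O N q hq hq3 h3qN hOq hKO hmem hmemq
  exact ⟨fun a ha => h22_beta_chart K O M N q τ hτ Fermat.Agent.S18x.IG.H28.h3 hmemM hmem hmemq
      hi1 a ha,
    fun a ha => h22_beta_chart_inv K O M N q τ hτ Fermat.Agent.S18x.IG.H28.h3 hmemM hmem hmemq
      hi2 a ha⟩

end Inst

end Fermat.Agent.S34x.Comp.H22
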