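import Mathlib
import Fermat.Agent.S34x.Val.H6_Inst

/-!
# W10 / S34, stage (C) COMP, (K)-INST (helper23): the Kronecker inputs of `h7_comp_abs2` at the
instance

For helper6's instance of stage (A) (`V = h6V = W[j_q] ⊆ F_N`, `W = gaussValM O M`,
`α = h6incl : F_M → F_N`), and any `e₂` with the description of `𝔪₀` given by `h6_two`
(`G₂ = X ^ q - j̄`):

* `h23_hq`    : `q ∈ 𝔪₀` (`hq` of `h7_comp_abs2`), from `(q : ResidueField O) = 0`;
* `h23_hj`    : `α j ∈ V` (`hj`);
* `h23_hjq`   : `j_q ∈ V` (`hjq`);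
* `h23_hkron` : `j_q ^ q - α j ∈ 𝔪₀` (`hkron`, Kronecker's congruence on the component `C₀`);
* `h23_hkron₁`: `j_q - (α j) ^ q ∈ 𝔪_∞` (the congruence on the component `C_∞`);
* `h23_kron_inst` : the four inputs together.
-/

set_option autoImplicit false
set_option linter.unusedSectionVars false
set_option linter.style.haveILetI false

open ModularCurve Polynomial

noncomputable section

namespace Fermat.Agent.S34x.Comp.H23

open Fermat.Agent.S18x.Dict.H20 Fermat.Agent.S18x.Qepo Fermat.Agent.S34x.Val.H2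
  Fermat.Agent.S34x.Val.H6 Fermat.Agent.S28.Asm

variable {K : Type} [Field K] (O : ValuationSubring K) [IsDiscreteValuationRing O]
  (M N : ℕ) [NeZero M] [NeZero N] (hMN : M ∣ N) (q : ℕ) [NeZero q] (hqN : q ∣ N)
  [Algebra O (FM K M)] [IsScalarTower O K (FM K M)]
  [Algebra O (FM K N)] [IsScalarTower O K (FM K N)]
  (π : O)

/-- `α j`, the `j`-invariant of level `M` seen in `F_N`, is the image of `jM`. -/
theorem h23_incl_jM : h6incl M N hMN ((jM O M : gaussValM O M) : FM K M)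
    = h6incl M N hMN (jbFull K M) := rfl

/-- **`hj`**: `α j ∈ V`. -/
theorem h23_hj : h6incl M N hMN (jbFull K M) ∈ h6V O M N hMN q hqN :=
  h6V_incl O M N hMN q hqN ((jM O M : gaussValM O M) : FM K M) (jM O M).2

/-- **`hjq`**: `j_q ∈ V`. -/
theorem h23_hjq : jbdFull K N q hqN ∈ h6V O M N hMN q hqN :=
  h6V_jq O M N hMN q hqN

/-- **`hq`**: the residue characteristic lies in every component. -/
theorem h23_hq (hπ : Irreducible π) (hq0 : (q : IsLocalRing.ResidueField O) = 0)
    (e : FM K N) (hc : H2Comp (h6V O M N hMN q hqN) (algebraMap O (FM K N) π) e) :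
    H2In (h6V O M N hMN q hqN) (algebraMap O (FM K N) π) e ((q : ℕ) : FM K N) := by
  have h1 : IsLocalRing.residue O ((q : ℕ) : O) = 0 := by
    rw [map_natCast]
    exact hq0
  have h2 : ((q : ℕ) : O) ∈ IsLocalRing.maximalIdeal O :=
    (IsLocalRing.residue_eq_zero_iff _).mp h1
  rw [hπ.maximalIdeal_eq, Ideal.mem_span_singleton'] at h2
  obtain ⟨c, hc'⟩ := h2
  apply hc.in_of_div
  refine ⟨algebraMap O (FM K N) c, h6_hOV O M N hMN q hqN c, ?_⟩
  rw [← map_mul, mul_comm, hc', map_natCast]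

/-- **`hkron`**: Kronecker's congruence `j_q ^ q ≡ j` on the component cut out by
`G₂ = X ^ q - j̄`. -/
theorem h23_hkron (e₂ : FM K N)
    (hm₂ : ∀ P : (gaussValM O M)[X],
      H2In (h6V O M N hMN q hqN) (algebraMap O (FM K N) π) e₂ (h6ev O M N hMN q hqN P) ↔
        (X ^ q - C (h6jbar O M)) ∣ P.map (IsLocalRing.residue (gaussValM O M))) :
    H2In (h6V O M N hMN q hqN) (algebraMap O (FM K N) π) e₂
      (jbdFull K N q hqN ^ q - h6incl M N hMN (jbFull K M)) := by
  have h1 : h6ev O M N hMN q hqN (X ^ q - C (jM O M))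
      = jbdFull K N q hqN ^ q - h6incl M N hMN (jbFull K M) := by
    rw [map_sub, map_pow, h6ev_X, h6ev_C]
    rfl
  rw [← h1, hm₂]
  have h2 : (X ^ q - C (jM O M) : (gaussValM O M)[X]).map
      (IsLocalRing.residue (gaussValM O M)) = X ^ q - C (h6jbar O M) := by
    rw [Polynomial.map_sub, Polynomial.map_pow, Polynomial.map_X, Polynomial.map_C]
    rfl
  rw [h2]

/-- Kronecker's congruence `j_q ≡ j ^ q` on the component cut out by `G₁ = X - j̄ ^ q`. -/
theorem h23_hkron₁ (e₁ : FM K N)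
    (hm₁ : ∀ P : (gaussValM O M)[X],
      H2In (h6V O M N hMN q hqN) (algebraMap O (FM K N) π) e₁ (h6ev O M N hMN q hqN P) ↔
        (X - C (h6jbar O M ^ q)) ∣ P.map (IsLocalRing.residue (gaussValM O M))) :
    H2In (h6V O M N hMN q hqN) (algebraMap O (FM K N) π) e₁
      (jbdFull K N q hqN - h6incl M N hMN (jbFull K M) ^ q) := by
  have h1 : h6ev O M N hMN q hqN (X - C (jM O M ^ q))
      = jbdFull K N q hqN - h6incl M N hMN (jbFull K M) ^ q := by
    rw [map_sub, h6ev_X, h6ev_C, ← map_pow]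
    rfl
  rw [← h1, hm₁]
  have h2 : (X - C (jM O M ^ q) : (gaussValM O M)[X]).map
      (IsLocalRing.residue (gaussValM O M)) = X - C (h6jbar O M ^ q) := by
    rw [Polynomial.map_sub, Polynomial.map_X, Polynomial.map_C,
      map_pow (IsLocalRing.residue (gaussValM O M))]
    rfl
  rw [h2]

/-- **(K)-INST**: the four Kronecker inputs `hq`, `hj`, `hjq`, `hkron` of `h7_comp_abs2` at the
instance, with `j := α (jbFull K M)`, `jq := jbdFull K N q hqN`. -/
theorem h23_kron_inst (hπ : Irreducible π) (hq0 : (q : IsLocalRing.ResidueField O) = 0)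
    (e₂ : FM K N) (hc₂ : H2Comp (h6V O M N hMN q hqN) (algebraMap O (FM K N) π) e₂)
    (hm₂ : ∀ P : (gaussValM O M)[X],
      H2In (h6V O M N hMN q hqN) (algebraMap O (FM K N) π) e₂ (h6ev O M N hMN q hqN P) ↔
        (X ^ q - C (h6jbar O M)) ∣ P.map (IsLocalRing.residue (gaussValM O M))) :
    H2In (h6V O M N hMN q hqN) (algebraMap O (FM K N) π) e₂ ((q : ℕ) : FM K N) ∧
    h6incl M N hMN (jbFull K M) ∈ h6V O M N hMN q hqN ∧
    jbdFull K N q hqN ∈ h6V O M N hMN q hqN ∧
    H2In (h6V O M N hMN q hqN) (algebraMap O (FM K N) π) e₂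
      (jbdFull K N q hqN ^ q - h6incl M N hMN (jbFull K M)) :=
  ⟨h23_hq O M N hMN q hqN π hπ hq0 e₂ hc₂, h23_hj O M N hMN q hqN, h23_hjq O M N hMN q hqN,
    h23_hkron O M N hMN q hqN π e₂ hm₂⟩

end Fermat.Agent.S34x.Comp.H23
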