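import Fermat.Agent.S34x.Comp.H2_KronShape

/-!
# W10 / S34, stage (C), (KO): the evaluation form of the shape of Kronecker's polynomial
(helper2)

`Φ_q(u ; w) = u^(q+1) + ε w^(q+1) + ∑_{i, k ≤ q} c_{ik} u^i w^k` for all `u, w` in every field,
with integers `c_{ik}`, `ε = ± 1`, `c_{qq} ≡ -1 mod q`.
-/

set_option autoImplicit false
set_option linter.unusedSectionVars false

open Polynomial ModularCurve

noncomputable section

namespace Fermat.Agent.S34x.Comp.H2

open Fermat.Agent.S28.Deg.H9 (ev2)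
open Fermat.Agent.S37x.Kron.H2

/-- `ev2` as an explicit double sum, for a polynomial whose coefficients vanish outside the
square `[0, n) × [0, n)`. -/
theorem h2ks_ev2_eq_sum {S : Type*} [CommRing S] (T : (ℤ[X])[X]) (n : ℕ)
    (hT : ∀ i k, (T.coeff i).coeff k ≠ 0 → i < n ∧ k < n) (u w : S) :
    ev2 T u w = ∑ i ∈ Finset.range n, ∑ k ∈ Finset.range n,
      (((T.coeff i).coeff k : ℤ) : S) * u ^ i * w ^ k := by
  unfold ev2
  have hdeg : T.natDegree < n ∨ T = 0 := by
    by_cases h0 : T = 0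
    · exact Or.inr h0
    · left
      have hlc : T.coeff T.natDegree ≠ 0 := by
        rw [Polynomial.coeff_natDegree]
        exact Polynomial.leadingCoeff_ne_zero.mpr h0
      obtain ⟨k, hk⟩ : ∃ k, (T.coeff T.natDegree).coeff k ≠ 0 := by
        by_contra hcon
        have hcon' : ∀ k, (T.coeff T.natDegree).coeff k = 0 := fun k => by
          by_contra hk
          exact hcon ⟨k, hk⟩
        exact hlc (Polynomial.ext fun k => by rw [hcon' k, coeff_zero])
      exact (hT _ _ hk).1
  have hcoeffdeg : ∀ i, (T.coeff i).natDegree < n ∨ T.coeff i = 0 := by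
    intro i
    by_cases h0 : T.coeff i = 0
    · exact Or.inr h0
    · left
      have hlc : (T.coeff i).coeff (T.coeff i).natDegree ≠ 0 := by
        rw [Polynomial.coeff_natDegree]
        exact Polynomial.leadingCoeff_ne_zero.mpr h0
      exact (hT _ _ hlc).2
  have houter : T.eval₂ (Polynomial.eval₂RingHom (Int.castRingHom S) w) u =
      ∑ i ∈ Finset.range n, (Polynomial.eval₂RingHom (Int.castRingHom S) w) (T.coeff i) * u ^ i := by
    rcases hdeg with h | h
    · exact Polynomial.eval₂_eq_sum_range' _ h u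
    · rw [h]
      simp
  rw [houter]
  refine Finset.sum_congr rfl fun i _ => ?_
  have hinner : (Polynomial.eval₂RingHom (Int.castRingHom S) w) (T.coeff i) =
      ∑ k ∈ Finset.range n, (((T.coeff i).coeff k : ℤ) : S) * w ^ k := by
    rw [Polynomial.coe_eval₂RingHom]
    rcases hcoeffdeg i with h | h
    · rw [Polynomial.eval₂_eq_sum_range' _ h w]
      simp
    · rw [h]
      simp
  rw [hinner, Finset.sum_mul]
  refine Finset.sum_congr rfl fun k _ => ?_
  ring

/-- **The evaluation form of the shape.** -/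
theorem h2kron_ev2_shape (q : ℕ) [NeZero q] (hq : q.Prime) :
    ∃ (ε : ℤ) (c : ℕ → ℕ → ℤ) (m : ℤ), (ε = 1 ∨ ε = -1) ∧ c q q = -1 + q * m ∧
      ∀ {F : Type*} [Field F] (u w : F),
        ev2 (h2kronPhi q hq) u w = u ^ (q + 1) + (ε : F) * w ^ (q + 1) +
          ∑ i ∈ Finset.range (q + 1), ∑ k ∈ Finset.range (q + 1),
            (c i k : F) * u ^ i * w ^ k := by
  obtain ⟨ε, hε, hε0, hshape, hlead, m, hm⟩ := h2kron_shape q hq
  refine ⟨ε, fun i k => ((h2kronPhi q hq).coeff i).coeff k, m, hε, hm, ?_⟩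
  intro F _ u w
  have hT : ∀ i k, ((h2kronPhi q hq).coeff i).coeff k ≠ 0 → i < q + 2 ∧ k < q + 2 := by
    intro i k h
    rcases hshape i k h with ⟨h1, h2⟩ | ⟨h1, h2⟩ | ⟨h1, h2⟩ <;> omega
  rw [h2ks_ev2_eq_sum (h2kronPhi q hq) (q + 2) hT u w]
  -- split off i = q + 1
  rw [Finset.sum_range_succ]
  have hrow : ∑ k ∈ Finset.range (q + 2),
      ((((h2kronPhi q hq).coeff (q + 1)).coeff k : ℤ) : F) * u ^ (q + 1) * w ^ k
        = u ^ (q + 1) := by
    rw [Finset.sum_eq_single 0]
    · rw [hlead]; simp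
    · intro k _ hk
      rw [hlead, Polynomial.coeff_one, if_neg hk]; simp
    · intro h
      exact absurd (Finset.mem_range.mpr (by omega)) h
  rw [hrow]
  -- split off k = q + 1 in every row
  have hcol : ∀ i ∈ Finset.range (q + 1), ∑ k ∈ Finset.range (q + 2),
      ((((h2kronPhi q hq).coeff i).coeff k : ℤ) : F) * u ^ i * w ^ k =
      (∑ k ∈ Finset.range (q + 1),
        ((((h2kronPhi q hq).coeff i).coeff k : ℤ) : F) * u ^ i * w ^ k) +
      (if i = 0 then (ε : F) * w ^ (q + 1) else 0) := by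
    intro i hi
    rw [Finset.sum_range_succ]
    congr 1
    by_cases hi0 : i = 0
    · rw [if_pos hi0, hi0, hε0]; simp
    · rw [if_neg hi0]
      have h0 : ((h2kronPhi q hq).coeff i).coeff (q + 1) = 0 := by
        by_contra hne
        rcases hshape i (q + 1) hne with ⟨h1, h2⟩ | ⟨h1, h2⟩ | ⟨h1, h2⟩
        · omega
        · exact hi0 h1
        · omega
      rw [h0]; simp
  rw [Finset.sum_congr rfl hcol, Finset.sum_add_distrib]
  have hε' : ∑ i ∈ Finset.range (q + 1), (if i = 0 then (ε : F) * w ^ (q + 1) else 0) =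
      (ε : F) * w ^ (q + 1) := by
    rw [Finset.sum_ite_eq' (Finset.range (q + 1)) 0 (fun _ => (ε : F) * w ^ (q + 1))]
    rw [if_pos (Finset.mem_range.mpr (by omega))]
  rw [hε']
  ring

end Fermat.Agent.S34x.Comp.H2
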