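import Mathlib
import Fermat.Agent.S34x.Comp.H7_CompInst2
import Fermat.Agent.S34x.Val.H6_GenK
import Fermat.Agent.S34x.Cross.H18_Final

/-!
# W10 (S34), stage (C) COMP: CLOSED (helper7)

The export of stage (C) at all levels, over every number field `K ⊆ ℚ̄`, in the canonical
instances: helper18's `H18StComp₂`, `H18StComp₃`, with no hypothesis left.

* `h7_compGeom₂`, `h7_compGeom₃` : `H18CompGeom₂ (M * q) _ B`, `H18CompGeom₃ (M * q) _ B`;
* `h7_stComp₂`, `h7_stComp₃` : `H18StComp₂`, `H18StComp₃`;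
* `h7_stKumGeom` : helper16's `StKumGeom`, the geometric export of W10;
* `h7_s34` : the statement S34 (spelling of `h16_s34_of_pack`).
-/

set_option autoImplicit false
set_option linter.unusedSectionVars false
set_option linter.unusedVariables false
set_option linter.style.haveILetI false
set_option synthInstance.maxHeartbeats 400000
set_option maxHeartbeats 1000000

open ModularCurve

noncomputable section

namespace Fermat.Agent.S34x.Comp.H7

open Fermat.Agent.S18x.Dict.H20 Fermat.Agent.S18x.Dict.H23 Fermat.Agent.S18x.Spec.H26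
  Fermat.Agent.S18x.IG.H28 Fermat.Agent.S34x.Val.H6 Fermat.Agent.S34x.Comp.H20
  Fermat.Agent.S34x.Cross.H18

local notation "Lbar" => AlgebraicClosure ℚ

variable (M q : ℕ) [NeZero (M * q)] (hq : q.Prime) (hqM : ¬ q ∣ M)
  (B : ValuationSubring Lbar) (hB : B.LiesOverPrime q)

include hq hqM hB in
/-- **Stage (C) at level `M * q`, Hauptmodul of level `2`**, over every number field. -/
theorem h7_compGeom₂ (hM2 : 2 ∣ M) :
    H18CompGeom₂ (M * q) (Dvd.dvd.mul_right hM2 q) B := by
  intro K _ _ π₀ hπ₀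
  haveI : NeZero M := ⟨fun h => NeZero.ne (M * q) (by rw [h, zero_mul])⟩
  haveI : NeZero q := ⟨hq.ne_zero⟩
  haveI : CharP (IsLocalRing.ResidueField (B.comap (algebraMap ↥K Lbar))) q :=
    h23_charP_residueField B hq hB
  haveI : Finite (IsLocalRing.ResidueField (B.comap (algebraMap ↥K Lbar))) :=
    h23_finite_residueField_intermediate B hq hB K
  haveI : IsScalarTower (B.comap (algebraMap ↥K Lbar)) ↥K ↥(modularFunctionFieldFullC ↥K M) :=
    IsScalarTower.of_algebraMap_eq (fun c => rfl)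
  haveI : IsScalarTower (B.comap (algebraMap ↥K Lbar)) ↥K
      ↥(modularFunctionFieldFullC ↥K (M * q)) :=
    IsScalarTower.of_algebraMap_eq (fun c => rfl)
  have hq2 : q ≠ 2 := fun h => hqM (h ▸ hM2)
  have L := h20_levelM_two B hq hB M hq2 hM2 hqM K π₀ hπ₀
  exact h7_comp_two (B.comap (algebraMap ↥K Lbar)) M (M * q) (Dvd.intro q rfl) q hq
    (Dvd.intro_left M rfl) π₀ hπ₀ hM2 (Dvd.dvd.mul_right hM2 q) (dvd_refl _) hqM
    (h6GenK K M q hq (M * q) (Dvd.intro q rfl) (Dvd.intro_left M rfl) rfl hqM) L.1 L.2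

include hq hqM hB in
/-- **Stage (C) at level `M * q`, Hauptmodul of level `3`**, over every number field. -/
theorem h7_compGeom₃ (hM3 : 3 ∣ M) :
    H18CompGeom₃ (M * q) (Dvd.dvd.mul_right hM3 q) B := by
  intro K _ _ π₀ hπ₀
  haveI : NeZero M := ⟨fun h => NeZero.ne (M * q) (by rw [h, zero_mul])⟩
  haveI : NeZero q := ⟨hq.ne_zero⟩
  haveI : CharP (IsLocalRing.ResidueField (B.comap (algebraMap ↥K Lbar))) q :=
    h23_charP_residueField B hq hB
  haveI : Finite (IsLocalRing.ResidueField (B.comap (algebraMap ↥K Lbar))) :=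
    h23_finite_residueField_intermediate B hq hB K
  haveI : IsScalarTower (B.comap (algebraMap ↥K Lbar)) ↥K ↥(modularFunctionFieldFullC ↥K M) :=
    IsScalarTower.of_algebraMap_eq (fun c => rfl)
  haveI : IsScalarTower (B.comap (algebraMap ↥K Lbar)) ↥K
      ↥(modularFunctionFieldFullC ↥K (M * q)) :=
    IsScalarTower.of_algebraMap_eq (fun c => rfl)
  have hq3 : q ≠ 3 := fun h => hqM (h ▸ hM3)
  have L := h20_levelM_three B hq hB M hq3 hM3 hqM K π₀ hπ₀
  exact h7_comp_three (B.comap (algebraMap ↥K Lbar)) M (M * q) (Dvd.intro q rfl) q hq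
    (Dvd.intro_left M rfl) π₀ hπ₀ hM3 (Dvd.dvd.mul_right hM3 q) (dvd_refl _) hqM
    (h6GenK K M q hq (M * q) (Dvd.intro q rfl) (Dvd.intro_left M rfl) rfl hqM) L.1 L.2

/-- **Stage (C) COMP, closed**: helper18's `H18StComp₂`. -/
theorem h7_stComp₂ : H18StComp₂ :=
  fun M q _ hq hqM hM2 B hB => h7_compGeom₂ M q hq hqM B hB hM2

/-- **Stage (C) COMP, closed**: helper18's `H18StComp₃`. -/
theorem h7_stComp₃ : H18StComp₃ :=
  fun M q _ hq hqM hM3 B hB => h7_compGeom₃ M q hq hqM B hB hM3

/-- **The geometric export of W10** (helper16's `StKumGeom`), with no hypothesis left. -/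
theorem h7_stKumGeom : Fermat.Agent.S34x.Desc.H16.StKumGeom :=
  h18_stKumGeom h7_stComp₂ h7_stComp₃

end Fermat.Agent.S34x.Comp.H7
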