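import Mathlib
import Fermat.Agent.S34x.Sat.H21_SatAbs
import Fermat.Agent.S34x.Comp.H7_Branch

/-!
# W10 (S34), stage (C) COMP, leaf (FRAC) at level `M q` (helper8)

Clearing denominators: an element `v` integral over the Gauss ring `O[x]_(π)` becomes integral
over `O[x]` after multiplication by some `g(x)`, `g ∈ O[X]`, `π ∤ g`.

* `h8_den` : `∃ g : O[X], ¬ C π ∣ g ∧ aeval x g * v ∈ chart O x`;
* `h8_fracV` : the level-`M q` analogue of `h7_fracW`: every `v ∈ V` is `a / s` with `a`, `s` in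
  the chart and `s` a unit of `V` (`V` any subring containing `O[x]_(π)` all of whose elements
  are integral over `O[x]_(π)`, i.e. (INT) of stage (B));
* `h8_hres` : the hypothesis `hres` of `h8_hcontact_all` for `V`, `B`, `h7p hBV hc`;
* `h8_sep_denom` : the hypothesis `hden` of `h7_sep_of_denom` (separating denominators (S)).
-/

set_option autoImplicit false
set_option linter.unusedSectionVars false

open Polynomial

namespace Fermat.Agent.S34x.Comp.H8

open Fermat.Agent.S28.Alg Fermat.Agent.S18x.Spec.H26 Fermat.Agent.S34x.Sat.H21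
  Fermat.Agent.S34x.Val.H2 Fermat.Agent.S34x.Comp.H7

section Den

variable {O F : Type*} [CommRing O] [IsDomain O] [Field F] [Algebra O F]

/-- **Clearing denominators.** -/
theorem h8_den (π : O) (hπ : Prime π) (x : F) (v : F)
    (hint : IsIntegral (h21_locFrac π hπ x) v) :
    ∃ g : O[X], ¬ C π ∣ g ∧ aeval x g * v ∈ chart O x := by
  classical
  obtain ⟨P, hP, hcoeff, hz⟩ := (h21_isIntegral_subring_iff _ v).mp hint
  have hcoeff' : ∀ i, ∃ a b : O[X], ¬ C π ∣ b ∧ P.coeff i * aeval x b = aeval x a :=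
    fun i => hcoeff i
  choose a b hb hab using hcoeff'
  set n := P.natDegree with hn
  set g : O[X] := ∏ i ∈ Finset.range n, b i with hg
  have hCπ : Prime (C π : O[X]) := Polynomial.prime_C_iff.mpr hπ
  have hgπ : ¬ C π ∣ g := by
    intro h
    obtain ⟨i, -, hi⟩ := (Prime.dvd_finsetProd_iff hCπ _).mp h
    exact hb i hi
  set s : F := aeval x g with hs
  have hsA : s ∈ Algebra.adjoin O {x} := Polynomial.aeval_mem_adjoin_singleton O x
  have hcs : ∀ i, i < n → P.coeff i * s ∈ Algebra.adjoin O {x} := by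
    intro i hi
    have h1 : g = b i * ∏ k ∈ (Finset.range n).erase i, b k :=
      (Finset.mul_prod_erase _ _ (Finset.mem_range.mpr hi)).symm
    have h2 : P.coeff i * s = aeval x (a i * ∏ k ∈ (Finset.range n).erase i, b k) := by
      rw [hs, h1, map_mul, map_mul, ← mul_assoc, hab]
    rw [h2]
    exact Polynomial.aeval_mem_adjoin_singleton O x
  refine ⟨g, hgπ, ?_⟩
  rw [mem_chart, h26_isIntegral_iff]
  refine ⟨scaleRoots P s, (monic_scaleRoots_iff s).mpr hP, ?_, ?_⟩
  · intro i
    rw [coeff_scaleRoots]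
    rcases lt_trichotomy i n with hi | hi | hi
    · have h3 : P.coeff i * s ^ (P.natDegree - i)
          = (P.coeff i * s) * s ^ (P.natDegree - i - 1) := by
        have h5 : P.natDegree - i = (P.natDegree - i - 1) + 1 := by omega
        conv_lhs => rw [h5, pow_succ]
        ring
      rw [h3]
      exact Subalgebra.mul_mem _ (hcs i hi) (Subalgebra.pow_mem _ hsA _)
    · rw [hi, hn, Nat.sub_self, pow_zero, mul_one, hP.coeff_natDegree]
      exact Subalgebra.one_mem _
    · rw [Polynomial.coeff_eq_zero_of_natDegree_lt hi, zero_mul]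
      exact Subalgebra.zero_mem _
  · have h4 := scaleRoots_eval₂_mul (RingHom.id F) v s (p := P)
    simp only [RingHom.id_apply, eval₂_id] at h4
    rw [h4, hz, mul_zero]

end Den

section Frac

variable {O F : Type*} [CommRing O] [IsDomain O] [Field F] [Algebra O F]

/-- **(FRAC) at level `M q`**: every `v ∈ V` is `a / s` with `a`, `s` in the chart and `s` a
unit of `V`. -/
theorem h8_fracV (π : O) (hπ : Prime π) (x : F) (hx : Transcendental O x) (V : Subring F)
    (hGV : h21_locFrac π hπ x ≤ V)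
    (hint : ∀ v ∈ V, IsIntegral (h21_locFrac π hπ x) v) (v : F) (hv : v ∈ V) :
    ∃ a s : (chart O x).toSubring, (s : F) ≠ 0 ∧ (s : F)⁻¹ ∈ V ∧ v * (s : F) = (a : F) := by
  obtain ⟨g, hg, hgv⟩ := h8_den π hπ x v (hint v hv)
  have hg0 : g ≠ 0 := by
    rintro rfl
    exact hg (dvd_zero _)
  have hs0 : aeval x g ≠ 0 := by
    intro h
    exact hg0 ((transcendental_iff_injective.mp hx) (by rw [h, map_zero]))
  have hsB : aeval x g ∈ (chart O x).toSubring := by
    show aeval x g ∈ chart O x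
    rw [mem_chart]
    exact h26_isIntegral_of_mem (Polynomial.aeval_mem_adjoin_singleton O x)
  refine ⟨⟨aeval x g * v, hgv⟩, ⟨aeval x g, hsB⟩, hs0, ?_, by rw [mul_comm]⟩
  apply hGV
  refine ⟨1, g, hg, ?_⟩
  rw [inv_mul_cancel₀ hs0, map_one]

end Frac

section Res

variable {F : Type*} [Field F] {B V : Subring F} {π e : F}

/-- The hypothesis `hres` of `h8_hcontact_all` from (FRAC). -/
theorem h8_hres (hBV : B ≤ V) (hc : H2Comp V π e)
    (hfrac : ∀ v ∈ V, ∃ a s : B, (s : F) ≠ 0 ∧ (s : F)⁻¹ ∈ V ∧ v * (s : F) = (a : F))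
    (v : V) :
    ∃ b₁ b₂ : B, b₂ ∉ h7p hBV hc ∧
      Subring.inclusion hBV b₂ * v - Subring.inclusion hBV b₁ ∈ hc.ideal := by
  obtain ⟨a, s, hs0, hsinv, has⟩ := hfrac v v.2
  refine ⟨a, s, ?_, ?_⟩
  · intro hs
    have h1 : H2In V π e (s : F) := hs
    have h2 := hc.in_mul_left h1 hsinv
    rw [inv_mul_cancel₀ hs0] at h2
    exact hc.not_in_one h2
  · have : Subring.inclusion hBV s * v - Subring.inclusion hBV a = 0 := by
      apply Subtype.ext
      show (s : F) * (v : F) - (a : F) = 0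
      rw [← has]; ring
    rw [this]
    exact Ideal.zero_mem _

/-- The hypothesis `hden` of `h7_sep_of_denom` (separating denominators) from (FRAC). -/
theorem h8_sep_denom
    (hfrac : ∀ v ∈ V, ∃ a s : B, (s : F) ≠ 0 ∧ (s : F)⁻¹ ∈ V ∧ v * (s : F) = (a : F))
    (e' : F) (he' : e' ∈ V) :
    ∃ s ∈ B, s ≠ 0 ∧ s⁻¹ ∈ V ∧ s * e' ∈ B := by
  obtain ⟨a, s, hs0, hsinv, has⟩ := hfrac e' he'
  exact ⟨s, s.2, hs0, hsinv, by rw [mul_comm, has]; exact a.2⟩

end Res

end Fermat.Agent.S34x.Comp.H8
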