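import Mathlib

/-!
# W10 (S34), stage (C) COMP, abstract leaf GOURSAT (helper8) - local form

`R` a noetherian local ring, `π ∈ R`, `𝔭`, `𝔮` two proper ideals (the two components of the
special fibre through the closed point) with `𝔭 ⊓ 𝔮 ≤ (π)`, neither contained in the other.
Assume

* the maximal ideal is principal modulo `𝔭`, generated by `t`   (`R ⧸ 𝔭` is a DVR), and
  `t ∈ 𝔪 ^ 2 ⊔ 𝔮`   (Kronecker: along the other component `t` is a `q`-th power, `q ≥ 2`);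
* the maximal ideal is principal modulo `𝔮`, generated by `s ∈ 𝔪`   (`R ⧸ 𝔮` is a DVR).

Then the point is an ordinary crossing point: there are `x ∈ 𝔮`, `y ∈ 𝔭` with
`𝔪 = (x, y, π)`, `𝔭 = (y, π)`, `𝔮 = (x, π)`, `x ∉ 𝔭`, `y ∉ 𝔮`, `π ∣ x y`.

(The contact order of the two branches is `1`: `𝔪 ≤ (t) ⊔ 𝔭 ≤ 𝔪 ^ 2 ⊔ (𝔭 ⊔ 𝔮)`, Nakayama.)
Mathlib only.
-/

set_option autoImplicit false

namespace Fermat.Agent.S34x.Comp.H8

open IsLocalRing

section Local

variable {R : Type*} [CommRing R] [IsLocalRing R]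

/-- Nakayama step: the two branches span the maximal ideal. -/
theorem h8_max_le_sup [IsNoetherianRing R] (𝔭 𝔮 : Ideal R) (t : R)
    (ht : maximalIdeal R ≤ Ideal.span {t} ⊔ 𝔭)
    (htq : t ∈ maximalIdeal R ^ 2 ⊔ 𝔮) : maximalIdeal R ≤ 𝔭 ⊔ 𝔮 := by
  have h1 : maximalIdeal R ≤ (𝔭 ⊔ 𝔮) ⊔ maximalIdeal R • maximalIdeal R := by
    refine ht.trans (sup_le ?_ ?_)
    · rw [Ideal.span_singleton_le_iff_mem]
      have : maximalIdeal R ^ 2 ⊔ 𝔮 ≤ (𝔭 ⊔ 𝔮) ⊔ maximalIdeal R • maximalIdeal R := by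
        refine sup_le ?_ (le_sup_of_le_left le_sup_right)
        rw [pow_two]
        exact le_sup_of_le_right le_rfl
      exact this htq
    · exact le_sup_of_le_left le_sup_left
  exact Submodule.le_of_le_smul_of_le_jacobson_bot (IsNoetherian.noetherian _)
    (IsLocalRing.maximalIdeal_le_jacobson ⊥) h1

/-- **Abstract Goursat / node shape (local form).** -/
theorem h8_goursat_local [IsNoetherianRing R] (π : R) (𝔭 𝔮 : Ideal R)
    (hpq : 𝔭 ⊓ 𝔮 ≤ Ideal.span {π}) (hπp : π ∈ 𝔭) (hπq : π ∈ 𝔮)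
    (hp_top : 𝔭 ≠ ⊤) (hq_top : 𝔮 ≠ ⊤) (hnp : ¬ 𝔮 ≤ 𝔭) (hnq : ¬ 𝔭 ≤ 𝔮)
    (t : R) (ht : maximalIdeal R ≤ Ideal.span {t} ⊔ 𝔭)
    (htq : t ∈ maximalIdeal R ^ 2 ⊔ 𝔮)
    (s : R) (hsm : s ∈ maximalIdeal R) (hs : maximalIdeal R ≤ Ideal.span {s} ⊔ 𝔮) :
    ∃ x y : R, x ∈ 𝔮 ∧ y ∈ 𝔭 ∧
      maximalIdeal R = Ideal.span {x, y, π} ∧
      𝔭 = Ideal.span {y, π} ∧ 𝔮 = Ideal.span {x, π} ∧
      x ∉ 𝔭 ∧ y ∉ 𝔮 ∧ π ∣ x * y := by
  have hpm : 𝔭 ≤ maximalIdeal R := IsLocalRing.le_maximalIdeal hp_top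
  have hqm : 𝔮 ≤ maximalIdeal R := IsLocalRing.le_maximalIdeal hq_top
  have hsup : maximalIdeal R ≤ 𝔭 ⊔ 𝔮 := h8_max_le_sup 𝔭 𝔮 t ht htq
  have htm : t ∈ maximalIdeal R := by
    have : maximalIdeal R ^ 2 ⊔ 𝔮 ≤ maximalIdeal R :=
      sup_le (Ideal.pow_le_self two_ne_zero) hqm
    exact this htq
  -- decompose `t` and `s`
  obtain ⟨a, ha, x, hx, hax⟩ := Submodule.mem_sup.mp (hsup htm)
  obtain ⟨y, hy, b, hb, hyb⟩ := Submodule.mem_sup.mp (hsup hsm)
  -- `𝔪 ≤ (x) ⊔ 𝔭` and `𝔪 ≤ (y) ⊔ 𝔮`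
  have hx' : maximalIdeal R ≤ Ideal.span {x} ⊔ 𝔭 := by
    refine ht.trans (sup_le ?_ le_sup_right)
    rw [Ideal.span_singleton_le_iff_mem, ← hax]
    exact Ideal.add_mem _ (Ideal.mem_sup_right ha)
      (Ideal.mem_sup_left (Ideal.mem_span_singleton_self x))
  have hy' : maximalIdeal R ≤ Ideal.span {y} ⊔ 𝔮 := by
    refine hs.trans (sup_le ?_ le_sup_right)
    rw [Ideal.span_singleton_le_iff_mem, ← hyb]
    exact Ideal.add_mem _ (Ideal.mem_sup_left (Ideal.mem_span_singleton_self y))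
      (Ideal.mem_sup_right hb)
  have hπspan_y : π ∈ Ideal.span ({y, π} : Set R) :=
    Ideal.subset_span (by simp)
  have hyspan_y : y ∈ Ideal.span ({y, π} : Set R) :=
    Ideal.subset_span (by simp)
  have hπspan_x : π ∈ Ideal.span ({x, π} : Set R) :=
    Ideal.subset_span (by simp)
  have hxspan_x : x ∈ Ideal.span ({x, π} : Set R) :=
    Ideal.subset_span (by simp)
  have hP : 𝔭 = Ideal.span {y, π} := by
    refine le_antisymm ?_ ?_
    · intro z hz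
      obtain ⟨c, hc, w, hw, hcw⟩ := Submodule.mem_sup.mp (hy' (hpm hz))
      obtain ⟨c', rfl⟩ := Ideal.mem_span_singleton'.mp hc
      have hwp : w ∈ 𝔭 := by
        have : w = z - c' * y := by rw [← hcw]; ring
        rw [this]
        exact Ideal.sub_mem _ hz (Ideal.mul_mem_left _ _ hy)
      obtain ⟨d, hd⟩ := Ideal.mem_span_singleton'.mp (hpq ⟨hwp, hw⟩)
      rw [← hcw, ← hd]
      exact Ideal.add_mem _ (Ideal.mul_mem_left _ _ hyspan_y) (Ideal.mul_mem_left _ _ hπspan_y)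
    · rw [Ideal.span_le]
      rintro z (rfl | rfl)
      · exact hy
      · exact hπp
  have hQ : 𝔮 = Ideal.span {x, π} := by
    refine le_antisymm ?_ ?_
    · intro z hz
      obtain ⟨c, hc, w, hw, hcw⟩ := Submodule.mem_sup.mp (hx' (hqm hz))
      obtain ⟨c', rfl⟩ := Ideal.mem_span_singleton'.mp hc
      have hwq : w ∈ 𝔮 := by
        have : w = z - c' * x := by rw [← hcw]; ring
        rw [this]
        exact Ideal.sub_mem _ hz (Ideal.mul_mem_left _ _ hx)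
      obtain ⟨d, hd⟩ := Ideal.mem_span_singleton'.mp (hpq ⟨hw, hwq⟩)
      rw [← hcw, ← hd]
      exact Ideal.add_mem _ (Ideal.mul_mem_left _ _ hxspan_x) (Ideal.mul_mem_left _ _ hπspan_x)
    · rw [Ideal.span_le]
      rintro z (rfl | rfl)
      · exact hx
      · exact hπq
  refine ⟨x, y, hx, hy, ?_, hP, hQ, ?_, ?_, ?_⟩
  · refine le_antisymm ?_ ?_
    · refine hsup.trans (sup_le ?_ ?_)
      · rw [hP, Ideal.span_le]
        rintro z (rfl | rfl)
        · exact Ideal.subset_span (by simp)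
        · exact Ideal.subset_span (by simp)
      · rw [hQ, Ideal.span_le]
        rintro z (rfl | rfl)
        · exact Ideal.subset_span (by simp)
        · exact Ideal.subset_span (by simp)
    · rw [Ideal.span_le]
      rintro z (rfl | rfl | rfl)
      · exact hqm hx
      · exact hpm hy
      · exact hpm hπp
  · intro hxp
    apply hnp
    refine hqm.trans (hx'.trans (sup_le ?_ le_rfl))
    rw [Ideal.span_singleton_le_iff_mem]
    exact hxp
  · intro hyq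
    apply hnq
    refine hpm.trans (hy'.trans (sup_le ?_ le_rfl))
    rw [Ideal.span_singleton_le_iff_mem]
    exact hyq
  · have : x * y ∈ 𝔭 ⊓ 𝔮 := ⟨Ideal.mul_mem_left _ _ hy, Ideal.mul_mem_right _ _ hx⟩
    exact Ideal.mem_span_singleton.mp (hpq this)

end Local

end Fermat.Agent.S34x.Comp.H8
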