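import Mathlib
import Fermat.Agent.S34x.Comp.H8_Goursat

/-!
# W10 (S34), stage (C) COMP, abstract leaf GOURSAT (helper8) - chart form

`B` a noetherian ring (a chart), `𝔫` a prime ideal (a closed point of the special fibre), `π ∈ B`,
`𝔭`, `𝔮` two primes of `B` inside `𝔫` (the two components through the point) with
`𝔭 ⊓ 𝔮 ≤ (π)`, neither contained in the other.  Assume, in element form,

* `t ∈ 𝔫` generates `𝔫` locally at `𝔫` modulo `𝔭`, and `t ≡ a ^ k` modulo `𝔮` with `k ≥ 2`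
  (Kronecker along the second component);
* `s ∈ 𝔫` generates `𝔫` locally at `𝔫` modulo `𝔮`.

Then there are `x ∈ 𝔮`, `y ∈ 𝔭` such that locally at `𝔫`: `𝔫 = (x, y, π)`, `𝔭 = (y, π)`,
`𝔮 = (x, π)`, `x ∉ 𝔭`, `y ∉ 𝔮`, `π ∣ x y`.  The conclusion is given both in element form on `B`
(`h8_goursat_elem`) and for any localisation `R` of `B` at `𝔫` (`h8_goursat_chart`), there in the
exact spelling of the hypotheses `hm`, `hxy`, `hq1`, `hx1`, `hq2`, `hy2` of the node lemma.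
Mathlib only.
-/

set_option autoImplicit false

namespace Fermat.Agent.S34x.Comp.H8

open IsLocalRing

section Elem

variable {B : Type*} [CommRing B]

/-- The two branches span `𝔫` locally at `𝔫` (Nakayama in the localisation). -/
theorem h8_mem_sup_local [IsNoetherianRing B] (𝔫 : Ideal B) [𝔫.IsPrime]
    (𝔭 𝔮 : Ideal B) (hqn : 𝔮 ≤ 𝔫)
    (t : B) (ht𝔫 : t ∈ 𝔫) (ht : ∀ z ∈ 𝔫, ∃ s ∉ 𝔫, ∃ w : B, s * z - t * w ∈ 𝔭)
    (htq : ∃ a : B, ∃ k : ℕ, 2 ≤ k ∧ t - a ^ k ∈ 𝔮)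
    (z : B) (hz : z ∈ 𝔫) : ∃ u ∉ 𝔫, ∃ a ∈ 𝔭, ∃ b ∈ 𝔮, u * z = a + b := by
  classical
  let R := Localization.AtPrime 𝔫
  have : IsNoetherianRing R := IsLocalization.isNoetherianRing 𝔫.primeCompl R inferInstance
  have hmax : ∀ b : B, b ∈ 𝔫 → algebraMap B R b ∈ maximalIdeal R := fun b hb =>
    (IsLocalization.AtPrime.to_map_mem_maximal_iff R 𝔫 b).mpr hb
  -- `𝔪 ≤ (t) ⊔ 𝔭 R`
  have h1 : maximalIdeal R ≤ Ideal.span {algebraMap B R t} ⊔ Ideal.map (algebraMap B R) 𝔭 := by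
    intro r hr
    obtain ⟨b, s0, rfl⟩ := IsLocalization.exists_mk'_eq 𝔫.primeCompl r
    have hb : b ∈ 𝔫 := (IsLocalization.AtPrime.mk'_mem_maximal_iff R 𝔫 b s0).mp hr
    obtain ⟨s, hs, w, hw⟩ := ht b hb
    have hsu : IsUnit (algebraMap B R s) :=
      (IsLocalization.AtPrime.isUnit_to_map_iff R 𝔫 s).mpr hs
    rw [← Ideal.unit_mul_mem_iff_mem _ (IsLocalization.map_units R s0),
      IsLocalization.mk'_spec', ← Ideal.unit_mul_mem_iff_mem _ hsu]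
    have : algebraMap B R s * algebraMap B R b
        = algebraMap B R t * algebraMap B R w + algebraMap B R (s * b - t * w) := by
      simp only [map_sub, map_mul]; ring
    rw [this]
    exact Ideal.add_mem _
      (Ideal.mem_sup_left (Ideal.mul_mem_right _ _ (Ideal.mem_span_singleton_self _)))
      (Ideal.mem_sup_right (Ideal.mem_map_of_mem _ hw))
  -- `t ∈ 𝔪 ^ 2 ⊔ 𝔮 R`
  have h2 : algebraMap B R t ∈ maximalIdeal R ^ 2 ⊔ Ideal.map (algebraMap B R) 𝔮 := by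
    obtain ⟨a, k, hk, hak⟩ := htq
    have ha𝔫 : a ∈ 𝔫 := by
      have h3 : a ^ k ∈ 𝔫 := by
        have : a ^ k = t - (t - a ^ k) := by ring
        rw [this]
        exact Ideal.sub_mem _ ht𝔫 (hqn hak)
      exact Ideal.IsPrime.mem_of_pow_mem inferInstance k h3
    have h4 : algebraMap B R t = algebraMap B R a ^ k + algebraMap B R (t - a ^ k) := by
      simp only [map_sub, map_pow]; ring
    rw [h4]
    refine Ideal.add_mem _ (Ideal.mem_sup_left ?_) (Ideal.mem_sup_right (Ideal.mem_map_of_mem _ hak))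
    exact Ideal.pow_le_pow_right hk (Ideal.pow_mem_pow (hmax a ha𝔫) k)
  have h5 := h8_max_le_sup (Ideal.map (algebraMap B R) 𝔭) (Ideal.map (algebraMap B R) 𝔮)
    (algebraMap B R t) h1 h2 (hmax z hz)
  rw [← Ideal.map_sup, IsLocalization.algebraMap_mem_map_algebraMap_iff 𝔫.primeCompl] at h5
  obtain ⟨u, hu, hmem⟩ := h5
  obtain ⟨a, ha, b, hb, hab⟩ := Submodule.mem_sup.mp hmem
  exact ⟨u, hu, a, ha, b, hb, hab.symm⟩

/-- **Abstract Goursat / node shape, element form on the chart.** -/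
theorem h8_goursat_elem [IsNoetherianRing B] (𝔫 : Ideal B) [𝔫.IsPrime]
    (π : B) (𝔭 𝔮 : Ideal B) [𝔭.IsPrime] [𝔮.IsPrime]
    (hpq : 𝔭 ⊓ 𝔮 ≤ Ideal.span {π})
    (hpn : 𝔭 ≤ 𝔫) (hqn : 𝔮 ≤ 𝔫) (hnp : ¬ 𝔮 ≤ 𝔭) (hnq : ¬ 𝔭 ≤ 𝔮)
    (t : B) (ht𝔫 : t ∈ 𝔫) (ht : ∀ z ∈ 𝔫, ∃ s ∉ 𝔫, ∃ w : B, s * z - t * w ∈ 𝔭)
    (htq : ∃ a : B, ∃ k : ℕ, 2 ≤ k ∧ t - a ^ k ∈ 𝔮)
    (s : B) (hs𝔫 : s ∈ 𝔫) (hs : ∀ z ∈ 𝔫, ∃ s' ∉ 𝔫, ∃ w : B, s' * z - s * w ∈ 𝔮) :
    ∃ x ∈ 𝔮, ∃ y ∈ 𝔭, x ∉ 𝔭 ∧ y ∉ 𝔮 ∧ π ∣ x * y ∧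
      (∀ z ∈ 𝔫, ∃ c ∉ 𝔫, ∃ a b e : B, c * z = a * x + b * y + e * π) ∧
      (∀ z ∈ 𝔭, ∃ c ∉ 𝔫, ∃ b e : B, c * z = b * y + e * π) ∧
      (∀ z ∈ 𝔮, ∃ c ∉ 𝔫, ∃ a e : B, c * z = a * x + e * π) := by
  obtain ⟨u, hu, a, ha, x, hx, hux⟩ := h8_mem_sup_local 𝔫 𝔭 𝔮 hqn t ht𝔫 ht htq t ht𝔫
  obtain ⟨v, hv, y, hy, b, hb, hvy⟩ := h8_mem_sup_local 𝔫 𝔭 𝔮 hqn t ht𝔫 ht htq s hs𝔫
  have hmul : ∀ {c d : B}, c ∉ 𝔫 → d ∉ 𝔫 → c * d ∉ 𝔫 := fun {c d} hc hd h =>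
    (Ideal.IsPrime.mem_or_mem inferInstance h).elim hc hd
  -- (E1): `x` generates `𝔫` locally modulo `𝔭`
  have hE1 : ∀ z ∈ 𝔫, ∃ c ∉ 𝔫, ∃ w : B, c * z - x * w ∈ 𝔭 := by
    intro z hz
    obtain ⟨c, hc, w, hw⟩ := ht z hz
    refine ⟨u * c, hmul hu hc, w, ?_⟩
    have : u * c * z - x * w = u * (c * z - t * w) + a * w := by
      have : u * t = a + x := hux
      linear_combination w * this
    rw [this]
    exact Ideal.add_mem _ (Ideal.mul_mem_left _ _ hw) (Ideal.mul_mem_right _ _ ha)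
  -- (E2): `y` generates `𝔫` locally modulo `𝔮`
  have hE2 : ∀ z ∈ 𝔫, ∃ c ∉ 𝔫, ∃ w : B, c * z - y * w ∈ 𝔮 := by
    intro z hz
    obtain ⟨c, hc, w, hw⟩ := hs z hz
    refine ⟨v * c, hmul hv hc, w, ?_⟩
    have : v * c * z - y * w = v * (c * z - s * w) + b * w := by
      have : v * s = y + b := hvy
      linear_combination w * this
    rw [this]
    exact Ideal.add_mem _ (Ideal.mul_mem_left _ _ hw) (Ideal.mul_mem_right _ _ hb)
  -- (E3), (E4)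
  have hE3 : ∀ z ∈ 𝔭, ∃ c ∉ 𝔫, ∃ b e : B, c * z = b * y + e * π := by
    intro z hz
    obtain ⟨c, hc, w, hw⟩ := hE2 z (hpn hz)
    have hw' : c * z - y * w ∈ 𝔭 :=
      Ideal.sub_mem _ (Ideal.mul_mem_left _ _ hz) (Ideal.mul_mem_right _ _ hy)
    obtain ⟨e, he⟩ := Ideal.mem_span_singleton'.mp (hpq ⟨hw', hw⟩)
    exact ⟨c, hc, w, e, by linear_combination -he⟩
  have hE4 : ∀ z ∈ 𝔮, ∃ c ∉ 𝔫, ∃ a e : B, c * z = a * x + e * π := by
    intro z hz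
    obtain ⟨c, hc, w, hw⟩ := hE1 z (hqn hz)
    have hw' : c * z - x * w ∈ 𝔮 :=
      Ideal.sub_mem _ (Ideal.mul_mem_left _ _ hz) (Ideal.mul_mem_right _ _ hx)
    obtain ⟨e, he⟩ := Ideal.mem_span_singleton'.mp (hpq ⟨hw, hw'⟩)
    exact ⟨c, hc, w, e, by linear_combination -he⟩
  refine ⟨x, hx, y, hy, ?_, ?_, ?_, ?_, hE3, hE4⟩
  · -- `x ∉ 𝔭`
    intro hxp
    apply hnp
    intro z hz
    obtain ⟨c, hc, w, hw⟩ := hE1 z (hqn hz)
    have h1 : c * z ∈ 𝔭 := by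
      have : c * z = (c * z - x * w) + x * w := by ring
      rw [this]
      exact Ideal.add_mem _ hw (Ideal.mul_mem_right _ _ hxp)
    exact (Ideal.IsPrime.mem_or_mem inferInstance h1).resolve_left (fun h => hc (hpn h))
  · -- `y ∉ 𝔮`
    intro hyq
    apply hnq
    intro z hz
    obtain ⟨c, hc, w, hw⟩ := hE2 z (hpn hz)
    have h1 : c * z ∈ 𝔮 := by
      have : c * z = (c * z - y * w) + y * w := by ring
      rw [this]
      exact Ideal.add_mem _ hw (Ideal.mul_mem_right _ _ hyq)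
    exact (Ideal.IsPrime.mem_or_mem inferInstance h1).resolve_left (fun h => hc (hqn h))
  · -- `π ∣ x y`
    have : x * y ∈ 𝔭 ⊓ 𝔮 := ⟨Ideal.mul_mem_left _ _ hy, Ideal.mul_mem_right _ _ hx⟩
    exact Ideal.mem_span_singleton.mp (hpq this)
  · -- `𝔫 = (x, y, π)` locally
    intro z hz
    obtain ⟨c, hc, w, hw⟩ := hE1 z hz
    obtain ⟨c', hc', b', e', he'⟩ := hE3 _ hw
    exact ⟨c' * c, hmul hc' hc, c' * w, b', e', by linear_combination he'⟩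

end Elem

section Chart

variable {B : Type*} [CommRing B] {R : Type*} [CommRing R] [Algebra B R]

/-- **Abstract Goursat / node shape in a localisation `R` of the chart at `𝔫`**, in the spelling
of the node lemma: `𝔪 = (x, y, π)`, `(y, π)` and `(x, π)` prime, `x ∉ (y, π)`, `y ∉ (x, π)`,
`π ∣ x y`; moreover `(y, π) = 𝔭 R`, `(x, π) = 𝔮 R` and `x`, `y` come from the chart. -/
theorem h8_goursat_chart [IsNoetherianRing B] [IsLocalRing R] (𝔫 : Ideal B) [𝔫.IsPrime]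
    [IsLocalization.AtPrime R 𝔫]
    (π : B) (𝔭 𝔮 : Ideal B) [𝔭.IsPrime] [𝔮.IsPrime]
    (hpq : 𝔭 ⊓ 𝔮 ≤ Ideal.span {π}) (hπp : π ∈ 𝔭) (hπq : π ∈ 𝔮)
    (hpn : 𝔭 ≤ 𝔫) (hqn : 𝔮 ≤ 𝔫) (hnp : ¬ 𝔮 ≤ 𝔭) (hnq : ¬ 𝔭 ≤ 𝔮)
    (t : B) (ht𝔫 : t ∈ 𝔫) (ht : ∀ z ∈ 𝔫, ∃ s ∉ 𝔫, ∃ w : B, s * z - t * w ∈ 𝔭)
    (htq : ∃ a : B, ∃ k : ℕ, 2 ≤ k ∧ t - a ^ k ∈ 𝔮)
    (s : B) (hs𝔫 : s ∈ 𝔫) (hs : ∀ z ∈ 𝔫, ∃ s' ∉ 𝔫, ∃ w : B, s' * z - s * w ∈ 𝔮) :
    ∃ x ∈ 𝔮, ∃ y ∈ 𝔭, x ∉ 𝔭 ∧ y ∉ 𝔮 ∧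
      maximalIdeal R = Ideal.span {algebraMap B R x, algebraMap B R y, algebraMap B R π} ∧
      algebraMap B R π ∣ algebraMap B R x * algebraMap B R y ∧
      (Ideal.span {algebraMap B R y, algebraMap B R π}).IsPrime ∧
      algebraMap B R x ∉ Ideal.span {algebraMap B R y, algebraMap B R π} ∧
      (Ideal.span {algebraMap B R x, algebraMap B R π}).IsPrime ∧
      algebraMap B R y ∉ Ideal.span {algebraMap B R x, algebraMap B R π} ∧
      Ideal.map (algebraMap B R) 𝔭 = Ideal.span {algebraMap B R y, algebraMap B R π} ∧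
      Ideal.map (algebraMap B R) 𝔮 = Ideal.span {algebraMap B R x, algebraMap B R π} := by
  obtain ⟨x, hx, y, hy, hxp, hyq, hdvd, hE5, hE3, hE4⟩ :=
    h8_goursat_elem 𝔫 π 𝔭 𝔮 hpq hpn hqn hnp hnq t ht𝔫 ht htq s hs𝔫 hs
  have hunit : ∀ c : B, c ∉ 𝔫 → IsUnit (algebraMap B R c) := fun c hc =>
    (IsLocalization.AtPrime.isUnit_to_map_iff R 𝔫 c).mpr hc
  have hdisj : ∀ I : Ideal B, I ≤ 𝔫 → Disjoint (𝔫.primeCompl : Set B) (I : Set B) := by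
    intro I hI
    rw [Set.disjoint_left]
    intro c hc hcI
    exact hc (hI hcI)
  have hP : Ideal.map (algebraMap B R) 𝔭
      = Ideal.span {algebraMap B R y, algebraMap B R π} := by
    refine le_antisymm ?_ ?_
    · rw [Ideal.map_le_iff_le_comap]
      intro z hz
      obtain ⟨c, hc, b, e, hbe⟩ := hE3 z hz
      rw [Ideal.mem_comap, ← Ideal.unit_mul_mem_iff_mem _ (hunit c hc), ← map_mul, hbe]
      simp only [map_add, map_mul]
      exact Ideal.add_mem _ (Ideal.mul_mem_left _ _ (Ideal.subset_span (by simp)))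
        (Ideal.mul_mem_left _ _ (Ideal.subset_span (by simp)))
    · rw [Ideal.span_le]
      rintro z (rfl | rfl)
      · exact Ideal.mem_map_of_mem _ hy
      · exact Ideal.mem_map_of_mem _ hπp
  have hQ : Ideal.map (algebraMap B R) 𝔮
      = Ideal.span {algebraMap B R x, algebraMap B R π} := by
    refine le_antisymm ?_ ?_
    · rw [Ideal.map_le_iff_le_comap]
      intro z hz
      obtain ⟨c, hc, a, e, hae⟩ := hE4 z hz
      rw [Ideal.mem_comap, ← Ideal.unit_mul_mem_iff_mem _ (hunit c hc), ← map_mul, hae]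
      simp only [map_add, map_mul]
      exact Ideal.add_mem _ (Ideal.mul_mem_left _ _ (Ideal.subset_span (by simp)))
        (Ideal.mul_mem_left _ _ (Ideal.subset_span (by simp)))
    · rw [Ideal.span_le]
      rintro z (rfl | rfl)
      · exact Ideal.mem_map_of_mem _ hx
      · exact Ideal.mem_map_of_mem _ hπq
  have hPprime : (Ideal.map (algebraMap B R) 𝔭).IsPrime :=
    IsLocalization.isPrime_of_isPrime_disjoint 𝔫.primeCompl R 𝔭 inferInstance (hdisj 𝔭 hpn)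
  have hQprime : (Ideal.map (algebraMap B R) 𝔮).IsPrime :=
    IsLocalization.isPrime_of_isPrime_disjoint 𝔫.primeCompl R 𝔮 inferInstance (hdisj 𝔮 hqn)
  refine ⟨x, hx, y, hy, hxp, hyq, ?_, ?_, hP ▸ hPprime, ?_, hQ ▸ hQprime, ?_, hP, hQ⟩
  · -- the maximal ideal
    refine le_antisymm ?_ ?_
    · intro r hr
      obtain ⟨b, s0, rfl⟩ := IsLocalization.exists_mk'_eq 𝔫.primeCompl r
      have hb : b ∈ 𝔫 := (IsLocalization.AtPrime.mk'_mem_maximal_iff R 𝔫 b s0).mp hr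
      obtain ⟨c, hc, a, b', e, habe⟩ := hE5 b hb
      rw [← Ideal.unit_mul_mem_iff_mem _ (IsLocalization.map_units R s0),
        IsLocalization.mk'_spec', ← Ideal.unit_mul_mem_iff_mem _ (hunit c hc), ← map_mul, habe]
      simp only [map_add, map_mul]
      exact Ideal.add_mem _ (Ideal.add_mem _
        (Ideal.mul_mem_left _ _ (Ideal.subset_span (by simp)))
        (Ideal.mul_mem_left _ _ (Ideal.subset_span (by simp))))
        (Ideal.mul_mem_left _ _ (Ideal.subset_span (by simp)))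
    · rw [Ideal.span_le]
      rintro z (rfl | rfl | rfl)
      · exact (IsLocalization.AtPrime.to_map_mem_maximal_iff R 𝔫 x).mpr (hqn hx)
      · exact (IsLocalization.AtPrime.to_map_mem_maximal_iff R 𝔫 y).mpr (hpn hy)
      · exact (IsLocalization.AtPrime.to_map_mem_maximal_iff R 𝔫 π).mpr (hpn hπp)
  · obtain ⟨d, hd⟩ := hdvd
    exact ⟨algebraMap B R d, by rw [← map_mul, ← map_mul, hd]⟩
  · rw [← hP, IsLocalization.algebraMap_mem_map_algebraMap_iff 𝔫.primeCompl]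
    rintro ⟨m, hm, hmx⟩
    exact hxp ((Ideal.IsPrime.mem_or_mem inferInstance hmx).resolve_left (fun h => hm (hpn h)))
  · rw [← hQ, IsLocalization.algebraMap_mem_map_algebraMap_iff 𝔫.primeCompl]
    rintro ⟨m, hm, hmy⟩
    exact hyq ((Ideal.IsPrime.mem_or_mem inferInstance hmy).resolve_left (fun h => hm (hqn h)))

end Chart

end Fermat.Agent.S34x.Comp.H8
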