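import Mathlib
import Fermat.Agent.S34x.Comp.H8_Goursat

/-!
# W10 (S34), stage (C) COMP, abstract leaf GOURSAT (helper8) - local contact input

Variants of `h8_goursat_elem` (file `H8_GoursatChart`) in which the Kronecker input is LOCAL:

* `h8_goursat_of_sup` : the node shape from `𝔫 ⊆ 𝔭 + 𝔮` locally at `𝔫` (no Nakayama);
* `h8_sup_of_contact` : `𝔫 ⊆ 𝔭 + 𝔮` locally, from a local parameter `t` modulo `𝔭` with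
  `c t ∈ 𝔫 ^ 2 + 𝔮` for some `c ∉ 𝔫` (contact order one, Nakayama in the localisation);
* `h8_goursat_contact` : the node shape from the contact input on the `𝔭`-side;
* `h8_goursat_contact_symm` : the same with the contact input on the `𝔮`-side
  (`s` a local parameter modulo `𝔮` with `c s ∈ 𝔫 ^ 2 + 𝔭`).

Mathlib only.
-/

set_option autoImplicit false

namespace Fermat.Agent.S34x.Comp.H8

open IsLocalRing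

section Elem

variable {B : Type*} [CommRing B]

/-- The node shape from `𝔫 ⊆ 𝔭 + 𝔮` locally at `𝔫`. -/
theorem h8_goursat_of_sup (𝔫 : Ideal B) [𝔫.IsPrime]
    (π : B) (𝔭 𝔮 : Ideal B) [𝔭.IsPrime] [𝔮.IsPrime]
    (hpq : 𝔭 ⊓ 𝔮 ≤ Ideal.span {π})
    (hpn : 𝔭 ≤ 𝔫) (hqn : 𝔮 ≤ 𝔫) (hnp : ¬ 𝔮 ≤ 𝔭) (hnq : ¬ 𝔭 ≤ 𝔮)
    (t : B) (ht𝔫 : t ∈ 𝔫) (ht : ∀ z ∈ 𝔫, ∃ s ∉ 𝔫, ∃ w : B, s * z - t * w ∈ 𝔭)
    (s : B) (hs𝔫 : s ∈ 𝔫) (hs : ∀ z ∈ 𝔫, ∃ s' ∉ 𝔫, ∃ w : B, s' * z - s * w ∈ 𝔮)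
    (hsup : ∀ z ∈ 𝔫, ∃ u ∉ 𝔫, ∃ a ∈ 𝔭, ∃ b ∈ 𝔮, u * z = a + b) :
    ∃ x ∈ 𝔮, ∃ y ∈ 𝔭, x ∉ 𝔭 ∧ y ∉ 𝔮 ∧ π ∣ x * y ∧
      (∀ z ∈ 𝔫, ∃ c ∉ 𝔫, ∃ a b e : B, c * z = a * x + b * y + e * π) ∧
      (∀ z ∈ 𝔭, ∃ c ∉ 𝔫, ∃ b e : B, c * z = b * y + e * π) ∧
      (∀ z ∈ 𝔮, ∃ c ∉ 𝔫, ∃ a e : B, c * z = a * x + e * π) := by
  obtain ⟨u, hu, a, ha, x, hx, hux⟩ := hsup t ht𝔫
  obtain ⟨v, hv, y, hy, b, hb, hvy⟩ := hsup s hs𝔫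
  have hmul : ∀ {c d : B}, c ∉ 𝔫 → d ∉ 𝔫 → c * d ∉ 𝔫 := fun {c d} hc hd h =>
    (Ideal.IsPrime.mem_or_mem inferInstance h).elim hc hd
  have hE1 : ∀ z ∈ 𝔫, ∃ c ∉ 𝔫, ∃ w : B, c * z - x * w ∈ 𝔭 := by
    intro z hz
    obtain ⟨c, hc, w, hw⟩ := ht z hz
    refine ⟨u * c, hmul hu hc, w, ?_⟩
    have : u * c * z - x * w = u * (c * z - t * w) + a * w := by
      have : u * t = a + x := hux
      linear_combination w * this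
    rw [this]
    exact Ideal.add_mem _ (Ideal.mul_mem_left _ _ hw) (Ideal.mul_mem_right _ _ ha)
  have hE2 : ∀ z ∈ 𝔫, ∃ c ∉ 𝔫, ∃ w : B, c * z - y * w ∈ 𝔮 := by
    intro z hz
    obtain ⟨c, hc, w, hw⟩ := hs z hz
    refine ⟨v * c, hmul hv hc, w, ?_⟩
    have : v * c * z - y * w = v * (c * z - s * w) + b * w := by
      have : v * s = y + b := hvy
      linear_combination w * this
    rw [this]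
    exact Ideal.add_mem _ (Ideal.mul_mem_left _ _ hw) (Ideal.mul_mem_right _ _ hb)
  have hE3 : ∀ z ∈ 𝔭, ∃ c ∉ 𝔫, ∃ b e : B, c * z = b * y + e * π := by
    intro z hz
    obtain ⟨c, hc, w, hw⟩ := hE2 z (hpn hz)
    have hw' : c * z - y * w ∈ 𝔭 :=
      Ideal.sub_mem _ (Ideal.mul_mem_left _ _ hz) (Ideal.mul_mem_right _ _ hy)
    obtain ⟨e, he⟩ := Ideal.mem_span_singleton'.mp (hpq ⟨hw', hw⟩)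
    exact ⟨c, hc, w, e, by linear_combination -he⟩
  have hE4 : ∀ z ∈ 𝔮, ∃ c ∉ 𝔫, ∃ a e : B, c * z = a * x + e * π := by
    intro z hz
    obtain ⟨c, hc, w, hw⟩ := hE1 z (hqn hz)
    have hw' : c * z - x * w ∈ 𝔮 :=
      Ideal.sub_mem _ (Ideal.mul_mem_left _ _ hz) (Ideal.mul_mem_right _ _ hx)
    obtain ⟨e, he⟩ := Ideal.mem_span_singleton'.mp (hpq ⟨hw, hw'⟩)
    exact ⟨c, hc, w, e, by linear_combination -he⟩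
  refine ⟨x, hx, y, hy, ?_, ?_, ?_, ?_, hE3, hE4⟩
  · intro hxp
    apply hnp
    intro z hz
    obtain ⟨c, hc, w, hw⟩ := hE1 z (hqn hz)
    have h1 : c * z ∈ 𝔭 := by
      have : c * z = (c * z - x * w) + x * w := by ring
      rw [this]
      exact Ideal.add_mem _ hw (Ideal.mul_mem_right _ _ hxp)
    exact (Ideal.IsPrime.mem_or_mem inferInstance h1).resolve_left (fun h => hc (hpn h))
  · intro hyq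
    apply hnq
    intro z hz
    obtain ⟨c, hc, w, hw⟩ := hE2 z (hpn hz)
    have h1 : c * z ∈ 𝔮 := by
      have : c * z = (c * z - y * w) + y * w := by ring
      rw [this]
      exact Ideal.add_mem _ hw (Ideal.mul_mem_right _ _ hyq)
    exact (Ideal.IsPrime.mem_or_mem inferInstance h1).resolve_left (fun h => hc (hqn h))
  · have : x * y ∈ 𝔭 ⊓ 𝔮 := ⟨Ideal.mul_mem_left _ _ hy, Ideal.mul_mem_right _ _ hx⟩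
    exact Ideal.mem_span_singleton.mp (hpq this)
  · intro z hz
    obtain ⟨c, hc, w, hw⟩ := hE1 z hz
    obtain ⟨c', hc', b', e', he'⟩ := hE3 _ hw
    exact ⟨c' * c, hmul hc' hc, c' * w, b', e', by linear_combination he'⟩

/-- `𝔫 ⊆ 𝔭 + 𝔮` locally at `𝔫`, from the LOCAL contact input `c t ∈ 𝔫 ^ 2 + 𝔮`, `c ∉ 𝔫`. -/
theorem h8_sup_of_contact [IsNoetherianRing B] (𝔫 : Ideal B) [𝔫.IsPrime]
    (𝔭 𝔮 : Ideal B)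
    (t : B) (ht : ∀ z ∈ 𝔫, ∃ s ∉ 𝔫, ∃ w : B, s * z - t * w ∈ 𝔭)
    (htq : ∃ c ∉ 𝔫, c * t ∈ 𝔫 ^ 2 ⊔ 𝔮)
    (z : B) (hz : z ∈ 𝔫) : ∃ u ∉ 𝔫, ∃ a ∈ 𝔭, ∃ b ∈ 𝔮, u * z = a + b := by
  classical
  let R := Localization.AtPrime 𝔫
  have : IsNoetherianRing R := IsLocalization.isNoetherianRing 𝔫.primeCompl R inferInstance
  have hmax : ∀ b : B, b ∈ 𝔫 → algebraMap B R b ∈ maximalIdeal R := fun b hb =>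
    (IsLocalization.AtPrime.to_map_mem_maximal_iff R 𝔫 b).mpr hb
  have hunit : ∀ c : B, c ∉ 𝔫 → IsUnit (algebraMap B R c) := fun c hc =>
    (IsLocalization.AtPrime.isUnit_to_map_iff R 𝔫 c).mpr hc
  have h1 : maximalIdeal R ≤ Ideal.span {algebraMap B R t} ⊔ Ideal.map (algebraMap B R) 𝔭 := by
    intro r hr
    obtain ⟨b, s0, rfl⟩ := IsLocalization.exists_mk'_eq 𝔫.primeCompl r
    have hb : b ∈ 𝔫 := (IsLocalization.AtPrime.mk'_mem_maximal_iff R 𝔫 b s0).mp hr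
    obtain ⟨s, hs, w, hw⟩ := ht b hb
    rw [← Ideal.unit_mul_mem_iff_mem _ (IsLocalization.map_units R s0),
      IsLocalization.mk'_spec', ← Ideal.unit_mul_mem_iff_mem _ (hunit s hs)]
    have : algebraMap B R s * algebraMap B R b
        = algebraMap B R t * algebraMap B R w + algebraMap B R (s * b - t * w) := by
      simp only [map_sub, map_mul]; ring
    rw [this]
    exact Ideal.add_mem _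
      (Ideal.mem_sup_left (Ideal.mul_mem_right _ _ (Ideal.mem_span_singleton_self _)))
      (Ideal.mem_sup_right (Ideal.mem_map_of_mem _ hw))
  have h2 : algebraMap B R t ∈ maximalIdeal R ^ 2 ⊔ Ideal.map (algebraMap B R) 𝔮 := by
    obtain ⟨c, hc, hct⟩ := htq
    rw [← Ideal.unit_mul_mem_iff_mem _ (hunit c hc), ← map_mul]
    have h3 : Ideal.map (algebraMap B R) (𝔫 ^ 2 ⊔ 𝔮)
        ≤ maximalIdeal R ^ 2 ⊔ Ideal.map (algebraMap B R) 𝔮 := by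
      rw [Ideal.map_sup, Ideal.map_pow, IsLocalization.AtPrime.map_eq_maximalIdeal]
    exact h3 (Ideal.mem_map_of_mem _ hct)
  have h5 := h8_max_le_sup (Ideal.map (algebraMap B R) 𝔭) (Ideal.map (algebraMap B R) 𝔮)
    (algebraMap B R t) h1 h2 (hmax z hz)
  rw [← Ideal.map_sup, IsLocalization.algebraMap_mem_map_algebraMap_iff 𝔫.primeCompl] at h5
  obtain ⟨u, hu, hmem⟩ := h5
  obtain ⟨a, ha, b, hb, hab⟩ := Submodule.mem_sup.mp hmem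
  exact ⟨u, hu, a, ha, b, hb, hab.symm⟩

/-- **Node shape from the local contact input on the `𝔭`-side.** -/
theorem h8_goursat_contact [IsNoetherianRing B] (𝔫 : Ideal B) [𝔫.IsPrime]
    (π : B) (𝔭 𝔮 : Ideal B) [𝔭.IsPrime] [𝔮.IsPrime]
    (hpq : 𝔭 ⊓ 𝔮 ≤ Ideal.span {π})
    (hpn : 𝔭 ≤ 𝔫) (hqn : 𝔮 ≤ 𝔫) (hnp : ¬ 𝔮 ≤ 𝔭) (hnq : ¬ 𝔭 ≤ 𝔮)
    (t : B) (ht𝔫 : t ∈ 𝔫) (ht : ∀ z ∈ 𝔫, ∃ s ∉ 𝔫, ∃ w : B, s * z - t * w ∈ 𝔭)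
    (htq : ∃ c ∉ 𝔫, c * t ∈ 𝔫 ^ 2 ⊔ 𝔮)
    (s : B) (hs𝔫 : s ∈ 𝔫) (hs : ∀ z ∈ 𝔫, ∃ s' ∉ 𝔫, ∃ w : B, s' * z - s * w ∈ 𝔮) :
    ∃ x ∈ 𝔮, ∃ y ∈ 𝔭, x ∉ 𝔭 ∧ y ∉ 𝔮 ∧ π ∣ x * y ∧
      (∀ z ∈ 𝔫, ∃ c ∉ 𝔫, ∃ a b e : B, c * z = a * x + b * y + e * π) ∧
      (∀ z ∈ 𝔭, ∃ c ∉ 𝔫, ∃ b e : B, c * z = b * y + e * π) ∧
      (∀ z ∈ 𝔮, ∃ c ∉ 𝔫, ∃ a e : B, c * z = a * x + e * π) :=
  h8_goursat_of_sup 𝔫 π 𝔭 𝔮 hpq hpn hqn hnp hnq t ht𝔫 ht s hs𝔫 hs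
    (h8_sup_of_contact 𝔫 𝔭 𝔮 t ht htq)

/-- **Node shape from the local contact input on the `𝔮`-side**: `s` a local parameter modulo
`𝔮` with `c s ∈ 𝔫 ^ 2 + 𝔭`. -/
theorem h8_goursat_contact_symm [IsNoetherianRing B] (𝔫 : Ideal B) [𝔫.IsPrime]
    (π : B) (𝔭 𝔮 : Ideal B) [𝔭.IsPrime] [𝔮.IsPrime]
    (hpq : 𝔭 ⊓ 𝔮 ≤ Ideal.span {π})
    (hpn : 𝔭 ≤ 𝔫) (hqn : 𝔮 ≤ 𝔫) (hnp : ¬ 𝔮 ≤ 𝔭) (hnq : ¬ 𝔭 ≤ 𝔮)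
    (t : B) (ht𝔫 : t ∈ 𝔫) (ht : ∀ z ∈ 𝔫, ∃ s ∉ 𝔫, ∃ w : B, s * z - t * w ∈ 𝔭)
    (s : B) (hs𝔫 : s ∈ 𝔫) (hs : ∀ z ∈ 𝔫, ∃ s' ∉ 𝔫, ∃ w : B, s' * z - s * w ∈ 𝔮)
    (hsp : ∃ c ∉ 𝔫, c * s ∈ 𝔫 ^ 2 ⊔ 𝔭) :
    ∃ x ∈ 𝔮, ∃ y ∈ 𝔭, x ∉ 𝔭 ∧ y ∉ 𝔮 ∧ π ∣ x * y ∧
      (∀ z ∈ 𝔫, ∃ c ∉ 𝔫, ∃ a b e : B, c * z = a * x + b * y + e * π) ∧
      (∀ z ∈ 𝔭, ∃ c ∉ 𝔫, ∃ b e : B, c * z = b * y + e * π) ∧
      (∀ z ∈ 𝔮, ∃ c ∉ 𝔫, ∃ a e : B, c * z = a * x + e * π) := by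
  have hsup : ∀ z ∈ 𝔫, ∃ u ∉ 𝔫, ∃ a ∈ 𝔭, ∃ b ∈ 𝔮, u * z = a + b := by
    intro z hz
    obtain ⟨u, hu, a, ha, b, hb, hab⟩ := h8_sup_of_contact 𝔫 𝔮 𝔭 s hs hsp z hz
    exact ⟨u, hu, b, hb, a, ha, by rw [hab, add_comm]⟩
  exact h8_goursat_of_sup 𝔫 π 𝔭 𝔮 hpq hpn hqn hnp hnq t ht𝔫 ht s hs𝔫 hs hsup

end Elem

end Fermat.Agent.S34x.Comp.H8
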